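import Mathlib.RingTheory.Valuation.LocalSubring
import Mathlib.RingTheory.Invariant.Profinite
import Mathlib.FieldTheory.IsAlgClosed.AlgebraicClosure
import Mathlib.FieldTheory.Galois.Infinite
import Mathlib.FieldTheory.Galois.Profinite
import Mathlib.RingTheory.Localization.Integral
import Mathlib.NumberTheory.NumberField.Basic
import Fermat.Prelude.Def_EllipticCurve_FrobeniusTrace

set_option autoImplicit false
set_option linter.style.haveILetI false

namespace Fermat.Agent.H05

open Polynomial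

/-- The algebraic closure of `ℚ`, with the algebra structure found by instance search, is an
algebraic closure. -/
instance instIsAlgClosureRat : IsAlgClosure ℚ (AlgebraicClosure ℚ) := by
  have h : (DivisionRing.toRatAlgebra : Algebra ℚ (AlgebraicClosure ℚ)) =
      AlgebraicClosure.instAlgebra ℚ := Subsingleton.elim _ _
  rw [h]
  exact inferInstance

/-- Seidenberg's `(u, u⁻¹)`-lemma: an element of a field satisfying a polynomial relation with a
unit coefficient over an integrally closed local subring lies in the ring, or its inverse does. -/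
theorem mem_or_inv_mem_of_isUnit_coeff {R K : Type*} [CommRing R] [IsLocalRing R] [Field K]
    [Algebra R K] (hint : ∀ x : K, IsIntegral R x → ∃ r : R, algebraMap R K r = x) (x : K) :
    ∀ (n : ℕ) (c : ℕ → R), (∑ i ∈ Finset.range (n + 1), algebraMap R K (c i) * x ^ i = 0) →
      (∃ i ≤ n, IsUnit (c i)) →
      (∃ r : R, algebraMap R K r = x) ∨ (∃ r : R, algebraMap R K r = x⁻¹) := by
  intro n
  induction n with
  | zero =>
    intro c h0 ⟨i, hi, hu⟩
    obtain rfl : i = 0 := by omega
    rw [zero_add, Finset.sum_range_one, pow_zero, mul_one] at h0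
    exact absurd h0 (hu.map (algebraMap R K)).ne_zero
  | succ n ih =>
    intro c h0 ⟨j, hj, hu⟩
    -- the element `c (n+1) * x` is integral
    have hb : ∃ b : R, algebraMap R K b = algebraMap R K (c (n + 1)) * x := by
      apply hint
      by_cases hc : c (n + 1) = 0
      · rw [hc, map_zero, zero_mul]; exact isIntegral_zero
      let p : R[X] := ∑ i ∈ Finset.range (n + 2), C (c i) * X ^ i
      have hcoeff : ∀ k, p.coeff k = if k ∈ Finset.range (n + 2) then c k else 0 := by
        intro k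
        simp only [p, finsetSum_coeff, coeff_C_mul, coeff_X_pow, mul_ite, mul_one, mul_zero]
        rw [Finset.sum_ite_eq]
      have hnat : p.natDegree = n + 1 := by
        apply le_antisymm
        · rw [natDegree_le_iff_coeff_eq_zero]
          intro N hN
          rw [hcoeff, if_neg]
          simp only [Finset.mem_range]
          omega
        · apply le_natDegree_of_ne_zero
          rw [hcoeff, if_pos (by simp)]
          exact hc
      have hlead : p.leadingCoeff = c (n + 1) := by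
        rw [leadingCoeff, hnat, hcoeff, if_pos (by simp)]
      have haeval : aeval x p = 0 := by
        rw [← h0]
        simp only [p, map_sum, map_mul, aeval_C, map_pow, aeval_X]
      have := isIntegral_leadingCoeff_smul p x haeval
      rwa [hlead, Algebra.smul_def] at this
    obtain ⟨b, hb⟩ := hb
    -- lower the degree
    let c' : ℕ → R := fun i => if i = n then c n + b else c i
    have hsum : ∑ i ∈ Finset.range (n + 1), algebraMap R K (c' i) * x ^ i = 0 := by
      rw [← h0, Finset.sum_range_succ, Finset.sum_range_succ, Finset.sum_range_succ]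
      have h1 : ∀ i ∈ Finset.range n, algebraMap R K (c' i) * x ^ i =
          algebraMap R K (c i) * x ^ i := by
        intro i hi
        rw [Finset.mem_range] at hi
        simp only [c', if_neg (by omega : i ≠ n)]
      rw [Finset.sum_congr rfl h1]
      simp only [c', if_true, map_add, hb]
      ring
    by_cases hex : ∃ i ≤ n, IsUnit (c' i)
    · exact ih c' hsum hex
    push Not at hex
    by_cases hj' : j = n + 1
    · subst hj'
      left
      obtain ⟨u, hu⟩ := hu
      refine ⟨(u⁻¹ : Rˣ) * b, ?_⟩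
      rw [map_mul, hb, ← hu, ← mul_assoc, ← map_mul, Units.inv_mul, map_one, one_mul]
    · have hjn : j = n := by
        by_contra hne
        apply hex j (by omega)
        simp only [c', if_neg hne]
        exact hu
      subst hjn
      have h2 : ¬ IsUnit (c j + b) := by
        have := hex j le_rfl
        simpa only [c', if_true] using this
      have h3 : IsUnit b := by
        by_contra hbn
        have := IsLocalRing.nonunits_add (a := c j + b) (b := -b) h2
          (by rw [mem_nonunits_iff, IsUnit.neg_iff]; exact hbn)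
        rw [add_neg_cancel_right] at this
        exact this hu
      right
      obtain ⟨u, rfl⟩ := h3
      refine ⟨(u⁻¹ : Rˣ) * c (j + 1), ?_⟩
      have hxne : x ≠ 0 := by
        rintro rfl
        rw [mul_zero] at hb
        exact (u.isUnit.map (algebraMap R K)).ne_zero hb
      rw [map_mul]
      have h4 : algebraMap R K (u⁻¹ : Rˣ) * algebraMap R K u = 1 := by
        rw [← map_mul, Units.inv_mul, map_one]
      exact eq_inv_of_mul_eq_one_left (by rw [mul_assoc, ← hb, h4])


section Center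

variable {L : Type*} [Field L]

theorem mem_of_isIntegral (A : ValuationSubring L) {x : L} (hx : IsIntegral ℤ x) : x ∈ A := by
  have h1 : IsIntegral A x := hx.tower_top
  obtain ⟨y, hy⟩ := IsIntegrallyClosed.isIntegral_iff.mp h1
  rw [← hy]
  exact y.2

/-- The ring homomorphism from the ring of all algebraic integers to a valuation subring. -/
def toA (A : ValuationSubring L) : integralClosure ℤ L →+* A where
  toFun z := ⟨z, mem_of_isIntegral A z.2⟩
  map_one' := rfl
  map_mul' _ _ := rfl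
  map_zero' := rfl
  map_add' _ _ := rfl

/-- The center of a valuation subring on the ring of all algebraic integers. -/
def center (A : ValuationSubring L) : Ideal (integralClosure ℤ L) :=
  (IsLocalRing.maximalIdeal A).comap (toA A)

instance (A : ValuationSubring L) : (center A).IsPrime :=
  Ideal.IsPrime.comap _

theorem mem_center_iff (A : ValuationSubring L) (z : integralClosure ℤ L) :
    z ∈ center A ↔ (z : L) ∈ A.nonunits := by
  rw [center, Ideal.mem_comap, ← ValuationSubring.coe_mem_nonunits_iff]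
  rfl

theorem not_mem_nonunits_iff (A : ValuationSubring L) {x : L} (hx : x ∈ A) :
    x ∉ A.nonunits ↔ x⁻¹ ∈ A ∧ x ≠ 0 := by
  constructor
  · intro h
    have hx0 : x ≠ 0 := by
      rintro rfl
      exact h (by
        have := A.nonunits.zero_mem
        exact this)
    exact ⟨by
      rw [ValuationSubring.mem_nonunits_iff] at h
      rw [← A.valuation_le_one_iff, map_inv₀]
      exact inv_le_one_of_one_le₀ (not_lt.mp h), hx0⟩
  · rintro ⟨h1, h2⟩ h
    rw [ValuationSubring.mem_nonunits_iff] at h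
    rw [← A.valuation_le_one_iff, map_inv₀] at h1
    have h3 : 0 < A.valuation x := by
      rw [zero_lt_iff, ne_eq, map_eq_zero]
      exact h2
    exact absurd h1 (not_le.mpr ((one_lt_inv₀ h3).mpr h))

theorem natCast_not_mem_nonunits {A : ValuationSubring L} {ℓ : ℕ} (hℓ : ℓ.Prime)
    (hA : A.LiesOverPrime ℓ) {c : ℤ} (hc : ¬ (ℓ : ℤ) ∣ c) : (c : L) ∉ A.nonunits := by
  intro h
  have hcop : IsCoprime (ℓ : ℤ) c := (Nat.prime_iff_prime_int.mp hℓ).coprime_iff_not_dvd.mpr hc
  obtain ⟨u, v, huv⟩ := hcop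
  have h1 : (ℓ : L) ∈ A.nonunits := hA
  have hu : (u : L) ∈ A := intCast_mem A u
  have hv : (v : L) ∈ A := intCast_mem A v
  have e1 : (⟨(ℓ : L), A.nonunits_le h1⟩ : A) ∈ IsLocalRing.maximalIdeal A := by
    rw [← ValuationSubring.coe_mem_nonunits_iff]; exact h1
  have e2 : (⟨(c : L), A.nonunits_le h⟩ : A) ∈ IsLocalRing.maximalIdeal A := by
    rw [← ValuationSubring.coe_mem_nonunits_iff]; exact h
  have e3 : (1 : A) ∈ IsLocalRing.maximalIdeal A := by
    have := add_mem (Ideal.mul_mem_left _ (⟨u, hu⟩ : A) e1) (Ideal.mul_mem_left _ (⟨v, hv⟩ : A) e2)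
    convert this using 1
    apply Subtype.ext
    have := congrArg (fun z : ℤ => (z : L)) huv
    push_cast at this
    exact this.symm
  exact (Ideal.ne_top_iff_one _).mp (IsLocalRing.maximalIdeal.isMaximal A).ne_top e3

theorem exists_coeff_not_dvd [CharZero L] [Algebra.IsAlgebraic ℚ L] (x : L) {ℓ : ℕ}
    (hℓ : ℓ.Prime) : ∃ f : ℤ[X], aeval x f = 0 ∧ ∃ i, ¬ (ℓ : ℤ) ∣ f.coeff i := by
  have halg : IsAlgebraic ℤ x :=
    (IsFractionRing.isAlgebraic_iff ℤ ℚ L).mpr (Algebra.IsAlgebraic.isAlgebraic x)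
  obtain ⟨f, hf0, hf⟩ := halg
  refine ⟨f.primPart, ?_, ?_⟩
  · have h1 := f.eq_C_content_mul_primPart
    rw [h1, map_mul, aeval_C] at hf
    rcases mul_eq_zero.mp hf with h | h
    · exfalso
      rw [algebraMap_int_eq, eq_intCast, Int.cast_eq_zero, content_eq_zero_iff] at h
      exact hf0 h
    · exact h
  · by_contra hcon
    push Not at hcon
    have h2 : C (ℓ : ℤ) ∣ f.primPart := C_dvd_iff_dvd_coeff _ _ |>.mpr hcon
    have h3 := f.isPrimitive_primPart (ℓ : ℤ) h2
    rw [Int.isUnit_iff] at h3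
    have := hℓ.two_le
    omega

theorem isFractionRing_integralClosure [CharZero L] [Algebra.IsAlgebraic ℚ L] :
    IsFractionRing (integralClosure ℤ L) L := by
  haveI : Algebra.IsAlgebraic ℤ L := ⟨fun x =>
    (IsFractionRing.isAlgebraic_iff ℤ ℚ L).mpr (Algebra.IsAlgebraic.isAlgebraic x)⟩
  exact integralClosure.isFractionRing_of_algebraic (A := ℤ) (L := L) (fun x hx => by
    rwa [algebraMap_int_eq, eq_intCast, Int.cast_eq_zero] at hx)

theorem isIntegrallyClosed_integralClosure [CharZero L] [Algebra.IsAlgebraic ℚ L] :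
    IsIntegrallyClosed (integralClosure ℤ L) := by
  haveI := isFractionRing_integralClosure (L := L)
  rw [isIntegrallyClosed_iff L]
  intro x hx
  exact ⟨⟨x, isIntegral_trans (R := ℤ) (A := integralClosure ℤ L) x hx⟩, rfl⟩

theorem one_not_mem_center (A : ValuationSubring L) : (1 : integralClosure ℤ L) ∉ center A :=
  (Ideal.ne_top_iff_one _).mp (Ideal.IsPrime.ne_top inferInstance)

theorem exists_mul_eq_of_mem [CharZero L] [Algebra.IsAlgebraic ℚ L] {A : ValuationSubring L}
    {ℓ : ℕ} (hℓ : ℓ.Prime) (hA : A.LiesOverPrime ℓ) {x : L} (hx : x ∈ A) :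
    ∃ a b : integralClosure ℤ L, b ∉ center A ∧ x * b = a := by
  classical
  let P := center A
  let R := Localization.AtPrime P
  have hunit : ∀ y : P.primeCompl, IsUnit (algebraMap (integralClosure ℤ L) L y) := by
    intro y
    rw [isUnit_iff_ne_zero]
    intro h0
    apply y.2
    rw [SetLike.mem_coe, mem_center_iff]
    have h1 : ((y : integralClosure ℤ L) : L) = 0 := h0
    rw [h1]
    exact A.nonunits.zero_mem
  letI : Algebra R L := (IsLocalization.lift (M := P.primeCompl) (S := R) hunit).toAlgebra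
  have hRL : ∀ z, algebraMap R L z = IsLocalization.lift (M := P.primeCompl) (S := R) hunit z :=
    fun z => rfl
  haveI : IsScalarTower (integralClosure ℤ L) R L := by
    apply IsScalarTower.of_algebraMap_eq
    intro z
    rw [hRL, IsLocalization.lift_eq]
  haveI := isFractionRing_integralClosure (L := L)
  haveI : IsFractionRing R L :=
    IsFractionRing.isFractionRing_of_isDomain_of_isLocalization P.primeCompl R L
  haveI := isIntegrallyClosed_integralClosure (L := L)
  haveI : IsIntegrallyClosed R :=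
    isIntegrallyClosed_of_isLocalization (R := integralClosure ℤ L) R P.primeCompl
      P.primeCompl_le_nonZeroDivisors
  have hmk : ∀ r : R, ∃ a b : integralClosure ℤ L, b ∉ center A ∧ algebraMap R L r * b = a := by
    intro r
    obtain ⟨a, s, rfl⟩ := IsLocalization.exists_mk'_eq P.primeCompl r
    refine ⟨a, s, s.2, ?_⟩
    have h1 := IsLocalization.mk'_spec R a s
    have h2 := congrArg (algebraMap R L) h1
    rw [map_mul, ← IsScalarTower.algebraMap_apply, ← IsScalarTower.algebraMap_apply] at h2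
    exact h2
  obtain ⟨f, hf, j, hj⟩ := exists_coeff_not_dvd x hℓ
  have hsum : ∑ i ∈ Finset.range (f.natDegree + 1), algebraMap R L ((f.coeff i : ℤ) : R) * x ^ i
      = 0 := by
    rw [← hf, aeval_eq_sum_range]
    refine Finset.sum_congr rfl fun i _ => ?_
    rw [map_intCast, zsmul_eq_mul]
  have hjle : j ≤ f.natDegree := by
    apply le_natDegree_of_ne_zero
    intro h0
    apply hj
    rw [h0]
    exact dvd_zero _
  have hju : IsUnit ((f.coeff j : ℤ) : R) := by
    have h1 : ((f.coeff j : ℤ) : integralClosure ℤ L) ∈ P.primeCompl := by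
      intro h
      rw [SetLike.mem_coe, mem_center_iff] at h
      refine natCast_not_mem_nonunits hℓ hA hj ?_
      convert h using 1
      push_cast
      rfl
    have h2 := IsLocalization.map_units R (⟨_, h1⟩ : P.primeCompl)
    have h3 : ((f.coeff j : ℤ) : R) = algebraMap (integralClosure ℤ L) R
        ((f.coeff j : ℤ) : integralClosure ℤ L) := (map_intCast _ _).symm
    rw [h3]
    exact h2
  rcases mem_or_inv_mem_of_isUnit_coeff (R := R)
    (fun y hy => IsIntegrallyClosed.isIntegral_iff.mp hy) x f.natDegree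
      (fun i => ((f.coeff i : ℤ) : R)) hsum ⟨j, hjle, hju⟩ with ⟨r, hr⟩ | ⟨r, hr⟩
  · obtain ⟨a, b, hb, hab⟩ := hmk r
    exact ⟨a, b, hb, by rw [← hr, hab]⟩
  · obtain ⟨a, b, hb, hab⟩ := hmk r
    rw [hr] at hab
    by_cases hx0 : x = 0
    · refine ⟨0, 1, ?_, by simp [hx0]⟩
      exact one_not_mem_center A
    by_cases ha : a ∈ center A
    · exfalso
      apply hb
      have hbL : (b : L) = x * a := by
        rw [← hab, ← mul_assoc, mul_inv_cancel₀ hx0, one_mul]
      rw [center, Ideal.mem_comap]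
      have : toA A b = ⟨x, hx⟩ * toA A a := Subtype.ext hbL
      rw [this]
      exact Ideal.mul_mem_left _ _ ha
    · exact ⟨b, a, ha, by rw [← hab, ← mul_assoc, mul_inv_cancel₀ hx0, one_mul]⟩

theorem eq_of_center_eq [CharZero L] [Algebra.IsAlgebraic ℚ L] {A B : ValuationSubring L}
    {ℓ : ℕ} (hℓ : ℓ.Prime) (hA : A.LiesOverPrime ℓ) (hAB : center A = center B) : A = B := by
  have key : ∀ {A B : ValuationSubring L}, A.LiesOverPrime ℓ → center A = center B → A ≤ B := by
    intro A B hA hAB x hx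
    obtain ⟨a, b, hb, hab⟩ := exists_mul_eq_of_mem hℓ hA hx
    rw [hAB, mem_center_iff, not_mem_nonunits_iff B (mem_of_isIntegral B b.2)] at hb
    have : x = a * (b : L)⁻¹ := by
      rw [← hab, mul_assoc, mul_inv_cancel₀ hb.2, mul_one]
    rw [this]
    exact mul_mem (mem_of_isIntegral B a.2) hb.1
  have hB : B.LiesOverPrime ℓ := by
    have h1 : ((ℓ : integralClosure ℤ L)) ∈ center A := by
      rw [mem_center_iff]
      have : ((ℓ : integralClosure ℤ L) : L) = (ℓ : L) := by push_cast; rfl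
      rw [this]
      exact hA
    rw [hAB, mem_center_iff] at h1
    have : ((ℓ : integralClosure ℤ L) : L) = (ℓ : L) := by push_cast; rfl
    rw [this] at h1
    exact h1
  exact le_antisymm (key hA hAB) (key hB hAB.symm)

theorem natCast_mem_center {A : ValuationSubring L} {ℓ : ℕ} (hA : A.LiesOverPrime ℓ) :
    (ℓ : integralClosure ℤ L) ∈ center A := by
  rw [mem_center_iff]
  exact hA

theorem natCast_mem_center_iff {A : ValuationSubring L} {ℓ : ℕ} :
    (ℓ : integralClosure ℤ L) ∈ center A ↔ A.LiesOverPrime ℓ := by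
  rw [mem_center_iff]
  rfl

theorem center_under [CharZero L] {A : ValuationSubring L} {ℓ : ℕ} (hℓ : ℓ.Prime)
    (hA : A.LiesOverPrime ℓ) : (center A).under ℤ = Ideal.span {(ℓ : ℤ)} := by
  ext c
  rw [Ideal.mem_span_singleton]
  constructor
  · intro hc
    by_contra hcon
    apply natCast_not_mem_nonunits hℓ hA hcon
    have := (mem_center_iff A _).mp (Ideal.mem_comap.mp hc)
    simpa using this
  · rintro ⟨d, rfl⟩
    rw [Ideal.mem_comap, map_mul]
    apply Ideal.mul_mem_right
    simpa using natCast_mem_center hA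

theorem center_isMaximal [CharZero L] {A : ValuationSubring L} {ℓ : ℕ} (hℓ : ℓ.Prime)
    (hA : A.LiesOverPrime ℓ) : (center A).IsMaximal := by
  haveI : ((center A).under ℤ).IsMaximal := by
    rw [center_under hℓ hA]
    exact PrincipalIdealRing.isMaximal_of_irreducible (Nat.prime_iff_prime_int.mp hℓ).irreducible
  exact Ideal.isMaximal_of_isIntegral_of_isMaximal_comap (R := ℤ) (center A) this

/-- The residue field of a place above `ℓ` is a quotient of the ring of algebraic integers. -/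
theorem residue_toA_surjective [CharZero L] [Algebra.IsAlgebraic ℚ L] {A : ValuationSubring L}
    {ℓ : ℕ} (hℓ : ℓ.Prime) (hA : A.LiesOverPrime ℓ) :
    Function.Surjective ((IsLocalRing.residue A).comp (toA A)) := by
  intro y
  obtain ⟨⟨x, hx⟩, rfl⟩ := IsLocalRing.residue_surjective y
  obtain ⟨a, b, hb, hab⟩ := exists_mul_eq_of_mem hℓ hA hx
  haveI := center_isMaximal hℓ hA
  obtain ⟨c, hc⟩ := (Ideal.Quotient.maximal_ideal_iff_isField_quotient (center A)).mp this
    |>.mul_inv_cancel (a := Ideal.Quotient.mk _ b)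
      (by rwa [ne_eq, Ideal.Quotient.eq_zero_iff_mem])
  obtain ⟨c, rfl⟩ := Ideal.Quotient.mk_surjective c
  rw [← map_mul, ← map_one (Ideal.Quotient.mk (center A)), Ideal.Quotient.eq] at hc
  refine ⟨a * c, ?_⟩
  have h1 : toA A a = ⟨x, hx⟩ * toA A b := Subtype.ext hab.symm
  have h2 : IsLocalRing.residue A (toA A (b * c)) = 1 := by
    rw [← sub_eq_zero, ← map_one (IsLocalRing.residue A), ← map_sub,
      IsLocalRing.residue_eq_zero_iff, ← map_one (toA A), ← map_sub]
    exact hc
  rw [RingHom.comp_apply, map_mul, h1, mul_assoc, ← map_mul, map_mul, h2, mul_one]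

end Center

section Existence

variable {L : Type*} [Field L] [CharZero L]

/-- Every field of characteristic zero has a place above any prime. -/
theorem exists_liesOverPrime (L : Type*) [Field L] [CharZero L] {ℓ : ℕ} (hℓ : ℓ.Prime) :
    ∃ A : ValuationSubring L, A.LiesOverPrime ℓ := by
  have hmem : (ℓ : L) ∈ (algebraMap ℤ L).range := ⟨ℓ, by simp⟩
  have hne : Ideal.span {(⟨(ℓ : L), hmem⟩ : (algebraMap ℤ L).range)} ≠ ⊤ := by
    rw [Ideal.ne_top_iff_one, Ideal.mem_span_singleton]
    rintro ⟨⟨c, ⟨d, hd⟩⟩, hc⟩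
    have h1 := congrArg Subtype.val hc
    have h2 : (1 : L) = (ℓ : L) * c := h1
    rw [← hd, algebraMap_int_eq, eq_intCast] at h2
    have h3 : (1 : ℤ) = ℓ * d := by exact_mod_cast h2
    have h4 : (ℓ : ℤ) ∣ 1 := ⟨d, h3⟩
    have h5 : ℓ ∣ 1 := by exact_mod_cast h4
    exact hℓ.one_lt.ne' (Nat.dvd_one.mp h5)
  obtain ⟨B, -, hB⟩ := Ideal.image_subset_nonunits_valuationSubring _ hne
  exact ⟨B, hB ⟨_, Ideal.subset_span rfl, rfl⟩⟩

end Existence

section Frobenius

open scoped Pointwise

variable {L : Type*} [Field L] [CharZero L]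

theorem mem_center_smul_iff (σ : L ≃ₐ[ℚ] L) (A : ValuationSubring L) (z : integralClosure ℤ L) :
    z ∈ center (σ • A) ↔ σ⁻¹ • z ∈ center A := by
  rw [mem_center_iff, mem_center_iff, ValuationSubring.mem_nonunits_iff_or,
    ValuationSubring.mem_nonunits_iff_or, ValuationSubring.mem_pointwise_smul_iff_inv_smul_mem,
    integralClosure.coe_smul, smul_inv'']
  simp only [smul_eq_zero_iff_eq]

theorem center_smul (σ : L ≃ₐ[ℚ] L) (A : ValuationSubring L) :
    center (σ • A) = σ • center A := by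
  ext z
  rw [mem_center_smul_iff, Ideal.mem_pointwise_smul_iff_inv_smul_mem]

theorem liesOverPrime_smul_iff (σ : L ≃ₐ[ℚ] L) (A : ValuationSubring L) (ℓ : ℕ) :
    (σ • A).LiesOverPrime ℓ ↔ A.LiesOverPrime ℓ := by
  rw [← natCast_mem_center_iff, ← natCast_mem_center_iff, mem_center_smul_iff]
  have : σ⁻¹ • (ℓ : integralClosure ℤ L) = (ℓ : integralClosure ℤ L) :=
    map_natCast (MulSemiringAction.toRingHom (L ≃ₐ[ℚ] L) (integralClosure ℤ L) σ⁻¹) ℓ
  rw [this]

theorem isInvariant_integralClosure (L : Type*) [Field L] [CharZero L] [IsGalois ℚ L] :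
    Algebra.IsInvariant ℤ (integralClosure ℤ L) (L ≃ₐ[ℚ] L) := by
  constructor
  intro b hb
  have h1 : ∀ σ : L ≃ₐ[ℚ] L, σ (b : L) = b := fun σ => congrArg Subtype.val (hb σ)
  obtain ⟨q, hq⟩ := (InfiniteGalois.mem_bot_iff_fixed (k := ℚ) (K := L) (b : L)).mpr h1
  have h2 : IsIntegral ℤ q := by
    rw [← isIntegral_algebraMap_iff (algebraMap ℚ L).injective]
    rw [show algebraMap ℚ L q = b from hq]
    exact b.2
  obtain ⟨n, hn⟩ := IsIntegrallyClosed.isIntegral_iff.mp h2
  refine ⟨n, Subtype.ext ?_⟩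
  rw [← hq, ← hn]
  simp

theorem exists_isFrobeniusAt [IsGalois ℚ L] {A : ValuationSubring L} {ℓ : ℕ} (hℓ : ℓ.Prime)
    (hA : A.LiesOverPrime ℓ) : ∃ σ : L ≃ₐ[ℚ] L, A.IsFrobeniusAt σ ℓ := by
  classical
  haveI : Fact ℓ.Prime := ⟨hℓ⟩
  haveI := isInvariant_integralClosure L
  let B := integralClosure ℤ L
  letI : TopologicalSpace B := ⊥
  haveI : DiscreteTopology B := ⟨rfl⟩
  haveI : ContinuousSMul (L ≃ₐ[ℚ] L) B := by
    rw [continuousSMul_iff_stabilizer_isOpen]
    intro x
    have h1 := stabilizer_isOpen_of_isIntegral (K := ℚ) (L := L) (x : L)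
    convert h1 using 1
    ext σ
    simp only [SetLike.mem_coe, MulAction.mem_stabilizer_iff, Subtype.ext_iff]
    rfl
  let P : Ideal ℤ := Ideal.span {(ℓ : ℤ)}
  let Q : Ideal B := center A
  haveI : Q.LiesOver P := ⟨(center_under hℓ hA).symm⟩
  haveI hQ : Q.IsMaximal := center_isMaximal hℓ hA
  haveI hP : P.IsMaximal := by
    have := PrincipalIdealRing.isMaximal_of_irreducible (Nat.prime_iff_prime_int.mp hℓ).irreducible
    exact this
  letI : Field (B ⧸ Q) := Ideal.Quotient.field Q
  letI : Field (ℤ ⧸ P) := Ideal.Quotient.field P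
  haveI : CharP (B ⧸ Q) ℓ := by
    have h0 : ((ℓ : ℕ) : B ⧸ Q) = 0 := by
      have h := natCast_mem_center hA
      rw [← Ideal.Quotient.eq_zero_iff_mem, map_natCast] at h
      exact h
    exact (CharP.charP_iff_prime_eq_zero hℓ).mpr h0
  haveI : CharP (ℤ ⧸ P) ℓ := by
    have h0 : ((ℓ : ℕ) : ℤ ⧸ P) = 0 := by
      have h : (ℓ : ℤ) ∈ P := Ideal.mem_span_singleton_self _
      rw [← Ideal.Quotient.eq_zero_iff_mem] at h
      simpa using h
    exact (CharP.charP_iff_prime_eq_zero hℓ).mpr h0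
  haveI : Finite (ℤ ⧸ P) := by
    have e := Int.quotientSpanNatEquivZMod ℓ
    exact Finite.of_equiv _ e.symm.toEquiv
  haveI : Algebra.IsIntegral (ℤ ⧸ P) (B ⧸ Q) := inferInstance
  haveI : Algebra.IsAlgebraic (ℤ ⧸ P) (B ⧸ Q) := Algebra.IsIntegral.isAlgebraic
  haveI : PerfectField (B ⧸ Q) := Algebra.IsAlgebraic.perfectField (K := ℤ ⧸ P)
  let l : (B ⧸ Q) ≃ₐ[ℤ ⧸ P] (B ⧸ Q) :=
    { frobeniusEquiv (B ⧸ Q) ℓ with
      commutes' := by
        intro r
        have : (frobenius (B ⧸ Q) ℓ).comp (algebraMap (ℤ ⧸ P) (B ⧸ Q)) =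
            algebraMap (ℤ ⧸ P) (B ⧸ Q) := by
          apply Ideal.Quotient.ringHom_ext
          exact Subsingleton.elim _ _
        exact RingHom.congr_fun this r }
  obtain ⟨⟨σ, hσQ⟩, hσ⟩ := Ideal.Quotient.stabilizerHom_surjective_of_profinite
    (G := L ≃ₐ[ℚ] L) P Q l
  have hσA : σ • A = A := by
    apply eq_of_center_eq hℓ ((liesOverPrime_smul_iff σ A ℓ).mpr hA)
    rw [center_smul]
    exact hσQ
  refine ⟨σ, hσA, ?_⟩
  intro x
  obtain ⟨z, rfl⟩ := residue_toA_surjective hℓ hA x
  have h1 := AlgEquiv.congr_fun hσ (Ideal.Quotient.mk Q z)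
  rw [Ideal.Quotient.stabilizerHom_apply] at h1
  have h2 : Ideal.Quotient.mk Q (σ • z) = Ideal.Quotient.mk Q (z ^ ℓ) := h1
  rw [Ideal.Quotient.eq] at h2
  have h3 : IsLocalRing.residue A (toA A (σ • z)) = IsLocalRing.residue A (toA A (z ^ ℓ)) := by
    rw [← sub_eq_zero, ← map_sub, ← map_sub, IsLocalRing.residue_eq_zero_iff]
    exact h2
  rw [RingHom.comp_apply, ← map_pow, ← map_pow, ← h3]
  rfl

/-- The Galois group acts transitively on the places above a prime. -/
theorem exists_smul_eq [IsGalois ℚ L] {A A' : ValuationSubring L} {ℓ : ℕ} (hℓ : ℓ.Prime)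
    (hA : A.LiesOverPrime ℓ) (hA' : A'.LiesOverPrime ℓ) : ∃ σ : L ≃ₐ[ℚ] L, σ • A = A' := by
  classical
  haveI := isInvariant_integralClosure L
  let B := integralClosure ℤ L
  letI : TopologicalSpace B := ⊥
  haveI : DiscreteTopology B := ⟨rfl⟩
  haveI : ContinuousSMul (L ≃ₐ[ℚ] L) B := by
    rw [continuousSMul_iff_stabilizer_isOpen]
    intro x
    have h1 := stabilizer_isOpen_of_isIntegral (K := ℚ) (L := L) (x : L)
    convert h1 using 1
    ext σ
    simp only [SetLike.mem_coe, MulAction.mem_stabilizer_iff, Subtype.ext_iff]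
    rfl
  obtain ⟨σ, hσ⟩ := Algebra.IsInvariant.exists_smul_of_under_eq_of_profinite
    (A := ℤ) (B := B) (G := L ≃ₐ[ℚ] L) (center A) (center A')
    (by rw [center_under hℓ hA, center_under hℓ hA'])
  refine ⟨σ, ?_⟩
  apply eq_of_center_eq hℓ ((liesOverPrime_smul_iff σ A ℓ).mpr hA)
  rw [center_smul, hσ]

theorem mem_inertiaSubgroupIn_iff (A : ValuationSubring L) (σ : L ≃ₐ[ℚ] L) :
    σ ∈ A.inertiaSubgroupIn ℚ ↔ ∃ hσ : σ ∈ A.decompositionSubgroup ℚ,
      ∀ x : IsLocalRing.ResidueField A, (⟨σ, hσ⟩ : A.decompositionSubgroup ℚ) • x = x := by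
  rw [ValuationSubring.inertiaSubgroupIn, Subgroup.mem_map]
  constructor
  · rintro ⟨⟨τ, hτ⟩, h1, rfl⟩
    exact ⟨hτ, fun x => by
      have := RingEquiv.congr_fun (MonoidHom.mem_ker.mp h1) x
      exact this⟩
  · rintro ⟨hσ, h⟩
    refine ⟨⟨σ, hσ⟩, ?_, rfl⟩
    apply MonoidHom.mem_ker.mpr
    ext x
    exact h x

/-- Multiplying a Frobenius element by an element of inertia gives a Frobenius element. -/
theorem IsFrobeniusAt.mul_inertia {A : ValuationSubring L} {σ τ : L ≃ₐ[ℚ] L} {ℓ : ℕ}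
    (hσ : A.IsFrobeniusAt σ ℓ) (hτ : τ ∈ A.inertiaSubgroupIn ℚ) : A.IsFrobeniusAt (σ * τ) ℓ := by
  obtain ⟨h1, h2⟩ := hσ
  obtain ⟨h3, h4⟩ := (mem_inertiaSubgroupIn_iff A τ).mp hτ
  refine ⟨mul_mem h1 h3, fun x => ?_⟩
  have : (⟨σ * τ, mul_mem h1 h3⟩ : A.decompositionSubgroup ℚ) = ⟨σ, h1⟩ * ⟨τ, h3⟩ := rfl
  rw [this, mul_smul, h4, h2]

theorem IsFrobeniusAt.inertia_mul {A : ValuationSubring L} {σ τ : L ≃ₐ[ℚ] L} {ℓ : ℕ}
    (hσ : A.IsFrobeniusAt σ ℓ) (hτ : τ ∈ A.inertiaSubgroupIn ℚ) : A.IsFrobeniusAt (τ * σ) ℓ := by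
  obtain ⟨h1, h2⟩ := hσ
  obtain ⟨h3, h4⟩ := (mem_inertiaSubgroupIn_iff A τ).mp hτ
  refine ⟨mul_mem h3 h1, fun x => ?_⟩
  have : (⟨τ * σ, mul_mem h3 h1⟩ : A.decompositionSubgroup ℚ) = ⟨τ, h3⟩ * ⟨σ, h1⟩ := rfl
  rw [this, mul_smul, h4, h2]

/-- Two Frobenius elements at the same place differ by an element of inertia. -/
theorem IsFrobeniusAt.inv_mul_mem {A : ValuationSubring L} {σ τ : L ≃ₐ[ℚ] L} {ℓ : ℕ}
    (hσ : A.IsFrobeniusAt σ ℓ) (hτ : A.IsFrobeniusAt τ ℓ) :
    σ⁻¹ * τ ∈ A.inertiaSubgroupIn ℚ := by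
  obtain ⟨h1, h2⟩ := hσ
  obtain ⟨h3, h4⟩ := hτ
  rw [mem_inertiaSubgroupIn_iff]
  refine ⟨mul_mem (inv_mem h1) h3, fun x => ?_⟩
  have : (⟨σ⁻¹ * τ, mul_mem (inv_mem h1) h3⟩ : A.decompositionSubgroup ℚ) =
    (⟨σ, h1⟩ : A.decompositionSubgroup ℚ)⁻¹ * ⟨τ, h3⟩ := rfl
  rw [this, mul_smul, h4, inv_smul_eq_iff, h2]

/-- Conjugating a place conjugates its Frobenius elements. -/
theorem IsFrobeniusAt.conj {A : ValuationSubring L} {σ : L ≃ₐ[ℚ] L} {ℓ : ℕ} (hℓ : ℓ.Prime)
    (hA : A.LiesOverPrime ℓ) [Algebra.IsAlgebraic ℚ L]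
    (hσ : A.IsFrobeniusAt σ ℓ) (g : L ≃ₐ[ℚ] L) : (g • A).IsFrobeniusAt (g * σ * g⁻¹) ℓ := by
  obtain ⟨h1, h2⟩ := hσ
  have hmem : g * σ * g⁻¹ ∈ (g • A).decompositionSubgroup ℚ := by
    rw [MulAction.mem_stabilizer_iff, mul_smul, mul_smul, inv_smul_smul,
      MulAction.mem_stabilizer_iff.mp h1]
  refine ⟨hmem, ?_⟩
  intro x
  obtain ⟨z, rfl⟩ := residue_toA_surjective hℓ ((liesOverPrime_smul_iff g A ℓ).mpr hA) x
  have h3 := h2 (IsLocalRing.residue A (toA A (g⁻¹ • z)))
  have h4 : IsLocalRing.residue A (toA A (σ • g⁻¹ • z)) =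
      IsLocalRing.residue A (toA A ((g⁻¹ • z) ^ ℓ)) := by
    rw [map_pow, map_pow]
    exact h3
  rw [← sub_eq_zero, ← map_sub, ← map_sub, IsLocalRing.residue_eq_zero_iff] at h4
  have h5 : σ • g⁻¹ • z - (g⁻¹ • z) ^ ℓ ∈ center A := h4
  rw [← smul_pow', show σ • g⁻¹ • z - g⁻¹ • z ^ ℓ = g⁻¹ • ((g * σ * g⁻¹) • z - z ^ ℓ) by
    rw [smul_sub, ← mul_smul, ← mul_smul]; congr 2; group, ← mem_center_smul_iff] at h5
  have h6 : IsLocalRing.residue (g • A : ValuationSubring L) (toA (g • A) ((g * σ * g⁻¹) • z)) =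
      IsLocalRing.residue (g • A : ValuationSubring L) (toA (g • A) (z ^ ℓ)) := by
    rw [← sub_eq_zero, ← map_sub, ← map_sub, IsLocalRing.residue_eq_zero_iff]
    exact h5
  rw [RingHom.comp_apply, ← map_pow, ← map_pow, ← h6]
  rfl

/-- The residue field of a place above `ℓ` has characteristic `ℓ`. -/
theorem charP_residueField {L : Type*} [Field L] {A : ValuationSubring L} {ℓ : ℕ} (hℓ : ℓ.Prime)
    (hA : A.LiesOverPrime ℓ) : CharP (IsLocalRing.ResidueField A) ℓ := by
  rw [CharP.charP_iff_prime_eq_zero hℓ]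
  have h := natCast_mem_center hA
  rw [center, Ideal.mem_comap, ← IsLocalRing.residue_eq_zero_iff] at h
  simpa using h

end Frobenius

end Fermat.Agent.H05
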