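import Fermat.Agent.H05_Frob
import Mathlib.RingTheory.RootsOfUnity.PrimitiveRoots

set_option autoImplicit false
set_option linter.style.haveILetI false

namespace Fermat.Agent.H05

open Polynomial

section

variable {L : Type*} [Field L]

theorem mem_of_pow_eq_one (A : ValuationSubring L) {x : L} {m : ℕ} (hm0 : m ≠ 0)
    (hx : x ^ m = 1) : x ∈ A := by
  apply mem_of_isIntegral A
  apply IsIntegral.of_pow (Nat.pos_of_ne_zero hm0)
  rw [hx]
  exact isIntegral_one

/-- Two `m`-th roots of unity which are congruent modulo a place above a prime not dividing `m`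
are equal. -/
theorem rootsOfUnity_eq_of_residue_eq {A : ValuationSubring L} {ℓ m : ℕ} (hℓ : ℓ.Prime)
    (hA : A.LiesOverPrime ℓ) (hm : ¬ ℓ ∣ m) {x y : L} (hx : x ^ m = 1) (hy : y ^ m = 1)
    (hxy : x - y ∈ A.nonunits) : x = y := by
  have hm0 : m ≠ 0 := by rintro rfl; exact hm (dvd_zero _)
  have hy0 : y ≠ 0 := by rintro rfl; rw [zero_pow hm0] at hy; exact zero_ne_one hy
  by_contra hne
  have hyi : y⁻¹ ∈ A := by
    apply mem_of_pow_eq_one A hm0
    rw [inv_pow, hy, inv_one]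
  have hη : (x * y⁻¹) ^ m = 1 := by rw [mul_pow, inv_pow, hx, hy, inv_one, mul_one]
  have hηA : x * y⁻¹ ∈ A := mem_of_pow_eq_one A hm0 hη
  have hη1 : x * y⁻¹ ≠ 1 := by
    intro h
    apply hne
    rw [mul_inv_eq_one₀ hy0] at h
    exact h
  -- the geometric sum vanishes
  have hgeom : ∑ i ∈ Finset.range m, (x * y⁻¹) ^ i = 0 := by
    have := geom_sum_mul (x * y⁻¹) m
    rw [hη, sub_self] at this
    exact (mul_eq_zero.mp this).resolve_right (sub_ne_zero.mpr hη1)
  let e : A := ⟨x * y⁻¹, hηA⟩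
  have he : IsLocalRing.residue A e = 1 := by
    rw [← sub_eq_zero, ← map_one (IsLocalRing.residue A), ← map_sub,
      IsLocalRing.residue_eq_zero_iff, ← ValuationSubring.coe_mem_nonunits_iff]
    have h1 : ((e - 1 : A) : L) = (x - y) * y⁻¹ := by
      change x * y⁻¹ - 1 = _
      rw [sub_mul, mul_inv_cancel₀ hy0]
    rw [h1]
    rw [ValuationSubring.mem_nonunits_iff] at hxy ⊢
    rw [map_mul]
    exact mul_lt_one_of_lt_of_le hxy ((A.valuation_le_one_iff _).mpr hyi)
  have hsum : ∑ i ∈ Finset.range m, e ^ i = 0 := by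
    apply Subtype.ext
    have : ((∑ i ∈ Finset.range m, e ^ i : A) : L) = ∑ i ∈ Finset.range m, (x * y⁻¹) ^ i := by
      push_cast
      rfl
    rw [this, hgeom]
    rfl
  have h2 := congrArg (IsLocalRing.residue A) hsum
  rw [map_sum, map_zero] at h2
  simp only [map_pow, he, one_pow, Finset.sum_const, Finset.card_range, nsmul_eq_mul,
    mul_one] at h2
  apply natCast_not_mem_nonunits (c := (m : ℤ)) hℓ hA (by exact_mod_cast hm)
  have h3 : IsLocalRing.residue A (m : A) = 0 := by rw [map_natCast]; exact h2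
  rw [IsLocalRing.residue_eq_zero_iff, ← ValuationSubring.coe_mem_nonunits_iff] at h3
  exact_mod_cast h3

end

section

variable {L : Type*} [Field L] [CharZero L]

/-- A Frobenius element at a place above `ℓ` raises roots of unity of order prime to `ℓ` to
the `ℓ`-th power. -/
theorem IsFrobeniusAt.apply_rootOfUnity {A : ValuationSubring L} {ℓ m : ℕ} (hℓ : ℓ.Prime)
    (hA : A.LiesOverPrime ℓ) (hm : ¬ ℓ ∣ m) {σ : L ≃ₐ[ℚ] L} (hσ : A.IsFrobeniusAt σ ℓ)
    {x : L} (hx : x ^ m = 1) : σ x = x ^ ℓ := by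
  have hm0 : m ≠ 0 := by rintro rfl; exact hm (dvd_zero _)
  have hxA : x ∈ A := mem_of_pow_eq_one A hm0 hx
  apply rootsOfUnity_eq_of_residue_eq hℓ hA hm (m := m)
  · rw [← map_pow, hx, map_one]
  · rw [← pow_mul, mul_comm, pow_mul, hx, one_pow]
  · obtain ⟨h1, h2⟩ := hσ
    have h3 := h2 (IsLocalRing.residue A ⟨x, hxA⟩)
    have hσx : σ x ∈ A := by
      apply mem_of_pow_eq_one A hm0
      rw [← map_pow, hx, map_one]
    have h4 : IsLocalRing.residue A ⟨σ x, hσx⟩ = IsLocalRing.residue A (⟨x, hxA⟩ ^ ℓ) := by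
      rw [map_pow]
      exact h3
    rw [← sub_eq_zero, ← map_sub, IsLocalRing.residue_eq_zero_iff,
      ← ValuationSubring.coe_mem_nonunits_iff] at h4
    exact h4

/-- Inertia at a place above `ℓ` fixes roots of unity of order prime to `ℓ`. -/
theorem inertia_apply_rootOfUnity {A : ValuationSubring L} {ℓ m : ℕ} (hℓ : ℓ.Prime)
    (hA : A.LiesOverPrime ℓ) (hm : ¬ ℓ ∣ m) {τ : L ≃ₐ[ℚ] L} (hτ : τ ∈ A.inertiaSubgroupIn ℚ)
    {x : L} (hx : x ^ m = 1) : τ x = x := by
  have hm0 : m ≠ 0 := by rintro rfl; exact hm (dvd_zero _)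
  have hxA : x ∈ A := mem_of_pow_eq_one A hm0 hx
  apply rootsOfUnity_eq_of_residue_eq hℓ hA hm (m := m)
  · rw [← map_pow, hx, map_one]
  · exact hx
  · obtain ⟨h1, h2⟩ := (mem_inertiaSubgroupIn_iff A τ).mp hτ
    have h3 := h2 (IsLocalRing.residue A ⟨x, hxA⟩)
    have hσx : τ x ∈ A := by
      apply mem_of_pow_eq_one A hm0
      rw [← map_pow, hx, map_one]
    have h4 : IsLocalRing.residue A ⟨τ x, hσx⟩ = IsLocalRing.residue A ⟨x, hxA⟩ := h3
    rw [← sub_eq_zero, ← map_sub, IsLocalRing.residue_eq_zero_iff,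
      ← ValuationSubring.coe_mem_nonunits_iff] at h4
    exact h4

end

end Fermat.Agent.H05
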