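import Mathlib.RepresentationTheory.AlgebraRepresentation.Basic
import Mathlib.RingTheory.SimpleModule.Basic
import Mathlib.FieldTheory.IsAlgClosed.Basic
import Mathlib.RingTheory.Nakayama
import Mathlib.RingTheory.LocalRing.Module
import Mathlib.LinearAlgebra.Trace
import Fermat.Prelude.Def_GaloisRep_Adic

set_option autoImplicit false
set_option linter.style.haveILetI false

namespace Fermat.Agent.H05

open Module TensorProduct

/-- Burnside's theorem. -/
theorem burnside {k V : Type*} [Field k] [IsAlgClosed k] [AddCommGroup V] [Module k V]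
    [FiniteDimensional k V] [Nontrivial V] (A : Subalgebra k (Module.End k V))
    (h : ∀ W : Submodule k V, (∀ a ∈ A, ∀ x ∈ W, a x ∈ W) → W = ⊥ ∨ W = ⊤) : A = ⊤ := by
  haveI : IsSimpleModule A V := by
    rw [isSimpleModule_iff]
    refine { exists_pair_ne := ⟨⊥, ⊤, bot_ne_top⟩, eq_bot_or_eq_top := ?_ }
    intro W
    have h1 := h (W.restrictScalars k) (fun a ha x hx => W.smul_mem ⟨a, ha⟩ hx)
    rcases h1 with h1 | h1
    · left
      rwa [Submodule.restrictScalars_eq_bot_iff] at h1
    · right
      rwa [Submodule.restrictScalars_eq_top_iff] at h1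
  rw [eq_top_iff]
  intro f _
  have hbij := IsSimpleModule.algebraMap_end_bijective_of_isAlgClosed (A := A) (V := V) k
  -- `f` commutes with the `A`-endomorphisms of `V`
  let F : Module.End (Module.End A V) V :=
    { toFun := f
      map_add' := f.map_add
      map_smul' := by
        intro g x
        obtain ⟨c, rfl⟩ := hbij.2 g
        rw [RingHom.id_apply, Module.End.smul_def, Module.End.smul_def,
          Module.algebraMap_end_apply, Module.algebraMap_end_apply, map_smul] }
  classical
  let b := Module.finBasis k V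
  obtain ⟨r, hr⟩ := jacobson_density (R := A) F (Finset.univ.image b)
  have : (r : Module.End k V) = f := by
    apply b.ext
    intro i
    exact (hr (b i) (Finset.mem_image_of_mem _ (Finset.mem_univ i))).symm
  rw [← this]
  exact r.2

/-- Lifting spanning sets of matrices from a field `K` to a local ring `T` along a homomorphism
`T → K` with kernel the maximal ideal. -/
theorem span_eq_top_of_map {T K ι m : Type*} [CommRing T] [IsLocalRing T] [Field K]
    [Fintype m] [DecidableEq m] (φ : T →+* K) (hφ : ∀ t ∈ IsLocalRing.maximalIdeal T, φ t = 0)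
    (v : ι → (m → T)) (h : Submodule.span K (Set.range (fun i j => φ (v i j))) = ⊤) :
    Submodule.span T (Set.range v) = ⊤ := by
  classical
  obtain ⟨f, hf, -, hli⟩ := Submodule.exists_fun_fin_finrank_span_eq K
    (Set.range (fun i j => φ (v i j)))
  have hcard : Fintype.card (Fin (Module.finrank K
      (Submodule.span K (Set.range (fun i j => φ (v i j)))))) = Fintype.card m := by
    rw [Fintype.card_fin, h, finrank_top, Module.finrank_fintype_fun_eq_card]
  let e := Fintype.equivOfCardEq hcard
  choose g hg using hf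
  let D : Matrix m m T := Matrix.of fun i => v (g (e.symm i))
  have hrow : LinearIndependent K (D.map φ).row := by
    have h1 := hli.comp e.symm e.symm.injective
    have h2 : (D.map φ).row = f ∘ e.symm := by
      ext i j
      exact congrFun (hg (e.symm i)) j
    rw [h2]
    exact h1
  rw [Matrix.linearIndependent_rows_iff_isUnit, Matrix.isUnit_iff_isUnit_det,
    isUnit_iff_ne_zero, ← RingHom.mapMatrix_apply, ← RingHom.map_det] at hrow
  have hdet : IsUnit D.det := by
    by_contra hcon
    exact hrow (hφ _ ((IsLocalRing.mem_maximalIdeal _).mpr hcon))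
  rw [eq_top_iff]
  intro w _
  have hw : w = Matrix.vecMul (Matrix.vecMul w D⁻¹) D := by
    rw [Matrix.vecMul_vecMul, Matrix.nonsing_inv_mul _ hdet, Matrix.vecMul_one]
  rw [hw, Matrix.vecMul_eq_sum]
  refine Submodule.sum_mem _ fun i _ => Submodule.smul_mem _ _ (Submodule.subset_span ?_)
  exact ⟨g (e.symm i), rfl⟩

/-- If the residual representation of an adic Galois representation is absolutely irreducible,
the group ring surjects onto the endomorphism ring. -/
theorem span_range_eq_top_of_residual_absIrr {T : Type} [CommRing T] [IsLocalRing T]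
    (ρ : GaloisRepAdic T) (h : ρ.residual.IsAbsolutelyIrreducible) :
    Submodule.span T (Set.range ρ.ρ) = ⊤ := by
  classical
  let k := IsLocalRing.ResidueField T
  let K := AlgebraicClosure k
  let b : Basis (Fin 2) T ρ.V :=
    (Module.finBasis T ρ.V).reindex (finCongr ρ.finrank_eq)
  -- the residual representation over the algebraic closure
  let r := ρ.residual.baseChange K
  haveI : Module.Finite K r.V := inferInstance
  haveI : Nontrivial r.V := Module.nontrivial_of_finrank_pos (R := K) (by rw [r.finrank_eq]; norm_num)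
  have hA : Algebra.adjoin K (Set.range r.ρ) = ⊤ := by
    apply burnside
    intro W hW
    exact h W fun σ x hx => hW _ (Algebra.subset_adjoin ⟨σ, rfl⟩) x hx
  have hspan : Submodule.span K (Set.range r.ρ) = ⊤ := by
    have h1 := Algebra.adjoin_eq_span K (Set.range r.ρ)
    have h2 : Submonoid.closure (Set.range r.ρ) = MonoidHom.mrange r.ρ := by
      rw [← MonoidHom.coe_mrange, Submonoid.closure_eq]
    rw [h2, hA, MonoidHom.coe_mrange] at h1
    rw [← h1, Algebra.top_toSubmodule]
  let bk : Basis (Fin 2) k (k ⊗[T] ρ.V) := Algebra.TensorProduct.basis k b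
  let bK : Basis (Fin 2) K r.V := (Algebra.TensorProduct.basis K bk : Basis (Fin 2) K (K ⊗[k] (k ⊗[T] ρ.V)))
  let φ : T →+* K := (algebraMap k K).comp (IsLocalRing.residue T)
  have hmat : ∀ σ, LinearMap.toMatrix bK bK (r.ρ σ) = (LinearMap.toMatrix b b (ρ.ρ σ)).map φ := by
    intro σ
    have e1 : LinearMap.toMatrix bK bK (r.ρ σ) =
        (LinearMap.toMatrix bk bk ((ρ.ρ σ).baseChange k)).map (algebraMap k K) :=
      LinearMap.toMatrix_baseChange K ((ρ.ρ σ).baseChange k) bk bk
    have e2 : LinearMap.toMatrix bk bk ((ρ.ρ σ).baseChange k) =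
        (LinearMap.toMatrix b b (ρ.ρ σ)).map (algebraMap T k) :=
      LinearMap.toMatrix_baseChange k (ρ.ρ σ) b b
    rw [e1, e2, Matrix.map_map]
    rfl
  -- uncurry matrices
  let cT : Matrix (Fin 2) (Fin 2) T ≃ₗ[T] (Fin 2 × Fin 2 → T) :=
    (LinearEquiv.curry T T (Fin 2) (Fin 2)).symm
  let cK : Matrix (Fin 2) (Fin 2) K ≃ₗ[K] (Fin 2 × Fin 2 → K) :=
    (LinearEquiv.curry K K (Fin 2) (Fin 2)).symm
  have h3 : Submodule.span K (Set.range fun σ j =>
      φ (cT (LinearMap.toMatrix b b (ρ.ρ σ)) j)) = ⊤ := by
    have h4 := congrArg (Submodule.map ((LinearMap.toMatrix bK bK).trans cK).toLinearMap) hspan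
    rw [Submodule.map_span, Submodule.map_top, LinearEquiv.range, ← Set.range_comp] at h4
    rw [← h4]
    congr 1
    congr 1
    funext σ
    change _ = cK (LinearMap.toMatrix bK bK (r.ρ σ))
    rw [hmat]
    rfl
  have h5 := span_eq_top_of_map φ (fun t ht => by
    change algebraMap k K (IsLocalRing.residue T t) = 0
    rw [(IsLocalRing.residue_eq_zero_iff t).mpr ht, map_zero]) _ h3
  have h6 := congrArg (Submodule.map ((LinearMap.toMatrix b b).trans cT).symm.toLinearMap) h5
  rw [Submodule.map_span, Submodule.map_top, LinearEquiv.range, ← Set.range_comp] at h6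
  rw [← h6]
  congr 1
  congr 1
  funext σ
  change _ = ((LinearMap.toMatrix b b).trans cT).symm (cT (LinearMap.toMatrix b b (ρ.ρ σ)))
  rw [LinearEquiv.eq_symm_apply]
  rfl

end Fermat.Agent.H05
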