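import Fermat.Agent.H05_Frob
import Fermat.Agent.H05_Cyclo
import Fermat.Agent.H05_Rep
import Fermat.Agent.H05_Burnside
import Fermat.Prelude.Def_CuspForm_HeckeGaloisRepDatum
import Mathlib.LinearAlgebra.Charpoly.Basic

set_option autoImplicit false
set_option linter.style.haveILetI false

namespace Fermat.Agent.H05

open Polynomial Module

/-- The absolute Galois group of `ℚ`. -/
local notation "Γℚ" => AlgebraicClosure ℚ ≃ₐ[ℚ] AlgebraicClosure ℚ

/-- The weak Chebotarev (Frobenius density) theorem: every element of a finite quotient of the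
absolute Galois group of `ℚ` is a power of a Frobenius element at a prime outside a given finite
set. -/
def WeakChebotarev : Prop :=
  ∀ (L : IntermediateField ℚ (AlgebraicClosure ℚ)), FiniteDimensional ℚ L →
    ∀ (S : Finset ℕ) (σ : Γℚ), ∃ (ℓ : ℕ) (_ : ℓ.Prime) (_ : ℓ ∉ S)
      (A : ValuationSubring (AlgebraicClosure ℚ)) (_ : A.LiesOverPrime ℓ) (φ : Γℚ)
      (_ : A.IsFrobeniusAt φ ℓ) (n : ℕ), ∀ x ∈ L, σ x = (φ ^ n) x

/-- The sequence `α ^ n + β ^ n` as a polynomial in `a = α + β` and `b = α β`. -/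
def lucas {R : Type*} [Ring R] (a b : R) : ℕ → R
  | 0 => 2
  | 1 => a
  | (n + 2) => a * lucas a b (n + 1) - b * lucas a b n

theorem map_lucas {R R' : Type*} [Ring R] [Ring R'] (f : R →+* R') (a b : R) (n : ℕ) :
    f (lucas a b n) = lucas (f a) (f b) n := by
  induction n using Nat.twoStepInduction with
  | zero => simp only [lucas]; exact map_ofNat f 2
  | one => simp [lucas]
  | more n h1 h2 => simp [lucas, h1, h2]

theorem trace_eq_of_charpoly {T V : Type*} [CommRing T] [Nontrivial T] [AddCommGroup V]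
    [Module T V] [Module.Free T V] [Module.Finite T V] (hV : Module.finrank T V = 2)
    (f : Module.End T V) (a b : T) (hf : f.charpoly = X ^ 2 - C a * X + C b) :
    LinearMap.trace T V f = a := by
  classical
  let e : Basis (Fin 2) T V := (Module.finBasis T V).reindex (finCongr hV)
  rw [LinearMap.trace_eq_matrix_trace T e, Matrix.trace_eq_neg_charpoly_coeff,
    LinearMap.charpoly_toMatrix, hf]
  simp [coeff_C]

/-- The trace of a power of an endomorphism of a free module of rank two. -/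
theorem trace_pow_eq_lucas {T V : Type*} [CommRing T] [Nontrivial T] [AddCommGroup V] [Module T V]
    [Module.Free T V] [Module.Finite T V] (hV : Module.finrank T V = 2) (f : Module.End T V)
    (a b : T) (hf : f.charpoly = X ^ 2 - C a * X + C b) (n : ℕ) :
    LinearMap.trace T V (f ^ n) = lucas a b n := by
  have hCH : f ^ 2 = a • f - b • (1 : Module.End T V) := by
    have h := f.aeval_self_charpoly
    rw [hf] at h
    simp only [map_add, map_sub, map_mul, aeval_C, map_pow, aeval_X, Algebra.algebraMap_eq_smul_one,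
      smul_mul_assoc, one_mul] at h
    rw [sub_add, sub_eq_zero] at h
    exact h
  have htr : LinearMap.trace T V f = a := trace_eq_of_charpoly hV f a b hf
  induction n using Nat.twoStepInduction with
  | zero =>
    rw [pow_zero, LinearMap.trace_one, hV, lucas]
    norm_num
  | one => rw [pow_one, htr, lucas]
  | more n h1 h2 =>
    have : f ^ (n + 2) = a • f ^ (n + 1) - b • f ^ n := by
      rw [pow_add, hCH, mul_sub, mul_smul_comm, mul_smul_comm, mul_one, ← pow_succ]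
    rw [this, map_sub, map_smul, map_smul, h1, h2, lucas, smul_eq_mul, smul_eq_mul]

/-- The trace of an endomorphism with image in `I • V` lies in `I`. -/
theorem trace_mem_of_forall_mem {T V : Type*} [CommRing T] [AddCommGroup V] [Module T V]
    [Module.Free T V] [Module.Finite T V] (I : Ideal T) (f : Module.End T V)
    (hf : ∀ v, f v ∈ I • (⊤ : Submodule T V)) : LinearMap.trace T V f ∈ I := by
  classical
  nontriviality T
  let e := Module.Free.chooseBasis T V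
  rw [LinearMap.trace_eq_matrix_trace T e, Matrix.trace]
  refine Ideal.sum_mem _ fun i _ => ?_
  rw [Matrix.diag_apply, LinearMap.toMatrix_apply]
  refine Submodule.smul_induction_on (p := fun x => e.repr x i ∈ I) (hf (e i)) ?_ ?_
  · intro r hr w _
    rw [map_smul, Finsupp.smul_apply, smul_eq_mul]
    exact Ideal.mul_mem_right _ _ hr
  · intro x y hx hy
    rw [map_add, Finsupp.add_apply]
    exact add_mem hx hy

/-- An endomorphism is the identity if it is invisible for the trace. -/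
theorem eq_one_of_trace_eq {T V G : Type*} [CommRing T] [AddCommGroup V] [Module T V]
    [Module.Free T V] [Module.Finite T V] [Monoid G] (ρ : G →* Module.End T V)
    (hspan : Submodule.span T (Set.range ρ) = ⊤) (τ : G)
    (h : ∀ g, LinearMap.trace T V (ρ (g * τ)) = LinearMap.trace T V (ρ g)) : ρ τ = 1 := by
  classical
  have h1 : ∀ x : Module.End T V, LinearMap.trace T V (x * ρ τ) = LinearMap.trace T V x := by
    intro x
    have hx : x ∈ Submodule.span T (Set.range ρ) := by rw [hspan]; trivial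
    induction hx using Submodule.span_induction with
    | mem y hy =>
      obtain ⟨g, rfl⟩ := hy
      rw [← map_mul, h]
    | zero => simp
    | add y z _ _ hy hz => rw [add_mul, map_add, map_add, hy, hz]
    | smul c y _ hy => rw [smul_mul_assoc, map_smul, map_smul, hy]
  let e := Module.Free.chooseBasis T V
  apply (LinearMap.toMatrix e e).injective
  apply Matrix.ext_iff_trace_mul_left.mpr
  intro x
  have h2 := h1 (Matrix.toLin e e x)
  rw [LinearMap.trace_eq_matrix_trace T e, LinearMap.trace_eq_matrix_trace T e,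
    LinearMap.toMatrix_mul, LinearMap.toMatrix_toLin] at h2
  rw [h2]
  simp [Module.End.one_eq_id]

/-- The geometric input: for every `n` a `p`-power torsion Galois module `W` (the `p^m`-torsion of
`J₀(N)`) with an action of the Hecke algebra, unramified outside `N p`, satisfying the
Eichler–Shimura relation, and on which the Hecke algebra acts faithfully modulo `p ^ n`. -/
def HeckeGaloisInput (p N : ℕ) [NeZero N] (S : Set ℕ) : Prop :=
  ∀ n : ℕ, ∃ (W : Type) (_ : AddCommGroup W)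
    (act : CuspForm.heckeAlgebra N 2 S →+* Module.End ℤ W) (r : Γℚ →* Module.End ℤ W) (m : ℕ),
    (∀ w : W, (p ^ m) • w = 0) ∧
    GaloisFactorsThroughFiniteLevel r ∧
    (∀ t : CuspForm.heckeAlgebra N 2 S, act t = 0 → ∃ s, t = (p ^ n) • s) ∧
    (∀ q : ℕ, q.Prime → ¬ q ∣ N → q ≠ p → ∀ A : ValuationSubring (AlgebraicClosure ℚ),
      A.LiesOverPrime q → ∀ τ ∈ A.inertiaSubgroupIn ℚ, r τ = 1) ∧
    (∀ (ℓ : ℕ) (hℓ : ℓ.Prime) (hℓN : ¬ ℓ ∣ N) (hℓS : ℓ ∉ S), ℓ ≠ p →
      ∀ A : ValuationSubring (AlgebraicClosure ℚ), A.LiesOverPrime ℓ →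
      ∀ φ : Γℚ, A.IsFrobeniusAt φ ℓ → ∀ w : W,
        r φ (r φ w) - act (CuspForm.heckeAlgebra.T hℓ hℓN hℓS) (r φ w) + ℓ • w = 0)

/-- The action of `lucas T ℓ j` on a module with the Eichler–Shimura relation. -/
theorem act_lucas {R W G : Type*} [CommRing R] [AddCommGroup W] [Group G]
    (act : R →+* Module.End ℤ W) (r : G →* Module.End ℤ W) (φ : G) (t : R) (ℓ : ℕ)
    (hrel : ∀ w, r φ (r φ w) - act t (r φ w) + ℓ • w = 0) (j : ℕ) (w : W) :
    act (lucas t (ℓ : R) j) w = r (φ ^ j) w + (ℓ ^ j) • r ((φ ^ j)⁻¹) w := by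
  have hinv : ∀ (g : G) (w : W), r g (r g⁻¹ w) = w := by
    intro g w
    have : r g * r g⁻¹ = 1 := by rw [← map_mul, mul_inv_cancel, map_one]
    exact LinearMap.congr_fun this w
  have ht : ∀ w, act t w = r φ w + ℓ • r φ⁻¹ w := by
    intro w
    have h := hrel (r φ⁻¹ w)
    rw [hinv] at h
    rw [← sub_eq_zero]
    rw [← neg_eq_zero, ← h]
    abel
  induction j using Nat.twoStepInduction generalizing w with
  | zero =>
    simp only [lucas, pow_zero, inv_one, map_one, one_smul, Module.End.one_apply]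
    have : act 2 = 2 := map_ofNat act 2
    rw [this]
    rw [← one_add_one_eq_two]
    rfl
  | one => simp only [lucas, pow_one, ht]
  | more n h1 h2 =>
    have hℓ : act (ℓ : R) = (ℓ : Module.End ℤ W) := map_natCast act ℓ
    have hℓw : ∀ x : W, (ℓ : Module.End ℤ W) x = ℓ • x := fun x => by
      simp
    have e1 : ∀ x : W, r φ (r (φ ^ (n + 1)) x) = r (φ ^ (n + 2)) x := by
      intro x
      rw [← Module.End.mul_apply, ← map_mul, ← pow_succ']
    have e2 : ∀ x : W, r φ (r ((φ ^ (n + 1))⁻¹) x) = r ((φ ^ n)⁻¹) x := by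
      intro x
      rw [← Module.End.mul_apply, ← map_mul, pow_succ, mul_inv_rev, mul_inv_cancel_left]
    have e3 : ∀ x : W, r φ⁻¹ (r (φ ^ (n + 1)) x) = r (φ ^ n) x := by
      intro x
      rw [← Module.End.mul_apply, ← map_mul, pow_succ', inv_mul_cancel_left]
    have e4 : ∀ x : W, r φ⁻¹ (r ((φ ^ (n + 1))⁻¹) x) = r ((φ ^ (n + 2))⁻¹) x := by
      intro x
      rw [← Module.End.mul_apply, ← map_mul, ← mul_inv_rev, ← pow_succ]
    rw [lucas, map_sub, map_mul, map_mul, hℓ, LinearMap.sub_apply, Module.End.mul_apply,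
      Module.End.mul_apply, hℓw, h2, h1, ht, map_add, map_add, map_nsmul, map_nsmul, e1, e2, e3, e4,
      smul_add, smul_add, smul_smul, smul_smul]
    have e5 : ℓ * ℓ ^ (n + 1) = ℓ ^ (n + 2) := by ring
    have e6 : ℓ ^ (n + 1) = ℓ * ℓ ^ n := by ring
    rw [e5, e6]
    abel

/-- For every element `g` of the Galois group, a Hecke operator which approximates the trace of
`g` and acts as `g + χ(g) g⁻¹` on the geometric module. -/
theorem exists_hecke_trace (hCheb : WeakChebotarev) {p N : ℕ} [NeZero N] (hp : p.Prime)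
    {S : Finset ℕ} (hpS : p ∈ S) (hNS : ∀ q : ℕ, q.Prime → q ∣ N → q ∈ S)
    {T : Type} [CommRing T] [IsLocalRing T] (ρ : GaloisRepAdic T)
    (π : CuspForm.heckeAlgebra N 2 (↑S : Set ℕ) →+* T)
    (hfrob : ∀ (ℓ : ℕ) (hℓ : ℓ.Prime) (hℓN : ¬ ℓ ∣ N) (hℓS : ℓ ∉ (↑S : Set ℕ)),
      ∀ A : ValuationSubring (AlgebraicClosure ℚ), A.LiesOverPrime ℓ →
        ∀ σ : Γℚ, A.IsFrobeniusAt σ ℓ → LinearMap.charpoly (ρ.ρ σ) =
          X ^ 2 - C (π (CuspForm.heckeAlgebra.T hℓ hℓN hℓS)) * X + C ((ℓ : T)))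
    {W : Type} [AddCommGroup W]
    (act : CuspForm.heckeAlgebra N 2 (↑S : Set ℕ) →+* Module.End ℤ W)
    (r : Γℚ →* Module.End ℤ W) (hr : GaloisFactorsThroughFiniteLevel r)
    (hES : ∀ (ℓ : ℕ) (hℓ : ℓ.Prime) (hℓN : ¬ ℓ ∣ N) (hℓS : ℓ ∉ (↑S : Set ℕ)), ℓ ≠ p →
      ∀ A : ValuationSubring (AlgebraicClosure ℚ), A.LiesOverPrime ℓ →
      ∀ φ : Γℚ, A.IsFrobeniusAt φ ℓ → ∀ w : W,
        r φ (r φ w) - act (CuspForm.heckeAlgebra.T hℓ hℓN hℓS) (r φ w) + ℓ • w = 0)
    (n m : ℕ) (ζ : AlgebraicClosure ℚ) (hζ : ζ ^ (p ^ m) = 1) (g : Γℚ) :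
    ∃ (s : CuspForm.heckeAlgebra N 2 (↑S : Set ℕ)) (c : ℕ),
      LinearMap.trace T ρ.V (ρ.ρ g) - π s ∈ IsLocalRing.maximalIdeal T ^ n ∧
      (∀ w, act s w = r g w + c • r g⁻¹ w) ∧ g ζ = ζ ^ c := by
  obtain ⟨L₁, hL₁, h1⟩ := ρ.isAdicContinuous n
  obtain ⟨L₂, hL₂, h2⟩ := hr
  let L₃ : IntermediateField ℚ (AlgebraicClosure ℚ) := IntermediateField.adjoin ℚ {ζ}
  haveI hL₃ : FiniteDimensional ℚ L₃ := by
    apply IntermediateField.adjoin.finiteDimensional
    apply IsIntegral.of_pow (pow_pos hp.pos m)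
    rw [hζ]
    exact isIntegral_one
  haveI : FiniteDimensional ℚ (L₁ ⊔ L₂ : IntermediateField ℚ (AlgebraicClosure ℚ)) :=
    IntermediateField.finiteDimensional_sup L₁ L₂
  haveI : FiniteDimensional ℚ (L₁ ⊔ L₂ ⊔ L₃ : IntermediateField ℚ (AlgebraicClosure ℚ)) :=
    IntermediateField.finiteDimensional_sup (L₁ ⊔ L₂) L₃
  obtain ⟨ℓ, hℓ, hℓS, A, hA, φ, hφ, j, hj⟩ := hCheb (L₁ ⊔ L₂ ⊔ L₃) inferInstance S g
  have hℓN : ¬ ℓ ∣ N := fun h => hℓS (hNS ℓ hℓ h)
  have hℓS' : ℓ ∉ (↑S : Set ℕ) := fun h => hℓS (by exact_mod_cast h)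
  have hℓp : ℓ ≠ p := fun h => hℓS (h ▸ hpS)
  -- `u` fixes the three fields
  let u : Γℚ := (φ ^ j)⁻¹ * g
  have hu : ∀ x ∈ (L₁ ⊔ L₂ ⊔ L₃ : IntermediateField ℚ (AlgebraicClosure ℚ)), u x = x := by
    intro x hx
    change (φ ^ j)⁻¹ (g x) = x
    rw [hj x hx]
    change ((φ ^ j)⁻¹ * (φ ^ j)) x = x
    rw [inv_mul_cancel]
    rfl
  have hg : g = φ ^ j * u := by
    change g = φ ^ j * ((φ ^ j)⁻¹ * g)
    rw [mul_inv_cancel_left]
  have hu1 : ∀ x ∈ L₁, u x = x := fun x hx => hu x (le_sup_left (a := L₁ ⊔ L₂) (le_sup_left (a := L₁) hx))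
  have hu2 : ∀ x ∈ L₂, u x = x := fun x hx => hu x (le_sup_left (a := L₁ ⊔ L₂) (le_sup_right (a := L₁) hx))
  have hu3 : ∀ x ∈ L₃, u x = x := fun x hx => hu x (le_sup_right (a := L₁ ⊔ L₂) hx)
  refine ⟨lucas (CuspForm.heckeAlgebra.T hℓ hℓN hℓS') (ℓ : CuspForm.heckeAlgebra N 2 (↑S : Set ℕ)) j,
    ℓ ^ j, ?_, ?_, ?_⟩
  · have h3 : LinearMap.trace T ρ.V (ρ.ρ φ ^ j) =
        π (lucas (CuspForm.heckeAlgebra.T hℓ hℓN hℓS') (ℓ : CuspForm.heckeAlgebra N 2 (↑S : Set ℕ)) j) := by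
      rw [map_lucas, map_natCast]
      exact trace_pow_eq_lucas ρ.finrank_eq _ _ _ (hfrob ℓ hℓ hℓN hℓS' A hA φ hφ) j
    rw [← h3, ← map_pow, ← map_sub]
    apply trace_mem_of_forall_mem
    intro v
    have h4 : (ρ.ρ g - ρ.ρ (φ ^ j)) v = ρ.ρ (φ ^ j) (ρ.ρ u v - v) := by
      have : ρ.ρ g = ρ.ρ (φ ^ j) * ρ.ρ u := by rw [← map_mul, ← hg]
      rw [LinearMap.sub_apply, this, map_sub, Module.End.mul_apply]
    rw [h4]
    exact Submodule.smul_top_le_comap_smul_top _ (ρ.ρ (φ ^ j)) (h1 u hu1 v)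
  · intro w
    rw [act_lucas act r φ _ ℓ (hES ℓ hℓ hℓN hℓS' hℓp A hA φ hφ)]
    have hru : r u = 1 := h2 u hu2
    have h5 : r g = r (φ ^ j) := by
      have : r g = r (φ ^ j) * r u := by rw [← map_mul, ← hg]
      rw [this, hru, mul_one]
    have hru' : r u⁻¹ = 1 := by
      have : r u * r u⁻¹ = 1 := by rw [← map_mul, mul_inv_cancel, map_one]
      rwa [hru, one_mul] at this
    have h6 : r g⁻¹ = r ((φ ^ j)⁻¹) := by
      have : r g⁻¹ = r u⁻¹ * r ((φ ^ j)⁻¹) := by rw [← map_mul, ← mul_inv_rev, ← hg]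
      rw [this, hru', one_mul]
    rw [h5, h6]
  · have h7 : g ζ = (φ ^ j) ζ := hj ζ (le_sup_right (a := L₁ ⊔ L₂) (IntermediateField.mem_adjoin_simple_self ℚ ζ))
    rw [h7]
    have hℓm : ¬ ℓ ∣ p ^ m := fun h => hℓp ((Nat.prime_dvd_prime_iff_eq hℓ hp).mp (hℓ.dvd_of_dvd_pow h))
    have hpow : ∀ j : ℕ, (φ ^ j) ζ = ζ ^ ℓ ^ j := by
      intro j
      induction j with
      | zero => simp
      | succ j ih =>
        have h8 : (φ ^ (j + 1)) ζ = φ ((φ ^ j) ζ) := by rw [pow_succ']; rfl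
        rw [h8, ih, map_pow, IsFrobeniusAt.apply_rootOfUnity hℓ hA hℓm hφ hζ, ← pow_mul,
          pow_succ']
    exact hpow j

/-- **S31 from the geometric input.** -/
theorem isUnramifiedAt_of_input (hCheb : WeakChebotarev) {p N : ℕ} [NeZero N] {S : Finset ℕ}
    {𝒪 : Type} [CommRing 𝒪] [IsDomain 𝒪] [IsDiscreteValuationRing 𝒪]
    [IsAdicComplete (IsLocalRing.maximalIdeal 𝒪) 𝒪]
    {θ : CuspForm.heckeAlgebra N 2 (↑S : Set ℕ) →+* IsLocalRing.ResidueField 𝒪}
    {T : Type} [CommRing T] [IsLocalRing T] [IsNoetherianRing T]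
    [IsAdicComplete (IsLocalRing.maximalIdeal T) T] [Algebra 𝒪 T] [IsLocalHom (algebraMap 𝒪 T)]
    [Module.Finite 𝒪 T] [Module.Free 𝒪 T] (hp : p.Prime)
    (hinput : HeckeGaloisInput p N (↑S : Set ℕ))
    (hp𝒪 : (p : 𝒪) ∈ IsLocalRing.maximalIdeal 𝒪) (hpS : p ∈ S)
    (hNS : ∀ q : ℕ, q.Prime → q ∣ N → q ∈ S)
    (H : CuspForm.HeckeGaloisRepDatum N (↑S : Set ℕ) 𝒪 θ T)
    (q : ℕ) (hq : q.Prime) (hqN : ¬ q ∣ N) (hqp : q ≠ p) :
    H.ρ.IsUnramifiedAt q := by
  intro A hA τ hτ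
  have hpT : (p : T) ∈ IsLocalRing.maximalIdeal T := by
    have h1 : algebraMap 𝒪 T (p : 𝒪) ∈ IsLocalRing.maximalIdeal T := by
      rw [IsLocalRing.mem_maximalIdeal] at hp𝒪 ⊢
      exact map_mem_nonunits_iff (algebraMap 𝒪 T) _ |>.mpr hp𝒪
    rwa [map_natCast] at h1
  apply eq_one_of_trace_eq H.ρ.ρ (span_range_eq_top_of_residual_absIrr H.ρ H.residual_absIrr)
  intro g
  rw [← sub_eq_zero]
  apply IsHausdorff.haus (inferInstance : IsHausdorff (IsLocalRing.maximalIdeal T) T)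
  intro n
  rw [SModEq.zero, smul_eq_mul, Ideal.mul_top]
  obtain ⟨W, instW, act, r, m, hW, hr, hfaith, hunr, hES⟩ := hinput n
  obtain ⟨ζ, hζ⟩ : ∃ ζ : AlgebraicClosure ℚ, IsPrimitiveRoot ζ (p ^ m) := by
    haveI : NeZero ((p ^ m : ℕ) : AlgebraicClosure ℚ) :=
      ⟨by exact_mod_cast (pow_pos hp.pos m).ne'⟩
    exact HasEnoughRootsOfUnity.exists_primitiveRoot (AlgebraicClosure ℚ) (p ^ m)
  obtain ⟨s, c, hs1, hs2, hs3⟩ := exists_hecke_trace hCheb hp hpS hNS H.ρ H.π H.charpoly_frob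
    act r hr hES n m ζ hζ.pow_eq_one g
  obtain ⟨s', c', hs1', hs2', hs3'⟩ := exists_hecke_trace hCheb hp hpS hNS H.ρ H.π
    H.charpoly_frob act r hr hES n m ζ hζ.pow_eq_one (g * τ)
  have hτζ : τ ζ = ζ := inertia_apply_rootOfUnity hq hA
    (fun h => hqp ((Nat.prime_dvd_prime_iff_eq hq hp).mp (hq.dvd_of_dvd_pow h))) hτ hζ.pow_eq_one
  have hcc : ((p ^ m : ℕ) : ℤ) ∣ (c' : ℤ) - c := by
    have h1 : ζ ^ c' = ζ ^ c := by
      rw [← hs3', ← hs3]
      change g (τ ζ) = g ζ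
      rw [hτζ]
    have hζ0 : ζ ≠ 0 := hζ.ne_zero (pow_pos hp.pos m).ne'
    rw [← hζ.zpow_eq_one_iff_dvd, zpow_sub₀ hζ0, zpow_natCast, zpow_natCast, h1,
      div_self (pow_ne_zero _ hζ0)]
  have hrτ : r τ = 1 := hunr q hq hqN hqp A hA τ hτ
  have hrτ' : r τ⁻¹ = 1 := by
    have : r τ * r τ⁻¹ = 1 := by rw [← map_mul, mul_inv_cancel, map_one]
    rwa [hrτ, one_mul] at this
  have hact : act (s' - s) = 0 := by
    ext w
    rw [map_sub, LinearMap.sub_apply, hs2, hs2', map_mul, hrτ, mul_one, mul_inv_rev, map_mul, hrτ',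
      one_mul, add_sub_add_left_eq_sub, LinearMap.zero_apply]
    obtain ⟨d, hd⟩ := hcc
    rw [← natCast_zsmul, ← natCast_zsmul, ← sub_smul, hd, mul_comm, mul_smul, natCast_zsmul, hW,
      smul_zero]
  obtain ⟨t, ht⟩ := hfaith _ hact
  have h2 : H.π s' - H.π s ∈ IsLocalRing.maximalIdeal T ^ n := by
    rw [← map_sub, ht, nsmul_eq_mul, map_mul, Nat.cast_pow, map_pow, map_natCast]
    exact Ideal.mul_mem_right _ _ (Ideal.pow_mem_pow hpT n)
  have h3 : LinearMap.trace T H.ρ.V (H.ρ.ρ (g * τ)) - LinearMap.trace T H.ρ.V (H.ρ.ρ g) =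
      (LinearMap.trace T H.ρ.V (H.ρ.ρ (g * τ)) - H.π s') -
      (LinearMap.trace T H.ρ.V (H.ρ.ρ g) - H.π s) + (H.π s' - H.π s) := by ring
  rw [h3]
  exact add_mem (sub_mem hs1' hs1) h2

end Fermat.Agent.H05
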