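import Mathlib
import Fermat.Prelude.Def_FLTPrelim_FreyPackage
import Fermat.Prelude.Def_FLTPrelim_Modularity
import Fermat.Prelude.Def_FLTPrelim_ModularRep

/-!
# Basic facts on the Frey curve of a Frey package

`freyCurveInt` is an integral model (in fact literally the same equation) of `freyCurve`, with
`2 ^ 8 * Δ = (a b c) ^ (2 p)` and `c₄ = a ^ (2p) + a ^ p b ^ p + b ^ (2p)`; it is semistable.
-/

set_option autoImplicit false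

namespace Fermat.Agent.H26

open WeierstrassCurve

variable (P : FreyPackage)

/-- `a ^ p ≡ 3 (mod 4)`. -/
lemma a_pow_mod_four : ((P.a ^ P.p : ℤ) : ZMod 4) = 3 := by
  push_cast
  rw [P.ha4]
  obtain ⟨k, hk⟩ := P.hp_odd
  rw [hk, pow_succ, pow_mul]
  have : (3 : ZMod 4) ^ 2 = 1 := by decide
  rw [this, one_pow, one_mul]

lemma two_dvd_b : (2 : ℤ) ∣ P.b := (ZMod.intCast_zmod_eq_zero_iff_dvd P.b 2).1 P.hb2

lemma thirty_two_dvd_b_pow : (32 : ℤ) ∣ P.b ^ P.p := by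
  have h1 : (2 : ℤ) ^ P.p ∣ P.b ^ P.p := pow_dvd_pow_of_dvd (two_dvd_b P) _
  have h2 : (2 : ℤ) ^ 5 ∣ 2 ^ P.p := pow_dvd_pow _ P.hp5
  exact (by norm_num : (32 : ℤ) = 2 ^ 5) ▸ h2.trans h1

lemma sixteen_dvd_b_pow : (16 : ℤ) ∣ P.b ^ P.p :=
  dvd_trans (by norm_num) (thirty_two_dvd_b_pow P)

lemma four_dvd_a₂_num : (4 : ℤ) ∣ P.b ^ P.p - 1 - P.a ^ P.p := by
  refine (ZMod.intCast_zmod_eq_zero_iff_dvd _ 4).mp ?_
  have hb : ((P.b ^ P.p : ℤ) : ZMod 4) = 0 := by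
    rw [ZMod.intCast_zmod_eq_zero_iff_dvd]
    exact dvd_trans (by norm_num) (thirty_two_dvd_b_pow P)
  have ha := a_pow_mod_four P
  rw [Int.cast_sub, Int.cast_sub, hb, ha]
  decide

lemma sixteen_dvd_a₄_num : (16 : ℤ) ∣ -(P.a ^ P.p) * (P.b ^ P.p) :=
  Dvd.dvd.mul_left (sixteen_dvd_b_pow P) _

/-- defining relation of `a₂`. -/
lemma four_mul_a₂ : 4 * P.freyCurveInt.a₂ = P.b ^ P.p - 1 - P.a ^ P.p := by
  change 4 * ((P.b ^ P.p - 1 - P.a ^ P.p) / 4) = _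
  exact Int.mul_ediv_cancel' (four_dvd_a₂_num P)

lemma sixteen_mul_a₄ : 16 * P.freyCurveInt.a₄ = -(P.a ^ P.p) * (P.b ^ P.p) := by
  change 16 * (-(P.a ^ P.p) * (P.b ^ P.p) / 16) = _
  exact Int.mul_ediv_cancel' (sixteen_dvd_a₄_num P)

@[simp] lemma freyCurveInt_a₁ : P.freyCurveInt.a₁ = 1 := rfl
@[simp] lemma freyCurveInt_a₃ : P.freyCurveInt.a₃ = 0 := rfl
@[simp] lemma freyCurveInt_a₆ : P.freyCurveInt.a₆ = 0 := rfl

/-- The integral Frey curve maps to the rational one. -/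
theorem freyCurveInt_map : P.freyCurveInt.map (Int.castRingHom ℚ) = P.freyCurve := by
  have h2 : ((P.freyCurveInt.a₂ : ℤ) : ℚ) = (P.b ^ P.p - 1 - P.a ^ P.p) / 4 := by
    have := congrArg (fun z : ℤ => (z : ℚ)) (four_mul_a₂ P)
    push_cast at this
    linarith
  have h4 : ((P.freyCurveInt.a₄ : ℤ) : ℚ) = -(P.a ^ P.p) * (P.b ^ P.p) / 16 := by
    have := congrArg (fun z : ℤ => (z : ℚ)) (sixteen_mul_a₄ P)
    push_cast at this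
    linarith
  ext
  · simp [FreyPackage.freyCurve]
  · simpa [FreyPackage.freyCurve] using h2
  · simp [FreyPackage.freyCurve]
  · simpa [FreyPackage.freyCurve] using h4
  · simp [FreyPackage.freyCurve]

theorem freyCurveInt_isIntegralModelOf : P.freyCurveInt.IsIntegralModelOf P.freyCurve :=
  ⟨1, by rw [one_smul, freyCurveInt_map]⟩

/-- `c₄` of the Frey curve. -/
theorem freyCurveInt_c₄ : P.freyCurveInt.c₄ =
    (P.a ^ P.p) ^ 2 + P.a ^ P.p * P.b ^ P.p + (P.b ^ P.p) ^ 2 := by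
  have h2 := four_mul_a₂ P
  have h4 := sixteen_mul_a₄ P
  simp only [WeierstrassCurve.c₄, WeierstrassCurve.b₂, WeierstrassCurve.b₄, freyCurveInt_a₁,
    freyCurveInt_a₃]
  have h2' : P.freyCurveInt.a₂ * 4 = P.b ^ P.p - 1 - P.a ^ P.p := by linarith
  generalize P.freyCurveInt.a₂ = x at *
  generalize P.freyCurveInt.a₄ = y at *
  generalize P.a ^ P.p = A at *
  generalize P.b ^ P.p = B at *
  have hx : (1 : ℤ) ^ 2 + 4 * x = B - A := by linarith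
  rw [hx]
  linear_combination (-3) * h4

/-- `Δ` of the Frey curve: `2 ^ 8 Δ = (a ^ p b ^ p c ^ p) ^ 2`. -/
theorem freyCurveInt_Δ : 2 ^ 8 * P.freyCurveInt.Δ = (P.a * P.b * P.c) ^ (2 * P.p) := by
  have h2 := four_mul_a₂ P
  have h4 := sixteen_mul_a₄ P
  have hc := P.hFLT
  have e : (P.a * P.b * P.c) ^ (2 * P.p) = (P.a ^ P.p * P.b ^ P.p * P.c ^ P.p) ^ 2 := by
    ring
  rw [e, ← hc]
  simp only [WeierstrassCurve.Δ, WeierstrassCurve.b₂, WeierstrassCurve.b₄, WeierstrassCurve.b₆,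
    WeierstrassCurve.b₈, freyCurveInt_a₁, freyCurveInt_a₃, freyCurveInt_a₆]
  generalize P.freyCurveInt.a₂ = x at *
  generalize P.freyCurveInt.a₄ = y at *
  generalize P.a ^ P.p = A at *
  generalize P.b ^ P.p = B at *
  have hx : 4 * x = B - 1 - A := h2
  have hy : 16 * y = -A * B := h4
  have key : (1 : ℤ) ^ 2 + 4 * x = B - A := by linarith
  rw [key]
  have : (2 : ℤ) ^ 8 * (-(B - A) ^ 2 * (1 ^ 2 * 0 + 4 * x * 0 - 1 * 0 * y + x * 0 ^ 2 - y ^ 2) -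
      8 * (2 * y + 1 * 0) ^ 3 - 27 * (0 ^ 2 + 4 * 0) ^ 2 +
      9 * (B - A) * (2 * y + 1 * 0) * (0 ^ 2 + 4 * 0)) =
      (B - A) ^ 2 * (16 * y) ^ 2 - 4 * (16 * y) ^ 3 := by ring
  rw [this, hy]
  ring

theorem freyCurveInt_Δ_ne_zero : P.freyCurveInt.Δ ≠ 0 := by
  intro h
  have := freyCurveInt_Δ P
  rw [h, mul_zero] at this
  exact pow_ne_zero _ P.habc0 this.symm

theorem freyCurveInt_Δ_dvd {q : ℕ} (hq : q.Prime) (h : (q : ℤ) ∣ P.freyCurveInt.Δ) :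
    (q : ℤ) ∣ P.a * P.b * P.c := by
  have h1 : (q : ℤ) ∣ (P.a * P.b * P.c) ^ (2 * P.p) := by
    rw [← freyCurveInt_Δ]; exact Dvd.dvd.mul_left h _
  exact (Nat.prime_iff_prime_int.mp hq).dvd_of_dvd_pow h1

/-- For an odd prime `q`, `q ∣ Δ ↔ q ∣ abc`. -/
theorem dvd_freyCurveInt_Δ_iff {q : ℕ} (hq : q.Prime) (hq2 : q ≠ 2) :
    (q : ℤ) ∣ P.freyCurveInt.Δ ↔ (q : ℤ) ∣ P.a * P.b * P.c := by
  refine ⟨freyCurveInt_Δ_dvd P hq, fun h => ?_⟩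
  have hqp := Nat.prime_iff_prime_int.mp hq
  have h1 : (q : ℤ) ∣ 2 ^ 8 * P.freyCurveInt.Δ := by
    rw [freyCurveInt_Δ]
    exact dvd_pow h (by have := P.hppos; omega)
  rcases hqp.dvd_or_dvd h1 with h2 | h2
  · exfalso
    have h3 : (q : ℤ) ∣ 2 := hqp.dvd_of_dvd_pow h2
    have h4 : q ∣ 2 := by exact_mod_cast h3
    exact hq2 ((Nat.prime_dvd_prime_iff_eq hq Nat.prime_two).mp h4)
  · exact h2

lemma two_dvd_freyCurveInt_Δ : (2 : ℤ) ∣ P.freyCurveInt.Δ := by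
  have h := freyCurveInt_Δ P
  have h1 : (2 : ℤ) ^ (2 * P.p) ∣ (P.a * P.b * P.c) ^ (2 * P.p) :=
    pow_dvd_pow_of_dvd P.two_dvd_abc _
  have h2 : (2 : ℤ) ^ 9 ∣ 2 ^ (2 * P.p) := pow_dvd_pow _ (by have := P.hp5; omega)
  have h3 : (2 : ℤ) ^ 9 ∣ 2 ^ 8 * P.freyCurveInt.Δ := h ▸ h2.trans h1
  have h4 : (2 : ℤ) ^ 8 * 2 ∣ 2 ^ 8 * P.freyCurveInt.Δ := by
    rw [← pow_succ]; exact h3
  exact (mul_dvd_mul_iff_left (by norm_num : (2 : ℤ) ^ 8 ≠ 0)).mp h4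

/-- For every prime `q`, `q ∣ Δ ↔ q ∣ abc`. -/
theorem dvd_freyCurveInt_Δ_iff' {q : ℕ} (hq : q.Prime) :
    (q : ℤ) ∣ P.freyCurveInt.Δ ↔ (q : ℤ) ∣ P.a * P.b * P.c := by
  by_cases hq2 : q = 2
  · subst hq2
    exact ⟨fun _ => P.two_dvd_abc, fun _ => two_dvd_freyCurveInt_Δ P⟩
  · exact dvd_freyCurveInt_Δ_iff P hq hq2

/-- The Frey curve is semistable. -/
theorem freyCurveInt_isSemistableModel : P.freyCurveInt.IsSemistableModel := by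
  intro q hq hΔ hc4
  have hqp := Nat.prime_iff_prime_int.mp hq
  have habc := freyCurveInt_Δ_dvd P hq hΔ
  rw [freyCurveInt_c₄] at hc4
  have hgcd : ¬ ((q : ℤ) ∣ P.a ∧ (q : ℤ) ∣ P.b) := by
    rintro ⟨h1, h2⟩
    have h3 : (q : ℤ) ∣ gcd P.a P.b := dvd_gcd h1 h2
    rw [P.hgcdab] at h3
    exact hqp.not_isUnit (isUnit_of_dvd_one h3)
  have hA : ∀ {x : ℤ} , (q : ℤ) ∣ x ^ P.p → (q : ℤ) ∣ x := fun h => hqp.dvd_of_dvd_pow h
  have hp0 := P.hp0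
  rcases hqp.dvd_or_dvd habc with h | h
  · rcases hqp.dvd_or_dvd h with h | h
    · have h1 : (q : ℤ) ∣ P.a ^ P.p := dvd_pow h hp0
      have h2 : (q : ℤ) ∣ (P.b ^ P.p) ^ 2 := by
        have : (P.b ^ P.p) ^ 2 = ((P.a ^ P.p) ^ 2 + P.a ^ P.p * P.b ^ P.p + (P.b ^ P.p) ^ 2) -
          P.a ^ P.p * (P.a ^ P.p + P.b ^ P.p) := by ring
        rw [this]
        exact dvd_sub hc4 (Dvd.dvd.mul_right h1 _)
      exact hgcd ⟨h, hA (hqp.dvd_of_dvd_pow h2)⟩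
    · have h1 : (q : ℤ) ∣ P.b ^ P.p := dvd_pow h hp0
      have h2 : (q : ℤ) ∣ (P.a ^ P.p) ^ 2 := by
        have : (P.a ^ P.p) ^ 2 = ((P.a ^ P.p) ^ 2 + P.a ^ P.p * P.b ^ P.p + (P.b ^ P.p) ^ 2) -
          P.b ^ P.p * (P.a ^ P.p + P.b ^ P.p) := by ring
        rw [this]
        exact dvd_sub hc4 (Dvd.dvd.mul_right h1 _)
      exact hgcd ⟨hA (hqp.dvd_of_dvd_pow h2), h⟩
  · have h1 : (q : ℤ) ∣ P.a ^ P.p + P.b ^ P.p := by
      rw [P.hFLT]; exact dvd_pow h hp0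
    have h2 : (q : ℤ) ∣ P.a ^ P.p * P.b ^ P.p := by
      have : P.a ^ P.p * P.b ^ P.p = (P.a ^ P.p + P.b ^ P.p) * (P.a ^ P.p + P.b ^ P.p) -
        ((P.a ^ P.p) ^ 2 + P.a ^ P.p * P.b ^ P.p + (P.b ^ P.p) ^ 2) := by ring
      rw [this]
      exact dvd_sub (Dvd.dvd.mul_right h1 _) hc4
    rcases hqp.dvd_or_dvd h2 with h3 | h3
    · have h4 : (q : ℤ) ∣ P.b ^ P.p := (Int.dvd_iff_dvd_of_dvd_add h1).mp h3
      exact hgcd ⟨hA h3, hA h4⟩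
    · have h4 : (q : ℤ) ∣ P.a ^ P.p := (Int.dvd_iff_dvd_of_dvd_add h1).mpr h3
      exact hgcd ⟨hA h4, hA h3⟩

end Fermat.Agent.H26
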