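import Fermat.Statements.S51
import Fermat.Agent.H51.AlgContra
import Fermat.Agent.H51.TorsionCount
import Fermat.Agent.H51.QbarGalois

set_option autoImplicit false
open WeierstrassCurve WeierstrassCurve.Affine WeierstrassCurve.Affine.Point
open CuspForm ModularFormClass UpperHalfPlane
open WeierstrassCurve

namespace Fermat.Agent.S51

open Fermat.Agent.H51

section general

variable {E : WeierstrassCurve.Affine ℚ}

local notation "Kbar" => AlgebraicClosure ℚ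

/-- Galois action on abscissae. -/
lemma xc_galois (σ : Kbar ≃ₐ[ℚ] Kbar) (P : (E⁄Kbar).Point) : xc (σ • P) = σ (xc P) := by
  rcases P with _ | ⟨x, y, h⟩
  · exact (map_zero σ).symm
  · rfl

lemma nsmul_galois (σ : Kbar ≃ₐ[ℚ] Kbar) (n : ℕ) (P : (E⁄Kbar).Point) :
    σ • (n • P) = n • (σ • P) :=
  (Point.map (W' := E) σ.toAlgHom).map_nsmul n P

/-- `E[3]` reducible yields a rational root of the 3-division polynomial. -/
lemma three_reducible (hΔ : (E⁄Kbar).Δ ≠ 0)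
    (h : ¬ GaloisRepIsIrreducible (K := Kbar) ℚ E 3) :
    ∃ x : ℚ, psi3 (E⁄Kbar) (algebraMap ℚ Kbar x) = 0 := by
  have h3 : (3 : Kbar) ≠ 0 := by norm_num
  have hfact : Fact (Nat.Prime 3) := ⟨by norm_num⟩
  obtain ⟨hfin, hcard⟩ := card_three_torsion (V := E⁄Kbar) h3
  have hnt : Nontrivial (Submodule.torsionBy ℤ (E⁄Kbar).Point (3 : ℕ)) := by
    obtain ⟨P, hP, hP3⟩ := exists_three_torsion (V := E⁄Kbar) hΔ h3
    refine ⟨⟨P, ?_⟩, 0, fun h => hP (congrArg Subtype.val h)⟩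
    rw [Submodule.mem_torsionBy_iff]
    exact_mod_cast hP3
  unfold GaloisRepIsIrreducible at h
  push Not at h
  obtain ⟨N, hN, hbot, htop⟩ := h hnt
  obtain ⟨v, hv, hv0, hall⟩ := line_of_card (p := 3) hfin (by omega) N hbot htop
  have hv0' : (v : (E⁄Kbar).Point) ≠ 0 := fun h => hv0 (Subtype.ext h)
  have hv3 : (3 : ℕ) • (v : (E⁄Kbar).Point) = 0 := by
    have := v.2
    rw [Submodule.mem_torsionBy_iff] at this
    exact_mod_cast this
  have hfix : ∀ σ : Kbar ≃ₐ[ℚ] Kbar, σ (xc (v : (E⁄Kbar).Point)) = xc (v : (E⁄Kbar).Point) := by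
    intro σ
    obtain ⟨c, hc⟩ := hall (σ • v) (hN σ v hv)
    have hc' : σ • (v : (E⁄Kbar).Point) = ((c • v : Submodule.torsionBy ℤ (E⁄Kbar).Point (3 : ℕ)) : (E⁄Kbar).Point) :=
      congrArg Subtype.val hc
    have hcn : ((c • v : Submodule.torsionBy ℤ (E⁄Kbar).Point (3 : ℕ)) : (E⁄Kbar).Point) =
        c.val • (v : (E⁄Kbar).Point) := by
      have : c • v = c.val • v := by
        conv_lhs => rw [← ZMod.natCast_zmod_val c]
        exact Nat.cast_smul_eq_nsmul _ _ _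
      rw [this]; rfl
    rw [hcn] at hc'
    have hne : σ • (v : (E⁄Kbar).Point) ≠ 0 := by
      intro h
      apply hv0'
      have := congrArg (fun P => σ⁻¹ • P) h
      simpa using this
    rw [← xc_galois, hc']
    have hlt := ZMod.val_lt c
    generalize c.val = m at hlt hc'
    interval_cases m
    · rw [zero_nsmul] at hc'; exact absurd hc' hne
    · rw [one_nsmul]
    · have : (2 : ℕ) • (v : (E⁄Kbar).Point) = -v := by
        rw [eq_neg_iff_add_eq_zero, ← succ_nsmul]; exact hv3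
      rw [this, xc_neg]
  obtain ⟨q, hq⟩ := rational_of_fixed hfix
  refine ⟨q, ?_⟩
  rw [hq]
  exact psi3_of_three hv0' hv3

/-- `E[5]` reducible yields rational `s = x(P) + x(2P)`, `p = x(P)x(2P)`. -/
lemma five_reducible (hΔ : (E⁄Kbar).Δ ≠ 0)
    (h : ¬ GaloisRepIsIrreducible (K := Kbar) ℚ E 5) :
    ∃ s p : ℚ, s * (s ^ 2 - 4 * p) = 2 * p * s + E.b₂ * p + E.b₄ * s + E.b₆ ∧
      p * (s ^ 2 - 4 * p) = p ^ 2 - E.b₄ * p - E.b₆ * s - E.b₈ := by
  have h5 : (5 : Kbar) ≠ 0 := by norm_num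
  have hfact : Fact (Nat.Prime 5) := ⟨by norm_num⟩
  obtain ⟨hfin, hcard⟩ := card_five_torsion (V := E⁄Kbar) h5
  have hnt : Nontrivial (Submodule.torsionBy ℤ (E⁄Kbar).Point (5 : ℕ)) := by
    obtain ⟨P, hP, hP3⟩ := exists_five_torsion (V := E⁄Kbar) hΔ h5
    refine ⟨⟨P, ?_⟩, 0, fun h => hP (congrArg Subtype.val h)⟩
    rw [Submodule.mem_torsionBy_iff]
    exact_mod_cast hP3
  unfold GaloisRepIsIrreducible at h
  push Not at h
  obtain ⟨N, hN, hbot, htop⟩ := h hnt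
  obtain ⟨v, hv, hv0, hall⟩ := line_of_card (p := 5) hfin (by omega) N hbot htop
  have hv0' : (v : (E⁄Kbar).Point) ≠ 0 := fun h => hv0 (Subtype.ext h)
  have hv5 : (5 : ℕ) • (v : (E⁄Kbar).Point) = 0 := by
    have := v.2
    rw [Submodule.mem_torsionBy_iff] at this
    exact_mod_cast this
  obtain ⟨-, h20, hxne, h32⟩ := psi5_of_five hv0' hv5
  have hsum := xc_add_sub_sum h20 hv0' hxne
  have hprod := xc_add_sub_prod h20 hv0' hxne
  have h21 : (2 : ℕ) • (v : (E⁄Kbar).Point) - v = v := by rw [two_nsmul, add_sub_cancel_right]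
  rw [h21, h32] at hsum hprod
  have hpair : ∀ σ : Kbar ≃ₐ[ℚ] Kbar,
      (σ (xc (v : (E⁄Kbar).Point)) = xc (v : (E⁄Kbar).Point) ∧
        σ (xc ((2 : ℕ) • (v : (E⁄Kbar).Point))) = xc ((2 : ℕ) • (v : (E⁄Kbar).Point))) ∨
      (σ (xc (v : (E⁄Kbar).Point)) = xc ((2 : ℕ) • (v : (E⁄Kbar).Point)) ∧
        σ (xc ((2 : ℕ) • (v : (E⁄Kbar).Point))) = xc (v : (E⁄Kbar).Point)) := by
    intro σ
    obtain ⟨c, hc⟩ := hall (σ • v) (hN σ v hv)
    have hc' : σ • (v : (E⁄Kbar).Point) = ((c • v : Submodule.torsionBy ℤ (E⁄Kbar).Point (5 : ℕ)) : (E⁄Kbar).Point) :=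
      congrArg Subtype.val hc
    have hcn : ((c • v : Submodule.torsionBy ℤ (E⁄Kbar).Point (5 : ℕ)) : (E⁄Kbar).Point) =
        c.val • (v : (E⁄Kbar).Point) := by
      have : c • v = c.val • v := by
        conv_lhs => rw [← ZMod.natCast_zmod_val c]
        exact Nat.cast_smul_eq_nsmul _ _ _
      rw [this]; rfl
    rw [hcn] at hc'
    have hne : σ • (v : (E⁄Kbar).Point) ≠ 0 := by
      intro h
      apply hv0'
      have := congrArg (fun P => σ⁻¹ • P) h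
      simpa using this
    rw [← xc_galois, ← xc_galois, nsmul_galois, hc']
    have hlt := ZMod.val_lt c
    generalize c.val = m at hlt hc'
    have h3v : (3 : ℕ) • (v : (E⁄Kbar).Point) = -((2 : ℕ) • v) := by
      rw [eq_neg_iff_add_eq_zero, ← add_nsmul]; exact hv5
    have h4v : (4 : ℕ) • (v : (E⁄Kbar).Point) = -v := by
      rw [eq_neg_iff_add_eq_zero, ← succ_nsmul]; exact hv5
    interval_cases m
    · rw [zero_nsmul] at hc'; exact absurd hc' hne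
    · left; rw [one_nsmul]; exact ⟨rfl, rfl⟩
    · right; refine ⟨rfl, ?_⟩
      rw [← mul_nsmul]
      show xc ((4 : ℕ) • (v : (E⁄Kbar).Point)) = _
      rw [h4v, xc_neg]
    · right
      rw [h3v, xc_neg, neg_nsmul, xc_neg, ← mul_nsmul]
      refine ⟨rfl, ?_⟩
      show xc ((4 : ℕ) • (v : (E⁄Kbar).Point)) = _
      rw [h4v, xc_neg]
    · left
      rw [h4v, xc_neg, neg_nsmul, xc_neg]
      exact ⟨rfl, rfl⟩
  obtain ⟨x1, hx1⟩ : ∃ x1, x1 = xc (v : (E⁄Kbar).Point) := ⟨_, rfl⟩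
  obtain ⟨x2, hx2⟩ : ∃ x2, x2 = xc ((2 : ℕ) • (v : (E⁄Kbar).Point)) := ⟨_, rfl⟩
  rw [← hx1, ← hx2] at hsum hprod
  simp only [← hx1, ← hx2] at hpair
  obtain ⟨s, hs⟩ := rational_of_fixed (x := x1 + x2) (fun σ => by
    rcases hpair σ with ⟨h1, h2⟩ | ⟨h1, h2⟩
    · rw [map_add, h1, h2]
    · rw [map_add, h1, h2, add_comm])
  obtain ⟨p, hp⟩ := rational_of_fixed (x := x1 * x2) (fun σ => by
    rcases hpair σ with ⟨h1, h2⟩ | ⟨h1, h2⟩
    · rw [map_mul, h1, h2]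
    · rw [map_mul, h1, h2, mul_comm])
  have hb2 : (E⁄Kbar).b₂ = algebraMap ℚ Kbar E.b₂ := WeierstrassCurve.map_b₂ ..
  have hb4 : (E⁄Kbar).b₄ = algebraMap ℚ Kbar E.b₄ := WeierstrassCurve.map_b₄ ..
  have hb6 : (E⁄Kbar).b₆ = algebraMap ℚ Kbar E.b₆ := WeierstrassCurve.map_b₆ ..
  have hb8 : (E⁄Kbar).b₈ = algebraMap ℚ Kbar E.b₈ := WeierstrassCurve.map_b₈ ..
  rw [hb2, hb4, hb6] at hsum
  rw [hb4, hb6, hb8] at hprod
  refine ⟨s, p, ?_, ?_⟩
  · apply (algebraMap ℚ Kbar).injective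
    simp only [map_add, map_sub, map_mul, map_pow, map_ofNat]
    rw [hs, hp]
    linear_combination hsum
  · apply (algebraMap ℚ Kbar).injective
    simp only [map_add, map_sub, map_mul, map_pow, map_ofNat]
    rw [hs, hp]
    linear_combination hprod

end general

theorem result (W : WeierstrassCurve ℤ) (hΔ : W.Δ ≠ 0) (hW : W.IsSemistableModel) : W.ModRepIsIrreducible 3 ∨ W.ModRepIsIrreducible 5 := by
  by_contra hcon
  push Not at hcon
  obtain ⟨h3, h5⟩ := hcon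
  have hΔQ : (W.map (Int.castRingHom ℚ)).Δ ≠ 0 := by
    rw [WeierstrassCurve.map_Δ]
    simpa using hΔ
  have hΔK : ((W.map (Int.castRingHom ℚ))⁄(AlgebraicClosure ℚ)).Δ ≠ 0 := by
    have : ((W.map (Int.castRingHom ℚ))⁄(AlgebraicClosure ℚ)).Δ =
        algebraMap ℚ (AlgebraicClosure ℚ) (W.map (Int.castRingHom ℚ)).Δ :=
      WeierstrassCurve.map_Δ ..
    rw [this]
    simpa using hΔQ
  obtain ⟨x, hx⟩ := three_reducible hΔK h3
  obtain ⟨s, p, h1, h2⟩ := five_reducible hΔK h5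
  have hx' : psi3 (W.map (Int.castRingHom ℚ)) x = 0 := by
    apply (algebraMap ℚ (AlgebraicClosure ℚ)).injective
    rw [_root_.map_zero, ← hx]
    unfold psi3
    have hb2 : ((W.map (Int.castRingHom ℚ))⁄(AlgebraicClosure ℚ)).b₂ =
      algebraMap ℚ (AlgebraicClosure ℚ) (W.map (Int.castRingHom ℚ)).b₂ := WeierstrassCurve.map_b₂ ..
    have hb4 : ((W.map (Int.castRingHom ℚ))⁄(AlgebraicClosure ℚ)).b₄ =
      algebraMap ℚ (AlgebraicClosure ℚ) (W.map (Int.castRingHom ℚ)).b₄ := WeierstrassCurve.map_b₄ ..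
    have hb6 : ((W.map (Int.castRingHom ℚ))⁄(AlgebraicClosure ℚ)).b₆ =
      algebraMap ℚ (AlgebraicClosure ℚ) (W.map (Int.castRingHom ℚ)).b₆ := WeierstrassCurve.map_b₆ ..
    have hb8 : ((W.map (Int.castRingHom ℚ))⁄(AlgebraicClosure ℚ)).b₈ =
      algebraMap ℚ (AlgebraicClosure ℚ) (W.map (Int.castRingHom ℚ)).b₈ := WeierstrassCurve.map_b₈ ..
    rw [hb2, hb4, hb6, hb8]
    simp only [map_add, map_mul, map_pow, map_ofNat]
  unfold psi3 at hx'
  rw [WeierstrassCurve.map_b₂, WeierstrassCurve.map_b₄, WeierstrassCurve.map_b₆,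
    WeierstrassCurve.map_b₈] at hx'
  rw [WeierstrassCurve.map_b₂, WeierstrassCurve.map_b₄, WeierstrassCurve.map_b₆] at h1
  rw [WeierstrassCurve.map_b₄, WeierstrassCurve.map_b₆, WeierstrassCurve.map_b₈] at h2
  simp only [eq_intCast] at hx' h1 h2
  have hc4 : (W.c₄ : ℚ) = (W.b₂ : ℚ) ^ 2 - 24 * W.b₄ := by
    rw [WeierstrassCurve.c₄]; push_cast; ring
  have hrel : 4 * (W.b₈ : ℚ) = W.b₂ * W.b₆ - W.b₄ ^ 2 := by
    exact_mod_cast congrArg (Int.cast : ℤ → ℚ) W.b_relation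
  have hΔf : (W.Δ : ℚ) = -(W.b₂ : ℚ) ^ 2 * W.b₈ - 8 * (W.b₄ : ℚ) ^ 3 - 27 * (W.b₆ : ℚ) ^ 2 +
      9 * W.b₂ * W.b₄ * W.b₆ := by
    rw [WeierstrassCurve.Δ]; push_cast; ring
  generalize (W.b₂ : ℚ) = b2 at *
  generalize (W.b₄ : ℚ) = b4 at *
  generalize (W.b₆ : ℚ) = b6 at *
  generalize (W.b₈ : ℚ) = b8 at *
  refine no_curve (c := W.c₄) (Δ := W.Δ) hΔ hW (s := 36 * s + 6 * b2)
    (p := 1296 * p + 108 * b2 * s + 9 * b2 ^ 2) (A := -27 * (W.c₄ : ℚ))
    (B := -54 * (-b2 ^ 3 + 36 * b2 * b4 - 216 * b6)) (x := 36 * x + 3 * b2) rfl ?_ ?_ ?_ ?_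
  · rw [hc4, hΔf]
    linear_combination (-34012224 * b2 ^ 2) * hrel
  · rw [hc4]
    linear_combination 46656 * h1
  · rw [hc4]
    linear_combination 1679616 * h2 + 139968 * b2 * h1 - 419904 * hrel
  · rw [hc4]
    linear_combination 1679616 * hx' - 419904 * hrel

end Fermat.Agent.S51
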