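import Fermat.Statements.S08
import Fermat.Prelude.Thm_ModularForm_sturm_bound_Gamma0

set_option autoImplicit false
open WeierstrassCurve WeierstrassCurve.Affine WeierstrassCurve.Affine.Point
open CuspForm ModularFormClass UpperHalfPlane
open ModularForm

namespace Fermat.Agent.S08

theorem result (f : CuspForm (CongruenceSubgroup.Gamma0 1) 2) : f = 0 := by
  have hidx : (CongruenceSubgroup.Gamma0 1).index ≤ 1 := by
    have : CongruenceSubgroup.Gamma0 1 = ⊤ := by
      ext x
      simp [eq_iff_true_of_subsingleton]
    rw [this]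
    simp
  have h1 : (1 : ℝ) ∈ (CongruenceSubgroup.Gamma0 1 : Subgroup (GL (Fin 2) ℝ)).strictPeriods := by
    simp [CongruenceSubgroup.strictPeriods_Gamma0]
  let g : ModularForm (CongruenceSubgroup.Gamma0 1) 2 :=
    { toSlashInvariantForm := f.toSlashInvariantForm
      holo' := f.holo'
      bdd_at_cusps' := fun hc γ hγ => (f.zero_at_cusps' hc γ hγ).isBoundedAtImInfty }
  have hg : (g : ℍ → ℂ) = f := rfl
  have hg0 : g = 0 := by
    apply ModularForm.sturm_bound_Gamma0 1 g
    intro n hn
    have : n = 0 := by
      have : ((2 : ℤ) * (CongruenceSubgroup.Gamma0 1).index).toNat / 12 = 0 := by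
        omega
      omega
    subst this
    rw [hg]
    exact CuspFormClass.qExpansion_coeff_zero f one_pos h1
  ext z
  have := DFunLike.congr_fun hg0 z
  exact this

end Fermat.Agent.S08
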