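import Mathlib
import Fermat.Prelude.Def_FLTPrelim_FreyPackage
import Fermat.Prelude.Def_FLTPrelim_GaloisRep
import Fermat.Prelude.Def_FLTPrelim_Modularity
import Fermat.Prelude.Def_FLTPrelim_ModularRep
import Fermat.Prelude.Def_FLTPrelim_Ramification
import Fermat.Prelude.Def_FLTPrelim_CofixedLine
import Fermat.Prelude.Def_FreyPackage_IsConductorLevel
import Fermat.Prelude.Def_WeierstrassCurve_Mlc1RowStatement
import Fermat.Agent.H26_FreyBasics
import Fermat.Agent.S07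
import Fermat.Agent.S08

/-!
# Conditional wiring of the top of the tree

Each theorem takes the deep statements as hypotheses of exactly the frozen shape.
-/

set_option autoImplicit false

open WeierstrassCurve WeierstrassCurve.Affine WeierstrassCurve.Affine.Point
open CuspForm ModularFormClass UpperHalfPlane

namespace Fermat.Agent.H26

/-! ## The propositions (exactly the frozen types) -/

/-- Statement S04. -/
abbrev Prop04 : Prop := ∀ P : FreyPackage, P.freyCurve.IsModular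

/-- Statement S05. -/
abbrev Prop05 : Prop := ∀ (P : FreyPackage) {q : ℕ}, q.Prime → q ≠ 2 → q ≠ P.p →
  P.GaloisRepUnramifiedAt q

/-- Statement S06. -/
abbrev Prop06 : Prop := ∀ P : FreyPackage, ∃ N : ℕ, P.IsConductorLevel N ∧ P.ModularRepOfLevel N

/-- Statement S09. -/
abbrev Prop09 : Prop := ∀ P : FreyPackage,
  GaloisRepIsIrreducible (K := AlgebraicClosure ℚ) ℚ P.freyCurve P.p

/-- Statement S10. -/
abbrev Prop10 : Prop := ∀ P : FreyPackage, (P.p = 5 ∨ P.p = 7 ∨ P.p = 13) →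
  ¬ HasGaloisStableCofixedLine (K := AlgebraicClosure ℚ) ℚ P.freyCurve P.p

/-- Statement S11. -/
abbrev Prop11 : Prop := ∀ P : FreyPackage, P.p = 11 →
  ¬ HasGaloisStableCofixedLine (K := AlgebraicClosure ℚ) ℚ P.freyCurve P.p

/-- Statement S12. -/
abbrev Prop12 : Prop := ∀ P : FreyPackage, 17 ≤ P.p →
  ¬ HasGaloisStableCofixedLine (K := AlgebraicClosure ℚ) ℚ P.freyCurve P.p

/-- Statement S13. -/
abbrev Prop13 : Prop := ∀ P : FreyPackage,
  ¬ GaloisRepIsIrreducible (K := AlgebraicClosure ℚ) ℚ P.freyCurve P.p →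
  HasGaloisStableCofixedLine (K := AlgebraicClosure ℚ) ℚ P.freyCurve P.p

/-- Statement S43. -/
abbrev Prop43 : Prop := ∀ (P : FreyPackage) {N q : ℕ}, P.IsConductorLevel N → q.Prime → q ≠ 2 →
  q ≠ P.p → q ∣ N → GaloisRepIsIrreducible (K := AlgebraicClosure ℚ) ℚ P.freyCurve P.p →
  P.ModularRepOfLevel N → P.GaloisRepUnramifiedAt q →
  ∃ M : ℕ, M ∣ N ∧ ¬ q ∣ M ∧ P.ModularRepOfLevel M

/-- Statement S44. -/
abbrev Prop44 : Prop := ∀ (P : FreyPackage) {N : ℕ}, P.IsConductorLevel N → P.p ∣ N →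
  GaloisRepIsIrreducible (K := AlgebraicClosure ℚ) ℚ P.freyCurve P.p →
  P.ModularRepOfLevel N → ∃ M : ℕ, M ∣ N ∧ ¬ P.p ∣ M ∧ P.ModularRepOfLevel M

/-- Statement S45. -/
abbrev Prop45 : Prop := ∀ P : FreyPackage, P.freyCurve.IsModular →
  GaloisRepIsIrreducible (K := AlgebraicClosure ℚ) ℚ P.freyCurve P.p →
  ∃ f : CuspForm (CongruenceSubgroup.Gamma0 2) 2, f ≠ 0

/-- Statement S50. -/
abbrev Prop50 : Prop := ∀ W : WeierstrassCurve ℤ, W.Δ ≠ 0 → W.IsSemistableModel →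
  W.ModRepIsIrreducible 3 →
    ∃ M : ℕ, 0 < M ∧ W.IsResiduallyModularOfLevel 3 M ∧
      (∀ q : ℕ, q.Prime → q ≠ 3 → ¬ q ^ 3 ∣ M) ∧
      (3 ^ 2 ∣ M →
        ∀ A : ValuationSubring (AlgebraicClosure ℚ), A.LiesOverPrime 3 →
          ∀ x : Submodule.torsionBy ℤ
              ((W.map (Int.castRingHom ℚ))⁄(AlgebraicClosure ℚ)).Point (3 : ℕ),
            (∀ σ ∈ A.inertiaSubgroupIn ℚ, σ • x = x) → x = 0)

/-- Statement S51. -/
abbrev Prop51 : Prop := ∀ W : WeierstrassCurve ℤ, W.Δ ≠ 0 → W.IsSemistableModel →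
  W.ModRepIsIrreducible 3 ∨ W.ModRepIsIrreducible 5

/-- Statement S52. -/
abbrev Prop52 : Prop := ∀ W : WeierstrassCurve ℤ, W.Δ ≠ 0 → W.IsSemistableModel →
  W.ModRepIsIrreducible 5 → ∃ W' : WeierstrassCurve ℤ, W'.Δ ≠ 0 ∧ W'.IsSemistableModel ∧
    W'.ModRepIsIrreducible 3 ∧ ∀ ℓ : ℕ, ℓ.Prime → W.IsGoodPrimeFor ℓ → W'.IsGoodPrimeFor ℓ →
      ℓ ≠ 5 → (5 : ℤ) ∣ (W'.apOfModel ℓ - W.apOfModel ℓ)

/-- Statement S59. -/
abbrev Prop59 : Prop := ∀ (p : ℕ), (p = 3 ∨ p = 5) → ∀ W : WeierstrassCurve ℤ, W.Δ ≠ 0 →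
  W.IsSemistableModel → W.ModRepIsIrreducible p → ∀ (M₀ : ℕ) [NeZero M₀],
    W.IsResiduallyModularOfLevel p M₀ → ¬ p ^ 2 ∣ M₀ →
    (∀ q : ℕ, q.Prime → q ≠ p → ¬ q ^ 3 ∣ M₀) → Mlc1IsModularModelOfExactConductorLevel W

/-- Statement S60. -/
abbrev Prop60 : Prop := ∀ W : WeierstrassCurve ℤ, W.Δ ≠ 0 → W.IsSemistableModel →
  (W.map (Int.castRingHom ℚ)).IsModular

/-- The missing link between S50 and S59: residual modularity at `3` of some level `M₀` that is
not divisible by `9` and is cube-free away from `3`. -/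
abbrev PropResThree : Prop := ∀ W : WeierstrassCurve ℤ, W.Δ ≠ 0 → W.IsSemistableModel →
  W.ModRepIsIrreducible 3 → ∃ M₀ : ℕ, 0 < M₀ ∧ W.IsResiduallyModularOfLevel 3 M₀ ∧
    ¬ 3 ^ 2 ∣ M₀ ∧ ∀ q : ℕ, q.Prime → q ≠ 3 → ¬ q ^ 3 ∣ M₀

/-- The "level `9 → 3`" step needed after S50: a semistable curve with irreducible mod `3`
representation, residually modular at `3` of a level `M` divisible by `9`, and without
inertia-fixed `3`-torsion above `3`, is residually modular at `3` of a level not divisible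
by `9`. -/
abbrev PropNineToThree : Prop := ∀ W : WeierstrassCurve ℤ, W.Δ ≠ 0 → W.IsSemistableModel →
  W.ModRepIsIrreducible 3 → ∀ M : ℕ, 0 < M → W.IsResiduallyModularOfLevel 3 M →
    (∀ q : ℕ, q.Prime → q ≠ 3 → ¬ q ^ 3 ∣ M) → 3 ^ 2 ∣ M →
    (∀ A : ValuationSubring (AlgebraicClosure ℚ), A.LiesOverPrime 3 →
      ∀ x : Submodule.torsionBy ℤ
        ((W.map (Int.castRingHom ℚ))⁄(AlgebraicClosure ℚ)).Point (3 : ℕ),
        (∀ σ ∈ A.inertiaSubgroupIn ℚ, σ • x = x) → x = 0) →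
    ∃ M₀ : ℕ, 0 < M₀ ∧ W.IsResiduallyModularOfLevel 3 M₀ ∧
      ¬ 3 ^ 2 ∣ M₀ ∧ ∀ q : ℕ, q.Prime → q ≠ 3 → ¬ q ^ 3 ∣ M₀

/-! ## Wiring -/

theorem resThree_of (h50 : Prop50) (h93 : PropNineToThree) : PropResThree := by
  intro W hΔ hW h3
  obtain ⟨M, hM, hres, hcube, hfix⟩ := h50 W hΔ hW h3
  by_cases h9 : 3 ^ 2 ∣ M
  · exact h93 W hΔ hW h3 M hM hres hcube h9 (hfix h9)
  · exact ⟨M, hM, hres, h9, hcube⟩

/-- S09 from S10, S11, S12, S13. -/
theorem s09_of (h10 : Prop10) (h11 : Prop11) (h12 : Prop12) (h13 : Prop13) : Prop09 := by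
  intro P
  by_contra hred
  have hline := h13 P hred
  have hp := P.pp
  have hp5 := P.hp5
  by_cases h17 : 17 ≤ P.p
  · exact h12 P h17 hline
  · have h17' : P.p < 17 := not_le.mp h17
    have : P.p = 5 ∨ P.p = 7 ∨ P.p = 11 ∨ P.p = 13 := by
      generalize P.p = p at hp hp5 h17'
      interval_cases p <;> first | omega | (exfalso; revert hp; norm_num)
    rcases this with h | h | h | h
    · exact h10 P (Or.inl h) hline
    · exact h10 P (Or.inr (Or.inl h)) hline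
    · exact h11 P h hline
    · exact h10 P (Or.inr (Or.inr h)) hline

/-- S03 from S04, S09, S45 (and S07). -/
theorem s03_of (h04 : Prop04) (h09 : Prop09) (h45 : Prop45) (P : FreyPackage) : False := by
  obtain ⟨f, hf⟩ := h45 P (h04 P) (h09 P)
  exact hf (Fermat.Agent.S07.result f)

/-- Level lowering loop: from a conductor level, all odd primes can be removed. -/
theorem exists_level_dvd_two (h05 : Prop05) (h43 : Prop43) (h44 : Prop44) (P : FreyPackage)
    (hirr : GaloisRepIsIrreducible (K := AlgebraicClosure ℚ) ℚ P.freyCurve P.p) (N : ℕ)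
    (hcond : P.IsConductorLevel N) (hmod : P.ModularRepOfLevel N) :
    ∃ M : ℕ, M ∣ 2 ∧ P.ModularRepOfLevel M := by
  induction N using Nat.strong_induction_on with
  | _ N ih =>
    by_cases hodd : ∃ q : ℕ, q.Prime ∧ q ≠ 2 ∧ q ∣ N
    · obtain ⟨q, hq, hq2, hqN⟩ := hodd
      have key : ∃ M : ℕ, M ∣ N ∧ ¬ q ∣ M ∧ P.ModularRepOfLevel M := by
        by_cases hqp : q = P.p
        · subst hqp
          exact h44 P hcond hqN hirr hmod
        · exact h43 P hcond hq hq2 hqp hqN hirr hmod (h05 P hq hq2 hqp)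
      obtain ⟨M, hMN, hqM, hM⟩ := key
      have hM0 : 0 < M := Nat.pos_of_dvd_of_pos hMN hcond.pos
      have hlt : M < N := by
        refine lt_of_le_of_ne (Nat.le_of_dvd hcond.pos hMN) ?_
        rintro rfl
        exact hqM hqN
      exact ih M hlt (hcond.of_dvd hMN hM0) hM
    · refine ⟨N, ?_, hmod⟩
      have hall : ∀ q : ℕ, q.Prime → q ∣ N → q = 2 := fun q hq hqN => by
        by_contra h
        exact hodd ⟨q, hq, h, hqN⟩
      obtain ⟨k, hk⟩ : ∃ k, N = 2 ^ k :=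
        ⟨_, Nat.eq_prime_pow_of_unique_prime_dvd hcond.pos.ne' (fun {d} hd hdN => hall d hd hdN)⟩
      have hk1 : k ≤ 1 := by
        by_contra h
        have h2 : 2 ≤ k := by omega
        exact hcond.sq_not_dvd Nat.prime_two (hk ▸ pow_dvd_pow 2 h2)
      rw [hk]
      calc 2 ^ k ∣ 2 ^ 1 := pow_dvd_pow 2 hk1
        _ = 2 := by norm_num

/-- S45 from S05, S06, S43, S44 (and S08). -/
theorem s45_of (h05 : Prop05) (h06 : Prop06) (h43 : Prop43) (h44 : Prop44) : Prop45 := by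
  intro P _ hirr
  obtain ⟨N, hcond, hmod⟩ := h06 P
  obtain ⟨M, hM2, f, W, 𝔪, hf, -⟩ := exists_level_dvd_two h05 h43 h44 P hirr N hcond hmod
  have hne := hf.ne_zero
  rcases (Nat.dvd_prime Nat.prime_two).mp hM2 with rfl | rfl
  · exact absurd (Fermat.Agent.S08.result f) hne
  · exact ⟨f, hne⟩

/-- Exact-conductor-level modularity of all semistable models, from S51, S52, S59 and residual
modularity at `3` of suitable level. -/
theorem exactConductor_of (h51 : Prop51) (h52 : Prop52) (h59 : Prop59) (h3 : PropResThree)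
    (W : WeierstrassCurve ℤ) (hΔ : W.Δ ≠ 0) (hW : W.IsSemistableModel) :
    Mlc1IsModularModelOfExactConductorLevel W := by
  have main3 : ∀ W : WeierstrassCurve ℤ, W.Δ ≠ 0 → W.IsSemistableModel →
      W.ModRepIsIrreducible 3 → Mlc1IsModularModelOfExactConductorLevel W := by
    intro W hΔ hW hirr
    obtain ⟨M₀, hM₀, hres, h9, hcube⟩ := h3 W hΔ hW hirr
    haveI : NeZero M₀ := ⟨hM₀.ne'⟩
    exact h59 3 (Or.inl rfl) W hΔ hW hirr M₀ hres h9 hcube
  rcases h51 W hΔ hW with hirr | hirr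
  · exact main3 W hΔ hW hirr
  · obtain ⟨W', hΔ', hW', hirr', hcong⟩ := h52 W hΔ hW hirr
    obtain ⟨N, hN, hsq, hsupp, f, hf, hfW'⟩ := main3 W' hΔ' hW' hirr'
    haveI : NeZero N := ⟨hN.ne'⟩
    have hsq' : ∀ q : ℕ, q.Prime → ¬ q ^ 2 ∣ N := by
      intro q hq h
      exact Nat.squarefree_iff_prime_squarefree.mp hsq q hq (by rwa [← pow_two])
    refine h59 5 (Or.inr rfl) W hΔ hW hirr N ?_ (hsq' 5 (by norm_num)) ?_
    · obtain ⟨𝔪, hmax, hmem⟩ :=
        FLTPrelim.exists_maximalIdeal_natCast_prime_mem (p := 5) (by norm_num)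
      refine ⟨f, 𝔪, hf, hmax, hmem, fun ℓ hℓ hgood hℓN hℓ5 => ?_⟩
      have hgood' : W'.IsGoodPrimeFor ℓ := fun h => hℓN ((hsupp ℓ hℓ).mpr h)
      refine ⟨((W'.apOfModel ℓ : ℤ) : integralClosure ℤ ℂ), ?_, ?_⟩
      · rw [hfW' ℓ hℓ hgood' hℓN]
        simp
      · obtain ⟨c, hc⟩ := hcong ℓ hℓ hgood hgood' hℓ5
        have : (((W'.apOfModel ℓ : ℤ) : integralClosure ℤ ℂ) -
            ((W.apOfModel ℓ : ℤ) : integralClosure ℤ ℂ)) =
            ((5 : ℕ) : integralClosure ℤ ℂ) * ((c : ℤ) : integralClosure ℤ ℂ) := by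
          rw [← Int.cast_sub, hc]
          push_cast
          ring
        rw [this]
        exact Ideal.mul_mem_right _ _ hmem
    · intro q hq _ h
      exact hsq' q hq ((pow_dvd_pow q (by norm_num)).trans h)

/-- S60 from S51, S52, S59 and residual modularity at `3`. -/
theorem s60_of (h51 : Prop51) (h52 : Prop52) (h59 : Prop59) (h3 : PropResThree) : Prop60 := by
  intro W hΔ hW
  obtain ⟨N, hN, -, -, hmod⟩ := exactConductor_of h51 h52 h59 h3 W hΔ hW
  exact ⟨W, ⟨1, by rw [one_smul]⟩, N, hN, hmod⟩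

/-- S04 from S60. -/
theorem s04_of (h60 : Prop60) : Prop04 := by
  intro P
  have := h60 P.freyCurveInt (freyCurveInt_Δ_ne_zero P) (freyCurveInt_isSemistableModel P)
  rwa [freyCurveInt_map] at this

/-- S06 from the exact-conductor-level modularity of the Frey curve. -/
theorem s06_of_exact (h : ∀ W : WeierstrassCurve ℤ, W.Δ ≠ 0 → W.IsSemistableModel →
    Mlc1IsModularModelOfExactConductorLevel W) : Prop06 := by
  intro P
  obtain ⟨N, hN, hsq, hsupp, f, hf, hfW⟩ :=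
    h P.freyCurveInt (freyCurveInt_Δ_ne_zero P) (freyCurveInt_isSemistableModel P)
  refine ⟨N, ⟨hN, hsq, fun q hq hqN => freyCurveInt_Δ_dvd P hq ((hsupp q hq).mp hqN)⟩, ?_⟩
  obtain ⟨𝔪, hmax, hmem⟩ := FLTPrelim.exists_maximalIdeal_natCast_prime_mem P.pp
  refine ⟨f, P.freyCurveInt, 𝔪, hf, freyCurveInt_isIntegralModelOf P, hmax, hmem,
    fun ℓ hℓ hgood hℓN _ => ⟨((P.freyCurveInt.apOfModel ℓ : ℤ) : integralClosure ℤ ℂ), ?_, ?_⟩⟩
  · rw [hfW ℓ hℓ hgood hℓN]
    simp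
  · rw [sub_self]
    exact zero_mem _

/-- S06 from S51, S52, S59 and residual modularity at `3`. -/
theorem s06_of (h51 : Prop51) (h52 : Prop52) (h59 : Prop59) (h3 : PropResThree) : Prop06 :=
  s06_of_exact (exactConductor_of h51 h52 h59 h3)

/-- The whole of FLT (S03) from the deep statements. -/
theorem s03_of_deep (h05 : Prop05) (h10 : Prop10) (h11 : Prop11) (h12 : Prop12) (h13 : Prop13)
    (h43 : Prop43) (h44 : Prop44) (h50 : Prop50) (h93 : PropNineToThree) (h51 : Prop51)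
    (h52 : Prop52) (h59 : Prop59) (P : FreyPackage) : False :=
  s03_of (s04_of (s60_of h51 h52 h59 (resThree_of h50 h93))) (s09_of h10 h11 h12 h13)
    (s45_of h05 (s06_of h51 h52 h59 (resThree_of h50 h93)) h43 h44) P

end Fermat.Agent.H26
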