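import Fermat.Statements.S02
-- import your own Fermat.Agent.* helpers here

set_option autoImplicit false
open FreyPackage

namespace Fermat.Agent.S02

/-- Build a Frey package from coprime data with `a` odd and `b` even (fixing the sign). -/
lemma nonempty_of_odd_even {a b c : ℤ} (ha : a ≠ 0) (hb : b ≠ 0) (hc : c ≠ 0) {p : ℕ}
    (pp : p.Prime) (hp5 : 5 ≤ p) (H : a ^ p + b ^ p = c ^ p) (hab : IsCoprime a b)
    (hao : ¬ (2 : ℤ) ∣ a) (hbe : (2 : ℤ) ∣ b) : Nonempty FreyPackage := by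
  have hodd : Odd p := pp.odd_of_ne_two (by omega)
  have hb2 : (b : ZMod 2) = 0 := (ZMod.intCast_zmod_eq_zero_iff_dvd b 2).2 (by exact_mod_cast hbe)
  have h4 : a % 4 = 1 ∨ a % 4 = 3 := by omega
  rcases h4 with h4 | h4
  · -- negate
    refine ⟨⟨-a, -b, -c, neg_ne_zero.2 ha, neg_ne_zero.2 hb, neg_ne_zero.2 hc, p, pp, hp5, ?_, ?_, ?_,
      ?_⟩⟩
    · rw [hodd.neg_pow, hodd.neg_pow, hodd.neg_pow, ← H]; ring
    · have : IsCoprime (-a) (-b) := hab.neg_neg
      have h := Int.isCoprime_iff_gcd_eq_one.1 this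
      change ((Int.gcd (-a) (-b) : ℕ) : ℤ) = 1
      rw [h]; rfl
    · have : (-a) % 4 = 3 := by omega
      have h2 : (((-a) : ℤ) : ZMod 4) = ((3 : ℤ) : ZMod 4) := by
        rw [ZMod.intCast_eq_intCast_iff']
        simpa using this
      rw [h2]; rfl
    · push_cast; rw [hb2]; simp
  · refine ⟨⟨a, b, c, ha, hb, hc, p, pp, hp5, H, ?_, ?_, hb2⟩⟩
    · have h := Int.isCoprime_iff_gcd_eq_one.1 hab
      change ((Int.gcd a b : ℕ) : ℤ) = 1
      rw [h]; rfl
    · have h2 : ((a : ℤ) : ZMod 4) = ((3 : ℤ) : ZMod 4) := by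
        rw [ZMod.intCast_eq_intCast_iff']
        simpa using h4
      rw [h2]; rfl

lemma nonempty_of_coprime {a b c : ℤ} (ha : a ≠ 0) (hb : b ≠ 0) (hc : c ≠ 0) {p : ℕ}
    (pp : p.Prime) (hp5 : 5 ≤ p) (H : a ^ p + b ^ p = c ^ p) (hab : IsCoprime a b) :
    Nonempty FreyPackage := by
  have hodd : Odd p := pp.odd_of_ne_two (by omega)
  have hp0 : p ≠ 0 := pp.ne_zero
  by_cases hbe : (2 : ℤ) ∣ b
  · have hao : ¬ (2 : ℤ) ∣ a := by
      intro hae
      have := hab.isUnit_of_dvd' hae hbe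
      rw [Int.isUnit_iff] at this
      omega
    exact nonempty_of_odd_even ha hb hc pp hp5 H hab hao hbe
  · by_cases hae : (2 : ℤ) ∣ a
    · exact nonempty_of_odd_even hb ha hc pp hp5 (by rw [add_comm]; exact H) hab.symm hbe hae
    · -- both odd, so c even
      have hce : (2 : ℤ) ∣ c := by
        have h1 : Odd (a ^ p) := (Int.not_even_iff_odd.1 (fun h => hae h.two_dvd)).pow
        have h2 : Odd (b ^ p) := (Int.not_even_iff_odd.1 (fun h => hbe h.two_dvd)).pow
        have h3 : Even (c ^ p) := by rw [← H]; exact h1.add_odd h2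
        exact ((Int.even_pow' hp0).1 h3).two_dvd
      have H' : (-a) ^ p + c ^ p = b ^ p := by
        rw [hodd.neg_pow, ← H]; ring
      have hcop : IsCoprime (-a) c := by
        have h1 : IsCoprime (a ^ p) (b ^ p) := hab.pow
        have h2 : IsCoprime (a ^ p) (c ^ p) := by
          rw [← H]
          have := (IsCoprime.add_mul_left_right_iff (x := a ^ p) (y := b ^ p) (z := 1)).2 h1
          rwa [mul_one, add_comm] at this
        have h3 : IsCoprime a c := (IsCoprime.pow_iff (Nat.pos_of_ne_zero hp0)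
          (Nat.pos_of_ne_zero hp0)).1 h2
        exact h3.neg_left
      exact nonempty_of_odd_even (neg_ne_zero.2 ha) hc hb pp hp5 H' hcop
        (by rwa [dvd_neg]) hce

theorem result (a b c : ℤ) (ha : a ≠ 0) (hb : b ≠ 0) (hc : c ≠ 0) (p : ℕ) (pp : p.Prime) (hp5 : 5 ≤ p) (H : a ^ p + b ^ p = c ^ p) : Nonempty FreyPackage := by
  have hp0 : p ≠ 0 := pp.ne_zero
  obtain ⟨a', ha'⟩ : (Int.gcd a b : ℤ) ∣ a := Int.gcd_dvd_left ..
  obtain ⟨b', hb'⟩ : (Int.gcd a b : ℤ) ∣ b := Int.gcd_dvd_right ..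
  set d : ℤ := (Int.gcd a b : ℤ) with hd
  have hd0 : d ≠ 0 := by
    intro h
    rw [h, zero_mul] at ha'
    exact ha ha'
  obtain ⟨c', hc'⟩ : d ∣ c := by
    rw [← Int.pow_dvd_pow_iff hp0, ← H, ha', hb', mul_pow, mul_pow]
    exact dvd_add (dvd_mul_right _ _) (dvd_mul_right _ _)
  have hcop : IsCoprime a' b' := by
    have h := Int.gcd_eq_gcd_ab a b
    rw [← hd] at h
    refine ⟨Int.gcdA a b, Int.gcdB a b, ?_⟩
    apply mul_left_cancel₀ hd0
    calc d * (Int.gcdA a b * a' + Int.gcdB a b * b')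
        = (d * a') * Int.gcdA a b + (d * b') * Int.gcdB a b := by ring
      _ = a * Int.gcdA a b + b * Int.gcdB a b := by rw [← ha', ← hb']
      _ = d := h.symm
      _ = d * 1 := (mul_one d).symm
  have H' : a' ^ p + b' ^ p = c' ^ p := by
    apply mul_left_cancel₀ (pow_ne_zero p hd0)
    calc d ^ p * (a' ^ p + b' ^ p) = (d * a') ^ p + (d * b') ^ p := by rw [mul_pow, mul_pow]; ring
      _ = a ^ p + b ^ p := by rw [← ha', ← hb']
      _ = c ^ p := H
      _ = (d * c') ^ p := by rw [← hc']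
      _ = d ^ p * c' ^ p := mul_pow _ _ _
  refine nonempty_of_coprime (a := a') (b := b') (c := c') ?_ ?_ ?_ pp hp5 H' hcop
  · rintro rfl; exact ha (by rw [ha', mul_zero])
  · rintro rfl; exact hb (by rw [hb', mul_zero])
  · rintro rfl; exact hc (by rw [hc', mul_zero])

end Fermat.Agent.S02
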