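import Mathlib.NumberTheory.FLT.Basic
import Mathlib.NumberTheory.FLT.Three
import Mathlib.NumberTheory.FLT.Four
import Fermat.Agent.S02

/-!
# Wiring: `S01` (elementary FLT) from `S03` (no Frey package)

`Fermat.Agent.H01.flt_of_no_freyPackage` reduces the elementary form of FLT to the
non-existence of a Frey package, through `S02`.
-/

set_option autoImplicit false

namespace Fermat.Agent.H01

/-- FLT for a prime exponent `≥ 5`, from non-existence of Frey packages. -/
theorem fltFor_prime_of_no_freyPackage (h : FreyPackage → False) (p : ℕ) (pp : p.Prime)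
    (hp5 : 5 ≤ p) : FermatLastTheoremFor p := by
  rw [fermatLastTheoremFor_iff_int]
  intro a b c ha hb hc H
  obtain ⟨P⟩ := Fermat.Agent.S02.result a b c ha hb hc p pp hp5 H
  exact h P

/-- FLT from non-existence of Frey packages. -/
theorem flt_of_no_freyPackage (h : FreyPackage → False) : FermatLastTheorem := by
  apply FermatLastTheorem.of_odd_primes
  intro p pp hodd
  by_cases hp5 : 5 ≤ p
  · exact fltFor_prime_of_no_freyPackage h p pp hp5
  · have h2 := pp.two_le
    have h3 : p = 3 := by
      obtain ⟨k, hk⟩ := hodd
      omega
    subst h3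
    exact fermatLastTheoremThree

/-- The elementary form of FLT from non-existence of Frey packages; this is literally the
statement `S01` under the hypothesis `S03`. -/
theorem s01_of_s03 (h : ∀ _ : FreyPackage, False) (n : ℕ) (hn : 3 ≤ n) (a b c : ℕ) (ha : 0 < a)
    (hb : 0 < b) (hc : 0 < c) : a ^ n + b ^ n ≠ c ^ n :=
  flt_of_no_freyPackage h n hn a b c ha.ne' hb.ne' hc.ne'

end Fermat.Agent.H01
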