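import Mathlib

set_option autoImplicit false

noncomputable section

open UpperHalfPlane hiding I
open ModularForm EisensteinSeries Derivative Filter Complex
open scoped MatrixGroups Topology Manifold Real

namespace Fermat.Agent.H18

local notation "𝕢" => Function.Periodic.qParam

/-- limit at infinity of a function with a q-expansion -/
theorem tendsto_of_hasSum {h : ℝ} (hh : 0 < h) {f : ℍ → ℂ} {c : ℕ → ℂ}
    (hf : ∀ τ : ℍ, HasSum (fun m ↦ c m • 𝕢 h τ ^ m) (f τ)) :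
    Tendsto f atImInfty (𝓝 (c 0)) := by
  set g : ℍ → ℂ := fun τ => (f τ - c 0) / 𝕢 h τ with hgdef
  have hq : ∀ τ : ℍ, 𝕢 h τ ≠ 0 := fun τ => exp_ne_zero _
  have hg : ∀ τ : ℍ, HasSum (fun m => c (m+1) • 𝕢 h τ ^ m) (g τ) := by
    intro τ
    have h1 := (hasSum_nat_add_iff' 1).mpr (hf τ)
    have h2 := h1.mul_right (𝕢 h τ)⁻¹
    have e1 : (fun m : ℕ => c (m+1) • 𝕢 h τ ^ m) =
        fun i : ℕ => c (i + 1) • 𝕢 h τ ^ (i + 1) * (𝕢 h τ)⁻¹ := by
      ext m
      have := hq τ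
      simp only [smul_eq_mul, pow_succ]
      field_simp
    have e2 : g τ = (f τ - ∑ i ∈ Finset.range 1, c i • 𝕢 h τ ^ i) * (𝕢 h τ)⁻¹ := by
      simp [hgdef, div_eq_mul_inv]
    rw [e1, e2]
    exact h2
  have hb := isBoundedAtImInfty_of_hasSum_qExpansion hh hg
  have hf' : f = fun τ : ℍ => c 0 + 𝕢 h τ * g τ := by
    ext τ
    have := hq τ
    simp only [hgdef]
    field_simp
    ring
  have hz : Tendsto (fun τ : ℍ => 𝕢 h τ * g τ) atImInfty (𝓝 0) := by
    have h0 := qParam_tendsto_atImInfty hh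
    have h1 := (Asymptotics.isLittleO_one_iff ℝ).mpr h0
    have h2 := h1.mul_isBigO hb
    refine (Asymptotics.isLittleO_one_iff ℝ).mp (h2.congr_right ?_)
    intro x
    simp
  rw [hf']
  simpa using hz.const_add (c 0)

theorem tendsto_E2 : Tendsto E2 atImInfty (𝓝 1) := by
  have := tendsto_of_hasSum (h := 1) one_pos (f := E2) (c := fun m => if m = 0 then 1 else
    -24 * (ArithmeticFunction.sigma 1 m : ℂ)) (fun τ => by
    simpa only [Function.Periodic.qParam, ofReal_one, div_one] using hasSum_qExpansion_E2 (z := τ))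
  simpa using this

theorem hasDerivAt_qParam (z : ℂ) : HasDerivAt (𝕢 1) (2 * π * I * 𝕢 1 z) z := by
  have h1 : HasDerivAt (fun z : ℂ => 2 * π * I * z / ((1 : ℝ) : ℂ)) (2 * π * I) z := by
    have := (hasDerivAt_id z).const_mul (2 * π * I)
    simpa using this
  have h2 := h1.cexp
  have e : 2 * π * I * 𝕢 1 z = cexp (2 * π * I * z / ((1 : ℝ) : ℂ)) * (2 * π * I) := by
    unfold Function.Periodic.qParam
    ring
  rw [e]
  exact h2

/-- the normalized derivative of a level one form in terms of the cusp function -/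
theorem normalizedDeriv_eq {k : ℤ} (f : ModularForm 𝒮ℒ k) (z : ℍ) :
    normalizedDerivOfComplex f z = 𝕢 1 z * deriv (cuspFunction 1 f) (𝕢 1 z) := by
  have hq : ‖𝕢 1 z‖ < 1 := Function.Periodic.norm_qParam_lt_one one_pos z.im_pos
  have hd := ModularFormClass.differentiableAt_cuspFunction f one_pos
    one_mem_strictPeriods_SL hq
  have h1 : (fun w : ℂ => cuspFunction 1 f (𝕢 1 w)) =ᶠ[𝓝 (z : ℂ)] (f ∘ ofComplex) := by
    filter_upwards [isOpen_upperHalfPlaneSet.mem_nhds z.im_pos] with w hw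
    have := SlashInvariantFormClass.eq_cuspFunction f ⟨w, hw⟩ one_mem_strictPeriods_SL one_ne_zero
    simp only [Function.comp_apply]
    rw [ofComplex_apply_of_im_pos hw]
    exact this
  unfold normalizedDerivOfComplex
  rw [← h1.deriv_eq]
  have h2 : HasDerivAt (fun w : ℂ => cuspFunction 1 f (𝕢 1 w))
      (deriv (cuspFunction 1 f) (𝕢 1 z) * (2 * π * I * 𝕢 1 z)) (z : ℂ) :=
    HasDerivAt.comp (z : ℂ) hd.hasDerivAt (hasDerivAt_qParam z)
  rw [h2.deriv]
  have : (2 * π * I : ℂ) ≠ 0 := two_pi_I_ne_zero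
  field_simp

theorem tendsto_normalizedDeriv {k : ℤ} (f : ModularForm 𝒮ℒ k) :
    Tendsto (normalizedDerivOfComplex f) atImInfty (𝓝 0) := by
  have h1 : normalizedDerivOfComplex f =
      fun z : ℍ => 𝕢 1 z * deriv (cuspFunction 1 f) (𝕢 1 z) := by
    ext z; exact normalizedDeriv_eq f z
  rw [h1]
  have h0 := qParam_tendsto_atImInfty (h := 1) one_pos
  have ha := ModularFormClass.analyticAt_cuspFunction_zero f one_pos one_mem_strictPeriods_SL
  have h2 := (ha.deriv.continuousAt.tendsto.comp h0)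
  have h3 := h0.mul h2
  simpa using h3

theorem tendsto_coeff_zero {k : ℤ} (f : ModularForm 𝒮ℒ k) :
    Tendsto f atImInfty (𝓝 ((qExpansion 1 f).coeff 0)) := by
  have h := tendsto_of_hasSum (h := 1) one_pos (f := f)
    (c := fun m => (qExpansion 1 f).coeff m) (fun τ => by
      simpa using ModularForm.hasSum_qExpansion (f := f) one_pos one_mem_strictPeriods_SL τ)
  simpa using h

theorem tendsto_serre {k : ℤ} (f : ModularForm 𝒮ℒ k) :
    Tendsto (serreDerivative k f) atImInfty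
      (𝓝 (- (k * 12⁻¹ * (qExpansion 1 f).coeff 0))) := by
  have h1 := (tendsto_normalizedDeriv f).sub
    ((tendsto_E2.const_mul ((k : ℂ) * 12⁻¹)).mul (tendsto_coeff_zero f))
  simpa [serreDerivative] using h1

theorem SL_slash_eq {k : ℤ} (f : ModularForm 𝒮ℒ k) (γ : SL(2, ℤ)) : (f : ℍ → ℂ) ∣[k] γ = f :=
  f.slash_action_eq' _ ⟨γ, rfl⟩

/-- The Serre derivative as a modular form. -/
def serreD {k : ℤ} (f : ModularForm 𝒮ℒ k) : ModularForm 𝒮ℒ (k + 2) where
  toFun := serreDerivative k f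
  slash_action_eq' := by
    rintro _ ⟨γ, rfl⟩
    exact serreDerivative_slash_invariant f.holo' (SL_slash_eq f γ)
  holo' := serreDerivative_mdifferentiable k f.holo'
  bdd_at_cusps' {c} hc := by
    rw [Subgroup.IsArithmetic.isCusp_iff_isCusp_SL2Z] at hc
    rw [OnePoint.isBoundedAt_iff_forall_SL2Z hc]
    intro γ _
    have : serreDerivative k f ∣[k + 2] γ = serreDerivative k f :=
      serreDerivative_slash_invariant f.holo' (SL_slash_eq f γ)
    erw [this]
    exact (tendsto_serre f).isBigO_one ℝ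

@[simp]
theorem serreD_apply {k : ℤ} (f : ModularForm 𝒮ℒ k) (z : ℍ) :
    serreD f z = serreDerivative k f z := rfl

theorem coeff_zero_eq_of_tendsto {k : ℤ} (f : ModularForm 𝒮ℒ k) {a : ℂ}
    (h : Tendsto f atImInfty (𝓝 a)) : (qExpansion 1 f).coeff 0 = a :=
  tendsto_nhds_unique (tendsto_coeff_zero f) h

theorem coeff_zero_serreD {k : ℤ} (f : ModularForm 𝒮ℒ k) :
    (qExpansion 1 (serreD f)).coeff 0 = - (k * 12⁻¹ * (qExpansion 1 f).coeff 0) :=
  coeff_zero_eq_of_tendsto _ (tendsto_serre f)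

theorem E4_coeff_zero : (qExpansion 1 E₄).coeff 0 = 1 := E_qExpansion_coeff_zero _ ⟨2, rfl⟩
theorem E6_coeff_zero : (qExpansion 1 E₆).coeff 0 = 1 := E_qExpansion_coeff_zero _ ⟨3, rfl⟩

theorem E6_ne_zero' : (E₆ : ModularForm 𝒮ℒ 6) ≠ 0 := by
  intro h
  have := E6_coeff_zero
  rw [h] at this
  simp [qExpansion_zero] at this

theorem E4_ne_zero' : (E₄ : ModularForm 𝒮ℒ 4) ≠ 0 := by
  intro h
  have := E4_coeff_zero
  rw [h] at this
  simp [qExpansion_zero] at this

/-- Ramanujan's identity `D E₄ = (E₂ E₄ - E₆) / 3`. -/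
theorem ramanujan_E4 (z : ℍ) :
    serreDerivative 4 E₄ z = - (1 / 3) * E₆ z := by
  obtain ⟨c, hc⟩ := (finrank_eq_one_iff_of_nonzero' E₆ E6_ne_zero').mp
    (Module.rank_eq_one_iff_finrank_eq_one.mp levelOne_weight_six_rank_one)
    (ModularForm.mcast (by norm_num) (serreD E₄) : ModularForm 𝒮ℒ 6)
  have h1 : ∀ z : ℍ, c * E₆ z = serreDerivative 4 E₄ z := by
    intro z
    exact congrArg (fun f : ModularForm 𝒮ℒ 6 => f z) hc
  have h2 : Tendsto (fun z : ℍ => c * E₆ z) atImInfty (𝓝 (c * 1)) := by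
    have := (tendsto_coeff_zero E₆).const_mul c
    rwa [E6_coeff_zero] at this
  have h3 := tendsto_serre E₄
  rw [E4_coeff_zero] at h3
  have h4 : (fun z : ℍ => c * E₆ z) = serreDerivative ((4 : ℤ) : ℂ) E₄ := by
    ext z; simpa using h1 z
  rw [h4] at h2
  have h5 := tendsto_nhds_unique h2 h3
  have hc' : c = - (1/3) := by
    rw [mul_one] at h5
    rw [h5]
    norm_num
  rw [← h1 z, hc']

theorem rank_weight_eight : Module.finrank ℂ (ModularForm 𝒮ℒ 8) = 1 := by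
  have := dimension_level_one 8 ⟨4, rfl⟩
  rw [← Module.rank_eq_one_iff_finrank_eq_one]
  simpa [Nat.ModEq] using this

theorem rank_weight_fourteen : Module.finrank ℂ (ModularForm 𝒮ℒ 14) = 1 := by
  have := dimension_level_one 14 ⟨7, rfl⟩
  rw [← Module.rank_eq_one_iff_finrank_eq_one]
  simpa [Nat.ModEq] using this

/-- Ramanujan's identity `D E₆ = (E₂ E₆ - E₄²) / 2`. -/
theorem ramanujan_E6 (z : ℍ) :
    serreDerivative 6 E₆ z = - (1 / 2) * E₄ z ^ 2 := by
  have hsq : Tendsto (fun z : ℍ => E₄ z ^ 2) atImInfty (𝓝 1) := by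
    have := (tendsto_coeff_zero E₄).pow 2
    rw [E4_coeff_zero] at this
    simpa using this
  set E8 : ModularForm 𝒮ℒ 8 := ModularForm.mcast (by norm_num) (E₄.pow 2) with hE8
  have hE8a : ∀ z : ℍ, E8 z = E₄ z ^ 2 := by
    intro z
    rw [hE8]
    exact congrFun (ModularForm.coe_pow E₄ 2) z
  have hne : E8 ≠ 0 := by
    intro h
    have h1 : (fun z : ℍ => E₄ z ^ 2) = fun _ => 0 := by
      ext z; rw [← hE8a z, h]; rfl
    rw [h1] at hsq
    exact zero_ne_one (tendsto_nhds_unique tendsto_const_nhds hsq)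
  obtain ⟨c, hc⟩ := (finrank_eq_one_iff_of_nonzero' E8 hne).mp rank_weight_eight
    (ModularForm.mcast (by norm_num) (serreD E₆) : ModularForm 𝒮ℒ 8)
  have h1 : ∀ z : ℍ, c * E₄ z ^ 2 = serreDerivative 6 E₆ z := by
    intro z
    have h := congrArg (fun f : ModularForm 𝒮ℒ 8 => f z) hc
    rw [← hE8a z]
    exact h
  have h2 : Tendsto (fun z : ℍ => c * E₄ z ^ 2) atImInfty (𝓝 (c * 1)) := hsq.const_mul c
  have h3 := tendsto_serre E₆
  rw [E6_coeff_zero] at h3
  have h4 : (fun z : ℍ => c * E₄ z ^ 2) = serreDerivative ((6 : ℤ) : ℂ) E₆ := by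
    ext z; simpa using h1 z
  rw [h4] at h2
  have h5 := tendsto_nhds_unique h2 h3
  have hc' : c = - (1/2) := by
    rw [mul_one] at h5
    rw [h5]
    norm_num
  rw [← h1 z, hc']

local notation "Δ" => ModularForm.discriminant

theorem mdiff_E4 : MDiff (E₄ : ℍ → ℂ) := E₄.holo'
theorem mdiff_E6 : MDiff (E₆ : ℍ → ℂ) := E₆.holo'
theorem mdiff_discriminant : MDiff Δ := CuspForm.discriminant.holo'

theorem D_E4 (z : ℍ) : normalizedDerivOfComplex E₄ z = (E2 z * E₄ z - E₆ z) / 3 := by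
  have h := ramanujan_E4 z
  rw [serreDerivative_apply] at h
  linear_combination h

theorem D_E6 (z : ℍ) : normalizedDerivOfComplex E₆ z = (E2 z * E₆ z - E₄ z ^ 2) / 2 := by
  have h := ramanujan_E6 z
  rw [serreDerivative_apply] at h
  linear_combination h

theorem E4_cube_eq (z : ℍ) : E₄ z ^ 3 = 1728 * Δ z + E₆ z ^ 2 := by
  have := discriminant_eq_E₄_cube_sub_E₆_sq z
  linear_combination -1728 * this

theorem D_E4_cube (z : ℍ) : normalizedDerivOfComplex ((E₄ : ℍ → ℂ) ^ 3) z =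
    E₄ z ^ 2 * (E2 z * E₄ z - E₆ z) := by
  rw [normalizedDerivOfComplex_pow _ 3 mdiff_E4]
  simp only [Pi.mul_apply, Pi.pow_apply, D_E4]
  norm_num
  ring

theorem D_E6_sq (z : ℍ) : normalizedDerivOfComplex ((E₆ : ℍ → ℂ) ^ 2) z =
    E₆ z * (E2 z * E₆ z - E₄ z ^ 2) := by
  rw [normalizedDerivOfComplex_pow _ 2 mdiff_E6]
  simp only [Pi.mul_apply, Pi.pow_apply, D_E6]
  norm_num
  ring

theorem D_discriminant (z : ℍ) : normalizedDerivOfComplex Δ z = E2 z * Δ z := by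
  have h1 : Δ = (1728 : ℂ)⁻¹ • ((E₄ : ℍ → ℂ) ^ 3 - (E₆ : ℍ → ℂ) ^ 2) := by
    ext w
    rw [discriminant_eq_E₄_cube_sub_E₆_sq w]
    simp
    ring
  have h4 : MDiff ((E₄ : ℍ → ℂ) ^ 3) := mdiff_E4.pow 3
  have h6 : MDiff ((E₆ : ℍ → ℂ) ^ 2) := mdiff_E6.pow 2
  rw [h1, normalizedDerivOfComplex_smul _ _ (h4.sub h6),
    normalizedDerivOfComplex_sub _ _ h4 h6]
  simp only [Pi.smul_apply, Pi.sub_apply, D_E4_cube, D_E6_sq, smul_eq_mul, Pi.pow_apply]
  ring

theorem deriv_eq_D (f : ℍ → ℂ) (z : ℍ) :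
    deriv (f ∘ ofComplex) z = 2 * π * I * normalizedDerivOfComplex f z := by
  unfold normalizedDerivOfComplex
  have : (2 * π * I : ℂ) ≠ 0 := two_pi_I_ne_zero
  field_simp

theorem not_both_zero (z : ℍ) (h4 : E₄ z = 0) (h6 : E₆ z = 0) : False := by
  have h := E4_cube_eq z
  rw [h4, h6] at h
  have hd := discriminant_ne_zero z
  apply hd
  have : (1728 : ℂ) * Δ z = 0 := by linear_combination -h
  simpa using this

/-- zeros of `E₄` are simple -/
theorem deriv_E4_ne_zero (z : ℍ) (h : E₄ z = 0) : deriv (E₄ ∘ ofComplex) z ≠ 0 := by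
  rw [deriv_eq_D, D_E4, h]
  have h6 : E₆ z ≠ 0 := fun h6 => not_both_zero z h h6
  have := two_pi_I_ne_zero
  simp [h6]

/-- zeros of `E₆` are simple -/
theorem deriv_E6_ne_zero (z : ℍ) (h : E₆ z = 0) : deriv (E₆ ∘ ofComplex) z ≠ 0 := by
  rw [deriv_eq_D, D_E6, h]
  have h4 : E₄ z ≠ 0 := fun h4 => not_both_zero z h4 h
  simp [h4]

/-- zeros of `E₄³ - cΔ` are simple away from the zeros of `E₄` and `E₆` -/
theorem deriv_E4_cube_sub_ne_zero (z : ℍ) (c : ℂ) (h : E₄ z ^ 3 = c * Δ z) (h4 : E₄ z ≠ 0)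
    (h6 : E₆ z ≠ 0) :
    deriv ((fun z : ℍ => E₄ z ^ 3 - c * Δ z) ∘ ofComplex) z ≠ 0 := by
  have e : (fun z : ℍ => E₄ z ^ 3 - c * Δ z) = ((E₄ : ℍ → ℂ) ^ 3 - c • Δ) := by
    ext w; simp
  have hm4 : MDiff ((E₄ : ℍ → ℂ) ^ 3) := mdiff_E4.pow 3
  have hmd : MDiff (c • Δ) := mdiff_discriminant.const_smul c
  rw [deriv_eq_D, e, normalizedDerivOfComplex_sub _ _ hm4 hmd,
    normalizedDerivOfComplex_smul _ _ mdiff_discriminant]
  simp only [Pi.sub_apply, Pi.smul_apply, D_E4_cube, D_discriminant, smul_eq_mul]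
  have : E₄ z ^ 2 * (E2 z * E₄ z - E₆ z) - c * (E2 z * Δ z) = - (E₄ z ^ 2 * E₆ z) := by
    linear_combination (E2 z) * h
  rw [this]
  have := two_pi_I_ne_zero
  simp [h4, h6]

/-- The modular function `j`. -/
def jfun (z : ℍ) : ℂ := E₄ z ^ 3 / Δ z

theorem mdiff_jfun : MDiff jfun := by
  have h4 : MDiff ((E₄ : ℍ → ℂ) ^ 3) := mdiff_E4.pow 3
  exact h4.div mdiff_discriminant discriminant_ne_zero

theorem jfun_mul_discriminant (z : ℍ) : jfun z * Δ z = E₄ z ^ 3 :=
  div_mul_cancel₀ _ (discriminant_ne_zero z)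

theorem jfun_sub (z : ℍ) : (jfun z - 1728) * Δ z = E₆ z ^ 2 := by
  rw [sub_mul, jfun_mul_discriminant, E4_cube_eq]; ring

theorem D_jfun (z : ℍ) : normalizedDerivOfComplex jfun z = - (E₄ z ^ 2 * E₆ z) / Δ z := by
  have h := normalizedDerivOfComplex_mul jfun Δ mdiff_jfun mdiff_discriminant
  have e : jfun * Δ = (E₄ : ℍ → ℂ) ^ 3 := by
    ext w; exact jfun_mul_discriminant w
  rw [e] at h
  have h1 := congrFun h z
  rw [D_E4_cube, Pi.add_apply, Pi.mul_apply, Pi.mul_apply, D_discriminant] at h1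
  have hd := discriminant_ne_zero z
  have h2 := jfun_mul_discriminant z
  field_simp
  linear_combination -h1 - (E2 z) * h2

theorem deriv_jfun_ne_zero (z : ℍ) (h4 : E₄ z ≠ 0) (h6 : E₆ z ≠ 0) :
    deriv (jfun ∘ ofComplex) z ≠ 0 := by
  rw [deriv_eq_D, D_jfun]
  have hd := discriminant_ne_zero z
  have := two_pi_I_ne_zero
  simp [h4, h6, hd]

end Fermat.Agent.H18
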