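import Mathlib
import Fermat.Prelude.Def_AlgebraicCurve_DivisorPushPull
import Fermat.Prelude.Def_AlgebraicCurve_Repartitions
import Fermat.Prelude.Def_AlgebraicCurve_IsCurveOver

set_option autoImplicit false

noncomputable section

open AlgebraicCurve IsDedekindDomain WithZero IsLocalRing

namespace Fermat.Agent.H18

section Basic

variable {K F : Type*} [Field K] [Field F] [Algebra K F] (v : Place K F)

theorem ord_nonneg_of_mem {f : F} (hf : f ∈ v.toValuationSubring) : 0 ≤ v.ord f := by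
  rcases eq_or_ne f 0 with rfl | hf0
  · simp
  · rcases v.adicValuation_le_one_iff.mp (v.adicValuation_le_one_of_mem hf) with h | h
    · exact absurd h hf0
    · exact h

theorem mem_of_ord_nonneg {f : F} (h : 0 ≤ v.ord f) : f ∈ v.toValuationSubring := by
  rcases eq_or_ne f 0 with rfl | hf
  · exact zero_mem _
  obtain ⟨π, hπ⟩ := IsDiscreteValuationRing.exists_irreducible v.toValuationSubring
  obtain ⟨u, hu⟩ := v.exists_unit_mul_zpow hf hπ
  rw [hu, show v.ord f = (((v.ord f).toNat : ℕ) : ℤ) from (Int.toNat_of_nonneg h).symm,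
    zpow_natCast]
  exact mul_mem (u : v.toValuationSubring).2 (pow_mem (π : v.toValuationSubring).2 _)

theorem mem_iff {f : F} : f ∈ v.toValuationSubring ↔ 0 ≤ v.ord f :=
  ⟨ord_nonneg_of_mem v, mem_of_ord_nonneg v⟩

theorem ord_add {f g : F} (hfg : f + g ≠ 0) : min (v.ord f) (v.ord g) ≤ v.ord (f + g) ∨
    (f = 0 ∨ g = 0) := by
  by_cases hf : f = 0
  · exact Or.inr (Or.inl hf)
  by_cases hg : g = 0
  · exact Or.inr (Or.inr hg)
  left
  have h := Valuation.map_add v.adicValuation f g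
  rw [v.adicValuation_eq_exp_neg_ord hf, v.adicValuation_eq_exp_neg_ord hg,
    v.adicValuation_eq_exp_neg_ord hfg] at h
  rcases le_max_iff.mp h with h | h
  · rw [exp_le_exp] at h
    exact min_le_iff.mpr (Or.inl (by omega))
  · rw [exp_le_exp] at h
    exact min_le_iff.mpr (Or.inr (by omega))

theorem le_ord_add {f g : F} {n : ℤ} (hfg : f + g ≠ 0) (hf : f = 0 ∨ n ≤ v.ord f)
    (hg : g = 0 ∨ n ≤ v.ord g) : n ≤ v.ord (f + g) := by
  by_cases hf0 : f = 0
  · subst hf0
    rw [zero_add] at hfg ⊢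
    exact hg.resolve_left hfg
  by_cases hg0 : g = 0
  · subst hg0
    rw [add_zero] at hfg ⊢
    exact hf.resolve_left hfg
  rcases ord_add v hfg with h | h | h
  · exact (le_min (hf.resolve_left hf0) (hg.resolve_left hg0)).trans h
  · exact absurd h hf0
  · exact absurd h hg0

theorem ord_neg (f : F) : v.ord (-f) = v.ord f := by
  simp [Place.ord, Valuation.map_neg]

theorem ord_pow (f : F) (n : ℕ) : v.ord (f ^ n) = n * v.ord f := by
  have := v.ord_zpow f (n : ℤ)
  rwa [zpow_natCast] at this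

theorem ord_algebraMap (a : K) : v.ord (algebraMap K F a) = 0 := by
  have h1 := ord_nonneg_of_mem v (v.algebraMap_mem' a)
  have h2 := ord_nonneg_of_mem v (v.algebraMap_mem' a⁻¹)
  rw [map_inv₀, v.ord_inv] at h2
  omega

theorem ord_add_eq_of_lt {f g : F} (hf : f ≠ 0) (h : g = 0 ∨ v.ord f < v.ord g) :
    v.ord (f + g) = v.ord f ∧ f + g ≠ 0 := by
  rcases eq_or_ne g 0 with rfl | hg
  · simpa using hf
  have h := h.resolve_left hg
  have hne : f + g ≠ 0 := by
    intro h0
    have : f = -g := eq_neg_of_add_eq_zero_left h0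
    rw [this, ord_neg] at h
    exact lt_irrefl _ h
  refine ⟨le_antisymm ?_ ?_, hne⟩
  · by_contra hlt
    push Not at hlt
    have : v.ord f + 1 ≤ v.ord ((f + g) + (-g)) := by
      apply le_ord_add
      · simpa using hf
      · right; omega
      · right; rw [ord_neg]; omega
    rw [add_neg_cancel_right] at this
    omega
  · exact le_ord_add v hne (Or.inr le_rfl) (Or.inr h.le)

theorem exists_ord_eq_one : ∃ f : F, f ≠ 0 ∧ v.ord f = 1 := by
  obtain ⟨π, hπ⟩ := IsDiscreteValuationRing.exists_irreducible v.toValuationSubring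
  exact ⟨π, by simpa [ne_eq, ZeroMemClass.coe_eq_zero] using hπ.ne_zero, v.ord_coe_irreducible hπ⟩

end Basic

/-- Elementary data for constructing a place: an integer valued order function, not
necessarily normalised. -/
structure OrdData (K F : Type*) [Field K] [Field F] [Algebra K F] where
  g : F → ℤ
  mul : ∀ x y, x ≠ 0 → y ≠ 0 → g (x * y) = g x + g y
  add : ∀ x y, x ≠ 0 → y ≠ 0 → x + y ≠ 0 → min (g x) (g y) ≤ g (x + y)
  const : ∀ a : K, a ≠ 0 → 0 ≤ g (algebraMap K F a)
  nontriv : ∃ x, x ≠ 0 ∧ g x ≠ 0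

namespace OrdData

variable {K F : Type*} [Field K] [Field F] [Algebra K F] (o : OrdData K F)

theorem g_one : o.g 1 = 0 := by
  have := o.mul 1 1 one_ne_zero one_ne_zero
  rw [mul_one] at this
  omega

theorem g_neg_one : o.g (-1) = 0 := by
  have := o.mul (-1) (-1) (neg_ne_zero.mpr one_ne_zero) (neg_ne_zero.mpr one_ne_zero)
  rw [neg_mul_neg, mul_one, o.g_one] at this
  omega

theorem g_neg {x : F} (hx : x ≠ 0) : o.g (-x) = o.g x := by
  have := o.mul (-1) x (neg_ne_zero.mpr one_ne_zero) hx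
  rw [neg_one_mul, o.g_neg_one] at this
  omega

theorem g_inv {x : F} (hx : x ≠ 0) : o.g x⁻¹ = - o.g x := by
  have := o.mul x x⁻¹ hx (inv_ne_zero hx)
  rw [mul_inv_cancel₀ hx, o.g_one] at this
  omega

theorem g_pow {x : F} (hx : x ≠ 0) (n : ℕ) : o.g (x ^ n) = n * o.g x := by
  induction n with
  | zero => simp [o.g_one]
  | succ n ih =>
    rw [pow_succ, o.mul _ _ (pow_ne_zero n hx) hx, ih]
    push_cast
    ring

theorem g_zpow {x : F} (hx : x ≠ 0) (n : ℤ) : o.g (x ^ n) = n * o.g x := by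
  rcases Int.le_total 0 n with h | h
  · lift n to ℕ using h
    rw [zpow_natCast, o.g_pow hx]
  · obtain ⟨m, rfl⟩ : ∃ m : ℕ, n = -(m : ℤ) := ⟨n.natAbs, by omega⟩
    rw [zpow_neg, zpow_natCast, o.g_inv (pow_ne_zero m hx), o.g_pow hx]
    ring

/-- the valuation subring of an order function -/
def valSubring : ValuationSubring F where
  carrier := {x | x = 0 ∨ 0 ≤ o.g x}
  mul_mem' := by
    rintro x y hx hy
    by_cases hx0 : x = 0
    · left; simp [hx0]
    by_cases hy0 : y = 0
    · left; simp [hy0]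
    right
    rw [o.mul _ _ hx0 hy0]
    have := hx.resolve_left hx0
    have := hy.resolve_left hy0
    omega
  one_mem' := Or.inr o.g_one.ge
  add_mem' := by
    rintro x y hx hy
    by_cases hx0 : x = 0
    · subst hx0; rwa [zero_add]
    by_cases hy0 : y = 0
    · subst hy0; rwa [add_zero]
    by_cases hxy : x + y = 0
    · exact Or.inl hxy
    right
    have h1 := hx.resolve_left hx0
    have h2 := hy.resolve_left hy0
    exact (le_min h1 h2).trans (o.add _ _ hx0 hy0 hxy)
  zero_mem' := Or.inl rfl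
  neg_mem' := by
    rintro x hx
    by_cases hx0 : x = 0
    · left; simp [hx0]
    right
    show 0 ≤ o.g (-x)
    rw [o.g_neg hx0]
    exact hx.resolve_left hx0
  mem_or_inv_mem' := by
    rintro x
    by_cases hx0 : x = 0
    · left; left; exact hx0
    rcases le_total 0 (o.g x) with h | h
    · exact Or.inl (Or.inr h)
    · right; right
      rw [o.g_inv hx0]; omega

theorem mem_valSubring {x : F} : x ∈ o.valSubring ↔ x = 0 ∨ 0 ≤ o.g x := Iff.rfl

theorem exists_pos : ∃ x, x ≠ 0 ∧ 0 < o.g x := by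
  obtain ⟨x, hx, h⟩ := o.nontriv
  rcases lt_or_gt_of_ne h with h | h
  · exact ⟨x⁻¹, inv_ne_zero hx, by rw [o.g_inv hx]; omega⟩
  · exact ⟨x, hx, h⟩

/-- the smallest positive value -/
def idx : ℕ := sInf {n : ℕ | 0 < n ∧ ∃ f : F, f ≠ 0 ∧ o.g f = n}

theorem idx_mem : o.idx ∈ {n : ℕ | 0 < n ∧ ∃ f : F, f ≠ 0 ∧ o.g f = n} := by
  apply Nat.sInf_mem
  obtain ⟨x, hx, h⟩ := o.exists_pos
  exact ⟨(o.g x).toNat, by omega, x, hx, by omega⟩

theorem idx_pos : 0 < o.idx := o.idx_mem.1

theorem exists_g_eq_idx : ∃ f : F, f ≠ 0 ∧ o.g f = o.idx := o.idx_mem.2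

theorem idx_le {f : F} (hf : f ≠ 0) (h : 0 < o.g f) : (o.idx : ℤ) ≤ o.g f := by
  have := Nat.sInf_le (s := {n : ℕ | 0 < n ∧ ∃ f : F, f ≠ 0 ∧ o.g f = n})
    (m := (o.g f).toNat) ⟨by omega, f, hf, by omega⟩
  rw [idx]
  omega

theorem idx_dvd {f : F} (hf : f ≠ 0) : (o.idx : ℤ) ∣ o.g f := by
  obtain ⟨p, hp, hpe⟩ := o.exists_g_eq_idx
  have he : 0 < (o.idx : ℤ) := by exact_mod_cast o.idx_pos
  have h1 : o.g (f * p ^ (-(o.g f / o.idx))) = o.g f % o.idx := by
    rw [o.mul _ _ hf (zpow_ne_zero _ hp), o.g_zpow hp, hpe, Int.emod_def]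
    ring
  have h2 := Int.emod_nonneg (o.g f) he.ne'
  have h3 := Int.emod_lt_of_pos (o.g f) he
  rcases h2.lt_or_eq with h4 | h4
  · have := o.idx_le (f := f * p ^ (-(o.g f / o.idx))) (mul_ne_zero hf (zpow_ne_zero _ hp))
      (by rw [h1]; exact h4)
    rw [h1] at this
    omega
  · exact Int.dvd_of_emod_eq_zero h4.symm

theorem isUnit_iff {x : F} (hx : x ≠ 0) (hm : x ∈ o.valSubring) :
    IsUnit (⟨x, hm⟩ : o.valSubring) ↔ o.g x = 0 := by
  constructor
  · intro h
    obtain ⟨b, hb⟩ := isUnit_iff_exists_inv.mp h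
    have hb' : x * (b : F) = 1 := by simpa [Subtype.ext_iff] using hb
    have hbne : (b : F) ≠ 0 := by
      intro h0
      rw [h0, mul_zero] at hb'
      exact zero_ne_one hb'
    have h1 := o.mul x b hx hbne
    rw [hb', o.g_one] at h1
    have h2 := (o.mem_valSubring.mp hm).resolve_left hx
    have h3 := (o.mem_valSubring.mp b.2).resolve_left hbne
    omega
  · intro h
    have hi : x⁻¹ ∈ o.valSubring := Or.inr (by rw [o.g_inv hx]; omega)
    exact ⟨⟨⟨x, hm⟩, ⟨x⁻¹, hi⟩, Subtype.ext (mul_inv_cancel₀ hx),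
      Subtype.ext (inv_mul_cancel₀ hx)⟩, rfl⟩

theorem irreducible_of_g_eq {p : F} (hp : p ≠ 0) (hpe : o.g p = o.idx)
    (hm : p ∈ o.valSubring) : Irreducible (⟨p, hm⟩ : o.valSubring) := by
  have he : 0 < (o.idx : ℤ) := by exact_mod_cast o.idx_pos
  constructor
  · rw [o.isUnit_iff hp]
    omega
  · rintro ⟨a, ha⟩ ⟨b, hb⟩ hab
    have hab' : p = a * b := by simpa [Subtype.ext_iff] using hab
    have ha0 : a ≠ 0 := by rintro rfl; exact hp (by simpa using hab')
    have hb0 : b ≠ 0 := by rintro rfl; exact hp (by simpa using hab')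
    have hsum := o.mul a b ha0 hb0
    rw [← hab', hpe] at hsum
    have ha1 := (o.mem_valSubring.mp ha).resolve_left ha0
    have hb1 := (o.mem_valSubring.mp hb).resolve_left hb0
    rcases ha1.eq_or_lt with h | h
    · exact Or.inl ((o.isUnit_iff ha0 ha).mpr h.symm)
    rcases hb1.eq_or_lt with h' | h'
    · exact Or.inr ((o.isUnit_iff hb0 hb).mpr h'.symm)
    have := o.idx_le ha0 h
    omega

theorem isPrincipal : IsPrincipalIdealRing o.valSubring := by
  obtain ⟨p, hp, hpe⟩ := o.exists_g_eq_idx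
  have he : 0 < (o.idx : ℤ) := by exact_mod_cast o.idx_pos
  have hm : p ∈ o.valSubring := Or.inr (by omega)
  refine (IsDiscreteValuationRing.ofHasUnitMulPowIrreducibleFactorization
    ⟨⟨p, hm⟩, o.irreducible_of_g_eq hp hpe hm, ?_⟩).toIsPrincipalIdealRing
  rintro ⟨f, hfm⟩ hx
  have hf : f ≠ 0 := by simpa [Subtype.ext_iff] using hx
  obtain ⟨c, hc⟩ := o.idx_dvd hf
  have h0 : 0 ≤ o.g f := (o.mem_valSubring.mp hfm).resolve_left hf
  have hc0 : 0 ≤ c := by
    by_contra hneg
    push Not at hneg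
    have := mul_neg_of_pos_of_neg he hneg
    omega
  lift c to ℕ using hc0
  have hpn : p ^ c ≠ 0 := pow_ne_zero _ hp
  have hd : f / p ^ c ≠ 0 := div_ne_zero hf hpn
  have hg : o.g (f / p ^ c) = 0 := by
    rw [div_eq_mul_inv, o.mul _ _ hf (inv_ne_zero hpn), o.g_inv hpn, o.g_pow hp, hpe, hc]
    ring
  have hdm : f / p ^ c ∈ o.valSubring := Or.inr hg.ge
  have hu : IsUnit (⟨f / p ^ c, hdm⟩ : o.valSubring) := (o.isUnit_iff hd hdm).mpr hg
  refine ⟨c, hu.unit, Subtype.ext ?_⟩
  push_cast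
  rw [IsUnit.unit_spec]
  field_simp

/-- The place attached to an order function. -/
def toPlace : Place K F where
  toValuationSubring := o.valSubring
  algebraMap_mem' a := by
    by_cases ha : a = 0
    · left; simp [ha]
    · right; exact o.const a ha
  ne_top' := by
    intro h
    obtain ⟨x, hx, hpos⟩ := o.exists_pos
    have : x⁻¹ ∈ o.valSubring := h ▸ ValuationSubring.mem_top _
    rcases this with h | h
    · exact inv_ne_zero hx h
    · rw [o.g_inv hx] at h
      omega
  isPrincipalIdealRing' := o.isPrincipal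

@[simp]
theorem toPlace_toValuationSubring : o.toPlace.toValuationSubring = o.valSubring := rfl

theorem g_eq_idx_mul_ord {f : F} (hf : f ≠ 0) : o.g f = o.idx * o.toPlace.ord f := by
  obtain ⟨p, hp, hpe⟩ := o.exists_g_eq_idx
  have he : 0 < (o.idx : ℤ) := by exact_mod_cast o.idx_pos
  have hm : p ∈ o.valSubring := Or.inr (by omega)
  have hirr : Irreducible (⟨p, hm⟩ : o.toPlace.toValuationSubring) :=
    o.irreducible_of_g_eq hp hpe hm
  obtain ⟨u, hu⟩ := o.toPlace.exists_unit_mul_zpow hf hirr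
  have hune : ((u : o.toPlace.toValuationSubring) : F) ≠ 0 := by
    intro h0
    have := u.mul_inv
    rw [Subtype.ext_iff] at this
    push_cast at this
    rw [h0, zero_mul] at this
    exact zero_ne_one this
  have hug : o.g ((u : o.toPlace.toValuationSubring) : F) = 0 :=
    (o.isUnit_iff hune (u : o.toPlace.toValuationSubring).2).mp u.isUnit
  have h2 : o.g f = o.g (((u : o.toPlace.toValuationSubring) : F) * p ^ (o.toPlace.ord f)) :=
    congrArg o.g hu
  rw [h2, o.mul _ _ hune (zpow_ne_zero _ hp), hug, o.g_zpow hp, hpe]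
  ring

theorem idx_eq_one (h : ∃ f, f ≠ 0 ∧ o.g f = 1) : o.idx = 1 := by
  obtain ⟨f, hf, h1⟩ := h
  have := o.idx_le hf (by omega)
  have := o.idx_pos
  omega

theorem ord_eq_g (h : ∃ f, f ≠ 0 ∧ o.g f = 1) {f : F} (hf : f ≠ 0) :
    o.toPlace.ord f = o.g f := by
  rw [o.g_eq_idx_mul_ord hf, o.idx_eq_one h]
  simp

end OrdData

/-- `ord` as order data. -/
def ordDataOfPlace {K F : Type*} [Field K] [Field F] [Algebra K F] (v : Place K F) :
    OrdData K F where
  g := v.ord
  mul _ _ hx hy := v.ord_mul hx hy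
  add x y hx hy hxy := le_ord_add v hxy (Or.inr (min_le_left _ _)) (Or.inr (min_le_right _ _))
  const a _ := ord_nonneg_of_mem v (v.algebraMap_mem' a)
  nontriv := by
    obtain ⟨f, hf, h⟩ := exists_ord_eq_one v
    exact ⟨f, hf, by omega⟩

/-- A place is determined by any order function with the same valuation ring. -/
theorem OrdData.toPlace_eq_iff {K F : Type*} [Field K] [Field F] [Algebra K F]
    (o : OrdData K F) (v : Place K F) :
    o.toPlace = v ↔ ∀ f : F, f ≠ 0 → (0 ≤ o.g f ↔ 0 ≤ v.ord f) := by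
  constructor
  · rintro rfl f hf
    rw [o.g_eq_idx_mul_ord hf]
    have he : 0 < (o.idx : ℤ) := by exact_mod_cast o.idx_pos
    constructor
    · intro h; exact nonneg_of_mul_nonneg_right h he
    · intro h; positivity
  · intro h
    apply Place.ext
    ext f
    rw [OrdData.toPlace_toValuationSubring, OrdData.mem_valSubring, mem_iff]
    by_cases hf : f = 0
    · subst hf
      simp
    · rw [← h f hf]
      exact ⟨fun hh => hh.resolve_left hf, Or.inr⟩

end Fermat.Agent.H18
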