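import Mathlib
import Fermat.Agent.H18_Places

set_option autoImplicit false

noncomputable section

open AlgebraicCurve IsDedekindDomain WithZero IsLocalRing

namespace Fermat.Agent.H18

section Dedekind

variable (K : Type*) [Field K] {R : Type*} [CommRing R] [IsDedekindDomain R]
  (F : Type*) [Field F] [Algebra R F] [IsFractionRing R F] [Algebra K F] [Algebra K R]
  [IsScalarTower K R F]

/-- order data attached to a nonzero prime of a Dedekind domain with fraction field `F` -/
def primeOrdData (P : HeightOneSpectrum R) : OrdData K F where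
  g f := -(WithZero.log (P.valuation F f))
  mul x y hx hy := by
    rw [map_mul, WithZero.log_mul ((Valuation.ne_zero_iff _).mpr hx)
      ((Valuation.ne_zero_iff _).mpr hy)]
    ring
  add x y hx hy hxy := by
    have h := Valuation.map_add (P.valuation F) x y
    have hx' := (Valuation.ne_zero_iff (P.valuation F)).mpr hx
    have hy' := (Valuation.ne_zero_iff (P.valuation F)).mpr hy
    have hxy' := (Valuation.ne_zero_iff (P.valuation F)).mpr hxy
    rcases le_max_iff.mp h with h | h
    · have := (WithZero.log_le_log hxy' hx').mpr h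
      exact min_le_iff.mpr (Or.inl (by omega))
    · have := (WithZero.log_le_log hxy' hy').mpr h
      exact min_le_iff.mpr (Or.inr (by omega))
  const a ha := by
    have h1 : P.valuation F (algebraMap K F a) ≤ 1 := by
      rw [IsScalarTower.algebraMap_apply K R F]
      exact P.valuation_le_one _
    have hne : P.valuation F (algebraMap K F a) ≠ 0 :=
      (Valuation.ne_zero_iff _).mpr (by simpa using ha)
    have := (WithZero.log_le_log hne one_ne_zero).mpr h1
    rw [WithZero.log_one] at this
    omega
  nontriv := by
    obtain ⟨π, hπ⟩ := P.valuation_exists_uniformizer F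
    refine ⟨π, ?_, ?_⟩
    · rintro rfl
      rw [map_zero] at hπ
      exact exp_ne_zero hπ.symm
    · rw [hπ, WithZero.log_exp]
      norm_num

theorem primeOrdData_exists_one (P : HeightOneSpectrum R) :
    ∃ f, f ≠ 0 ∧ (primeOrdData K F P).g f = 1 := by
  obtain ⟨π, hπ⟩ := P.valuation_exists_uniformizer F
  refine ⟨π, ?_, ?_⟩
  · rintro rfl
    rw [map_zero] at hπ
    exact exp_ne_zero hπ.symm
  · show -(WithZero.log (P.valuation F π)) = 1
    rw [hπ, WithZero.log_exp]
    norm_num

/-- The place attached to a nonzero prime of a Dedekind domain with fraction field `F`. -/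
def placeOfPrime (P : HeightOneSpectrum R) : Place K F := (primeOrdData K F P).toPlace

theorem ord_placeOfPrime (P : HeightOneSpectrum R) (f : F) :
    (placeOfPrime K F P).ord f = -(WithZero.log (P.valuation F f)) := by
  rcases eq_or_ne f 0 with rfl | hf
  · simp
  · exact (primeOrdData K F P).ord_eq_g (primeOrdData_exists_one K F P) hf

theorem adicValuation_placeOfPrime (P : HeightOneSpectrum R) (f : F) :
    (placeOfPrime K F P).adicValuation f = P.valuation F f := by
  rcases eq_or_ne f 0 with rfl | hf
  · simp
  · rw [(placeOfPrime K F P).adicValuation_eq_exp_neg_ord hf, ord_placeOfPrime, neg_neg,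
      WithZero.exp_log ((Valuation.ne_zero_iff _).mpr hf)]

theorem mem_placeOfPrime (P : HeightOneSpectrum R) (f : F) :
    f ∈ (placeOfPrime K F P).toValuationSubring ↔ P.valuation F f ≤ 1 := by
  rw [mem_iff, ord_placeOfPrime]
  rcases eq_or_ne f 0 with rfl | hf
  · simp
  · have hne := (Valuation.ne_zero_iff (P.valuation F)).mpr hf
    rw [← WithZero.log_le_log hne one_ne_zero, WithZero.log_one]
    omega

theorem algebraMap_mem_placeOfPrime (P : HeightOneSpectrum R) (r : R) :
    algebraMap R F r ∈ (placeOfPrime K F P).toValuationSubring := by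
  rw [mem_placeOfPrime]
  exact P.valuation_le_one r

theorem ord_placeOfPrime_pos_iff (P : HeightOneSpectrum R) {r : R} (hr : r ≠ 0) :
    0 < (placeOfPrime K F P).ord (algebraMap R F r) ↔ r ∈ P.asIdeal := by
  have hr' : algebraMap R F r ≠ 0 := by simpa using hr
  have hne := (Valuation.ne_zero_iff (P.valuation F)).mpr hr'
  rw [ord_placeOfPrime, ← P.valuation_lt_one_iff_mem (K := F), ← WithZero.log_lt_log hne one_ne_zero,
    WithZero.log_one]
  omega

variable {K F}

/-- the center of a place on a Dedekind domain contained in its valuation ring -/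
def centerIdeal (w : Place K F) (hw : ∀ r : R, algebraMap R F r ∈ w.toValuationSubring) :
    Ideal R :=
  (maximalIdeal w.toValuationSubring).comap
    ((algebraMap R F).codRestrict w.toValuationSubring.toSubring hw)

theorem mem_maximalIdeal_iff (w : Place K F) {x : F} (hx : x ∈ w.toValuationSubring)
    (hx0 : x ≠ 0) :
    (⟨x, hx⟩ : w.toValuationSubring) ∈ maximalIdeal w.toValuationSubring ↔ 0 < w.ord x := by
  rw [mem_maximalIdeal, mem_nonunits_iff, ← w.adicValuation_coe_eq_one_iff]
  have hne := w.adicValuation_ne_zero hx0
  have h0 := ord_nonneg_of_mem w hx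
  rw [w.adicValuation_eq_exp_neg_ord hx0, ← WithZero.exp_zero, WithZero.exp_inj]
  omega

theorem mem_centerIdeal (w : Place K F) (hw : ∀ r : R, algebraMap R F r ∈ w.toValuationSubring)
    {r : R} (hr : r ≠ 0) : r ∈ centerIdeal w hw ↔ 0 < w.ord (algebraMap R F r) := by
  rw [centerIdeal, Ideal.mem_comap]
  exact mem_maximalIdeal_iff w (hw r) (by simpa using hr)

/-- the center of a place, as a nonzero prime ideal -/
def center (w : Place K F) (hw : ∀ r : R, algebraMap R F r ∈ w.toValuationSubring) :
    HeightOneSpectrum R where
  asIdeal := centerIdeal w hw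
  isPrime := by
    have := (inferInstance : (maximalIdeal w.toValuationSubring).IsPrime)
    exact Ideal.IsPrime.comap _
  ne_bot := by
    intro hbot
    obtain ⟨f, hf, hf1⟩ := exists_ord_eq_one w
    obtain ⟨a, b, hb, hab⟩ := IsFractionRing.div_surjective (A := R) f
    have hb0 : b ≠ 0 := nonZeroDivisors.ne_zero hb
    have ha0 : a ≠ 0 := by
      rintro rfl
      rw [map_zero, zero_div] at hab
      exact hf hab.symm
    have key : ∀ r : R, r ≠ 0 → w.ord (algebraMap R F r) = 0 := by
      intro r hr
      have h1 := ord_nonneg_of_mem w (hw r)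
      have h2 : ¬ 0 < w.ord (algebraMap R F r) := by
        rw [← mem_centerIdeal w hw hr, hbot]
        simpa using hr
      omega
    have hane : algebraMap R F a ≠ 0 := by simpa using ha0
    have hbne : algebraMap R F b ≠ 0 := by simpa using hb0
    rw [← hab, div_eq_mul_inv, w.ord_mul hane (inv_ne_zero hbne), w.ord_inv, key a ha0,
      key b hb0] at hf1
    omega

@[simp]
theorem center_asIdeal (w : Place K F)
    (hw : ∀ r : R, algebraMap R F r ∈ w.toValuationSubring) :
    (center w hw).asIdeal = centerIdeal w hw := rfl

theorem placeOfPrime_center (w : Place K F)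
    (hw : ∀ r : R, algebraMap R F r ∈ w.toValuationSubring) :
    placeOfPrime K F (center w hw) = w := by
  -- valuation rings: `O_P ≤ O_w`
  have hord : ∀ s : R, s ∉ (center w hw).asIdeal → w.ord (algebraMap R F s) = 0 ∧ s ≠ 0 := by
    intro s hs
    have hs0 : s ≠ 0 := by
      rintro rfl
      exact hs (Ideal.zero_mem _)
    refine ⟨?_, hs0⟩
    have h1 := ord_nonneg_of_mem w (hw s)
    have h2 : ¬ 0 < w.ord (algebraMap R F s) := by
      rw [← mem_centerIdeal w hw hs0]
      exact hs
    omega
  rw [placeOfPrime, OrdData.toPlace_eq_iff]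
  intro f hf
  change 0 ≤ -(WithZero.log ((center w hw).valuation F f)) ↔ _
  have hne := (Valuation.ne_zero_iff ((center w hw).valuation F)).mpr hf
  constructor
  · intro h
    have hle : (center w hw).valuation F f ≤ 1 := by
      rw [← WithZero.log_le_log hne one_ne_zero, WithZero.log_one]
      omega
    obtain ⟨n, d, hnd⟩ := (center w hw).exists_primeCompl_mul_eq_of_integer f hle
    obtain ⟨hd, hd0⟩ := hord d d.2
    have h1 := w.ord_mul hf (g := algebraMap R F d) (by simpa using hd0)
    rw [hnd, hd, add_zero] at h1
    rw [← h1]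
    exact ord_nonneg_of_mem w (hw n)
  · intro h
    by_contra hlt
    push Not at hlt
    have hinv : (center w hw).valuation F f⁻¹ < 1 := by
      have hne' : (center w hw).valuation F f⁻¹ ≠ 0 :=
        (Valuation.ne_zero_iff _).mpr (inv_ne_zero hf)
      rw [← WithZero.log_lt_log hne' one_ne_zero, WithZero.log_one, map_inv₀, WithZero.log_inv]
      omega
    obtain ⟨n, d, hnd⟩ := (center w hw).exists_primeCompl_mul_eq_of_integer f⁻¹ hinv.le
    obtain ⟨hd, hd0⟩ := hord d d.2
    have hn0 : n ≠ 0 := by
      rintro rfl
      rw [map_zero] at hnd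
      have : algebraMap R F d ≠ 0 := by simpa using hd0
      exact mul_ne_zero (inv_ne_zero hf) this hnd
    have hnP : n ∈ (center w hw).asIdeal := by
      rw [← (center w hw).valuation_lt_one_iff_mem (K := F)]
      have hdv : (center w hw).valuation F (algebraMap R F d) = 1 :=
        (center w hw).valuation_eq_one_iff_notMem.mpr d.2
      have h2 := congrArg ((center w hw).valuation F) hnd
      rw [map_mul, hdv, mul_one] at h2
      show (center w hw).valuation F (algebraMap R F n) < 1
      rw [← h2]
      exact hinv
    rw [center_asIdeal, mem_centerIdeal w hw hn0] at hnP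
    have h1 := w.ord_mul (inv_ne_zero hf) (g := algebraMap R F d) (by simpa using hd0)
    rw [hnd, hd, add_zero, w.ord_inv] at h1
    omega

theorem center_placeOfPrime (P : HeightOneSpectrum R)
    (hw : ∀ r : R, algebraMap R F r ∈ (placeOfPrime K F P).toValuationSubring) :
    center (placeOfPrime K F P) hw = P := by
  apply HeightOneSpectrum.ext
  ext r
  rcases eq_or_ne r 0 with rfl | hr
  · simp
  · rw [center_asIdeal, mem_centerIdeal _ hw hr, ord_placeOfPrime_pos_iff K F P hr]

variable (K F R)

/-- Places whose valuation ring contains `R` are the same as nonzero primes of `R`. -/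
def placeEquivPrime :
    {w : Place K F // ∀ r : R, algebraMap R F r ∈ w.toValuationSubring} ≃
      HeightOneSpectrum R where
  toFun w := center w.1 w.2
  invFun P := ⟨placeOfPrime K F P, algebraMap_mem_placeOfPrime K F P⟩
  left_inv w := Subtype.ext (placeOfPrime_center w.1 w.2)
  right_inv P := center_placeOfPrime P _

theorem placeOfPrime_injective :
    Function.Injective (placeOfPrime K F : HeightOneSpectrum R → Place K F) := by
  intro P Q h
  have := congrArg (fun w : {w : Place K F // ∀ r : R, algebraMap R F r ∈ w.toValuationSubring}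
    => (placeEquivPrime K R F) w)
    (Subtype.ext h : (⟨placeOfPrime K F P, algebraMap_mem_placeOfPrime K F P⟩ :
      {w : Place K F // ∀ r : R, algebraMap R F r ∈ w.toValuationSubring}) =
      ⟨placeOfPrime K F Q, algebraMap_mem_placeOfPrime K F Q⟩)
  simpa [placeEquivPrime, center_placeOfPrime] using this

variable {K R F}

/-- The residue map `R → O_w / m_w` -/
def residueMap (w : Place K F) (hw : ∀ r : R, algebraMap R F r ∈ w.toValuationSubring) :
    R →ₐ[K] w.ResidueField where
  toRingHom := (IsLocalRing.residue w.toValuationSubring).comp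
    ((algebraMap R F).codRestrict w.toValuationSubring.toSubring hw)
  commutes' a := by
    show IsLocalRing.residue _ _ = IsLocalRing.residue _ _
    congr 1
    apply Subtype.ext
    show algebraMap R F (algebraMap K R a) = algebraMap K F a
    rw [← IsScalarTower.algebraMap_apply]

theorem residueMap_apply (w : Place K F)
    (hw : ∀ r : R, algebraMap R F r ∈ w.toValuationSubring) (r : R) :
    residueMap w hw r = IsLocalRing.residue w.toValuationSubring ⟨algebraMap R F r, hw r⟩ := rfl

theorem residueMap_ker (w : Place K F)
    (hw : ∀ r : R, algebraMap R F r ∈ w.toValuationSubring) :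
    RingHom.ker (residueMap w hw) = centerIdeal w hw := by
  ext r
  rw [RingHom.mem_ker]
  show IsLocalRing.residue _ _ = 0 ↔ _
  rw [IsLocalRing.residue_eq_zero_iff]
  rfl

theorem residueMap_surjective (w : Place K F)
    (hw : ∀ r : R, algebraMap R F r ∈ w.toValuationSubring) :
    Function.Surjective (residueMap w hw) := by
  intro y
  obtain ⟨⟨f, hf⟩, rfl⟩ := IsLocalRing.residue_surjective y
  set P := center w hw with hP
  have hwP : placeOfPrime K F P = w := placeOfPrime_center w hw
  have hle : P.valuation F f ≤ 1 := by
    rw [← mem_placeOfPrime K F P f, hwP]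
    exact hf
  obtain ⟨n, d, hnd⟩ := P.exists_primeCompl_mul_eq_of_integer f hle
  have hmax : P.asIdeal.IsMaximal := P.isMaximal
  obtain ⟨t, ht⟩ := Ideal.Quotient.exists_inv (I := P.asIdeal)
    (a := Ideal.Quotient.mk P.asIdeal d) (by
      rw [ne_eq, Ideal.Quotient.eq_zero_iff_mem]; exact d.2)
  obtain ⟨t, rfl⟩ := Ideal.Quotient.mk_surjective t
  refine ⟨n * t, ?_⟩
  rw [← map_mul, ← map_one (Ideal.Quotient.mk P.asIdeal), Ideal.Quotient.eq] at ht
  have h1 : residueMap w hw ((d : R) * t) = 1 := by
    have h2 : residueMap w hw ((d : R) * t - 1) = 0 := by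
      rw [← RingHom.mem_ker, residueMap_ker]
      exact ht
    rwa [map_sub, map_one, sub_eq_zero] at h2
  have h3 : IsLocalRing.residue w.toValuationSubring ⟨f, hf⟩ * residueMap w hw d =
      residueMap w hw n := by
    rw [residueMap_apply, residueMap_apply, ← map_mul]
    congr 1
    exact Subtype.ext hnd
  rw [map_mul, ← h3, mul_assoc, ← map_mul, h1, mul_one]

/-- The residue field of a place in terms of a Dedekind domain. -/
def residueEquiv (w : Place K F) (hw : ∀ r : R, algebraMap R F r ∈ w.toValuationSubring) :
    (R ⧸ centerIdeal w hw) ≃ₐ[K] w.ResidueField :=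
  (Ideal.quotientEquivAlgOfEq K (residueMap_ker w hw).symm).trans
    (Ideal.quotientKerAlgEquivOfSurjective (residueMap_surjective w hw))

@[simp]
theorem residueEquiv_mk (w : Place K F)
    (hw : ∀ r : R, algebraMap R F r ∈ w.toValuationSubring) (r : R) :
    residueEquiv w hw (Ideal.Quotient.mk _ r) = residueMap w hw r := rfl

end Dedekind

end Fermat.Agent.H18
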