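import Mathlib
import Fermat.Agent.H18_Dedekind

set_option autoImplicit false
set_option linter.unusedSectionVars false
set_option linter.style.haveILetI false
set_option linter.unusedVariables false

noncomputable section

open AlgebraicCurve IsDedekindDomain WithZero IsLocalRing

namespace Fermat.Agent.H18

theorem place_eq_of_le {K F : Type*} [Field K] [Field F] [Algebra K F] {v v' : Place K F}
    (h : v.toValuationSubring ≤ v'.toValuationSubring) : v = v' :=
  Place.ext (ValuationSubring.eq_of_le_of_ne_top _ h v'.ne_top')

section Extension

variable {K E F : Type*} [Field K] [Field E] [Field F] [Algebra K E] [Algebra K F]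
  [Algebra E F] [IsScalarTower K E F]

/-- `F` as an algebra over the valuation ring of a place of `E`. -/
@[reducible] def algebraVF (v : Place K E) : Algebra v.toValuationSubring F :=
  ((algebraMap E F).comp (algebraMap v.toValuationSubring E)).toAlgebra

attribute [local instance 10] algebraVF

theorem algebraMap_VF (v : Place K E) (a : v.toValuationSubring) :
    algebraMap v.toValuationSubring F a = algebraMap E F (a : E) := rfl

theorem towerVEF (v : Place K E) : IsScalarTower v.toValuationSubring E F :=
  IsScalarTower.of_algebraMap_eq fun _ => rfl

attribute [local instance] towerVEF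

theorem towerKVF (v : Place K E) : IsScalarTower K v.toValuationSubring F :=
  IsScalarTower.of_algebraMap_eq fun a => by
    rw [algebraMap_VF, Place.coe_algebraMap, ← IsScalarTower.algebraMap_apply]

attribute [local instance] towerKVF

variable (F) in
/-- The integral closure of the valuation ring of `v` in `F`. -/
abbrev intCl (v : Place K E) : Subalgebra v.toValuationSubring F :=
  integralClosure v.toValuationSubring F

variable [FiniteDimensional E F] [Algebra.IsSeparable E F]

instance (v : Place K E) : IsDedekindDomain (intCl F v) :=
  integralClosure.isDedekindDomain v.toValuationSubring E F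

instance (v : Place K E) : IsFractionRing (intCl F v) F :=
  integralClosure.isFractionRing_of_finite_extension E F

instance (v : Place K E) : Module.Finite v.toValuationSubring (intCl F v) :=
  IsIntegralClosure.finite v.toValuationSubring E F (intCl F v)


theorem restrict_eq_iff (v : Place K E) (w : Place K F) :
    w.restrict E = v ↔ ∀ r : intCl F v, algebraMap (intCl F v) F r ∈ w.toValuationSubring := by
  constructor
  · rintro rfl ⟨r, hr⟩
    show r ∈ w.toValuationSubring
    letI : Algebra (w.restrict E).toValuationSubring w.toValuationSubring :=
      (Place.restrictInclusion E w).toAlgebra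
    haveI : IsScalarTower (w.restrict E).toValuationSubring w.toValuationSubring F :=
      IsScalarTower.of_algebraMap_eq fun a => rfl
    have h1 : IsIntegral (w.restrict E).toValuationSubring r := hr
    have h2 : IsIntegral w.toValuationSubring r := h1.tower_top
    obtain ⟨y, hy⟩ := IsIntegrallyClosed.isIntegral_iff.mp h2
    exact hy ▸ y.2
  · intro h
    symm
    apply place_eq_of_le
    intro x hx
    have := h (algebraMap v.toValuationSubring (intCl F v) ⟨x, hx⟩)
    rw [← IsScalarTower.algebraMap_apply] at this
    exact this

/-- Places of `F` above `v` are the nonzero primes of the integral closure. -/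
def fiberEquiv (v : Place K E) :
    {w : Place K F // w.restrict E = v} ≃ HeightOneSpectrum (intCl F v) :=
  (Equiv.subtypeEquivRight (fun w => restrict_eq_iff v w)).trans (placeEquivPrime K (intCl F v) F)

theorem liesOver_of_prime (v : Place K E) (P : HeightOneSpectrum (intCl F v)) :
    P.asIdeal.LiesOver (maximalIdeal v.toValuationSubring) := by
  constructor
  have hP : P.asIdeal.under v.toValuationSubring ≠ ⊥ := by
    intro hbot
    exact P.ne_bot (Ideal.eq_bot_of_comap_eq_bot hbot)
  have hp : (P.asIdeal.under v.toValuationSubring).IsPrime := inferInstance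
  have hmax : (P.asIdeal.under v.toValuationSubring).IsMaximal := hp.isMaximal hP
  exact (IsLocalRing.eq_maximalIdeal hmax).symm

theorem ramificationIdx_eq (v : Place K E) (P : HeightOneSpectrum (intCl F v)) :
    (maximalIdeal v.toValuationSubring).ramificationIdx' P.asIdeal =
      (placeOfPrime K F P).ramificationIndex E := by
  set w := placeOfPrime K F P with hw
  have hwv : w.restrict E = v := (restrict_eq_iff v w).mpr (algebraMap_mem_placeOfPrime K F P)
  obtain ⟨x, hx, hx1⟩ := exists_ord_eq_one v
  haveI := liesOver_of_prime v P
  have hlo : P.asIdeal.LiesOver v.heightOneSpectrum.asIdeal := liesOver_of_prime v P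
  have h := HeightOneSpectrum.valuation_liesOver (K := E) F v.heightOneSpectrum P x
  have h1 := w.ord_restrict (F := E) x
  rw [hwv, hx1, mul_one] at h1
  rw [hw, ord_placeOfPrime, ← h, WithZero.log_pow] at h1
  have h2 : v.ord x = -(WithZero.log (v.heightOneSpectrum.valuation E x)) := rfl
  rw [hx1] at h2
  have h3 : (WithZero.log (v.heightOneSpectrum.valuation E x)) = -1 := by omega
  rw [h3] at h1
  simp only [Place.heightOneSpectrum_asIdeal, nsmul_eq_mul, mul_neg, mul_one, neg_neg] at h1
  exact_mod_cast h1

theorem inertiaDeg_eq (v : Place K E) (P : HeightOneSpectrum (intCl F v)) :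
    (maximalIdeal v.toValuationSubring).inertiaDeg' P.asIdeal =
      (placeOfPrime K F P).inertiaDeg E := by
  have hwv : (placeOfPrime K F P).restrict E = v :=
    (restrict_eq_iff v _).mpr (algebraMap_mem_placeOfPrime K F P)
  have hlo := liesOver_of_prime v P
  rw [Ideal.inertiaDeg'_algebraMap]
  have hmem := algebraMap_mem_placeOfPrime K F P
  have hcen : center (placeOfPrime K F P) hmem = P := center_placeOfPrime P hmem
  generalize placeOfPrime K F P = w at hwv hmem hcen ⊢
  subst hwv
  have hP : P.asIdeal = centerIdeal w hmem := by rw [← hcen]; rfl
  let j : (intCl F (w.restrict E) ⧸ P.asIdeal) ≃+* w.ResidueField :=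
    (Ideal.quotEquivOfEq hP).trans (residueEquiv w hmem).toRingEquiv
  refine Algebra.finrank_eq_of_equiv_equiv (RingEquiv.refl _) j ?_
  refine RingHom.ext fun y => ?_
  obtain ⟨y, rfl⟩ := Ideal.Quotient.mk_surjective y
  rfl

theorem mem_primesOverFinset_iff' (v : Place K E) (I : Ideal (intCl F v)) :
    I ∈ IsDedekindDomain.primesOverFinset (maximalIdeal v.toValuationSubring) (intCl F v) ↔
      ∃ P : HeightOneSpectrum (intCl F v), P.asIdeal = I := by
  have hne : maximalIdeal v.toValuationSubring ≠ ⊥ :=
    IsDiscreteValuationRing.not_a_field _
  rw [IsDedekindDomain.mem_primesOverFinset_iff hne, Ideal.primesOver, Set.mem_ofPred_eq]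
  constructor
  · rintro ⟨h1, h2⟩
    refine ⟨⟨I, h1, ?_⟩, rfl⟩
    rintro rfl
    apply hne
    rw [h2.over]
    refine Ideal.comap_bot_of_injective _ ?_
    have hinj : Function.Injective (algebraMap v.toValuationSubring F) :=
      (algebraMap E F).injective.comp Subtype.val_injective
    rw [IsScalarTower.algebraMap_eq v.toValuationSubring (intCl F v) F] at hinj
    rw [RingHom.coe_comp] at hinj
    exact Function.Injective.of_comp hinj
  · rintro ⟨P, rfl⟩
    exact ⟨P.isPrime, liesOver_of_prime v P⟩

theorem finite_prime (v : Place K E) : Finite (HeightOneSpectrum (intCl F v)) := by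
  have h : Function.Injective (fun P : HeightOneSpectrum (intCl F v) =>
      (⟨P.asIdeal, (mem_primesOverFinset_iff' v _).mpr ⟨P, rfl⟩⟩ :
        {I // I ∈ IsDedekindDomain.primesOverFinset (maximalIdeal v.toValuationSubring)
          (intCl F v)})) := by
    intro P Q hPQ
    exact HeightOneSpectrum.ext (congrArg Subtype.val hPQ)
  exact Finite.of_injective _ h

variable (F) in
/-- The fiber over a place is finite. -/
theorem fiber_finite (v : Place K E) : {w : Place K F | w.restrict E = v}.Finite := by
  haveI := finite_prime (F := F) v
  haveI : Finite ↥{w : Place K F | w.restrict E = v} :=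
    Finite.of_equiv _ (fiberEquiv (F := F) v).symm
  exact Set.toFinite _

variable (F) in
/-- The fundamental identity `∑ e f = n`. -/
theorem sum_ramificationIndex_mul_inertiaDeg (v : Place K E) :
    ∑ w ∈ (fiber_finite F v).toFinset, w.ramificationIndex E * w.inertiaDeg E =
      Module.finrank E F := by
  classical
  have hne : maximalIdeal v.toValuationSubring ≠ ⊥ :=
    IsDiscreteValuationRing.not_a_field _
  rw [← Ideal.sum_ramification_inertia (intCl F v) E F (p := maximalIdeal v.toValuationSubring) hne]
  symm
  refine Finset.sum_bij' (i := fun I hI => placeOfPrime K F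
      ((mem_primesOverFinset_iff' v I).mp hI).choose)
    (j := fun w hw => (center w ((restrict_eq_iff v w).mp (by simpa using hw))).asIdeal)
    ?_ ?_ ?_ ?_ ?_
  · intro I hI
    simp only [Set.Finite.mem_toFinset, Set.mem_ofPred_eq]
    exact (restrict_eq_iff v _).mpr (algebraMap_mem_placeOfPrime K F _)
  · intro w hw
    exact (mem_primesOverFinset_iff' v _).mpr ⟨_, rfl⟩
  · intro I hI
    have h := ((mem_primesOverFinset_iff' v I).mp hI).choose_spec
    rw [center_placeOfPrime]
    exact h
  · intro w hw
    have hw' := (restrict_eq_iff v w).mp (by simpa using hw)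
    have h := ((mem_primesOverFinset_iff' v (center w hw').asIdeal).mp
      ((mem_primesOverFinset_iff' v _).mpr ⟨_, rfl⟩)).choose_spec
    have h2 := HeightOneSpectrum.ext h
    show placeOfPrime K F _ = w
    conv_rhs => rw [← placeOfPrime_center w hw']
    exact congrArg _ h2
  · intro I hI
    have h := ((mem_primesOverFinset_iff' v I).mp hI).choose_spec
    have h1 := ramificationIdx_eq v ((mem_primesOverFinset_iff' v I).mp hI).choose
    have h2 := inertiaDeg_eq v ((mem_primesOverFinset_iff' v I).mp hI).choose
    rw [h] at h1 h2
    rw [h1, h2]

instance (priority := 50) instSumRamificationInertia [HasPrincipalDivisors K F] :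
    SumRamificationInertia K E F where
  sum_ramificationIndex_mul_inertiaDeg v := by
    have h := sum_ramificationIndex_mul_inertiaDeg F v
    rw [← h]
    push_cast
    refine Finset.sum_congr ?_ fun _ _ => rfl
    ext w
    simp

/-- every place extends -/
theorem exists_restrict_eq (v : Place K E) : ∃ w : Place K F, w.restrict E = v := by
  by_contra hcon
  push Not at hcon
  have h := sum_ramificationIndex_mul_inertiaDeg F v
  have he : (fiber_finite F v).toFinset = ∅ := by
    ext w
    simp [hcon w]
  rw [he, Finset.sum_empty] at h
  exact (Module.finrank_pos (R := E) (M := F)).ne h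

end Extension

end Fermat.Agent.H18
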