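import Mathlib
import Fermat.Agent.H18_Extension

set_option autoImplicit false
set_option linter.unusedSectionVars false
set_option linter.style.haveILetI false
set_option linter.unusedVariables false

noncomputable section

open AlgebraicCurve IsDedekindDomain WithZero IsLocalRing

open scoped Pointwise

namespace Fermat.Agent.H18

section Galois

attribute [local instance 10] algebraVF
attribute [local instance] towerVEF towerKVF

variable {K E F : Type*} [Field K] [Field E] [Field F] [Algebra K E] [Algebra K F]
  [Algebra E F] [IsScalarTower K E F]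

theorem ord_gal (σ : F ≃ₐ[E] F) (w : Place K F) (f : F) :
    (σ.restrictScalars K • w).ord (σ f) = w.ord f :=
  Place.ord_smul (σ.restrictScalars K) w f

theorem ord_gal' (σ : F ≃ₐ[E] F) (w : Place K F) (f : F) :
    (σ.restrictScalars K • w).ord f = w.ord (σ⁻¹ f) := by
  have h := ord_gal σ w (σ⁻¹ f)
  rw [← h]
  congr 1
  exact (AlgEquiv.apply_symm_apply σ f).symm

variable [FiniteDimensional E F]

theorem restrict_gal (σ : F ≃ₐ[E] F) (w : Place K F) :
    (σ.restrictScalars K • w).restrict E = w.restrict E := by
  apply Place.ext
  ext x
  rw [Place.mem_restrict_iff, Place.mem_restrict_iff, mem_iff, mem_iff]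
  have := ord_gal σ w (algebraMap E F x)
  rw [σ.commutes] at this
  rw [this]

theorem ramificationIndex_gal (σ : F ≃ₐ[E] F) (w : Place K F) :
    (σ.restrictScalars K • w).ramificationIndex E = w.ramificationIndex E := by
  obtain ⟨x, hx, hx1⟩ := exists_ord_eq_one (w.restrict E)
  have h1 := w.ord_restrict (F := E) x
  have h2 := (σ.restrictScalars K • w).ord_restrict (F := E) x
  rw [restrict_gal, hx1] at h2
  rw [hx1] at h1
  have h3 := ord_gal σ w (algebraMap E F x)
  rw [σ.commutes] at h3
  rw [h3, h1] at h2
  simpa using h2.symm

theorem deg_gal (σ : F ≃ₐ[E] F) (w : Place K F) :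
    (σ.restrictScalars K • w).deg = w.deg := Place.deg_smul _ _

variable [IsGalois E F]

/-- The Galois group acts transitively on the places above a given one. -/
theorem exists_gal_smul_eq (w w' : Place K F) (h : w.restrict E = w'.restrict E) :
    ∃ σ : F ≃ₐ[E] F, σ.restrictScalars K • w = w' := by
  set v := w.restrict E with hv
  have hw := (restrict_eq_iff v w).mp hv.symm
  have hw' := (restrict_eq_iff v w').mp h.symm
  letI := IsIntegralClosure.MulSemiringAction v.toValuationSubring E F (intCl F v)
  haveI := Algebra.isInvariant_of_isGalois v.toValuationSubring E F (intCl F v)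
  have hcomm : ∀ (σ : F ≃ₐ[E] F) (b : intCl F v), algebraMap (intCl F v) F (σ • b) =
      σ (algebraMap (intCl F v) F b) := fun σ b =>
    algebraMap_galRestrict_apply v.toValuationSubring σ b
  haveI : SMulCommClass (F ≃ₐ[E] F) v.toValuationSubring (intCl F v) := by
    constructor
    intro σ a b
    apply (FaithfulSMul.algebraMap_injective (intCl F v) F)
    rw [hcomm, Algebra.smul_def, Algebra.smul_def, map_mul, map_mul, map_mul, hcomm,
      ← IsScalarTower.algebraMap_apply v.toValuationSubring (intCl F v) F,
      algebraMap_VF, σ.commutes]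
  have hu : Ideal.under v.toValuationSubring (center w hw).asIdeal =
      Ideal.under v.toValuationSubring (center w' hw').asIdeal := by
    have h1 := (liesOver_of_prime v (center w hw)).over
    have h2 := (liesOver_of_prime v (center w' hw')).over
    rw [← h1, ← h2]
  haveI := (center w hw).isPrime
  haveI := (center w' hw').isPrime
  obtain ⟨g, hg⟩ := Algebra.IsInvariant.exists_smul_of_under_eq v.toValuationSubring (intCl F v)
    (F ≃ₐ[E] F) (center w hw).asIdeal (center w' hw').asIdeal hu
  refine ⟨g, ?_⟩
  have hgw : (g.restrictScalars K • w).restrict E = v := (restrict_gal g w).trans hv.symm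
  have hgw' := (restrict_eq_iff v _).mp hgw
  rw [← placeOfPrime_center w' hw', ← placeOfPrime_center (g.restrictScalars K • w) hgw']
  congr 1
  apply HeightOneSpectrum.ext
  rw [hg]
  ext r
  rw [Ideal.mem_pointwise_smul_iff_inv_smul_mem]
  rcases eq_or_ne r 0 with rfl | hr
  · simp
  · have hr' : g⁻¹ • r ≠ 0 := by
      intro h0
      apply hr
      have := congrArg (fun x => g • x) h0
      simpa using this
    rw [center_asIdeal, center_asIdeal, mem_centerIdeal _ _ hr, mem_centerIdeal _ _ hr',
      ord_gal', hcomm]

/-- decomposition group of a place -/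
def decomp (w : Place K F) : Subgroup (F ≃ₐ[E] F) where
  carrier := {σ | σ.restrictScalars K • w = w}
  mul_mem' {σ τ} hσ hτ := by
    show ((σ * τ).restrictScalars K) • w = w
    have : (σ * τ).restrictScalars K = σ.restrictScalars K * τ.restrictScalars K := rfl
    rw [this, mul_smul, show τ.restrictScalars K • w = w from hτ]
    exact hσ
  one_mem' := by
    show ((1 : F ≃ₐ[E] F).restrictScalars K) • w = w
    have : (1 : F ≃ₐ[E] F).restrictScalars K = (1 : F ≃ₐ[K] F) := rfl
    rw [this, one_smul]
  inv_mem' {σ} hσ := by
    show (σ⁻¹.restrictScalars K) • w = w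
    have : (σ⁻¹).restrictScalars K = (σ.restrictScalars K)⁻¹ := rfl
    rw [this, inv_smul_eq_iff]
    exact (show σ.restrictScalars K • w = w from hσ).symm

variable (E) in
theorem mem_decomp {w : Place K F} {σ : F ≃ₐ[E] F} :
    σ ∈ decomp (E := E) w ↔ σ.restrictScalars K • w = w := Iff.rfl

variable (E) in
/-- Places above `w.restrict E` are the cosets of the decomposition group. -/
def quotientDecompEquiv (w : Place K F) :
    (F ≃ₐ[E] F) ⧸ decomp (E := E) w ≃ {u : Place K F // u.restrict E = w.restrict E} :=
  Equiv.ofBijective
    (fun q => Quotient.liftOn' q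
      (fun σ => (⟨σ.restrictScalars K • w, restrict_gal σ w⟩ :
        {u : Place K F // u.restrict E = w.restrict E}))
      (by
        intro σ τ h
        rw [QuotientGroup.leftRel_apply] at h
        apply Subtype.ext
        show σ.restrictScalars K • w = τ.restrictScalars K • w
        have h1 : (σ⁻¹ * τ).restrictScalars K • w = w := h
        have h2 : (σ⁻¹ * τ).restrictScalars K = (σ.restrictScalars K)⁻¹ * τ.restrictScalars K := rfl
        rw [h2, mul_smul, inv_smul_eq_iff] at h1
        exact h1.symm))
    (by
      constructor
      · intro a b hab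
        induction a using QuotientGroup.induction_on with
        | H σ =>
        induction b using QuotientGroup.induction_on with
        | H τ =>
        have h1 : σ.restrictScalars K • w = τ.restrictScalars K • w := congrArg Subtype.val hab
        apply QuotientGroup.eq.mpr
        show (σ⁻¹ * τ).restrictScalars K • w = w
        have h2 : (σ⁻¹ * τ).restrictScalars K = (σ.restrictScalars K)⁻¹ * τ.restrictScalars K := rfl
        rw [h2, mul_smul, inv_smul_eq_iff]
        exact h1.symm
      · rintro ⟨u, hu⟩
        obtain ⟨σ, hσ⟩ := exists_gal_smul_eq (E := E) w u hu.symm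
        exact ⟨(σ : (F ≃ₐ[E] F) ⧸ decomp (E := E) w), Subtype.ext hσ⟩)

theorem inertiaDeg_mul_deg (w : Place K F) : (w.restrict E).deg * w.inertiaDeg E = w.deg :=
  w.deg_restrict_mul_inertiaDeg

theorem card_decomp_mul (w : Place K F) :
    Nat.card (decomp (E := E) w) * Nat.card {u : Place K F // u.restrict E = w.restrict E} =
      Module.finrank E F := by
  rw [← Nat.card_congr (quotientDecompEquiv E w), ← IsGalois.card_aut_eq_finrank E F, mul_comm]
  exact (Subgroup.card_eq_card_quotient_mul_card_subgroup _).symm

theorem inertiaDeg_gal (σ : F ≃ₐ[E] F) (w : Place K F) :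
    (σ.restrictScalars K • w).inertiaDeg E = w.inertiaDeg E := by
  have hr := restrict_gal σ w
  have hmem : ∀ x : E, x ∈ (w.restrict E).toValuationSubring ↔
      x ∈ ((σ.restrictScalars K • w).restrict E).toValuationSubring := by
    intro x; rw [hr]
  let e1 : (w.restrict E).toValuationSubring ≃+*
      ((σ.restrictScalars K • w).restrict E).toValuationSubring :=
    { toFun := fun x => ⟨x, (hmem x).mp x.2⟩
      invFun := fun x => ⟨x, (hmem x).mpr x.2⟩
      left_inv := fun x => rfl
      right_inv := fun x => rfl
      map_mul' := fun x y => rfl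
      map_add' := fun x y => rfl }
  let i := IsLocalRing.ResidueField.mapEquiv e1
  let j := Place.smulResidueAlgEquiv (σ.restrictScalars K) w
  symm
  refine Algebra.finrank_eq_of_equiv_equiv i j.toRingEquiv ?_
  refine RingHom.ext fun y => ?_
  obtain ⟨y, rfl⟩ := IsLocalRing.residue_surjective y
  show Place.restrictResidueMap E _ (IsLocalRing.residue _ (e1 y)) =
    Place.smulResidueAlgEquiv (σ.restrictScalars K) w
      (Place.restrictResidueMap E w (IsLocalRing.residue _ y))
  rw [Place.restrictResidueMap_residue, Place.restrictResidueMap_residue]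
  show IsLocalRing.residue _ _ = IsLocalRing.residue _ _
  congr 1
  apply Subtype.ext
  show algebraMap E F (y : E) = σ (algebraMap E F (y : E))
  rw [σ.commutes]

theorem card_fiber_mul (w : Place K F) :
    Nat.card {u : Place K F // u.restrict E = w.restrict E} *
      (w.ramificationIndex E * w.inertiaDeg E) = Module.finrank E F := by
  classical
  rw [← sum_ramificationIndex_mul_inertiaDeg F (w.restrict E)]
  have h1 : ∀ u ∈ (fiber_finite F (w.restrict E)).toFinset,
      u.ramificationIndex E * u.inertiaDeg E = w.ramificationIndex E * w.inertiaDeg E := by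
    intro u hu
    have hu' : u.restrict E = w.restrict E := by simpa using hu
    obtain ⟨σ, rfl⟩ := exists_gal_smul_eq (E := E) w u hu'.symm
    rw [ramificationIndex_gal, inertiaDeg_gal]
  rw [Finset.sum_congr rfl h1, Finset.sum_const, smul_eq_mul]
  congr 1
  rw [← Nat.card_eq_card_finite_toFinset]
  rfl

/-- the order of the decomposition group is `e f` -/
theorem card_decomp (w : Place K F) :
    Nat.card (decomp (E := E) w) = w.ramificationIndex E * w.inertiaDeg E := by
  have h1 := card_decomp_mul (E := E) w
  have h2 := card_fiber_mul (E := E) w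
  have hpos : 0 < Module.finrank E F := Module.finrank_pos
  have hc : Nat.card {u : Place K F // u.restrict E = w.restrict E} ≠ 0 := by
    intro h0
    rw [h0, zero_mul] at h2
    omega
  rw [mul_comm] at h1
  exact Nat.eq_of_mul_eq_mul_left (Nat.pos_of_ne_zero hc) (h1.trans h2.symm)

end Galois

end Fermat.Agent.H18
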