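import Mathlib
import Fermat.Agent.H18_Galois

set_option autoImplicit false
set_option linter.unusedSectionVars false
set_option linter.style.haveILetI false
set_option linter.unusedVariables false

noncomputable section

open AlgebraicCurve IsDedekindDomain WithZero IsLocalRing

open scoped Pointwise

namespace Fermat.Agent.H18

section NormGalois

variable {K E F : Type*} [Field K] [Field E] [Field F] [Algebra K E] [Algebra K F]
  [Algebra E F] [IsScalarTower K E F] [FiniteDimensional E F]

theorem ord_prod {ι : Type*} (w : Place K F) (s : Finset ι) (f : ι → F) (h : ∀ i ∈ s, f i ≠ 0) :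
    w.ord (∏ i ∈ s, f i) = ∑ i ∈ s, w.ord (f i) := by
  classical
  induction s using Finset.induction_on with
  | empty => simp
  | insert a s ha ih =>
    rw [Finset.prod_insert ha, Finset.sum_insert ha, w.ord_mul (h a (by simp))
      (Finset.prod_ne_zero_iff.mpr fun i hi => h i (by simp [hi])), ih fun i hi => h i (by simp [hi])]

theorem le_ord_sum {ι : Type*} (w : Place K F) (s : Finset ι) (f : ι → F) (n : ℤ)
    (h : ∀ i ∈ s, f i = 0 ∨ n ≤ w.ord (f i)) :
    ∑ i ∈ s, f i = 0 ∨ n ≤ w.ord (∑ i ∈ s, f i) := by
  classical
  induction s using Finset.induction_on with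
  | empty => simp
  | insert a s ha ih =>
    rw [Finset.sum_insert ha]
    by_cases h0 : f a + ∑ i ∈ s, f i = 0
    · exact Or.inl h0
    · right
      exact le_ord_add w h0 (h a (by simp)) (ih fun i hi => h i (by simp [hi]))

theorem mem_fiberFinset [Algebra.IsSeparable E F] {v : Place K E} {w : Place K F} :
    w ∈ (fiber_finite F v).toFinset ↔ w.restrict E = v := by simp

/-- The norm formula, Galois case. -/
theorem ord_norm_galois [IsGalois E F] (v : Place K E) (h : F) (hh : h ≠ 0) :
    v.ord (Algebra.norm E h) = ∑ u ∈ (fiber_finite F v).toFinset, (u.inertiaDeg E : ℤ) * u.ord h := by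
  classical
  obtain ⟨u₀, hu₀⟩ := exists_restrict_eq (F := F) v
  have hN : algebraMap E F (Algebra.norm E h) = ∏ σ : F ≃ₐ[E] F, σ h :=
    Algebra.norm_eq_prod_automorphisms E h
  have h1 := u₀.ord_restrict (F := E) (Algebra.norm E h)
  rw [hu₀, hN, ord_prod u₀ _ _ (fun σ _ => by simpa using hh)] at h1
  have h2 : ∑ σ : F ≃ₐ[E] F, u₀.ord (σ h) =
      ∑ σ : F ≃ₐ[E] F, (σ.restrictScalars K • u₀).ord h := by
    rw [← Equiv.sum_comp (Equiv.inv (F ≃ₐ[E] F))]
    refine Finset.sum_congr rfl fun σ _ => ?_
    rw [ord_gal']
    rfl
  have h3 : ∑ σ : F ≃ₐ[E] F, (σ.restrictScalars K • u₀).ord h =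
      ∑ u ∈ (fiber_finite F v).toFinset,
        ∑ σ ∈ Finset.univ.filter (fun σ : F ≃ₐ[E] F => σ.restrictScalars K • u₀ = u),
          (σ.restrictScalars K • u₀).ord h := by
    refine (Finset.sum_fiberwise_of_maps_to
      (g := fun σ : F ≃ₐ[E] F => σ.restrictScalars K • u₀) ?_ _).symm
    intro σ _
    rw [mem_fiberFinset, restrict_gal, hu₀]
  have h4 : ∀ u ∈ (fiber_finite F v).toFinset,
      ∑ σ ∈ Finset.univ.filter (fun σ : F ≃ₐ[E] F => σ.restrictScalars K • u₀ = u),
          (σ.restrictScalars K • u₀).ord h =
        (u₀.ramificationIndex E : ℤ) * ((u.inertiaDeg E : ℤ) * u.ord h) := by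
    intro u hu
    rw [mem_fiberFinset] at hu
    obtain ⟨τ, hτ⟩ := exists_gal_smul_eq (E := E) u₀ u (hu₀.trans hu.symm)
    have hcard : (Finset.univ.filter
        (fun σ : F ≃ₐ[E] F => σ.restrictScalars K • u₀ = u)).card =
        Nat.card (decomp (E := E) u₀) := by
      rw [← Fintype.card_subtype, ← Nat.card_eq_fintype_card]
      refine Nat.card_congr
        { toFun := fun σ => ⟨τ⁻¹ * σ.1, ?_⟩
          invFun := fun δ => ⟨τ * δ.1, ?_⟩
          left_inv := fun σ => by simp
          right_inv := fun δ => by simp }
      · show (τ⁻¹ * σ.1).restrictScalars K • u₀ = u₀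
        have e : (τ⁻¹ * σ.1).restrictScalars K = (τ.restrictScalars K)⁻¹ * σ.1.restrictScalars K := rfl
        rw [e, mul_smul, σ.2, inv_smul_eq_iff, hτ]
      · show (τ * δ.1).restrictScalars K • u₀ = u
        have e : (τ * δ.1).restrictScalars K = τ.restrictScalars K * δ.1.restrictScalars K := rfl
        rw [e, mul_smul, show δ.1.restrictScalars K • u₀ = u₀ from δ.2, hτ]
    rw [Finset.sum_congr rfl (g := fun _ => u.ord h) (fun σ hσ => by
      rw [(Finset.mem_filter.mp hσ).2]), Finset.sum_const, hcard, card_decomp]
    have hi : u.inertiaDeg E = u₀.inertiaDeg E := by rw [← hτ, inertiaDeg_gal]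
    rw [hi, nsmul_eq_mul]
    push_cast
    ring
  rw [h2, h3, Finset.sum_congr rfl h4, ← Finset.mul_sum] at h1
  have hepos : 0 < u₀.ramificationIndex E := u₀.ramificationIndex_pos (F := E)
  have : (u₀.ramificationIndex E : ℤ) ≠ 0 := by exact_mod_cast hepos.ne'
  exact (mul_left_cancel₀ this h1).symm

end NormGalois

section Tower

variable {K E F M : Type*} [Field K] [Field E] [Field F] [Field M] [Algebra K E] [Algebra K F]
  [Algebra K M] [Algebra E F] [Algebra E M] [Algebra F M] [IsScalarTower K E F]
  [IsScalarTower K F M] [IsScalarTower K E M] [IsScalarTower E F M]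
  [FiniteDimensional E F] [FiniteDimensional F M] [FiniteDimensional E M]

theorem restrict_restrict (u : Place K M) : (u.restrict F).restrict E = u.restrict E := by
  apply Place.ext
  ext x
  rw [Place.mem_restrict_iff, Place.mem_restrict_iff, Place.mem_restrict_iff,
    ← IsScalarTower.algebraMap_apply]

theorem ramificationIndex_tower (u : Place K M) :
    u.ramificationIndex E = u.ramificationIndex F * (u.restrict F).ramificationIndex E := by
  obtain ⟨x, hx, hx1⟩ := exists_ord_eq_one (u.restrict E)
  have h1 := u.ord_restrict (F := E) x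
  have h2 := u.ord_restrict (F := F) (algebraMap E F x)
  have h3 := (u.restrict F).ord_restrict (F := E) x
  rw [restrict_restrict, hx1, mul_one] at h3
  rw [hx1, mul_one] at h1
  rw [← IsScalarTower.algebraMap_apply, h1, h3] at h2
  exact_mod_cast h2

theorem inertiaDeg_tower (u : Place K M) :
    u.inertiaDeg E = (u.restrict F).inertiaDeg E * u.inertiaDeg F := by
  have hr := restrict_restrict (E := E) (F := F) u
  have hmem : ∀ x : E, x ∈ (u.restrict E).toValuationSubring ↔
      x ∈ ((u.restrict F).restrict E).toValuationSubring := by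
    intro x; rw [hr]
  let e1 : ((u.restrict F).restrict E).toValuationSubring ≃+* (u.restrict E).toValuationSubring :=
    { toFun := fun x => ⟨x, (hmem x).mpr x.2⟩
      invFun := fun x => ⟨x, (hmem x).mp x.2⟩
      left_inv := fun x => rfl
      right_inv := fun x => rfl
      map_mul' := fun x y => rfl
      map_add' := fun x y => rfl }
  let i := IsLocalRing.ResidueField.mapEquiv e1
  letI : Algebra ((u.restrict F).restrict E).ResidueField u.ResidueField :=
    ((Place.restrictResidueMap F u).comp (Place.restrictResidueMap E (u.restrict F))).toAlgebra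
  haveI : IsScalarTower ((u.restrict F).restrict E).ResidueField (u.restrict F).ResidueField
      u.ResidueField := IsScalarTower.of_algebraMap_eq fun x => rfl
  have h1 : Module.finrank ((u.restrict F).restrict E).ResidueField u.ResidueField =
      Module.finrank (u.restrict E).ResidueField u.ResidueField := by
    refine Algebra.finrank_eq_of_equiv_equiv i (RingEquiv.refl _) ?_
    refine RingHom.ext fun y => ?_
    obtain ⟨y, rfl⟩ := IsLocalRing.residue_surjective y
    show Place.restrictResidueMap E u (IsLocalRing.residue _ (e1 y)) =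
      Place.restrictResidueMap F u (Place.restrictResidueMap E (u.restrict F)
        (IsLocalRing.residue _ y))
    rw [Place.restrictResidueMap_residue, Place.restrictResidueMap_residue,
      Place.restrictResidueMap_residue]
    congr 1
    apply Subtype.ext
    show algebraMap E M (y : E) = algebraMap F M (algebraMap E F (y : E))
    rw [← IsScalarTower.algebraMap_apply]
  unfold Place.inertiaDeg
  rw [← h1]
  exact (Module.finrank_mul_finrank _ (u.restrict F).ResidueField _).symm

theorem sum_fiber_tower [Algebra.IsSeparable E F] [Algebra.IsSeparable F M]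
    [Algebra.IsSeparable E M] (v : Place K E) (φ : Place K M → ℤ) :
    ∑ u ∈ (fiber_finite M v).toFinset, φ u =
      ∑ w ∈ (fiber_finite F v).toFinset, ∑ u ∈ (fiber_finite M w).toFinset, φ u := by
  classical
  rw [← Finset.sum_fiberwise_of_maps_to (s := (fiber_finite M v).toFinset)
    (t := (fiber_finite F v).toFinset) (g := fun u => u.restrict F)]
  · refine Finset.sum_congr rfl fun w hw => ?_
    refine Finset.sum_congr ?_ fun _ _ => rfl
    ext u
    rw [mem_fiberFinset] at hw
    rw [Finset.mem_filter, mem_fiberFinset, mem_fiberFinset]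
    constructor
    · rintro ⟨_, h⟩
      exact h
    · intro h
      refine ⟨?_, h⟩
      rw [← restrict_restrict (E := E) (F := F) u, h, hw]
  · intro u hu
    rw [mem_fiberFinset] at hu ⊢
    rw [restrict_restrict, hu]

variable (K M) in
theorem ord_norm_of_tower [IsGalois E M] [IsGalois F M] [Algebra.IsSeparable E F]
    (v : Place K E) (f : F) (hf : f ≠ 0) :
    v.ord (Algebra.norm E f) = ∑ w ∈ (fiber_finite F v).toFinset, (w.inertiaDeg E : ℤ) * w.ord f := by
  have hfM : algebraMap F M f ≠ 0 := by simpa using hf
  have h1 := ord_norm_galois (F := M) v (algebraMap F M f) hfM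
  have h2 : Algebra.norm E (algebraMap F M f) = (Algebra.norm E f) ^ Module.finrank F M := by
    rw [← Algebra.norm_norm (S := F), Algebra.norm_algebraMap, map_pow]
  rw [h2, ord_pow, sum_fiber_tower (F := F)] at h1
  have h3 : ∀ w ∈ (fiber_finite F v).toFinset,
      ∑ u ∈ (fiber_finite M w).toFinset, (u.inertiaDeg E : ℤ) * u.ord (algebraMap F M f) =
        (Module.finrank F M : ℤ) * ((w.inertiaDeg E : ℤ) * w.ord f) := by
    intro w hw
    rw [← sum_ramificationIndex_mul_inertiaDeg M w]
    push_cast
    rw [Finset.sum_mul]
    refine Finset.sum_congr rfl fun u hu => ?_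
    rw [mem_fiberFinset] at hu
    rw [u.ord_restrict (F := F), inertiaDeg_tower (F := F), hu]
    push_cast
    ring
  rw [Finset.sum_congr rfl h3, ← Finset.mul_sum] at h1
  have hpos : (Module.finrank F M : ℤ) ≠ 0 := by
    exact_mod_cast (Module.finrank_pos (R := F) (M := M)).ne'
  exact mul_left_cancel₀ hpos h1

end Tower

section Separable

variable {K E F : Type*} [Field K] [Field E] [Field F] [Algebra K E] [Algebra K F]
  [Algebra E F] [IsScalarTower K E F] [FiniteDimensional E F] [Algebra.IsSeparable E F]

/-- The norm formula. -/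
theorem ord_norm (v : Place K E) (f : F) (hf : f ≠ 0) :
    v.ord (Algebra.norm E f) = ∑ w ∈ (fiber_finite F v).toFinset, (w.inertiaDeg E : ℤ) * w.ord f := by
  let M := IntermediateField.normalClosure E F (AlgebraicClosure F)
  haveI hsep : Algebra.IsSeparable E M := by
    haveI : ∀ g : F →ₐ[E] AlgebraicClosure F, Algebra.IsSeparable E g.fieldRange := fun g =>
      AlgEquiv.Algebra.isSeparable (AlgEquiv.ofInjectiveField g)
    have := IntermediateField.isSeparable_iSup E (AlgebraicClosure F)
      (t := fun g : F →ₐ[E] AlgebraicClosure F => g.fieldRange)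
    exact this
  haveI : IsGalois E M := ⟨⟩
  haveI : IsGalois F M := IsGalois.tower_top_of_isGalois E F M
  haveI : FiniteDimensional F M := FiniteDimensional.right E F M
  haveI : IsScalarTower K F M := by
    refine IsScalarTower.of_algebraMap_eq fun a => Subtype.ext ?_
    show algebraMap K (AlgebraicClosure F) a = algebraMap F (AlgebraicClosure F) (algebraMap K F a)
    rw [← IsScalarTower.algebraMap_apply]
  exact ord_norm_of_tower K M v f hf

variable (K E F) in
theorem pushforwardNormFormula : Divisor.PushforwardNormFormula K E F := by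
  classical
  intro f hf D hD v
  rw [Divisor.pushforward_apply, ord_norm v f hf]
  have h1 : ∑ w ∈ D.support, (if w.restrict E = v then D w * (w.inertiaDeg E : ℤ) else 0) =
      ∑ w ∈ D.support.filter (fun w => w.restrict E = v), D w * (w.inertiaDeg E : ℤ) := by
    rw [Finset.sum_filter]
  rw [h1]
  refine Finset.sum_subset_zero_on_sdiff ?_ ?_ ?_
  · intro w hw
    rw [mem_fiberFinset]
    exact (Finset.mem_filter.mp hw).2
  · intro w hw
    rw [Finset.mem_sdiff, mem_fiberFinset, Finset.mem_filter, not_and] at hw
    have h2 : w ∉ D.support := fun h => hw.2 h hw.1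
    rw [Finsupp.notMem_support_iff, hD] at h2
    rw [h2, mul_zero]
  · intro w hw
    rw [hD, mul_comm]

/-- finiteness of the support of a function -/
theorem finite_support [HasPrincipalDivisors K E] (f : F) (hf : f ≠ 0) :
    {w : Place K F | w.ord f ≠ 0}.Finite := by
  classical
  -- the minimal polynomial
  have hint : IsIntegral E f := Algebra.IsIntegral.isIntegral f
  set p := minpoly E f with hp
  have hp0 : p.coeff 0 ≠ 0 := by
    rw [hp]
    exact minpoly.coeff_zero_ne_zero hint hf
  -- for each `i` with nonzero coefficient choose a divisor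
  have hdiv : ∀ x : E, x ≠ 0 → {v : Place K E | v.ord x ≠ 0}.Finite := by
    intro x hx
    obtain ⟨D, hD, -⟩ := HasPrincipalDivisors.exists_divisor (K := K) x hx
    refine D.support.finite_toSet.subset ?_
    intro v hv
    rw [Finset.mem_coe, Finsupp.mem_support_iff, hD v]
    exact hv
  have hS : (⋃ i ∈ p.support, {v : Place K E | v.ord (p.coeff i) ≠ 0}).Finite :=
    Set.Finite.biUnion p.support.finite_toSet fun i hi =>
      hdiv _ (Polynomial.mem_support_iff.mp hi)
  refine (Set.Finite.biUnion hS (t := fun v => {w : Place K F | w.restrict E = v})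
    fun v _ => fiber_finite F v).subset ?_
  intro w hw
  rw [Set.mem_iUnion₂]
  refine ⟨w.restrict E, ?_, rfl⟩
  by_contra hnot
  have hall : ∀ i, p.coeff i ≠ 0 → (w.restrict E).ord (p.coeff i) = 0 := by
    intro i hi
    by_contra h0
    exact hnot (Set.mem_iUnion₂.mpr ⟨i, Polynomial.mem_support_iff.mpr hi, h0⟩)
  have hall' : ∀ i, p.coeff i ≠ 0 → w.ord (algebraMap E F (p.coeff i)) = 0 := by
    intro i hi
    rw [w.ord_restrict (F := E), hall i hi, mul_zero]
  have heval : Polynomial.aeval f p = 0 := minpoly.aeval E f
  have hmonic : p.Monic := minpoly.monic hint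
  have hge : ∀ (a : E) (i : ℕ), (a ≠ 0 → w.ord (algebraMap E F a) = 0) →
      algebraMap E F a * f ^ i = 0 ∨ w.ord (algebraMap E F a * f ^ i) = i * w.ord f := by
    intro a i ha
    by_cases ha0 : a = 0
    · left; simp [ha0]
    · right
      have : algebraMap E F a ≠ 0 := by simpa using ha0
      rw [w.ord_mul this (pow_ne_zero i hf), ha ha0, ord_pow, zero_add]
  rcases lt_or_gt_of_ne hw with hneg | hpos
  · -- `ord f < 0` : the leading term dominates
    rw [Polynomial.aeval_eq_sum_range, Finset.sum_range_succ, hmonic.coeff_natDegree, one_smul] at heval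
    have h1 := le_ord_sum w (Finset.range p.natDegree) (fun i => p.coeff i • f ^ i)
      ((p.natDegree - 1 : ℤ) * w.ord f) (by
        intro i hi
        simp only [Algebra.smul_def]
        rcases hge (p.coeff i) i (hall' i) with h | h
        · exact Or.inl h
        · right
          rw [h]
          have : (i : ℤ) ≤ p.natDegree - 1 := by
            have := Finset.mem_range.mp hi
            omega
          exact mul_le_mul_of_nonpos_right this hneg.le)
    have h2 : ∑ i ∈ Finset.range p.natDegree, p.coeff i • f ^ i = - f ^ p.natDegree :=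
      eq_neg_of_add_eq_zero_left heval
    rw [h2] at h1
    rcases h1 with h1 | h1
    · exact pow_ne_zero _ hf (neg_eq_zero.mp h1)
    · rw [ord_neg, ord_pow] at h1
      nlinarith
  · rw [Polynomial.aeval_eq_sum_range, Finset.sum_range_succ'] at heval
    simp only [pow_zero] at heval
    have h1 := le_ord_sum w (Finset.range p.natDegree) (fun i => p.coeff (i + 1) • f ^ (i + 1))
      (w.ord f) (by
        intro i hi
        simp only [Algebra.smul_def]
        rcases hge (p.coeff (i + 1)) (i + 1) (hall' (i + 1)) with h | h
        · exact Or.inl h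
        · right
          rw [h]
          push_cast
          nlinarith)
    have h2 : ∑ i ∈ Finset.range p.natDegree, p.coeff (i + 1) • f ^ (i + 1) =
        - algebraMap E F (p.coeff 0) := by
      rw [eq_neg_iff_add_eq_zero, ← heval, Algebra.smul_def, mul_one]
    rw [h2] at h1
    rcases h1 with h1 | h1
    · exact hp0 (by simpa using h1)
    · rw [ord_neg, hall' 0 hp0] at h1
      omega

end Separable

end Fermat.Agent.H18
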