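import Mathlib
import Fermat.Agent.H18_Norm

set_option autoImplicit false
set_option linter.unusedSectionVars false
set_option linter.style.haveILetI false
set_option linter.unusedVariables false

noncomputable section

open AlgebraicCurve IsDedekindDomain WithZero IsLocalRing Polynomial

namespace Fermat.Agent.H18

section Transfer

variable (K E F : Type*) [Field K] [Field E] [Field F] [Algebra K E] [Algebra K F]
  [Algebra E F] [IsScalarTower K E F] [FiniteDimensional E F] [Algebra.IsSeparable E F]

/-- `HasPrincipalDivisors` goes up finite separable extensions. -/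
theorem hasPrincipalDivisors_of_finite [HasPrincipalDivisors K E] : HasPrincipalDivisors K F where
  exists_divisor f hf := by
    have hfin : (Function.support fun w : Place K F => w.ord f).Finite :=
      finite_support (E := E) f hf
    refine ⟨Finsupp.ofSupportFinite (fun w => w.ord f) hfin, fun w => rfl, ?_⟩
    obtain ⟨D, hD, hdeg⟩ := HasPrincipalDivisors.exists_divisor (K := K) (Algebra.norm E f)
      (Algebra.norm_ne_zero_iff.mpr hf)
    have h := Divisor.pushforward_eq_of_normFormula (pushforwardNormFormula K E F) hf
      (D := Finsupp.ofSupportFinite (fun w => w.ord f) hfin) (fun w => rfl) hD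
    rw [← Divisor.degree_pushforward (F := E), h, hdeg]

end Transfer

section Rational

variable {K : Type*} [Field K]

/-- order at infinity -/
def infOrdData (K : Type*) [Field K] : OrdData K (RatFunc K) where
  g f := -f.intDegree
  mul x y hx hy := by
    rw [RatFunc.intDegree_mul hx hy]; ring
  add x y hx hy hxy := by
    have := RatFunc.intDegree_add_le hy hxy
    rcases le_max_iff.mp this with h | h
    · exact min_le_iff.mpr (Or.inl (by omega))
    · exact min_le_iff.mpr (Or.inr (by omega))
  const a ha := by
    have : algebraMap K (RatFunc K) a = RatFunc.C a := rfl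
    rw [this, RatFunc.intDegree_C]
    simp
  nontriv := ⟨RatFunc.X, RatFunc.X_ne_zero, by rw [RatFunc.intDegree_X]; norm_num⟩

/-- the place at infinity of `K(x)` -/
def infPlace (K : Type*) [Field K] : Place K (RatFunc K) := (infOrdData K).toPlace

theorem ord_infPlace (f : RatFunc K) : (infPlace K).ord f = -f.intDegree := by
  rcases eq_or_ne f 0 with rfl | hf
  · simp
  · refine (infOrdData K).ord_eq_g ⟨RatFunc.X⁻¹, inv_ne_zero RatFunc.X_ne_zero, ?_⟩ hf
    show -(RatFunc.X⁻¹ : RatFunc K).intDegree = 1
    rw [RatFunc.intDegree_inv, RatFunc.intDegree_X]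
    norm_num

/-- order of a polynomial at a place where `X` has a pole -/
theorem ord_polynomial_of_neg {F : Type*} [Field F] [Algebra K F] (w : Place K F) (x : F)
    (hw : w.ord x < 0) (p : K[X]) (hp : p ≠ 0) :
    w.ord (aeval x p) = p.natDegree * w.ord x ∧ aeval x p ≠ 0 := by
  have hx : x ≠ 0 := by rintro rfl; simp at hw
  rw [Polynomial.aeval_eq_sum_range, Finset.sum_range_succ, add_comm]
  have hlc : p.coeff p.natDegree ≠ 0 := by
    rw [Polynomial.coeff_natDegree]; exact Polynomial.leadingCoeff_ne_zero.mpr hp
  have hlc' : algebraMap K F (p.coeff p.natDegree) ≠ 0 := by simpa using hlc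
  have h1 : w.ord (p.coeff p.natDegree • x ^ p.natDegree) = p.natDegree * w.ord x := by
    rw [Algebra.smul_def, w.ord_mul hlc' (pow_ne_zero _ hx), ord_algebraMap, ord_pow, zero_add]
  have h2 : p.coeff p.natDegree • x ^ p.natDegree ≠ 0 := by
    rw [Algebra.smul_def]
    exact mul_ne_zero hlc' (pow_ne_zero _ hx)
  have h3 := le_ord_sum w (Finset.range p.natDegree) (fun i => p.coeff i • x ^ i)
      ((p.natDegree - 1 : ℤ) * w.ord x) (by
        intro i hi
        by_cases h0 : p.coeff i = 0
        · left; simp [h0]
        · right
          have h0' : algebraMap K F (p.coeff i) ≠ 0 := by simpa using h0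
          rw [Algebra.smul_def, w.ord_mul h0' (pow_ne_zero _ hx), ord_algebraMap, ord_pow, zero_add]
          have : (i : ℤ) ≤ p.natDegree - 1 := by
            have := Finset.mem_range.mp hi
            omega
          exact mul_le_mul_of_nonpos_right this hw.le)
  have h4 := ord_add_eq_of_lt w (f := p.coeff p.natDegree • x ^ p.natDegree)
    (g := ∑ i ∈ Finset.range p.natDegree, p.coeff i • x ^ i) h2 (by
      rcases h3 with h3 | h3
      · exact Or.inl h3
      · right
        rw [h1]
        nlinarith)
  exact ⟨h4.1.trans h1, h4.2⟩

theorem aeval_X_ratFunc (p : K[X]) :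
    aeval (RatFunc.X : RatFunc K) p = algebraMap K[X] (RatFunc K) p := by
  have := (Polynomial.aeval_algebraMap_apply (RatFunc K) (Polynomial.X : K[X]) p)
  simpa using this

/-- A place of `K(x)` with a pole at `x` is the infinite place. -/
theorem eq_infPlace (w : Place K (RatFunc K)) (hw : w.ord RatFunc.X < 0) : w = infPlace K := by
  symm
  rw [infPlace, OrdData.toPlace_eq_iff]
  intro f hf
  have hnum : f.num ≠ 0 := RatFunc.num_ne_zero hf
  have hden : f.denom ≠ 0 := f.denom_ne_zero
  have h1 := ord_polynomial_of_neg w RatFunc.X hw f.num hnum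
  have h2 := ord_polynomial_of_neg w RatFunc.X hw f.denom hden
  rw [aeval_X_ratFunc] at h1 h2
  have h3 : w.ord f = (f.num.natDegree - f.denom.natDegree : ℤ) * w.ord RatFunc.X := by
    conv_lhs => rw [← RatFunc.num_div_denom f]
    rw [div_eq_mul_inv, w.ord_mul h1.2 (inv_ne_zero h2.2), w.ord_inv, h1.1, h2.1]
    ring
  rw [h3]
  show 0 ≤ -f.intDegree ↔ _
  unfold RatFunc.intDegree
  constructor
  · intro h; nlinarith
  · intro h; nlinarith

theorem polynomial_mem (w : Place K (RatFunc K)) (hw : 0 ≤ w.ord RatFunc.X) (p : K[X]) :
    algebraMap K[X] (RatFunc K) p ∈ w.toValuationSubring := by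
  rw [← aeval_X_ratFunc, Polynomial.aeval_eq_sum_range]
  refine sum_mem fun i _ => ?_
  rw [Algebra.smul_def]
  exact mul_mem (w.algebraMap_mem' _) (pow_mem (mem_of_ord_nonneg w hw) _)

theorem deg_infPlace : (infPlace K).deg = 1 := by
  show Module.finrank K (infPlace K).ResidueField = 1
  have hsurj : Function.Surjective (algebraMap K (infPlace K).ResidueField) := by
    intro y
    obtain ⟨⟨f, hf⟩, rfl⟩ := IsLocalRing.residue_surjective y
    rcases eq_or_ne f 0 with rfl | hf0
    · exact ⟨0, by rw [map_zero]; symm; exact map_zero _⟩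
    have h0 : 0 ≤ (infPlace K).ord f := ord_nonneg_of_mem _ hf
    rcases h0.eq_or_lt with h | h
    · -- a unit
      rw [ord_infPlace] at h
      have hdeg : f.num.natDegree = f.denom.natDegree := by
        unfold RatFunc.intDegree at h
        omega
      set c := f.num.leadingCoeff / f.denom.leadingCoeff with hc
      refine ⟨c, ?_⟩
      show IsLocalRing.residue _ _ = IsLocalRing.residue _ _
      rw [← sub_eq_zero, ← map_sub, IsLocalRing.residue_eq_zero_iff]
      have hnum : f.num ≠ 0 := RatFunc.num_ne_zero hf0
      have hden : f.denom ≠ 0 := f.denom_ne_zero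
      have hval : (algebraMap K (infPlace K).toValuationSubring c - ⟨f, hf⟩ :
          (infPlace K).toValuationSubring) =
        ⟨algebraMap K (RatFunc K) c - f, sub_mem ((infPlace K).algebraMap_mem' c) hf⟩ := rfl
      rw [hval]
      by_cases hz : algebraMap K (RatFunc K) c - f = 0
      · have : (⟨algebraMap K (RatFunc K) c - f, sub_mem ((infPlace K).algebraMap_mem' c) hf⟩ :
          (infPlace K).toValuationSubring) = 0 := Subtype.ext hz
        rw [this]
        exact Ideal.zero_mem _
      · rw [mem_maximalIdeal_iff _ _ hz, ord_infPlace]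
        -- `c - f = (c * denom - num) / denom`
        have hdenne : algebraMap K[X] (RatFunc K) f.denom ≠ 0 := by
          simpa using hden
        have e1 : algebraMap K (RatFunc K) c - f =
            algebraMap K[X] (RatFunc K) (Polynomial.C c * f.denom - f.num) *
              (algebraMap K[X] (RatFunc K) f.denom)⁻¹ := by
          rw [map_sub, map_mul]
          conv_lhs => rw [← RatFunc.num_div_denom f]
          have : algebraMap K (RatFunc K) c = algebraMap K[X] (RatFunc K) (Polynomial.C c) := by
            rw [IsScalarTower.algebraMap_apply K K[X] (RatFunc K)]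
            rfl
          rw [this]
          field_simp
        have hq : Polynomial.C c * f.denom - f.num ≠ 0 := by
          intro h0
          rw [h0, map_zero, zero_mul] at e1
          exact hz e1
        have hq' : algebraMap K[X] (RatFunc K) (Polynomial.C c * f.denom - f.num) ≠ 0 :=
          (map_ne_zero_iff _ (IsFractionRing.injective K[X] (RatFunc K))).mpr hq
        rw [e1, RatFunc.intDegree_mul hq' (inv_ne_zero hdenne), RatFunc.intDegree_inv,
          RatFunc.intDegree_polynomial, RatFunc.intDegree_polynomial]
        have hlead : f.denom.leadingCoeff ≠ 0 := Polynomial.leadingCoeff_ne_zero.mpr hden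
        have hlead' : f.num.leadingCoeff ≠ 0 := Polynomial.leadingCoeff_ne_zero.mpr hnum
        have hc0 : c ≠ 0 := div_ne_zero hlead' hlead
        have hlt : (Polynomial.C c * f.denom - f.num).degree < (Polynomial.C c * f.denom).degree := by
          apply Polynomial.degree_sub_lt
          · rw [Polynomial.degree_C_mul hc0, Polynomial.degree_eq_natDegree hden,
              Polynomial.degree_eq_natDegree hnum, hdeg]
          · exact mul_ne_zero (by simpa using hc0) hden
          · rw [Polynomial.leadingCoeff_mul, Polynomial.leadingCoeff_C, hc]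
            field_simp
        rw [Polynomial.degree_C_mul hc0, Polynomial.degree_eq_natDegree hden,
          Polynomial.degree_eq_natDegree hq] at hlt
        have : (Polynomial.C c * f.denom - f.num).natDegree < f.denom.natDegree := by
          exact_mod_cast hlt
        omega
    · refine ⟨0, ?_⟩
      rw [map_zero]
      symm
      rw [IsLocalRing.residue_eq_zero_iff, mem_maximalIdeal_iff _ _ hf0]
      exact h
  have hbij : Function.Bijective (algebraMap K (infPlace K).ResidueField) :=
    ⟨(algebraMap K (infPlace K).ResidueField).injective, hsurj⟩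
  rw [← Module.finrank_self K]
  exact ((AlgEquiv.ofBijective (Algebra.ofId K (infPlace K).ResidueField)
    hbij).toLinearEquiv.finrank_eq).symm

/-- the place of `K(x)` attached to an irreducible polynomial -/
def polyPrime (p : K[X]) (hp : Prime p) : HeightOneSpectrum K[X] where
  asIdeal := Ideal.span {p}
  isPrime := (Ideal.span_singleton_prime hp.ne_zero).mpr hp
  ne_bot := by simpa using hp.ne_zero

theorem deg_polyPrime (p : K[X]) (hp : Prime p) :
    (placeOfPrime K (RatFunc K) (polyPrime p hp)).deg = p.natDegree := by
  have hmem := algebraMap_mem_placeOfPrime K (RatFunc K) (polyPrime p hp)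
  have h := (residueEquiv _ hmem).toLinearEquiv.finrank_eq
  show Module.finrank K (placeOfPrime K (RatFunc K) (polyPrime p hp)).ResidueField = _
  rw [← h]
  have hc : centerIdeal (placeOfPrime K (RatFunc K) (polyPrime p hp)) hmem = Ideal.span {p} := by
    have := center_placeOfPrime (polyPrime p hp) hmem
    exact congrArg HeightOneSpectrum.asIdeal this
  rw [hc]
  exact finrank_quotient_span_eq_natDegree

theorem ord_polyPrime_self (p : K[X]) (hp : Prime p) :
    (placeOfPrime K (RatFunc K) (polyPrime p hp)).ord (algebraMap K[X] (RatFunc K) p) = 1 := by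
  rw [ord_placeOfPrime, HeightOneSpectrum.valuation_of_algebraMap,
    HeightOneSpectrum.intValuation_singleton _ hp.ne_zero rfl, WithZero.log_exp]
  norm_num

/-- divisor of an irreducible polynomial -/
theorem exists_divisor_prime (p : K[X]) (hp : Prime p) :
    ∃ D : Divisor K (RatFunc K), (∀ v : Place K (RatFunc K),
      D v = v.ord (algebraMap K[X] (RatFunc K) p)) ∧ Divisor.degree D = 0 := by
  classical
  have hp0 : algebraMap K[X] (RatFunc K) p ≠ 0 := by simpa using hp.ne_zero
  have hpdeg : 0 < p.natDegree := Irreducible.natDegree_pos hp.irreducible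
  refine ⟨Finsupp.single (placeOfPrime K (RatFunc K) (polyPrime p hp)) 1 -
    Finsupp.single (infPlace K) (p.natDegree : ℤ), ?_, ?_⟩
  · intro v
    rw [Finsupp.sub_apply, Finsupp.single_apply, Finsupp.single_apply]
    have hne : placeOfPrime K (RatFunc K) (polyPrime p hp) ≠ infPlace K := by
      intro h
      have h1 := ord_polyPrime_self p hp
      rw [h, ord_infPlace, RatFunc.intDegree_polynomial] at h1
      omega
    by_cases hv : v.ord RatFunc.X < 0
    · rw [eq_infPlace v hv, if_neg hne, if_pos rfl, ord_infPlace, RatFunc.intDegree_polynomial]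
      ring
    · push Not at hv
      have hmem := polynomial_mem v hv
      have hvP : placeOfPrime K (RatFunc K) (center v hmem) = v := placeOfPrime_center v hmem
      have hvinf : ¬ (infPlace K = v) := by
        intro h
        rw [← h, ord_infPlace, RatFunc.intDegree_X] at hv
        omega
      rw [if_neg hvinf, sub_zero]
      by_cases hpc : p ∈ (center v hmem).asIdeal
      · have hP : center v hmem = polyPrime p hp := by
          apply HeightOneSpectrum.ext
          have hmax : (Ideal.span {p}).IsMaximal :=
            PrincipalIdealRing.isMaximal_of_irreducible hp.irreducible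
          symm
          apply hmax.eq_of_le (center v hmem).isPrime.ne_top
          rw [Ideal.span_singleton_le_iff_mem]
          exact hpc
        rw [hP] at hvP
        rw [if_pos hvP, ← hvP, ord_polyPrime_self]
      · have hP : ¬ (placeOfPrime K (RatFunc K) (polyPrime p hp) = v) := by
          intro h
          apply hpc
          rw [center_asIdeal, mem_centerIdeal v hmem hp.ne_zero, ← h, ord_polyPrime_self]
          norm_num
        rw [if_neg hP]
        rw [center_asIdeal, mem_centerIdeal v hmem hp.ne_zero] at hpc
        have := ord_nonneg_of_mem v (hmem p)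
        omega
  · rw [map_sub, Divisor.degree_single, Divisor.degree_single, deg_polyPrime, deg_infPlace]
    push_cast
    ring

theorem exists_divisor_mul {F : Type*} [Field F] [Algebra K F] {f g : F} (hf : f ≠ 0) (hg : g ≠ 0)
    (h1 : ∃ D : Divisor K F, (∀ v : Place K F, D v = v.ord f) ∧ Divisor.degree D = 0)
    (h2 : ∃ D : Divisor K F, (∀ v : Place K F, D v = v.ord g) ∧ Divisor.degree D = 0) :
    ∃ D : Divisor K F, (∀ v : Place K F, D v = v.ord (f * g)) ∧ Divisor.degree D = 0 := by
  obtain ⟨D, hD, hd⟩ := h1
  obtain ⟨D', hD', hd'⟩ := h2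
  refine ⟨D + D', fun v => ?_, by rw [map_add, hd, hd', add_zero]⟩
  rw [Finsupp.add_apply, hD, hD', v.ord_mul hf hg]

theorem exists_divisor_inv {F : Type*} [Field F] [Algebra K F] {f : F}
    (h1 : ∃ D : Divisor K F, (∀ v : Place K F, D v = v.ord f) ∧ Divisor.degree D = 0) :
    ∃ D : Divisor K F, (∀ v : Place K F, D v = v.ord f⁻¹) ∧ Divisor.degree D = 0 := by
  obtain ⟨D, hD, hd⟩ := h1
  refine ⟨-D, fun v => ?_, by rw [map_neg, hd, neg_zero]⟩
  rw [Finsupp.neg_apply, hD, v.ord_inv]

theorem exists_divisor_polynomial (p : K[X]) (hp : p ≠ 0) :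
    ∃ D : Divisor K (RatFunc K), (∀ v : Place K (RatFunc K),
      D v = v.ord (algebraMap K[X] (RatFunc K) p)) ∧ Divisor.degree D = 0 := by
  revert hp
  induction p using UniqueFactorizationMonoid.induction_on_prime with
  | h₁ => intro h; exact absurd rfl h
  | h₂ x hx =>
    intro _
    obtain ⟨c, hc, rfl⟩ := Polynomial.isUnit_iff.mp hx
    refine ⟨0, fun v => ?_, map_zero _⟩
    have : algebraMap K[X] (RatFunc K) (Polynomial.C c) = algebraMap K (RatFunc K) c := by
      rw [IsScalarTower.algebraMap_apply K K[X] (RatFunc K)]
      rfl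
    rw [this, ord_algebraMap]
    rfl
  | h₃ a p ha hp ih =>
    intro _
    rw [map_mul]
    exact exists_divisor_mul (by simpa using hp.ne_zero) (by simpa using ha)
      (exists_divisor_prime p hp) (ih ha)

/-- `K(x)` has principal divisors (of degree zero). -/
instance hasPrincipalDivisors_ratFunc : HasPrincipalDivisors K (RatFunc K) where
  exists_divisor f hf := by
    rw [← RatFunc.num_div_denom f, div_eq_mul_inv]
    have hnum : f.num ≠ 0 := RatFunc.num_ne_zero hf
    have hden : f.denom ≠ 0 := f.denom_ne_zero
    exact exists_divisor_mul (by simpa using hnum) (inv_ne_zero (by simpa using hden))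
      (exists_divisor_polynomial _ hnum) (exists_divisor_inv (exists_divisor_polynomial _ hden))

end Rational

section OfTranscendental

open IntermediateField

/-- The isomorphism `K(X) ≃ K(x)` for `x` transcendental. -/
theorem exists_ratFunc_equiv {K F : Type*} [Field K] [Field F] [Algebra K F] (x : F)
    (hx : Transcendental K x) : ∃ e : RatFunc K ≃ₐ[K] K⟮x⟯,
      (e RatFunc.X : F) = x :=
  ⟨RatFunc.algEquivOfTranscendental x hx, RatFunc.algEquivOfTranscendental_X x hx⟩

/-- A function field has principal divisors of degree zero. -/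
theorem hasPrincipalDivisors_of_transcendental {K F : Type*} [Field K] [Field F] [Algebra K F]
    (x : F) (hx : Transcendental K x) [FiniteDimensional K⟮x⟯ F] [Algebra.IsSeparable K⟮x⟯ F] :
    HasPrincipalDivisors K F := by
  obtain ⟨e, he⟩ := exists_ratFunc_equiv x hx
  letI : Algebra (RatFunc K) K⟮x⟯ := e.toRingHom.toAlgebra
  haveI : IsScalarTower K (RatFunc K) K⟮x⟯ := IsScalarTower.of_algebraMap_eq fun a =>
    (e.commutes a).symm
  have hbij : Function.Bijective (algebraMap (RatFunc K) K⟮x⟯) := e.bijective
  haveI : FiniteDimensional (RatFunc K) K⟮x⟯ :=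
    Module.Finite.of_surjective (Algebra.linearMap (RatFunc K) K⟮x⟯) hbij.2
  haveI : Algebra.IsSeparable (RatFunc K) K⟮x⟯ := by
    refine ⟨fun y => ?_⟩
    obtain ⟨z, rfl⟩ := hbij.2 y
    exact isSeparable_algebraMap z
  haveI : HasPrincipalDivisors K K⟮x⟯ := hasPrincipalDivisors_of_finite K (RatFunc K) K⟮x⟯
  exact hasPrincipalDivisors_of_finite K K⟮x⟯ F

end OfTranscendental

end Fermat.Agent.H18
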