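import Mathlib
import Fermat.Agent.H18_Rational

set_option autoImplicit false
set_option linter.unusedSectionVars false
set_option linter.style.haveILetI false
set_option linter.unusedVariables false

noncomputable section

open AlgebraicCurve IsDedekindDomain WithZero IsLocalRing Polynomial IntermediateField

namespace Fermat.Agent.H18

section Change

variable {K F : Type*} [Field K] [Field F] [Algebra K F]

open scoped IntermediateField.algebraAdjoinAdjoin in
/-- Exchange: if `F/K(x)` is finite then so is `F/K(f)` for every transcendental `f`. -/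
theorem finite_adjoin_of_transcendental (x : F) [FiniteDimensional K⟮x⟯ F] (f : F)
    (hf : Transcendental K f) : FiniteDimensional K⟮f⟯ F := by
  -- F is algebraic over K(f)
  have hind : AlgebraicIndependent K (fun _ : Unit => f) := by
    rwa [algebraicIndependent_unique_type_iff]
  haveI halg : Algebra.IsAlgebraic (Algebra.adjoin K {x}) F := by
    haveI : Algebra.IsAlgebraic K⟮x⟯ F := Algebra.IsAlgebraic.of_finite _ _
    exact (IsFractionRing.comap_isAlgebraic_iff (K := K⟮x⟯)).mpr this
  have htr : Algebra.trdeg K F ≤ 1 := by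
    have := Algebra.IsAlgebraic.trdeg_le_cardinalMk K (A := F) {x}
    simpa using this
  have hbas : IsTranscendenceBasis K (fun _ : Unit => f) := by
    apply AlgebraicIndependent.isTranscendenceBasis_of_lift_trdeg_le_of_finite hind
    simpa using htr
  have h2 := hbas.isAlgebraic_field
  rw [Set.range_const] at h2
  -- `x` is algebraic over `K(f)`
  have hx : IsAlgebraic K⟮f⟯ x := Algebra.IsAlgebraic.isAlgebraic x
  set L := K⟮f⟯ with hL
  haveI : FiniteDimensional L L⟮x⟯ := adjoin.finiteDimensional hx.isIntegral
  -- `K(x) ⊆ L(x)`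
  have hle : K⟮x⟯ ≤ (L⟮x⟯).restrictScalars K := by
    rw [adjoin_le_iff, Set.singleton_subset_iff]
    exact mem_adjoin_simple_self L x
  letI : Algebra K⟮x⟯ L⟮x⟯ := (inclusion hle).toRingHom.toAlgebra
  haveI : IsScalarTower K⟮x⟯ L⟮x⟯ F := IsScalarTower.of_algebraMap_eq fun _ => rfl
  haveI : FiniteDimensional L⟮x⟯ F := Module.Finite.of_restrictScalars_finite K⟮x⟯ L⟮x⟯ F
  exact FiniteDimensional.trans L L⟮x⟯ F

end Change

section ResidueFinite

variable {K E F : Type*} [Field K] [Field E] [Field F] [Algebra K E] [Algebra K F]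
  [Algebra E F] [IsScalarTower K E F] [FiniteDimensional E F] [Algebra.IsSeparable E F]

attribute [local instance 10] algebraVF
attribute [local instance] towerVEF towerKVF

theorem inertiaDeg_pos (w : Place K F) : 0 < w.inertiaDeg E := by
  have hmem := (restrict_eq_iff (w.restrict E) w).mp rfl
  have hP : placeOfPrime K F (center w hmem) = w := placeOfPrime_center w hmem
  haveI := liesOver_of_prime (w.restrict E) (center w hmem)
  have h := inertiaDeg_eq (w.restrict E) (center w hmem)
  rw [hP] at h
  rw [← h]
  exact Ideal.inertiaDeg'_pos _ _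

/-- residue extensions are finite -/
theorem finite_residueField (w : Place K F) :
    Module.Finite (w.restrict E).ResidueField w.ResidueField := by
  apply Module.finite_of_finrank_pos
  exact inertiaDeg_pos w

theorem finite_residueField_of_restrict (w : Place K F)
    [Module.Finite K (w.restrict E).ResidueField] : Module.Finite K w.ResidueField := by
  haveI := finite_residueField (E := E) w
  exact Module.Finite.trans (w.restrict E).ResidueField w.ResidueField

end ResidueFinite

section RatResidue

variable {K : Type*} [Field K]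

theorem finite_residueField_ratFunc (v : Place K (RatFunc K)) : Module.Finite K v.ResidueField := by
  by_cases hv : v.ord RatFunc.X < 0
  · rw [eq_infPlace v hv]
    apply Module.finite_of_finrank_pos
    have := deg_infPlace (K := K)
    unfold Place.deg at this
    omega
  · push Not at hv
    have hmem := polynomial_mem v hv
    have hne := (center v hmem).ne_bot
    set I := (center v hmem).asIdeal with hI
    obtain ⟨p, hp⟩ := (IsPrincipalIdealRing.principal I).principal
    have hp0 : p ≠ 0 := by
      rintro rfl
      apply hne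
      rw [hp]
      simp
    haveI : Module.Finite K (K[X] ⧸ Ideal.span {p}) := by
      have := (AdjoinRoot.powerBasis hp0).finite
      exact this
    have h1 : (center v hmem).asIdeal = Ideal.span {p} := hp
    rw [center_asIdeal] at h1
    let e := residueEquiv v hmem
    rw [h1] at e
    exact Module.Finite.equiv e.toLinearEquiv

end RatResidue

section RatPlaces

variable {K : Type*} [Field K]

/-- the place `X = c` of `K(X)` -/
def ratPlace (c : K) : Place K (RatFunc K) :=
  placeOfPrime K (RatFunc K) (polyPrime (Polynomial.X - Polynomial.C c) (Polynomial.prime_X_sub_C c))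

/-- the function `X - c` of `K(X)` -/
def ratX (c : K) : RatFunc K := algebraMap K[X] (RatFunc K) (Polynomial.X - Polynomial.C c)

theorem ratX_eq (c : K) : ratX c = RatFunc.X - algebraMap K (RatFunc K) c := by
  rw [ratX, map_sub, RatFunc.algebraMap_X, IsScalarTower.algebraMap_apply K K[X] (RatFunc K)]
  rfl

theorem ratX_ne_zero (c : K) : ratX c ≠ 0 :=
  (map_ne_zero_iff _ (IsFractionRing.injective K[X] (RatFunc K))).mpr (Polynomial.X_sub_C_ne_zero c)

theorem ord_ratPlace (c : K) : (ratPlace c).ord (ratX c) = 1 := ord_polyPrime_self _ _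

theorem ord_X_nonneg {v : Place K (RatFunc K)} {c : K} (h : 0 ≤ v.ord (ratX c)) :
    0 ≤ v.ord RatFunc.X := by
  have : (RatFunc.X : RatFunc K) = ratX c + algebraMap K (RatFunc K) c := by
    rw [ratX_eq]; ring
  rw [this]
  apply ord_nonneg_of_mem
  exact add_mem (mem_of_ord_nonneg v h) (v.algebraMap_mem' c)

theorem eq_ratPlace (v : Place K (RatFunc K)) (c : K) (h : 0 < v.ord (ratX c)) :
    v = ratPlace c := by
  have hmem := polynomial_mem v (ord_X_nonneg h.le)
  rw [← placeOfPrime_center v hmem, ratPlace]
  congr 1
  apply HeightOneSpectrum.ext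
  have hmax : (Ideal.span {Polynomial.X - Polynomial.C c}).IsMaximal :=
    PrincipalIdealRing.isMaximal_of_irreducible (Polynomial.irreducible_X_sub_C c)
  symm
  apply hmax.eq_of_le (center v hmem).isPrime.ne_top
  rw [Ideal.span_singleton_le_iff_mem, center_asIdeal,
    mem_centerIdeal v hmem (Polynomial.X_sub_C_ne_zero c)]
  exact h

theorem eq_ratPlace_iff (v : Place K (RatFunc K)) (c : K) :
    v = ratPlace c ↔ 0 < v.ord (ratX c) :=
  ⟨fun h => by rw [h, ord_ratPlace]; norm_num, eq_ratPlace v c⟩

theorem eq_infPlace_iff (v : Place K (RatFunc K)) : v = infPlace K ↔ v.ord RatFunc.X < 0 :=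
  ⟨fun h => by rw [h, ord_infPlace, RatFunc.intDegree_X]; norm_num, eq_infPlace v⟩

theorem exists_eq_ratPlace [IsAlgClosed K] (v : Place K (RatFunc K)) (h : 0 ≤ v.ord RatFunc.X) :
    ∃ c : K, v = ratPlace c := by
  have hmem := polynomial_mem v h
  have hne := (center v hmem).ne_bot
  obtain ⟨p, hp⟩ := (IsPrincipalIdealRing.principal (center v hmem).asIdeal).principal
  have hp0 : p ≠ 0 := by
    rintro rfl
    apply hne
    rw [hp]
    simp
  have hpr : Prime p := by
    have h1 := (center v hmem).isPrime
    have h2 : (center v hmem).asIdeal = Ideal.span {p} := hp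
    rw [h2] at h1
    exact (Ideal.span_singleton_prime hp0).mp h1
  obtain ⟨c, hc⟩ := IsAlgClosed.exists_root p (by
    have := Polynomial.degree_pos_of_irreducible hpr.irreducible
    exact this.ne')
  refine ⟨c, eq_ratPlace v c ?_⟩
  rw [ratX, ← mem_centerIdeal v hmem (Polynomial.X_sub_C_ne_zero c), ← center_asIdeal]
  have h2 : (center v hmem).asIdeal = Ideal.span {p} := hp
  rw [h2, Ideal.mem_span_singleton]
  have h3 : (Polynomial.X - Polynomial.C c) ∣ p := Polynomial.dvd_iff_isRoot.mpr hc
  exact (hpr.irreducible.dvd_comm (Polynomial.irreducible_X_sub_C c)).mpr h3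

end RatPlaces

section AlgClosed

variable {K F : Type*} [Field K] [Field F] [Algebra K F] [IsAlgClosed K]
  [Algebra (RatFunc K) F] [IsScalarTower K (RatFunc K) F] [FiniteDimensional (RatFunc K) F]
  [Algebra.IsSeparable (RatFunc K) F]

theorem finite_residueField_of_ratFunc (w : Place K F) : Module.Finite K w.ResidueField := by
  haveI := finite_residueField_ratFunc (w.restrict (RatFunc K))
  exact finite_residueField_of_restrict (E := RatFunc K) w

theorem deg_eq_one (w : Place K F) : w.deg = 1 := by
  haveI := finite_residueField_of_ratFunc w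
  exact w.deg_eq_one_of_isAlgClosed_of_finite

theorem inertiaDeg_eq_one (w : Place K F) : w.inertiaDeg (RatFunc K) = 1 := by
  have h1 := w.deg_restrict_mul_inertiaDeg (F := RatFunc K)
  rw [deg_eq_one w] at h1
  exact Nat.eq_one_of_mul_eq_one_left h1

variable (F) in
theorem sum_ramificationIndex_eq (v : Place K (RatFunc K)) :
    ∑ w ∈ (fiber_finite F v).toFinset, w.ramificationIndex (RatFunc K) =
      Module.finrank (RatFunc K) F := by
  rw [← sum_ramificationIndex_mul_inertiaDeg F v]
  refine Finset.sum_congr rfl fun w _ => ?_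
  rw [inertiaDeg_eq_one, mul_one]

theorem restrict_eq_ratPlace_iff (w : Place K F) (c : K) :
    w.restrict (RatFunc K) = ratPlace c ↔
      0 < w.ord (algebraMap (RatFunc K) F RatFunc.X - algebraMap K F c) := by
  rw [eq_ratPlace_iff]
  have h := w.ord_restrict (F := RatFunc K) (ratX c)
  rw [ratX_eq, map_sub, ← IsScalarTower.algebraMap_apply] at h
  rw [h, ratX_eq]
  have hpos : 0 < (w.ramificationIndex (RatFunc K) : ℤ) := by
    exact_mod_cast w.ramificationIndex_pos (F := RatFunc K)
  constructor
  · intro h; exact mul_pos hpos h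
  · intro h; exact (mul_pos_iff_of_pos_left hpos).mp h

theorem ord_eq_ramificationIndex (w : Place K F) (c : K)
    (hw : w.restrict (RatFunc K) = ratPlace c) :
    w.ord (algebraMap (RatFunc K) F RatFunc.X - algebraMap K F c) =
      w.ramificationIndex (RatFunc K) := by
  have h := w.ord_restrict (F := RatFunc K) (ratX c)
  rw [hw, ord_ratPlace, ratX_eq, map_sub, ← IsScalarTower.algebraMap_apply, mul_one] at h
  exact h

theorem restrict_eq_infPlace_iff (w : Place K F) :
    w.restrict (RatFunc K) = infPlace K ↔ w.ord (algebraMap (RatFunc K) F RatFunc.X) < 0 := by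
  rw [eq_infPlace_iff, w.ord_restrict]
  have hpos : 0 < (w.ramificationIndex (RatFunc K) : ℤ) := by
    exact_mod_cast w.ramificationIndex_pos (F := RatFunc K)
  constructor
  · intro h; exact mul_neg_of_pos_of_neg hpos h
  · intro h
    by_contra h'
    push Not at h'
    have := mul_nonneg hpos.le h'
    omega

theorem ord_eq_neg_ramificationIndex (w : Place K F)
    (hw : w.restrict (RatFunc K) = infPlace K) :
    w.ord (algebraMap (RatFunc K) F RatFunc.X) = - (w.ramificationIndex (RatFunc K) : ℤ) := by
  have h := w.ord_restrict (F := RatFunc K) RatFunc.X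
  rw [hw, ord_infPlace, RatFunc.intDegree_X] at h
  rw [h]; ring

end AlgClosed

section General

variable {K F : Type*} [Field K] [Field F] [Algebra K F]

/-- The algebra structure over `RatFunc K` defined by a transcendental element. -/
@[reducible] def ratFuncAlgebra (x : F) (hx : Transcendental K x) : Algebra (RatFunc K) F :=
  (((K⟮x⟯).val : K⟮x⟯ →ₐ[K] F).toRingHom.comp
    (RatFunc.algEquivOfTranscendental x hx).toRingEquiv.toRingHom).toAlgebra

theorem ratFuncAlgebra_tower (x : F) (hx : Transcendental K x) :
    letI := ratFuncAlgebra x hx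
    IsScalarTower K (RatFunc K) F := by
  letI := ratFuncAlgebra x hx
  refine IsScalarTower.of_algebraMap_eq fun a => ?_
  show algebraMap K F a = ((RatFunc.algEquivOfTranscendental x hx) (algebraMap K (RatFunc K) a) : F)
  rw [AlgEquiv.commutes]
  rfl

theorem ratFuncAlgebra_X (x : F) (hx : Transcendental K x) :
    letI := ratFuncAlgebra x hx
    algebraMap (RatFunc K) F RatFunc.X = x :=
  RatFunc.algEquivOfTranscendental_X x hx

theorem ratFuncAlgebra_finite (x : F) (hx : Transcendental K x) [FiniteDimensional K⟮x⟯ F] :
    letI := ratFuncAlgebra x hx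
    FiniteDimensional (RatFunc K) F := by
  letI := ratFuncAlgebra x hx
  letI : Algebra (RatFunc K) K⟮x⟯ :=
    (RatFunc.algEquivOfTranscendental x hx).toRingEquiv.toRingHom.toAlgebra
  haveI : IsScalarTower (RatFunc K) K⟮x⟯ F := IsScalarTower.of_algebraMap_eq fun _ => rfl
  haveI : Module.Finite (RatFunc K) K⟮x⟯ :=
    Module.Finite.of_surjective (Algebra.linearMap (RatFunc K) K⟮x⟯)
      (RatFunc.algEquivOfTranscendental x hx).surjective
  exact Module.Finite.trans K⟮x⟯ F

theorem ratFuncAlgebra_separable (x : F) (hx : Transcendental K x) [FiniteDimensional K⟮x⟯ F]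
    [Algebra.IsSeparable K⟮x⟯ F] :
    letI := ratFuncAlgebra x hx
    Algebra.IsSeparable (RatFunc K) F := by
  letI := ratFuncAlgebra x hx
  letI : Algebra (RatFunc K) K⟮x⟯ :=
    (RatFunc.algEquivOfTranscendental x hx).toRingEquiv.toRingHom.toAlgebra
  haveI : IsScalarTower (RatFunc K) K⟮x⟯ F := IsScalarTower.of_algebraMap_eq fun _ => rfl
  haveI : Module.Finite (RatFunc K) K⟮x⟯ :=
    Module.Finite.of_surjective (Algebra.linearMap (RatFunc K) K⟮x⟯)
      (RatFunc.algEquivOfTranscendental x hx).surjective
  haveI : Algebra.IsSeparable (RatFunc K) K⟮x⟯ := by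
    refine ⟨fun y => ?_⟩
    obtain ⟨z, rfl⟩ := (RatFunc.algEquivOfTranscendental x hx).surjective y
    exact isSeparable_algebraMap z
  exact Algebra.IsSeparable.trans (RatFunc K) K⟮x⟯ F

theorem ratFuncAlgebra_finrank (x : F) (hx : Transcendental K x) :
    letI := ratFuncAlgebra x hx
    Module.finrank (RatFunc K) F = Module.finrank K⟮x⟯ F := by
  letI := ratFuncAlgebra x hx
  refine Algebra.finrank_eq_of_equiv_equiv
    (RatFunc.algEquivOfTranscendental x hx).toRingEquiv (RingEquiv.refl F) ?_
  rfl

/-- Sum of the positive orders of a function = degree over `K(x)`. -/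
theorem sum_ord_pos [IsAlgClosed K] (x : F) (hx : Transcendental K x) [FiniteDimensional K⟮x⟯ F]
    [Algebra.IsSeparable K⟮x⟯ F] :
    ∃ hfin : {w : Place K F | 0 < w.ord x}.Finite,
      ∑ w ∈ hfin.toFinset, w.ord x = Module.finrank K⟮x⟯ F := by
  letI := ratFuncAlgebra x hx
  haveI := ratFuncAlgebra_tower x hx
  haveI := ratFuncAlgebra_finite x hx
  haveI := ratFuncAlgebra_separable x hx
  have hX := ratFuncAlgebra_X x hx
  have hset : {w : Place K F | 0 < w.ord x} =
      {w : Place K F | w.restrict (RatFunc K) = ratPlace 0} := by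
    ext w
    simp only [Set.mem_ofPred_eq]
    rw [restrict_eq_ratPlace_iff, hX]
    simp
  have hfin : {w : Place K F | 0 < w.ord x}.Finite := by
    rw [hset]; exact fiber_finite F _
  refine ⟨hfin, ?_⟩
  rw [← ratFuncAlgebra_finrank x hx, ← sum_ramificationIndex_eq F (ratPlace (0 : K))]
  push_cast
  refine Finset.sum_congr ?_ fun w hw => ?_
  · ext w
    rw [Set.Finite.mem_toFinset, Set.Finite.mem_toFinset, hset]
  · have hw' : w.restrict (RatFunc K) = ratPlace 0 := by simpa using hw
    have := ord_eq_ramificationIndex w 0 hw'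
    rw [hX, map_zero, sub_zero] at this
    exact this

end General

end Fermat.Agent.H18
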