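import Fermat.Agent.H02_ModAlg
import Fermat.Agent.IntStr.HForm3

set_option autoImplicit false

/-!
# The functions `j(Nz)`, their conjugates, growth and separation

-/

noncomputable section

open UpperHalfPlane hiding I
open ModularForm EisensteinSeries Filter Complex Topology Function CongruenceSubgroup
open scoped MatrixGroups Manifold Real

namespace Fermat.Agent.H02

local notation "𝕢" => Function.Periodic.qParam
local notation "Δ" => ModularForm.discriminant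

open Fermat.Agent.H18 (jfun)
open Fermat.Agent.IntStr (aff coe_aff decomp)

/-- Hermite normal form: `N·(γ z) = δ((a z + b)/d)`. -/
theorem exists_aff {N : ℕ} (hN : 0 < N) (γ : SL(2, ℤ)) :
    ∃ (a d : ℕ) (b : ℤ) (δ : SL(2, ℤ)), 0 < a ∧ 0 < d ∧ a * d = N ∧
      (∀ z, aff N 1 0 (γ • z) = δ • aff a d b z) ∧ (γ ∈ Gamma0 N ↔ d = 1) := by
  obtain ⟨a, d, b, δ, ha, hd, had, h1, h2, h3, h4⟩ := decomp hN γ
  refine ⟨a, d, b, δ, ha, hd, had, fun z => ?_, ?_⟩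
  · have hd0 : (d : ℂ) ≠ 0 := by exact_mod_cast hd.ne'
    apply UpperHalfPlane.ext
    have e1 := congrArg (fun x : ℤ ↦ (x : ℂ)) h1
    have e2 := congrArg (fun x : ℤ ↦ (x : ℂ)) h2
    have e3 := congrArg (fun x : ℤ ↦ (x : ℂ)) h3
    have e4 := congrArg (fun x : ℤ ↦ (x : ℂ)) h4
    push_cast at e1 e2 e3 e4
    have n1 : (γ 1 0 : ℂ) * z + γ 1 1 ≠ 0 := by
      have := denom_ne_zero γ z
      rwa [ModularGroup.denom_apply] at this
    have n2 : (δ 1 0 : ℂ) * (aff a d b z : ℂ) + δ 1 1 ≠ 0 := by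
      have := denom_ne_zero δ (aff a d b z)
      rwa [ModularGroup.denom_apply] at this
    rw [coe_aff hN one_pos, coe_specialLinearGroup_apply, coe_specialLinearGroup_apply]
    simp only [algebraMap_int_eq, eq_intCast, Complex.ofReal_intCast]
    rw [coe_aff ha hd] at n2 ⊢
    rw [div_eq_div_iff (by simp) n2]
    simp only [Int.cast_zero, add_zero, Nat.cast_one, mul_one]
    rw [mul_div_assoc', div_mul_eq_mul_div, div_eq_iff n1]
    field_simp
    linear_combination (z * ((δ 1 0 : ℂ) * (a * z + b) + d * δ 1 1)) * e1 +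
      ((δ 1 0 : ℂ) * (a * z + b) + d * δ 1 1) * e2
      - ((δ 0 0 : ℂ) * (a * z + b) + d * δ 0 1) * (z * e3 + e4)
  · rw [Gamma0_mem, ZMod.intCast_zmod_eq_zero_iff_dvd]
    constructor
    · intro hdvd
      have hdet : γ 0 0 * γ 1 1 - γ 0 1 * γ 1 0 = 1 := by
        have := γ.det_coe
        rwa [Matrix.det_fin_two] at this
      have hdz : (d : ℤ) ∣ δ 1 0 := by
        rw [h3, ← had] at hdvd
        push_cast at hdvd
        rw [mul_comm (a : ℤ)] at hdvd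
        exact Int.dvd_of_mul_dvd_mul_right (by exact_mod_cast ha.ne') hdvd
      have hd1 : (d : ℤ) ∣ γ 1 1 := by
        rw [h4]
        exact dvd_add (Dvd.dvd.mul_right hdz b) (dvd_mul_left _ _)
      have hd2 : (d : ℤ) ∣ γ 1 0 := by
        rw [h3]
        exact Dvd.dvd.mul_right hdz a
      have : (d : ℤ) ∣ 1 := by
        rw [← hdet]
        exact dvd_sub (Dvd.dvd.mul_left hd1 _) (Dvd.dvd.mul_left hd2 _)
      have := Int.eq_one_of_dvd_one (by positivity) this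
      exact_mod_cast this
    · intro hd1
      subst hd1
      rw [mul_one] at had
      subst had
      rw [h3]
      exact dvd_mul_left _ _

/-- The function `z ↦ j(Nz)`. -/
def jN (N : ℕ) : ℍ → ℂ := fun z => jfun (aff N 1 0 z)

lemma jN_smul {N : ℕ} (hN : 0 < N) (γ : SL(2, ℤ)) : ∃ (a d : ℕ) (b : ℤ), 0 < a ∧ 0 < d ∧
    a * d = N ∧ (tr γ (jN N) = fun z => jfun (aff a d b z)) ∧ (γ ∈ Gamma0 N ↔ d = 1) := by
  obtain ⟨a, d, b, δ, ha, hd, had, h1, h2⟩ := exists_aff hN γ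
  refine ⟨a, d, b, ha, hd, had, funext fun z => ?_, h2⟩
  rw [tr_apply, jN, h1 z]
  exact congrFun (tr_jfun δ) _

lemma jfun_aff_mul {N a d : ℕ} (hd : 0 < d) (b : ℤ) :
    (fun z => jfun (aff a d b z)) * Δ ^ N =
      fun z => (E₄ (aff a d b z)) ^ 3 * ((d : ℂ) ^ 12)⁻¹ * Fermat.Agent.IntStr.Hc N a d b z := by
  ext z
  have h1 := Fermat.Agent.H18.jfun_mul_discriminant (aff a d b z)
  have hD := discriminant_ne_zero (aff a d b z)
  have hd0 : (d : ℂ) ≠ 0 := by exact_mod_cast hd.ne'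
  rw [Pi.mul_apply, Pi.pow_apply, ← h1, Fermat.Agent.IntStr.Hc]
  field_simp

lemma tendsto_E4_aff {a d : ℕ} (ha : 0 < a) (hd : 0 < d) (b : ℤ) :
    Tendsto (fun z => E₄ (aff a d b z)) atImInfty (𝓝 1) :=
  tendsto_E4.comp (Fermat.Agent.IntStr.tendsto_aff ha hd b)

lemma bdd_jfun_aff {N a d : ℕ} (ha : 0 < a) (hd : 0 < d) (b : ℤ) (had : a * d = N) :
    IsBoundedAtImInfty ((fun z => jfun (aff a d b z)) * Δ ^ N) := by
  rw [jfun_aff_mul hd b]
  have h1 : Tendsto (fun z => (E₄ (aff a d b z)) ^ 3 * ((d : ℂ) ^ 12)⁻¹) atImInfty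
      (𝓝 (1 ^ 3 * ((d : ℂ) ^ 12)⁻¹)) := ((tendsto_E4_aff ha hd b).pow 3).mul_const _
  have h2 : IsBoundedAtImInfty (fun z => (E₄ (aff a d b z)) ^ 3 * ((d : ℂ) ^ 12)⁻¹) :=
    h1.isBigO_one ℝ
  exact h2.mul (Fermat.Agent.IntStr.isBounded_Hc ha hd b had)

lemma mdiff_jN {N : ℕ} (hN : 0 < N) : MDiff (jN N) :=
  Fermat.Agent.IntStr.mdiff_comp_aff Fermat.Agent.H18.mdiff_jfun hN one_pos 0

lemma isSlow_jN {N : ℕ} (hN : 0 < N) : IsSlow (jN N) :=
  ⟨mdiff_jN hN, fun γ => by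
    obtain ⟨a, d, b, ha, hd, had, h, -⟩ := jN_smul hN γ
    exact ⟨N, by rw [h]; exact bdd_jfun_aff ha hd b had⟩⟩

lemma periodic_jfun : Function.Periodic (jfun ∘ ofComplex) 1 :=
  periodic_of_T (tr_jfun _)

lemma jfun_aff_one_eq {N : ℕ} (b : ℤ) (z : ℍ) : jfun (aff N 1 b z) = jN N z := by
  have h1 := periodic_jfun.int_mul b ((N : ℂ) * z)
  simp only [comp_apply, mul_one] at h1
  have h2 : aff N 1 b z = ofComplex ((N : ℂ) * z + b) := by simp [aff]
  have h3 : aff N 1 0 z = ofComplex ((N : ℂ) * z) := by simp [aff]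
  rw [jN, h2, h3, h1]

lemma tr_jN_of_mem {N : ℕ} (hN : 0 < N) {γ : SL(2, ℤ)} (hγ : γ ∈ Gamma0 N) :
    tr γ (jN N) = jN N := by
  obtain ⟨a, d, b, ha, hd, had, h, h'⟩ := jN_smul hN γ
  have hd1 := h'.mp hγ
  subst hd1
  rw [mul_one] at had
  subst had
  rw [h]
  exact funext fun z => jfun_aff_one_eq b z

lemma jN_mem_modAlg {N : ℕ} (hN : 0 < N) : jN N ∈ modAlg (Gamma0 N) :=
  ⟨isSlow_jN hN, fun _ hγ => tr_jN_of_mem hN hγ⟩

lemma Gamma0_le_of_dvd {M N : ℕ} (h : M ∣ N) : Gamma0 N ≤ Gamma0 M := by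
  intro γ hγ
  rw [Gamma0_mem, ZMod.intCast_zmod_eq_zero_iff_dvd] at hγ ⊢
  exact (Int.natCast_dvd_natCast.mpr h).trans hγ

lemma jN_mem_modAlg_of_dvd {M N : ℕ} (hM : 0 < M) (h : M ∣ N) : jN M ∈ modAlg (Gamma0 N) :=
  modAlg_mono (Gamma0_le_of_dvd h) (jN_mem_modAlg hM)

/-- **Separation**: `j(N γ z) = j(N z)` for all `z` implies `γ ∈ Γ₀(N)`. -/
theorem mem_Gamma0_of_tr_jN {N : ℕ} (hN : 0 < N) {γ : SL(2, ℤ)} (h : tr γ (jN N) = jN N) :
    γ ∈ Gamma0 N := by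
  obtain ⟨a, d, b, ha, hd, had, h1, h2⟩ := jN_smul hN γ
  by_contra hγ
  have hd1 : 1 < d := by
    rcases Nat.lt_or_ge 1 d with h3 | h3
    · exact h3
    · exact absurd (h2.mpr (by omega)) hγ
  have e1 : Tendsto ((fun z => jfun (aff a d b z)) * Δ ^ N) atImInfty (𝓝 0) := by
    rw [jfun_aff_mul hd b]
    have := (((tendsto_E4_aff ha hd b).pow 3).mul_const ((d : ℂ) ^ 12)⁻¹).mul
      (Fermat.Agent.IntStr.tendsto_Hc_zero ha hd b (Fermat.Agent.IntStr.lt_of_one_lt ha had hd1))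
    rw [mul_zero] at this
    exact this
  have e2 : Tendsto ((fun z => jfun (aff N 1 0 z)) * Δ ^ N) atImInfty (𝓝 1) := by
    rw [jfun_aff_mul one_pos 0]
    have := (((tendsto_E4_aff hN one_pos 0).pow 3).mul_const (((1 : ℕ) : ℂ) ^ 12)⁻¹).mul
      (Fermat.Agent.IntStr.tendsto_HN hN)
    simpa [Fermat.Agent.IntStr.HN] using this
  rw [← h1, h] at e1
  exact zero_ne_one (tendsto_nhds_unique e1 e2)

end Fermat.Agent.H02
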