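import Fermat.Agent.H02_ModAlg

set_option autoImplicit false

/-!
# Every modular function is a polynomial in a separating one, up to a level-one denominator

-/

noncomputable section

open UpperHalfPlane hiding I
open ModularForm EisensteinSeries Filter Complex Topology Function CongruenceSubgroup
open scoped MatrixGroups Manifold Real

namespace Fermat.Agent.H02

open Fermat.Agent.H18 (jfun)

section linalg

variable {R : Type*} [CommRing R] {n : ℕ}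

/-- Vandermonde trick: with `S = VᵀV`, `T = Vᵀ f`, one has `det S · f = V (adj S) T`. -/
lemma vander_trick (g f : Fin n → R) (i : Fin n) :
    ((Matrix.vandermonde g).transpose * Matrix.vandermonde g).det * f i =
      ∑ k : Fin n, ((((Matrix.vandermonde g).transpose * Matrix.vandermonde g).adjugate).mulVec
        ((Matrix.vandermonde g).transpose.mulVec f)) k * g i ^ (k : ℕ) := by
  set V := Matrix.vandermonde g with hV
  have h1 : V.mulVec (((V.transpose * V).adjugate).mulVec (V.transpose.mulVec f)) =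
      (V.transpose * V).det • f := by
    rw [Matrix.mulVec_mulVec, Matrix.mulVec_mulVec, Matrix.adjugate_mul_distrib,
      ← Matrix.mul_assoc V, Matrix.mul_adjugate, Matrix.mul_assoc, Matrix.adjugate_mul,
      Matrix.det_mul]
    simp [smul_smul, Matrix.smul_mulVec]
  have h2 := congrFun h1 i
  rw [Pi.smul_apply, smul_eq_mul] at h2
  rw [← h2, Matrix.mulVec, dotProduct]
  refine Finset.sum_congr rfl fun k _ => ?_
  rw [hV, Matrix.vandermonde_apply, mul_comm]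

end linalg

section trace

variable {Γ : Subgroup SL(2, ℤ)}

/-- The conjugate of a `Γ`-invariant function attached to a coset. -/
def cosetFn (f : ℍ → ℂ) (q : SL(2, ℤ) ⧸ Γ) : ℍ → ℂ := tr (q.out)⁻¹ f

lemma cosetFn_mk {f : ℍ → ℂ} (hf : ∀ γ ∈ Γ, tr γ f = f) (g : SL(2, ℤ)) :
    cosetFn f (g : SL(2, ℤ) ⧸ Γ) = tr g⁻¹ f := by
  rw [cosetFn]
  obtain ⟨h, hh⟩ := QuotientGroup.mk_out_eq_mul Γ g
  rw [hh, mul_inv_rev, ← tr_tr, hf _ (inv_mem h.2)]

lemma tr_cosetFn {f : ℍ → ℂ} (hf : ∀ γ ∈ Γ, tr γ f = f) (δ : SL(2, ℤ)) (q : SL(2, ℤ) ⧸ Γ) :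
    tr δ (cosetFn f q) = cosetFn f (δ⁻¹ • q) := by
  induction q using QuotientGroup.induction_on with
  | H g =>
    rw [cosetFn_mk hf, tr_tr, MulAction.Quotient.smul_coe, smul_eq_mul, cosetFn_mk hf,
      mul_inv_rev, inv_inv]

lemma cosetFn_mul (f g : ℍ → ℂ) (q : SL(2, ℤ) ⧸ Γ) :
    cosetFn (f * g) q = cosetFn f q * cosetFn g q := rfl

lemma cosetFn_pow (f : ℍ → ℂ) (n : ℕ) (q : SL(2, ℤ) ⧸ Γ) :
    cosetFn (f ^ n) q = cosetFn f q ^ n := rfl

lemma isSlow_sum {ι : Type*} (s : Finset ι) {f : ι → ℍ → ℂ} (h : ∀ i ∈ s, IsSlow (f i)) :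
    IsSlow (∑ i ∈ s, f i) := by
  classical
  induction s using Finset.induction_on with
  | empty => rw [Finset.sum_empty]; exact isSlow_const 0
  | insert a s ha ih =>
    rw [Finset.sum_insert ha]
    exact (h a (Finset.mem_insert_self a s)).add
      (ih fun i hi => h i (Finset.mem_insert_of_mem hi))

lemma tr_sum {ι : Type*} (s : Finset ι) (f : ι → ℍ → ℂ) (δ : SL(2, ℤ)) :
    tr δ (∑ i ∈ s, f i) = ∑ i ∈ s, tr δ (f i) := by
  ext z; simp

/-- The trace of a `Γ`-invariant function is a level one function. -/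
lemma trace_mem [Fintype (SL(2, ℤ) ⧸ Γ)] {f : ℍ → ℂ} (hf : f ∈ modAlg Γ) :
    ∑ q : SL(2, ℤ) ⧸ Γ, cosetFn f q ∈ modAlg ⊤ := by
  refine ⟨isSlow_sum _ fun q _ => hf.1.tr _, fun δ _ => ?_⟩
  rw [tr_sum]
  simp_rw [tr_cosetFn hf.2]
  exact Equiv.sum_comp (MulAction.toPerm (δ⁻¹ : SL(2, ℤ))) (fun q => cosetFn f q)

/-- Discriminant of the conjugates of a separating function. -/
lemma prod_cosetFn_sub_ne_zero {g : ℍ → ℂ} (hg : g ∈ modAlg Γ)
    (hsep : ∀ β : SL(2, ℤ), tr β g = g → β ∈ Γ) {n : ℕ} (e : Fin n ≃ (SL(2, ℤ) ⧸ Γ)) :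
    ∏ i : Fin n, ∏ j ∈ Finset.Ioi i, (cosetFn g (e j) - cosetFn g (e i)) ≠ 0 := by
  have hG : ∀ i, MDiff (cosetFn g (e i)) := fun i => (hg.1.tr _).holo
  rw [Ne, UpperHalfPlane.prod_eq_zero_iff]
  · rintro ⟨i, -, h⟩
    rw [UpperHalfPlane.prod_eq_zero_iff] at h
    · obtain ⟨j, hj, h⟩ := h
      have hij : e j ≠ e i := fun h' => (Finset.mem_Ioi.mp hj).ne' (e.injective h')
      have h3 : tr (e j).out⁻¹ g = tr (e i).out⁻¹ g := sub_eq_zero.mp h
      have h4 : tr ((e j).out⁻¹ * (e i).out) g = g := by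
        rw [← tr_tr, h3, tr_tr, inv_mul_cancel, tr_one]
      have h5 := hsep _ h4
      refine hij ?_
      rw [← QuotientGroup.out_eq' (e j), ← QuotientGroup.out_eq' (e i)]
      exact QuotientGroup.eq.mpr h5
    · exact fun j _ => (hG j).sub (hG i)
  · intro i _
    refine MDifferentiable.prod ?_
    exact fun j _ => (hG j).sub (hG i)

lemma mdiff_prod_cosetFn_sub {g : ℍ → ℂ} (hg : g ∈ modAlg Γ) {n : ℕ}
    (e : Fin n ≃ (SL(2, ℤ) ⧸ Γ)) :
    MDiff (∏ i : Fin n, ∏ j ∈ Finset.Ioi i, (cosetFn g (e j) - cosetFn g (e i))) := by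
  have hG : ∀ i, MDiff (cosetFn g (e i)) := fun i => (hg.1.tr _).holo
  refine MDifferentiable.prod fun i _ => MDifferentiable.prod ?_
  exact fun j _ => (hG j).sub (hG i)

theorem exists_mul_eq_sum_card [Fintype (SL(2, ℤ) ⧸ Γ)] {g : ℍ → ℂ} (hg : g ∈ modAlg Γ)
    (hsep : ∀ β : SL(2, ℤ), tr β g = g → β ∈ Γ) {f : ℍ → ℂ} (hf : f ∈ modAlg Γ) :
    ∃ (D : ℍ → ℂ) (c : Fin (Fintype.card (SL(2, ℤ) ⧸ Γ)) → ℍ → ℂ),
      D ∈ modAlg ⊤ ∧ D ≠ 0 ∧ (∀ k, c k ∈ modAlg ⊤) ∧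
      D * f = ∑ k : Fin (Fintype.card (SL(2, ℤ) ⧸ Γ)), c k * g ^ (k : ℕ) := by
  classical
  set n := Fintype.card (SL(2, ℤ) ⧸ Γ) with hn
  let e : Fin n ≃ (SL(2, ℤ) ⧸ Γ) := (Fintype.equivFin _).symm
  let G : Fin n → (ℍ → ℂ) := fun i => cosetFn g (e i)
  let F : Fin n → (ℍ → ℂ) := fun i => cosetFn f (e i)
  set V : Matrix (Fin n) (Fin n) (ℍ → ℂ) := Matrix.vandermonde G with hV
  have hS : ∀ k l, (V.transpose * V) k l ∈ modAlg ⊤ := by
    intro k l
    rw [Matrix.mul_apply]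
    have h1 : ∑ j, V.transpose k j * V j l =
        ∑ q : SL(2, ℤ) ⧸ Γ, cosetFn (g ^ ((k : ℕ) + (l : ℕ))) q := by
      rw [← Equiv.sum_comp e]
      refine Finset.sum_congr rfl fun j _ => ?_
      rw [Matrix.transpose_apply, hV, Matrix.vandermonde_apply, Matrix.vandermonde_apply,
        cosetFn_pow, pow_add]
    rw [h1]
    exact trace_mem (pow_mem hg _)
  have hT : ∀ k, V.transpose.mulVec F k ∈ modAlg ⊤ := by
    intro k
    rw [Matrix.mulVec, dotProduct]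
    have h1 : ∑ j, V.transpose k j * F j =
        ∑ q : SL(2, ℤ) ⧸ Γ, cosetFn (g ^ (k : ℕ) * f) q := by
      rw [← Equiv.sum_comp e]
      refine Finset.sum_congr rfl fun j _ => ?_
      rw [Matrix.transpose_apply, hV, Matrix.vandermonde_apply, cosetFn_mul, cosetFn_pow]
    rw [h1]
    exact trace_mem (mul_mem (pow_mem hg _) hf)
  have hdet : ∀ (m : ℕ) (A : Matrix (Fin m) (Fin m) (ℍ → ℂ)),
      (∀ k l, A k l ∈ modAlg ⊤) → A.det ∈ modAlg ⊤ := by
    intro m A hA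
    rw [Matrix.det_apply]
    refine sum_mem fun σ _ => ?_
    rw [Units.smul_def]
    exact zsmul_mem (prod_mem fun i _ => hA _ _) _
  have hadj : ∀ k l, (V.transpose * V).adjugate k l ∈ modAlg ⊤ := by
    intro k l
    rw [Matrix.adjugate_apply]
    refine hdet _ _ fun i j => ?_
    rw [Matrix.updateRow_apply]
    split_ifs with h
    · rw [Pi.single_apply]
      split_ifs
      · exact one_mem _
      · exact zero_mem _
    · exact hS _ _
  refine ⟨(V.transpose * V).det,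
    ((V.transpose * V).adjugate).mulVec (V.transpose.mulVec F), hdet _ _ hS, ?_, ?_, ?_⟩
  · rw [Matrix.det_mul, Matrix.det_transpose, hV, Matrix.det_vandermonde]
    intro h0
    rcases (UpperHalfPlane.mul_eq_zero_iff (mdiff_prod_cosetFn_sub hg e)
      (mdiff_prod_cosetFn_sub hg e)).mp h0 with h | h <;>
      exact prod_cosetFn_sub_ne_zero hg hsep e h
  · intro k
    rw [Matrix.mulVec, dotProduct]
    exact sum_mem fun l _ => mul_mem (hadj _ _) (hT _)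
  · have h1 := vander_trick G F (e.symm ((1 : SL(2, ℤ)) : SL(2, ℤ) ⧸ Γ))
    have h2 : F (e.symm ((1 : SL(2, ℤ)) : SL(2, ℤ) ⧸ Γ)) = f := by
      show cosetFn f (e (e.symm _)) = f
      rw [Equiv.apply_symm_apply, cosetFn_mk hf.2, inv_one, tr_one]
    have h3 : G (e.symm ((1 : SL(2, ℤ)) : SL(2, ℤ) ⧸ Γ)) = g := by
      show cosetFn g (e (e.symm _)) = g
      rw [Equiv.apply_symm_apply, cosetFn_mk hg.2, inv_one, tr_one]
    rw [h2, h3] at h1
    exact h1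

theorem exists_mul_eq_sum [Finite (SL(2, ℤ) ⧸ Γ)] {g : ℍ → ℂ} (hg : g ∈ modAlg Γ)
    (hsep : ∀ β : SL(2, ℤ), tr β g = g → β ∈ Γ) {f : ℍ → ℂ} (hf : f ∈ modAlg Γ) :
    ∃ (n : ℕ) (D : ℍ → ℂ) (c : Fin n → ℍ → ℂ), D ∈ modAlg ⊤ ∧ D ≠ 0 ∧ (∀ k, c k ∈ modAlg ⊤) ∧
      D * f = ∑ k : Fin n, c k * g ^ (k : ℕ) := by
  have := Fintype.ofFinite (SL(2, ℤ) ⧸ Γ)
  exact ⟨_, exists_mul_eq_sum_card hg hsep hf⟩

/-- Linear independence of the powers of a separating function over level one functions. -/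
theorem coeff_eq_zero_of_sum_eq_zero [Fintype (SL(2, ℤ) ⧸ Γ)] {g : ℍ → ℂ} (hg : g ∈ modAlg Γ)
    (hsep : ∀ β : SL(2, ℤ), tr β g = g → β ∈ Γ)
    {c : Fin (Fintype.card (SL(2, ℤ) ⧸ Γ)) → ℍ → ℂ} (hc : ∀ k, c k ∈ modAlg ⊤)
    (h : ∑ k : Fin (Fintype.card (SL(2, ℤ) ⧸ Γ)), c k * g ^ (k : ℕ) = 0) (k) : c k = 0 := by
  classical
  let e : Fin (Fintype.card (SL(2, ℤ) ⧸ Γ)) ≃ (SL(2, ℤ) ⧸ Γ) := (Fintype.equivFin _).symm
  let G : Fin (Fintype.card (SL(2, ℤ) ⧸ Γ)) → (ℍ → ℂ) := fun i => cosetFn g (e i)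
  have h1 : (Matrix.vandermonde G).mulVec c = 0 := by
    funext i
    rw [Matrix.mulVec, dotProduct, Pi.zero_apply]
    have h2 := congrArg (tr (e i).out⁻¹) h
    rw [tr_sum] at h2
    have h3 : tr (e i).out⁻¹ (0 : ℍ → ℂ) = 0 := rfl
    rw [h3] at h2
    rw [← h2]
    refine Finset.sum_congr rfl fun k _ => ?_
    rw [tr_mul, tr_pow, (hc k).2 _ trivial, Matrix.vandermonde_apply, mul_comm]
    rfl
  have h2 := congrArg ((Matrix.vandermonde G).adjugate.mulVec) h1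
  rw [Matrix.mulVec_mulVec, Matrix.adjugate_mul, Matrix.mulVec_zero, Matrix.smul_mulVec,
    Matrix.one_mulVec, Matrix.det_vandermonde] at h2
  have h3 := congrFun h2 k
  rw [Pi.smul_apply, smul_eq_mul, Pi.zero_apply] at h3
  rcases (UpperHalfPlane.mul_eq_zero_iff (mdiff_prod_cosetFn_sub hg e) (hc k).1.holo).mp h3
    with h4 | h4
  · exact absurd h4 (prod_cosetFn_sub_ne_zero hg hsep e)
  · exact h4

end trace

end Fermat.Agent.H02
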