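import Fermat.Agent.H02_JQ
import Fermat.Agent.H02_JN
import Fermat.Agent.H02_Vander
import Fermat.Agent.H01.MFQ
import Fermat.Prelude.Thm_ModularCurve_coeffMap_qExpand

set_option autoImplicit false

/-!
# The field of modular functions for `Γ₀(N)` is the prelude's modular function field

-/

noncomputable section

open UpperHalfPlane hiding I
open ModularForm EisensteinSeries Filter Complex Topology Function CongruenceSubgroup
open ModularCurve
open scoped MatrixGroups Manifold Real Nat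

namespace Fermat.Agent.H02

local notation "𝕢" => Function.Periodic.qParam
local notation "Δ" => ModularForm.discriminant

open Fermat.Agent.H18 (jfun)
open Fermat.Agent.IntStr (aff coe_aff)

/-- Uniqueness of Laurent expansions. -/
theorem IsLau.eq_of_hasSum {n : ℕ} {f : ℍ → ℂ} (hf : IsLau n f) {x : LaurentSeries ℂ}
    (h : ∀ z : ℍ, HasSum (fun k : ℤ => x.coeff k * qf z ^ k) (f z)) : qLauFun f = x := by
  obtain ⟨M, hM, y, hy⟩ : ∃ M : ℕ, n ≤ M ∧ ∃ y : PowerSeries ℂ,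
      x * HahnSeries.single (M : ℤ) 1 = HahnSeries.ofPowerSeries ℤ ℂ y := by
    refine ⟨max n (-x.order).toNat, le_max_left _ _, ?_⟩
    set M := max n (-x.order).toNat
    have hM : 0 ≤ x.order + M := by
      have h1 : (-x.order).toNat ≤ M := le_max_right _ _
      have h2 := Int.self_le_toNat (-x.order)
      omega
    refine ⟨PowerSeries.X ^ (x.order + M).toNat * x.powerSeriesPart, ?_⟩
    rw [map_mul, HahnSeries.ofPowerSeries_X_pow, Int.toNat_of_nonneg hM]
    conv_lhs => rw [← x.single_order_mul_powerSeriesPart]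
    rw [mul_right_comm, HahnSeries.single_mul_single, mul_one]
  have hf' := hf.mono hM
  have h1 := hf'.qLauFun_mul_single
  have h2 : qExpansion 1 (f * qf ^ M) = y := by
    rw [hf'.good_mul_qf.qExpansion_unique (c := fun m => y.coeff m)]
    · ext m; rw [PowerSeries.coeff_mk]
    · intro z
      have hq := qf_ne_zero z
      have h3 := (h z).mul_right (qf z ^ M)
      rw [← (Equiv.subRight (M : ℤ)).hasSum_iff] at h3
      rw [← Function.Injective.hasSum_iff (f := _) (Nat.cast_injective (R := ℤ))] at h3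
      · convert! h3 using 2 with m
        simp only [comp_apply, Equiv.subRight_apply]
        have h4 : y.coeff m = (x * HahnSeries.single (M : ℤ) 1).coeff m := by
          rw [hy, HahnSeries.ofPowerSeries_apply_coeff]
        rw [h4, HahnSeries.coeff_mul_single, mul_one, smul_eq_mul, mul_assoc]
        congr 1
        show qf z ^ m = _
        rw [← zpow_natCast, ← zpow_natCast, ← zpow_add₀ hq, sub_add_cancel]
      · intro k hk
        have hk0 : k < 0 := by
          by_contra h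
          exact hk ⟨k.toNat, Int.toNat_of_nonneg (not_lt.mp h)⟩
        simp only [comp_apply, Equiv.subRight_apply]
        have h4 : x.coeff (k - M) = (x * HahnSeries.single (M : ℤ) 1).coeff k := by
          rw [HahnSeries.coeff_mul_single, mul_one]
        rw [h4, hy, ofPowerSeries_coeff_of_neg _ hk0, zero_mul, zero_mul]
  have h5 : (HahnSeries.single (M : ℤ) (1 : ℂ)) ≠ 0 := HahnSeries.single_ne_zero one_ne_zero
  refine mul_right_cancel₀ h5 ?_
  rw [h1, qS, h2, hy]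

lemma qf_aff {N : ℕ} (hN : 0 < N) (z : ℍ) : qf (aff N 1 0 z) = qf z ^ N := by
  rw [qf, qf, coe_aff hN one_pos]
  simp only [Function.Periodic.qParam]
  rw [← Complex.exp_nat_mul]
  congr 1
  simp
  ring

lemma T_mem_Gamma0' (N : ℕ) : ModularGroup.T ∈ Gamma0 N := T_mem_Gamma0 N

/-- The `q`-expansion of `j(Nz)`. -/
theorem qLauFun_jN (N : ℕ) [NeZero N] : qLauFun (jN N) = coeffEmb ℂ (qExpand ℚ N jq) := by
  have hN : 0 < N := NeZero.pos N
  obtain ⟨n, hn⟩ := isLau_of_mem (T_mem_Gamma0 N) (jN_mem_modAlg hN)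
  refine hn.eq_of_hasSum fun z => ?_
  have h1 := hasSum_jq (aff N 1 0 z)
  rw [qf_aff hN] at h1
  have hinj : Function.Injective (fun k : ℤ => (N : ℤ) * k) :=
    mul_right_injective₀ (by exact_mod_cast hN.ne')
  change HasSum _ (jfun (aff N 1 0 z))
  rw [← hinj.hasSum_iff]
  · convert! h1 using 2 with k
    simp only [comp_apply, coeffEmb_coeff, qExpand_coeff_mul]
    rw [zpow_mul, zpow_natCast]
    rfl
  · intro k hk
    have hk' : ¬ (N : ℤ) ∣ k := by
      rintro ⟨m, rfl⟩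
      exact hk ⟨m, rfl⟩
    rw [coeffEmb_coeff, qExpand_coeff_of_not_dvd N _ hk', map_zero, zero_mul]

/-- Abbreviation: the complex modular function field. -/
abbrev FC (N : ℕ) : IntermediateField ℂ (LaurentSeries ℂ) :=
  laurentBaseChange ℂ (modularFunctionFieldFull N)

lemma coeffEmb_jq_mem (N : ℕ) : coeffEmb ℂ jq ∈ FC N := by
  refine coeffEmb_mem_laurentBaseChange ℂ ?_
  have h := jqd_mem_full N (d := 1) (one_dvd N)
  rwa [qExpand_one_apply] at h

lemma coeffEmb_jqd_mem {N d : ℕ} [NeZero d] (hd : d ∣ N) : coeffEmb ℂ (qExpand ℚ d jq) ∈ FC N :=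
  coeffEmb_mem_laurentBaseChange ℂ (jqd_mem_full N hd)

lemma mem_lauAlg_of_mem {N : ℕ} {f : ℍ → ℂ} (hf : f ∈ modAlg (Gamma0 N)) : f ∈ lauAlg :=
  modAlg_le_lauAlg (T_mem_Gamma0 N) hf

lemma mem_lauAlg_of_mem_top {f : ℍ → ℂ} (hf : f ∈ modAlg ⊤) : f ∈ lauAlg :=
  modAlg_le_lauAlg (Γ := ⊤) trivial hf

lemma qLauFun_mul {f g : ℍ → ℂ} (hf : f ∈ lauAlg) (hg : g ∈ lauAlg) :
    qLauFun (f * g) = qLauFun f * qLauFun g :=
  map_mul qLau ⟨f, hf⟩ ⟨g, hg⟩

lemma qLauFun_add {f g : ℍ → ℂ} (hf : f ∈ lauAlg) (hg : g ∈ lauAlg) :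
    qLauFun (f + g) = qLauFun f + qLauFun g :=
  map_add qLau ⟨f, hf⟩ ⟨g, hg⟩

lemma qLauFun_pow {f : ℍ → ℂ} (hf : f ∈ lauAlg) (n : ℕ) :
    qLauFun (f ^ n) = qLauFun f ^ n :=
  map_pow qLau ⟨f, hf⟩ n

lemma qLauFun_sum {ι : Type*} (s : Finset ι) {f : ι → ℍ → ℂ} (hf : ∀ i ∈ s, f i ∈ lauAlg) :
    qLauFun (∑ i ∈ s, f i) = ∑ i ∈ s, qLauFun (f i) := by
  classical
  induction s using Finset.induction_on with
  | empty =>
    rw [Finset.sum_empty, Finset.sum_empty]
    exact map_zero qLau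
  | insert a s ha ih =>
    rw [Finset.sum_insert ha, Finset.sum_insert ha,
      qLauFun_add (hf a (Finset.mem_insert_self a s))
        (sum_mem fun i hi => hf i (Finset.mem_insert_of_mem hi)),
      ih fun i hi => hf i (Finset.mem_insert_of_mem hi)]

lemma qLauFun_ne_zero {f : ℍ → ℂ} (hf : f ∈ lauAlg) (h0 : f ≠ 0) : qLauFun f ≠ 0 := by
  intro h
  have h1 : qLau ⟨f, hf⟩ = 0 := h
  have h2 := (injective_iff_map_eq_zero _).mp qLau_injective _ h1
  exact h0 (congrArg Subtype.val h2)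

lemma aeval_mem_subalgebra {A : Type*} [CommRing A] [Algebra ℂ A] (S : Subalgebra ℂ A) {a : A}
    (ha : a ∈ S) (P : Polynomial ℂ) : Polynomial.aeval a P ∈ S := by
  rw [Polynomial.aeval_eq_sum_range]
  exact sum_mem fun i _ => S.smul_mem (pow_mem ha i) _

lemma qLauFun_poly (P : Polynomial ℂ) :
    qLauFun (Polynomial.aeval jfun P) = Polynomial.aeval (coeffEmb ℂ jq) P := by
  have h1 : (Polynomial.aeval (⟨jfun, jfun_mem_lauAlg⟩ : lauAlg) P : lauAlg) =
      (⟨Polynomial.aeval jfun P, ?_⟩ : lauAlg) := ?_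
  · have h2 := congrArg qLau h1
    rw [← Polynomial.aeval_algHom_apply, qLau_jfun] at h2
    exact h2.symm
  · exact aeval_mem_subalgebra lauAlg jfun_mem_lauAlg P
  · refine Subtype.ext ?_
    exact (Polynomial.aeval_algHom_apply lauAlg.val (⟨jfun, jfun_mem_lauAlg⟩ : lauAlg) P).symm

lemma qLauFun_mem_of_top (N : ℕ) {f : ℍ → ℂ} (hf : f ∈ modAlg ⊤) : qLauFun f ∈ FC N := by
  obtain ⟨P, rfl⟩ := exists_poly_of_mem_top hf
  rw [qLauFun_poly]
  exact aeval_mem_subalgebra (FC N).toSubalgebra (coeffEmb_jq_mem N) P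

/-- **Holomorphic modular functions of moderate growth lie in the prelude's field.** -/
theorem qLauFun_mem_FC {N : ℕ} [NeZero N] {f : ℍ → ℂ} (hf : f ∈ modAlg (Gamma0 N)) :
    qLauFun f ∈ FC N := by
  have hN : 0 < N := NeZero.pos N
  have hfin : Finite (SL(2, ℤ) ⧸ Gamma0 N) := Subgroup.finite_quotient_of_finiteIndex
  obtain ⟨n, D, c, hD, hD0, hc, h⟩ := exists_mul_eq_sum (jN_mem_modAlg hN)
    (fun β hβ => mem_Gamma0_of_tr_jN hN hβ) hf
  have hg : jN N ∈ lauAlg := mem_lauAlg_of_mem (jN_mem_modAlg hN)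
  have h1 := congrArg qLauFun h
  rw [qLauFun_mul (mem_lauAlg_of_mem_top hD) (mem_lauAlg_of_mem hf), qLauFun_sum] at h1
  · have h2 : qLauFun f = (qLauFun D)⁻¹ * ∑ k : Fin n, qLauFun (c k * jN N ^ (k : ℕ)) := by
      rw [← h1, inv_mul_cancel_left₀ (qLauFun_ne_zero (mem_lauAlg_of_mem_top hD) hD0)]
    rw [h2]
    refine mul_mem (inv_mem (qLauFun_mem_of_top N hD)) (sum_mem fun k _ => ?_)
    rw [qLauFun_mul (mem_lauAlg_of_mem_top (hc k)) (pow_mem hg _), qLauFun_pow hg, qLauFun_jN]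
    exact mul_mem (qLauFun_mem_of_top N (hc k)) (pow_mem (coeffEmb_jqd_mem dvd_rfl) _)
  · intro k _
    exact mul_mem (mem_lauAlg_of_mem_top (hc k)) (pow_mem hg _)

/-! ### Quotients of modular forms -/

lemma discriminant_smul (γ : SL(2, ℤ)) (z : ℍ) : Δ (γ • z) = denom γ z ^ (12 : ℤ) * Δ z :=
  Fermat.Agent.IntStr.disc_smul γ z

lemma tr_div_discriminant (n : ℕ) (f : ℍ → ℂ) (δ : SL(2, ℤ)) :
    tr δ (f / Δ ^ n) = (f ∣[(12 : ℤ) * n] δ) / Δ ^ n := by
  ext z
  have hd : denom δ z ≠ 0 := denom_ne_zero _ z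
  have hD := discriminant_ne_zero z
  rw [tr_apply, Pi.div_apply, Pi.div_apply, Pi.pow_apply, Pi.pow_apply, SL_slash_apply,
    discriminant_smul, mul_pow, zpow_neg, ← zpow_natCast (denom _ _ ^ (12 : ℤ)), ← zpow_mul]
  have h1 : denom δ z ^ ((12 : ℤ) * n) ≠ 0 := zpow_ne_zero _ hd
  field_simp

/-- A modular form of weight `12n` divided by `Δ^n`. -/
theorem div_discriminant_mem {N n : ℕ} [NeZero N] {f : ℍ → ℂ}
    (hf : Fermat.Agent.H01.IsMF N ((12 : ℤ) * n) f) : f / Δ ^ n ∈ modAlg (Gamma0 N) := by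
  have hb : ∀ δ : SL(2, ℤ), tr δ (f / Δ ^ n) * Δ ^ n = f ∣[(12 : ℤ) * n] δ := by
    intro δ
    rw [tr_div_discriminant]
    ext z
    have hD := discriminant_ne_zero z
    simp only [Pi.mul_apply, Pi.div_apply, Pi.pow_apply]
    field_simp
  refine ⟨⟨?_, fun δ => ⟨n, ?_⟩⟩, fun γ hγ => ?_⟩
  · have h1 : f / Δ ^ n = fun z => f z * (Δ z ^ n)⁻¹ := by
      ext z; rw [Pi.div_apply, Pi.pow_apply, div_eq_mul_inv]
    rw [h1]
    refine hf.mdiff.mul ?_
    have h2 : DifferentiableOn ℂ (fun w : ℂ => ((Δ ^ n) (ofComplex w))⁻¹) {z : ℂ | 0 < z.im} := by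
      refine DifferentiableOn.inv ?_ ?_
      · exact UpperHalfPlane.mdifferentiable_iff.mp (good_discriminant.pow n).holo
      · intro w _
        exact pow_ne_zero n (discriminant_ne_zero _)
    rw [UpperHalfPlane.mdifferentiable_iff]
    exact h2
  · rw [hb]
    exact hf.bdd δ
  · rw [tr_div_discriminant, hf.slash_eq ⟨γ, hγ⟩]

lemma isLau_div_discriminant {N n : ℕ} [NeZero N] {f : ℍ → ℂ}
    (hf : Fermat.Agent.H01.IsMF N ((12 : ℤ) * n) f) : IsLau n (f / Δ ^ n) := by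
  have h := div_discriminant_mem hf
  refine ⟨h.1.holo, periodic_of_T (h.2 _ (T_mem_Gamma0 N)), ?_⟩
  have h1 : f / Δ ^ n * Δ ^ n = f := by
    ext z
    have hD := discriminant_ne_zero z
    simp only [Pi.mul_apply, Pi.div_apply, Pi.pow_apply]
    field_simp
  rw [h1]
  have h2 := hf.bdd 1
  rwa [SlashAction.slash_one] at h2

lemma qLauFun_div_discriminant {N n : ℕ} [NeZero N] {f : ℍ → ℂ}
    (hf : Fermat.Agent.H01.IsMF N ((12 : ℤ) * n) f) :
    qLauFun (f / Δ ^ n) * qS Δ ^ n = Fermat.Agent.H01.qLf f := by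
  rw [(isLau_div_discriminant hf).qLauFun_mul_pow]
  have h1 : f / Δ ^ n * Δ ^ n = f := by
    ext z
    have hD := discriminant_ne_zero z
    simp only [Pi.mul_apply, Pi.div_apply, Pi.pow_apply]
    field_simp
  rw [h1]
  rfl

open Fermat.Agent.H01 in
/-- **(D3)** Quotients of modular forms for `Γ₀(N)` lie in the prelude's modular function field. -/
theorem mfq_le_FC (N : ℕ) [NeZero N] : mfq N ≤ FC N := by
  intro x hx
  obtain ⟨k, f, g, hf, hg, hg0, h⟩ := mem_mfq'.mp hx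
  rcases lt_or_ge k 0 with hk | hk
  · exfalso
    obtain ⟨A, rfl⟩ := hg
    apply hg0
    rw [ModularForm.isZero_of_neg_weight hk A]
    rfl
  obtain ⟨n, rfl⟩ := Int.eq_ofNat_of_zero_le hk
  have ha : IsMF N ((12 : ℤ) * n) (f * g ^ 11) :=
    (hf.mul (hg.pow 11)).cast (by push_cast; ring)
  have hb : IsMF N ((12 : ℤ) * n) (g ^ 12) := (hg.pow 12).cast (by push_cast; ring)
  have hqb : qLf (g ^ 12) = qLf g ^ 12 := qLf_pow hg 12
  have hqa : qLf (f * g ^ 11) = qLf f * qLf g ^ 11 := by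
    rw [hf.qLf_mul (hg.pow 11), qLf_pow hg 11]
  have hg' : qLf g ≠ 0 := fun h0 => hg0 (hg.qLf_eq_zero_iff.mp h0)
  have e1 := qLauFun_div_discriminant ha
  have e2 := qLauFun_div_discriminant hb
  have hD := pow_ne_zero n qS_discriminant_ne_zero
  have e3 : x * qLauFun (g ^ 12 / Δ ^ n) = qLauFun (f * g ^ 11 / Δ ^ n) := by
    refine mul_right_cancel₀ hD ?_
    rw [mul_assoc, e2, e1, hqb, hqa, ← h]
    ring
  have e4 : qLauFun (g ^ 12 / Δ ^ n) ≠ 0 := by
    intro h0
    rw [h0, zero_mul, hqb] at e2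
    exact pow_ne_zero 12 hg' e2.symm
  have e5 : x = qLauFun (f * g ^ 11 / Δ ^ n) * (qLauFun (g ^ 12 / Δ ^ n))⁻¹ := by
    rw [← e3, mul_inv_cancel_right₀ e4]
  rw [e5]
  exact mul_mem (qLauFun_mem_FC (div_discriminant_mem ha))
    (inv_mem (qLauFun_mem_FC (div_discriminant_mem hb)))

end Fermat.Agent.H02
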