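import Fermat.Agent.H02_P7

set_option autoImplicit false

/-!
# Divisors of functions with a root character

-/

noncomputable section

open UpperHalfPlane hiding I
open ModularForm EisensteinSeries Filter Complex Topology Function CongruenceSubgroup
open ModularCurve AlgebraicCurve
open scoped MatrixGroups Manifold Real IntermediateField

namespace Fermat.Agent.H02

local notation "TT" => ModularGroup.T

open Fermat.Agent.H01 (NiceAt cuspOrd ordAt IsMF mfq MFRep FnOrd ordPt ordCusp EmbMF qLf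
  slash_mdiff HasRootChar hasRootChar_iff RootData slash_pow ordAt_mul ordAt_pow mdiff_pow
  isBoundedAtImInfty_of_pow)
open Fermat.Agent.FF (FunField)
open Fermat.Agent.H18 (jfun)

variable {N : ℕ} [NeZero N]

/-- If `x` has a root with a character trivial on elliptic and parabolic elements then its divisor
is divisible by `m`. -/
theorem dvd_ord_of_hasRootChar {m : ℕ} (hm : m ≠ 0) {x : FC N} {ψ : Gamma0 N →* ℂˣ}
    (h : HasRootChar N m x ψ)
    (hell : ∀ (γ : Gamma0 N) (τ : ℍ), (γ : SL(2, ℤ)) • τ = τ → ψ γ = 1)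
    (hpar : ∀ (γ : Gamma0 N) (σ : SL(2, ℤ)) (w : ℤ), 0 < w →
      (γ : SL(2, ℤ)) = σ * TT ^ w * σ⁻¹ → ψ γ = 1)
    (v : Place ℂ (FC N)) : (m : ℤ) ∣ v.ord x := by
  obtain ⟨k, f, g, H, hR⟩ := hasRootChar_iff.mp h
  have hx0 : x ≠ 0 := fun h0 => hR.rep.ne_zero (by rw [h0]; rfl)
  have hH0 := hR.H_ne_zero hm
  have hm0 : (m : ℤ) ≠ 0 := by exact_mod_cast hm
  have hm1 : m = (m - 1) + 1 := by omega
  rcases place_cases v with ⟨τ, e, he, hτ⟩ | ⟨σ, e, he, hσ⟩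
  · have hv : IsPlaceOf (ordPt N τ) v e := ⟨he, hτ⟩
    -- the order of the root
    have h1 : m * ordAt τ H = ordAt τ f + (m - 1) * ordAt τ g := by
      rw [← ordAt_pow hR.mdiff hH0, hR.pow_eq, ordAt_mul hR.rep.hf.mdiff
        (mdiff_pow hR.rep.hg.mdiff _) hR.rep.hf0 (Fermat.Agent.H01.pow_ne_zero_of_mdiff hR.rep.hg0 _),
        ordAt_pow hR.rep.hg.mdiff hR.rep.hg0]
    have h2 : (ordPt N τ).val x = m * ((ordAt τ H : ℤ) - ordAt τ g) := by
      rw [(ordPt N τ).val_eq hR.rep]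
      change (ordAt τ f : ℤ) - ordAt τ g = _
      have h3 : (m : ℤ) * ordAt τ H = ordAt τ f + (m - 1) * ordAt τ g := by
        have := congrArg (Nat.cast (R := ℤ)) h1
        rw [Nat.cast_mul, Nat.cast_add, Nat.cast_mul, Nat.cast_sub (by omega)] at this
        simpa using this
      linear_combination -h3
    obtain ⟨t, ht⟩ := hv.dvd_ordAt (k := k) hR.mdiff hR.rep.hg.mdiff hH0 hR.rep.hg0
      (fun γ hγ hfix => by
        have := hR.slash ⟨γ, hγ⟩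
        rw [hell ⟨γ, hγ⟩ τ hfix, Units.val_one, one_smul] at this
        exact this)
      (fun γ hγ _ => hR.rep.hg.slash_eq ⟨γ, hγ⟩)
    rw [hτ x hx0, ht] at h2
    refine ⟨t, mul_left_cancel₀ he.ne' ?_⟩
    rw [h2]
    ring
  · have hv : IsPlaceOf (oCusp N σ) v e := ⟨he, hσ⟩
    have hHs0 : H ∣[k] σ ≠ 0 := Fermat.Agent.H01.slash_ne_zero hH0 σ
    have hfs0 : f ∣[k] σ ≠ 0 := Fermat.Agent.H01.slash_ne_zero hR.rep.hf0 σ
    have hgs0 : g ∣[k] σ ≠ 0 := Fermat.Agent.H01.slash_ne_zero hR.rep.hg0 σ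
    have hpow : (H ∣[k] σ) ^ m = (f ∣[k] σ) * (g ∣[k] σ) ^ (m - 1) := by
      rw [← slash_pow, hR.pow_eq, ← slash_pow, ← mul_slash_SL2]
      congr 1
      rw [Nat.cast_sub (by omega)]
      push_cast
      ring
    have hHb : IsBoundedAtImInfty (H ∣[k] σ) := by
      apply isBoundedAtImInfty_of_pow hm
      rw [hpow]
      have hnice := (niceAt_slash hR.rep.hf σ).mul ((niceAt_slash hR.rep.hg σ).pow (m - 1))
      exact hnice.bdd
    have hper : ∀ w : ℤ, 0 < w → σ * TT ^ w * σ⁻¹ ∈ Gamma0 N →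
        ∀ z : ℍ, (H ∣[k] σ) ((w : ℝ) +ᵥ z) = (H ∣[k] σ) z := by
      intro w hw hmem z
      rw [← Fermat.Agent.H01.slash_T_zpow k (H ∣[k] σ), ← SlashAction.slash_mul]
      have e1 : σ * TT ^ w = (σ * TT ^ w * σ⁻¹) * σ := by group
      have e2 := hR.slash ⟨_, hmem⟩
      rw [hpar ⟨_, hmem⟩ σ w hw rfl, Units.val_one, one_smul] at e2
      rw [e1, SlashAction.slash_mul]
      exact congrArg (fun F : ℍ → ℂ => (F ∣[k] σ) z) e2
    have hgper : ∀ w : ℤ, 0 < w → σ * TT ^ w * σ⁻¹ ∈ Gamma0 N →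
        ∀ z : ℍ, (g ∣[k] σ) ((w : ℝ) +ᵥ z) = (g ∣[k] σ) z := by
      intro w hw hmem z
      rw [← Fermat.Agent.H01.slash_T_zpow k (g ∣[k] σ), ← SlashAction.slash_mul]
      have e1 : σ * TT ^ w = (σ * TT ^ w * σ⁻¹) * σ := by group
      have e2 := hR.rep.hg.slash_eq ⟨_, hmem⟩
      rw [e1, SlashAction.slash_mul]
      exact congrArg (fun F : ℍ → ℂ => (F ∣[k] σ) z) e2
    have hNR := hNR (N := N)
    have hHn : NiceAt ((N : ℤ) : ℝ) (H ∣[k] σ) := by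
      refine ⟨slash_mdiff k hR.mdiff σ, hHb, ?_⟩
      apply Fermat.Agent.H01.periodic_comp_ofComplex_of_vadd
      exact hper N (by exact_mod_cast NeZero.pos N) (conj_T_mem_Gamma0 σ)
    have h1 : m * cuspOrd ((N : ℤ) : ℝ) (H ∣[k] σ) = cuspOrd ((N : ℤ) : ℝ) (f ∣[k] σ) +
        (m - 1) * cuspOrd ((N : ℤ) : ℝ) (g ∣[k] σ) := by
      rw [← hHn.cuspOrd_pow hNR hHs0, hpow, (niceAt_slash hR.rep.hf σ).cuspOrd_mul hNR
        ((niceAt_slash hR.rep.hg σ).pow _) hfs0 (Fermat.Agent.H01.pow_ne_zero_of_mdiff hgs0 _),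
        (niceAt_slash hR.rep.hg σ).cuspOrd_pow hNR hgs0]
    have h2 : (oCusp N σ).val x = m * ((cuspOrd ((N : ℤ) : ℝ) (H ∣[k] σ) : ℤ) -
        cuspOrd ((N : ℤ) : ℝ) (g ∣[k] σ)) := by
      rw [(oCusp N σ).val_eq hR.rep, oCusp_o, oCusp_o]
      have h3 : (m : ℤ) * cuspOrd ((N : ℤ) : ℝ) (H ∣[k] σ) = cuspOrd ((N : ℤ) : ℝ) (f ∣[k] σ) +
          (m - 1) * cuspOrd ((N : ℤ) : ℝ) (g ∣[k] σ) := by
        have := congrArg (Nat.cast (R := ℤ)) h1
        rw [Nat.cast_mul, Nat.cast_add, Nat.cast_mul, Nat.cast_sub (by omega)] at this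
        simpa using this
      linear_combination -h3
    have d1 := hv.dvd_cuspOrd (slash_mdiff k hR.mdiff σ) hHs0 hHb hper
    have d2 := hv.dvd_cuspOrd (slash_mdiff k hR.rep.hg.mdiff σ) hgs0
      (niceAt_slash hR.rep.hg σ).bdd hgper
    obtain ⟨t, ht⟩ := dvd_sub d1 d2
    rw [hσ x hx0, ht] at h2
    refine ⟨t, mul_left_cancel₀ he.ne' ?_⟩
    rw [h2]
    ring

/-- **(SURJ)** Every character of `Γ₀(N)` of finite order, trivial on elliptic and parabolic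
elements (and `-1`), comes from a function whose divisor is divisible by `m`. -/
theorem exists_hasRootChar_surj {m : ℕ} (hm : m ≠ 0) (ψ : Gamma0 N →* ℂˣ)
    (hψm : ∀ γ, ψ γ ^ m = 1)
    (hell : ∀ (γ : Gamma0 N) (τ : ℍ), (γ : SL(2, ℤ)) • τ = τ → ψ γ = 1)
    (hpar : ∀ (γ : Gamma0 N) (σ : SL(2, ℤ)) (w : ℤ),
      (γ : SL(2, ℤ)) = σ * TT ^ w * σ⁻¹ → ψ γ = 1) :
    ∃ x : FC N, x ≠ 0 ∧ HasRootChar N m x ψ ∧ ∀ v : Place ℂ (FC N), (m : ℤ) ∣ v.ord x := by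
  have hneg : ∀ γ : Gamma0 N, (γ : SL(2, ℤ)) = -1 → ψ γ = 1 := by
    intro γ hγ
    refine hell γ UpperHalfPlane.I ?_
    rw [hγ]
    ext
    simp [UpperHalfPlane.coe_specialLinearGroup_apply]
  obtain ⟨A, B, H, hA, hB, hH, hpow, hslash, -⟩ := exists_rootForm ψ
    ⟨fun g w γ hγ => hpar γ g w hγ, hneg⟩ m hm hψm
  have hqB : Fermat.Agent.H01.qL B ≠ 0 := by
    intro h0
    exact hB (DFunLike.coe_injective ((IsMF.coe B).qLf_eq_zero_iff.mp h0))
  have hqA : Fermat.Agent.H01.qL A ≠ 0 := by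
    intro h0
    exact hA (DFunLike.coe_injective ((IsMF.coe A).qLf_eq_zero_iff.mp h0))
  have hmem : Fermat.Agent.H01.qL A / Fermat.Agent.H01.qL B ∈ FC N := by
    rw [FC_eq_mfq]
    exact Fermat.Agent.H01.mem_mfq.mpr ⟨_, A, B, hB, div_mul_cancel₀ _ hqB⟩
  have hroot : HasRootChar N m (Fermat.Agent.H01.qL A / Fermat.Agent.H01.qL B) ψ :=
    ⟨_, A, B, H, hA, hB, div_mul_cancel₀ _ hqB, hH, hpow, hslash⟩
  refine ⟨⟨_, hmem⟩, ?_, hroot, ?_⟩
  · intro h0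
    exact div_ne_zero hqA hqB (congrArg Subtype.val h0)
  · exact dvd_ord_of_hasRootChar hm (x := ⟨_, hmem⟩) hroot hell
      (fun γ σ w _ hγ => hpar γ σ w hγ)

end Fermat.Agent.H02
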