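import Fermat.Agent.Main
import Fermat.Agent.S20

/-!
# Small conductors

A consequence of the modularity of semistable elliptic curves (`S60`) and of the dimension formula (`S20`): a
semistable elliptic curve over `ℚ` has conductor at least `11` (and different from `13`). In particular there is no
elliptic curve over `ℚ` with good reduction everywhere.

This file is not used by any of the statement files.
-/

set_option autoImplicit false

namespace Fermat.Agent.Main

open ModularCurve ModularFormClass CongruenceSubgroup

lemma nuTwo_eq (N : ℕ) [NeZero N] :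
    nuTwo N = (Finset.univ.filter fun x : ZMod N => x ^ 2 + 1 = 0).card := by
  rw [nuTwo, Nat.card_eq_fintype_card, Fintype.card_subtype]

lemma nuThree_eq (N : ℕ) [NeZero N] :
    nuThree N = (Finset.univ.filter fun x : ZMod N => x ^ 2 + x + 1 = 0).card := by
  rw [nuThree, Nat.card_eq_fintype_card, Fintype.card_subtype]

/-- the numerical form of the genus formula -/
lemma genus_eq_zero {N a b c d : ℕ} [NeZero N] (ha : dedekindPsi N = a)
    (hb : (Finset.univ.filter fun x : ZMod N => x ^ 2 + 1 = 0).card = b)
    (hc : (Finset.univ.filter fun x : ZMod N => x ^ 2 + x + 1 = 0).card = c)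
    (hd : cuspCount N = d) (h : (1 : ℚ) + a / 12 - b / 4 - c / 3 - d / 2 = 0) :
    genusFormula N = 0 := by
  rw [genusFormula, nuTwo_eq, nuThree_eq, ha, hb, hc, hd, h]

theorem genus_one : genusFormula 1 = 0 :=
  genus_eq_zero (a := 1) (b := 1) (c := 1) (d := 1) (by decide +kernel) (by decide) (by decide)
    (by decide +kernel) (by norm_num)

theorem genus_two : genusFormula 2 = 0 :=
  genus_eq_zero (a := 3) (b := 1) (c := 0) (d := 2) (by decide +kernel) (by decide) (by decide)
    (by decide +kernel) (by norm_num)

theorem genus_three : genusFormula 3 = 0 :=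
  genus_eq_zero (a := 4) (b := 0) (c := 1) (d := 2) (by decide +kernel) (by decide) (by decide)
    (by decide +kernel) (by norm_num)

theorem genus_five : genusFormula 5 = 0 :=
  genus_eq_zero (a := 6) (b := 2) (c := 0) (d := 2) (by decide +kernel) (by decide) (by decide)
    (by decide +kernel) (by norm_num)

theorem genus_six : genusFormula 6 = 0 :=
  genus_eq_zero (a := 12) (b := 0) (c := 0) (d := 4) (by decide +kernel) (by decide) (by decide)
    (by decide +kernel) (by norm_num)

theorem genus_seven : genusFormula 7 = 0 :=
  genus_eq_zero (a := 8) (b := 0) (c := 2) (d := 2) (by decide +kernel) (by decide) (by decide)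
    (by decide +kernel) (by norm_num)

theorem genus_ten : genusFormula 10 = 0 :=
  genus_eq_zero (a := 18) (b := 2) (c := 0) (d := 4) (by decide +kernel) (by decide) (by decide)
    (by decide +kernel) (by norm_num)

theorem genus_thirteen : genusFormula 13 = 0 :=
  genus_eq_zero (a := 14) (b := 2) (c := 2) (d := 2) (by decide +kernel) (by decide) (by decide)
    (by decide +kernel) (by norm_num)

/-- there is no eigenform at a level of genus `0` -/
theorem not_isNormalizedEigenform {N : ℕ} [NeZero N] (h : genusFormula N = 0)
    (f : CuspForm (Gamma0 N) 2) : ¬ f.IsNormalizedEigenform := by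
  intro hf
  have hr : Module.finrank ℂ (CuspForm (Gamma0 N) 2) = 0 := by
    exact_mod_cast (Fermat.Agent.S20.result N).trans h
  have : FiniteDimensional ℂ (CuspForm (Gamma0 N) 2) := Fermat.Agent.H22.finiteDimensional_cuspForm N 2
  have : Subsingleton (CuspForm (Gamma0 N) 2) := Module.finrank_zero_iff.mp hr
  have h1 := hf.qCoeff_one
  have h2 := Fermat.Agent.H22.cusp_qCoeff_smul (2 : ℂ) f 1
  rw [Subsingleton.elim ((2 : ℂ) • f) f, h1] at h2
  norm_num at h2

/-- **A semistable elliptic curve over `ℚ` has conductor at least `11`.** -/
theorem eleven_le_conductor (W : WeierstrassCurve ℤ) (hΔ : W.Δ ≠ 0) (hW : W.IsSemistableModel) :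
    11 ≤ ∏ q ∈ W.Δ.natAbs.primeFactors, q ∧ ∏ q ∈ W.Δ.natAbs.primeFactors, q ≠ 13 := by
  obtain ⟨N, hN, hsq, hsupp, f, hf, -⟩ := modular_of_semistable W hΔ hW
  have : NeZero N := ⟨hN.ne'⟩
  have hpf : W.Δ.natAbs.primeFactors = N.primeFactors := by
    ext q
    rw [Nat.mem_primeFactors_of_ne_zero (by simpa using hΔ), Nat.mem_primeFactors_of_ne_zero hN.ne']
    constructor
    · rintro ⟨hq, h⟩
      exact ⟨hq, (hsupp q hq).mpr (Int.natCast_dvd.mpr h)⟩
    · rintro ⟨hq, h⟩
      exact ⟨hq, Int.natCast_dvd.mp ((hsupp q hq).mp h)⟩
  rw [hpf, Nat.prod_primeFactors_of_squarefree hsq]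
  have key : genusFormula N ≠ 0 := fun h => not_isNormalizedEigenform h f hf
  constructor
  · by_contra! hlt
    interval_cases N
    · exact key genus_one
    · exact key genus_two
    · exact key genus_three
    · exact absurd hsq (by decide +kernel)
    · exact key genus_five
    · exact key genus_six
    · exact key genus_seven
    · exact absurd hsq (by decide +kernel)
    · exact absurd hsq (by decide +kernel)
    · exact key genus_ten
  · rintro rfl
    exact key genus_thirteen

/-- **There is no elliptic curve over `ℚ` with good reduction everywhere** (Tate, Ogg): the discriminant of an integral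
Weierstrass equation is never `±1`. -/
theorem natAbs_disc_ne_one (W : WeierstrassCurve ℤ) : W.Δ.natAbs ≠ 1 := by
  intro h
  have hΔ : W.Δ ≠ 0 := by
    rintro h0
    simp [h0] at h
  have hW : W.IsSemistableModel := by
    intro p hp hpΔ
    have h1 : p ∣ 1 := by
      rw [← h]
      exact Int.natCast_dvd.mp hpΔ
    exact absurd (Nat.dvd_one.mp h1) hp.one_lt.ne'
  have := (eleven_le_conductor W hΔ hW).1
  rw [h] at this
  norm_num at this

end Fermat.Agent.Main
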