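import Fermat.Agent.H02_ModAlg
import Fermat.Agent.H01.RootH

set_option autoImplicit false

/-!
# The `j`-function: surjectivity, values at the elliptic points, orders of `j - j(τ)`
-/

noncomputable section

open UpperHalfPlane hiding I
open ModularForm EisensteinSeries Filter Complex Topology Function
open scoped MatrixGroups Manifold Real

namespace Fermat.Agent.H18

open Fermat.Agent.H01 (ordAt)

local notation "Δ" => ModularForm.discriminant

theorem tendsto_discriminant : Tendsto (Δ : ℍ → ℂ) atImInfty (𝓝 0) := by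
  have h := CuspFormClass.zero_at_infty CuspForm.discriminant
  exact h

theorem tendsto_E4_atImInfty : Tendsto (E₄ : ℍ → ℂ) atImInfty (𝓝 1) := H02.tendsto_E4

theorem jfun_surjective : Function.Surjective jfun := by
  intro c
  by_contra hc
  push Not at hc
  have hinv : ∀ γ : SL(2, ℤ), ∀ z, jfun (γ • z) = jfun z := fun γ z => congrFun (H02.tr_jfun γ) z
  have hlim : Tendsto (fun z : ℍ => (jfun z - c)⁻¹) atImInfty (𝓝 0) := by
    have h1 : Tendsto (fun z : ℍ => Δ z / (E₄ z ^ 3 - c * Δ z)) atImInfty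
        (𝓝 (0 / (1 ^ 3 - c * 0))) :=
      tendsto_discriminant.div ((tendsto_E4_atImInfty.pow 3).sub
        (tendsto_discriminant.const_mul c)) (by simp)
    rw [zero_div] at h1
    refine h1.congr fun z => ?_
    have hD := discriminant_ne_zero z
    rw [← jfun_mul_discriminant z, ← sub_mul]
    have h2 := sub_ne_zero.mpr (hc z)
    field_simp
  let F : ModularForm 𝒮ℒ 0 :=
    { toFun := fun z => (jfun z - c)⁻¹
      slash_action_eq' := fun A hA => by
        obtain ⟨A, rfl⟩ := hA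
        show (fun z => (jfun z - c)⁻¹) ∣[(0 : ℤ)] A = _
        rw [← H02.tr_eq_slash]
        ext z
        rw [H02.tr_apply, hinv]
      holo' := by
        rw [UpperHalfPlane.mdifferentiable_iff]
        have h1 := (UpperHalfPlane.mdifferentiable_iff.mp mdiff_jfun).sub_const c
        exact h1.inv fun z hz => sub_ne_zero.mpr (hc _)
      bdd_at_cusps' := fun {c'} hc' => by
        rw [OnePoint.isBoundedAt_iff_forall_SL2Z hc']
        intro γ _
        rw [← H02.tr_eq_slash]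
        have : H02.tr γ (fun z => (jfun z - c)⁻¹) = fun z => (jfun z - c)⁻¹ := by
          ext z
          rw [H02.tr_apply, hinv]
        rw [this]
        exact hlim.isBigO_one ℝ }
  obtain ⟨c', hc'⟩ := ModularFormClass.levelOne_weight_zero_const F
  have h1 : (fun z : ℍ => (jfun z - c)⁻¹) = fun _ => c' := hc'
  rw [h1] at hlim
  have h2 : c' = 0 := tendsto_nhds_unique tendsto_const_nhds hlim
  have h3 := congrFun h1 UpperHalfPlane.I
  rw [h2] at h3
  exact inv_ne_zero (sub_ne_zero.mpr (hc _)) h3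

/-! ### Elliptic points -/

theorem slash_apply_eq {k : ℤ} (f : ModularForm 𝒮ℒ k) (γ : SL(2, ℤ)) (z : ℍ) :
    f (γ • z) * denom γ z ^ (-k) = f z := by
  have := congrFun (SL_slash_eq f γ) z
  rwa [SL_slash_apply] at this

theorem S_smul_I : ModularGroup.S • UpperHalfPlane.I = UpperHalfPlane.I := by
  rw [UpperHalfPlane.modular_S_smul]
  ext
  simp [UpperHalfPlane.I]

theorem E6_I : E₆ UpperHalfPlane.I = 0 := by
  have h := slash_apply_eq E₆ ModularGroup.S UpperHalfPlane.I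
  rw [S_smul_I] at h
  have hd : denom ModularGroup.S UpperHalfPlane.I = Complex.I := by
    rw [ModularGroup.denom_apply]
    simp [ModularGroup.S]
  rw [hd] at h
  have h2 : Complex.I ^ (-6 : ℤ) = -1 := by
    rw [zpow_neg, show (6 : ℤ) = ((6 : ℕ) : ℤ) by rfl, zpow_natCast]
    rw [show (6 : ℕ) = 2 * 3 by rfl, pow_mul, I_sq]
    norm_num
  rw [h2] at h
  linear_combination -h / 2

/-- The elliptic point of order three. -/
def rhoPt : ℍ := ⟨-1 / 2 + (Real.sqrt 3 / 2 : ℝ) * Complex.I, by simp⟩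

theorem coe_rhoPt : (rhoPt : ℂ) = -1 / 2 + (Real.sqrt 3 / 2 : ℝ) * Complex.I := rfl

theorem rhoPt_sq : (rhoPt : ℂ) ^ 2 + rhoPt + 1 = 0 := by
  rw [coe_rhoPt]
  have h1 : ((Real.sqrt 3 / 2 : ℝ) : ℂ) ^ 2 = 3 / 4 := by
    rw [← Complex.ofReal_pow, div_pow, Real.sq_sqrt (by norm_num)]
    norm_num
  linear_combination (Complex.I ^ 2) * h1 + (3 / 4) * Complex.I_sq

theorem ST_smul_rhoPt : (ModularGroup.S * ModularGroup.T) • rhoPt = rhoPt := by
  rw [mul_smul, UpperHalfPlane.modular_T_smul, UpperHalfPlane.modular_S_smul]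
  ext
  have h1 : ((1 : ℝ) : ℂ) + (rhoPt : ℂ) ≠ 0 := by
    intro h
    have := congrArg Complex.im h
    simp [coe_rhoPt] at this
  simp only [UpperHalfPlane.coe_vadd]
  rw [inv_eq_iff_eq_inv, ← one_div, eq_comm, div_eq_iff (by
    intro h
    rw [h] at h1
    have := rhoPt_sq
    rw [h] at this
    norm_num at this)]
  push_cast
  linear_combination rhoPt_sq

theorem E4_rhoPt : E₄ rhoPt = 0 := by
  have h := slash_apply_eq E₄ (ModularGroup.S * ModularGroup.T) rhoPt
  rw [ST_smul_rhoPt] at h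
  have hd : denom (ModularGroup.S * ModularGroup.T : SL(2, ℤ)) rhoPt = (rhoPt : ℂ) + 1 := by
    rw [ModularGroup.denom_apply]
    simp [ModularGroup.S, ModularGroup.T]
  rw [hd] at h
  have h1 : (rhoPt : ℂ) + 1 ≠ 0 := by
    intro h
    have := congrArg Complex.im h
    simp [coe_rhoPt] at this
  have h2 : ((rhoPt : ℂ) + 1) ^ (-4 : ℤ) * ((rhoPt : ℂ) + 1) ^ 4 = 1 := by
    rw [← zpow_natCast, ← zpow_add₀ h1]
    norm_num
  have h3 : ((rhoPt : ℂ) + 1) ^ 4 = rhoPt ^ 2 := by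
    have := rhoPt_sq
    linear_combination ((rhoPt : ℂ) ^ 2 + 3 * rhoPt + 1) * this
  have h4 : E₄ rhoPt = E₄ rhoPt * (rhoPt : ℂ) ^ 2 := by
    calc E₄ rhoPt = E₄ rhoPt * (((rhoPt : ℂ) + 1) ^ (-4 : ℤ) * ((rhoPt : ℂ) + 1) ^ 4) := by
          rw [h2, mul_one]
      _ = E₄ rhoPt * ((rhoPt : ℂ) + 1) ^ (-4 : ℤ) * ((rhoPt : ℂ) + 1) ^ 4 := by ring
      _ = E₄ rhoPt * (rhoPt : ℂ) ^ 2 := by rw [h, h3]
  have h5 : (1 : ℂ) - (rhoPt : ℂ) ^ 2 ≠ 0 := by
    intro h5
    have h6 : (rhoPt : ℂ) = -2 := by linear_combination rhoPt_sq + h5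
    have := congrArg Complex.im h6
    simp [coe_rhoPt] at this
  have h6 : E₄ rhoPt * (1 - (rhoPt : ℂ) ^ 2) = 0 := by linear_combination h4
  exact (mul_eq_zero.mp h6).resolve_right h5

theorem jfun_I : jfun UpperHalfPlane.I = 1728 := by
  have h := jfun_sub UpperHalfPlane.I
  rw [E6_I] at h
  have hD := discriminant_ne_zero UpperHalfPlane.I
  have h2 : jfun UpperHalfPlane.I - 1728 = 0 := by
    apply (mul_eq_zero.mp (h.trans (by norm_num))).resolve_right hD
  linear_combination h2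

theorem jfun_rhoPt : jfun rhoPt = 0 := by
  rw [jfun, E4_rhoPt]
  simp

/-! ### Orders of `j - j(τ)` -/

theorem ordAt_eq_one {f : ℍ → ℂ} (hf : MDiff f) {τ : ℍ} (h0 : f τ = 0)
    (h1 : deriv (f ∘ ofComplex) τ ≠ 0) : ordAt τ f = 1 := by
  have h2 := (H01.analyticAt_comp_ofComplex hf τ).analyticOrderAt_eq_one_of_zero_deriv_ne_zero
    (by simpa using h0) h1
  rw [ordAt, analyticOrderNatAt, h2]
  rfl

theorem ordAt_eq_zero {f : ℍ → ℂ} (hf : MDiff f) {τ : ℍ} (h0 : f τ ≠ 0) : ordAt τ f = 0 := by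
  have h2 := (H01.analyticAt_comp_ofComplex hf τ).analyticOrderAt_eq_zero.2 (by simpa using h0)
  rw [ordAt, analyticOrderNatAt, h2]
  rfl

theorem jfun_sub_ne_zero (c : ℂ) : (jfun - fun _ => c) ≠ 0 := by
  intro h
  obtain ⟨z, hz⟩ := jfun_surjective (c + 1)
  have := congrFun h z
  simp [hz] at this

theorem mdiff_jfun_sub (c : ℂ) : MDiff (jfun - fun _ : ℍ => c : ℍ → ℂ) :=
  mdiff_jfun.sub mdifferentiable_const

theorem discriminant_ne_zero' : (Δ : ℍ → ℂ) ≠ 0 := fun h =>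
  discriminant_ne_zero UpperHalfPlane.I (congrFun h _)

theorem E4_fun_ne_zero : (E₄ : ℍ → ℂ) ≠ 0 := fun h => E4_ne_zero' (DFunLike.coe_injective h)
theorem E6_fun_ne_zero : (E₆ : ℍ → ℂ) ≠ 0 := fun h => E6_ne_zero' (DFunLike.coe_injective h)

theorem ordAt_discriminant (τ : ℍ) : ordAt τ Δ = 0 :=
  ordAt_eq_zero mdiff_discriminant (discriminant_ne_zero τ)

theorem ordAt_jfun_sub_of_E6 {τ : ℍ} (h : E₆ τ = 0) : ordAt τ (jfun - fun _ => 1728) = 2 := by
  have h1 : (jfun - fun _ => 1728) * Δ = (E₆ : ℍ → ℂ) ^ 2 := by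
    ext z
    exact jfun_sub z
  have h2 := H01.ordAt_mul (mdiff_jfun_sub 1728) mdiff_discriminant (jfun_sub_ne_zero 1728)
    discriminant_ne_zero' τ
  rw [h1, H01.ordAt_pow mdiff_E6 E6_fun_ne_zero, ordAt_discriminant,
    ordAt_eq_one mdiff_E6 h (deriv_E6_ne_zero τ h)] at h2
  omega

theorem ordAt_jfun_of_E4 {τ : ℍ} (h : E₄ τ = 0) : ordAt τ (jfun - fun _ => 0) = 3 := by
  have h1 : (jfun - fun _ => 0) * Δ = (E₄ : ℍ → ℂ) ^ 3 := by
    ext z
    simpa using jfun_mul_discriminant z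
  have h2 := H01.ordAt_mul (mdiff_jfun_sub 0) mdiff_discriminant (jfun_sub_ne_zero 0)
    discriminant_ne_zero' τ
  rw [h1, H01.ordAt_pow mdiff_E4 E4_fun_ne_zero, ordAt_discriminant,
    ordAt_eq_one mdiff_E4 h (deriv_E4_ne_zero τ h)] at h2
  omega

theorem ordAt_jfun_sub_of_ne {τ : ℍ} {c : ℂ} (hc : jfun τ = c) (h0 : c ≠ 0) (h1 : c ≠ 1728) :
    ordAt τ (jfun - fun _ => c) = 1 := by
  have h4 : E₄ τ ≠ 0 := by
    intro h
    apply h0
    rw [← hc, jfun, h]
    simp
  have h6 : E₆ τ ≠ 0 := by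
    intro h
    apply h1
    have h2 := jfun_sub τ
    rw [h, hc] at h2
    have h3 := (mul_eq_zero.mp (h2.trans (by norm_num))).resolve_right (discriminant_ne_zero τ)
    linear_combination h3
  refine ordAt_eq_one (mdiff_jfun_sub c) (by simp [hc]) ?_
  have h3 : ((jfun - fun _ => c) ∘ ofComplex) = fun w => (jfun ∘ ofComplex) w - c := rfl
  rw [h3, deriv_sub_const]
  exact deriv_jfun_ne_zero τ h4 h6

end Fermat.Agent.H18
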