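import Fermat.Agent.H18_ModPlace
import Fermat.Agent.H14.Numerics

set_option autoImplicit false

/-!
# Degree of the function field of `X₀(N)` and its places

-/

noncomputable section

open UpperHalfPlane hiding I
open ModularForm EisensteinSeries Filter Complex Topology Function CongruenceSubgroup
open scoped MatrixGroups Manifold Real Polynomial

namespace Fermat.Agent.H18

open Fermat.Agent.H02 (tr tr_apply tr_mul tr_add tr_pow tr_tr tr_one IsSlow isSlow_const jN
  jN_smul isSlow_jN tr_jN_of_mem tr_jfun Gamma0_le_of_dvd isSlow_jfun)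
open Fermat.Agent.Igusa (IsExp jf isExp_jf scl lin coe_scl coe_lin twist zr)
open ModularCurve (coeffMap qExpand jqModC coeffEmb jq laurentBaseChange modularFunctionFieldFull
  coeffEmb_mem_laurentBaseChange jqd_mem_full dedekindPsi nuTwo nuThree cuspCount)
open Fermat.Agent.H01 (ordAt)
open AlgebraicCurve IntermediateField

variable {K : Type*} [Field K] [Algebra K ℂ] [IsAlgClosed K] [Algebra ℚ K] {N : ℕ} [NeZero N]

attribute [local instance] algFb algFM

instance finite_FM : FiniteDimensional (Fb K N) (ModField K N) :=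
  FiniteDimensional.right (RatFunc K) (Fb K N) (ModField K N)

theorem charZero_of : CharZero K := (algebraMap K ℂ).charZero

instance separable_Fb : Algebra.IsSeparable (RatFunc K) (Fb K N) := by
  have : CharZero K := (algebraMap K ℂ).charZero
  have : CharZero (RatFunc K) := charZero_of_injective_algebraMap (algebraMap K (RatFunc K)).injective
  infer_instance

theorem mem_Gamma0_iff' {γ : SL(2, ℤ)} : γ ∈ Gamma0 N ↔
    ∀ x : Fb K N, rho K N γ (algebraMap (Fb K N) (ModField K N) x) =
      algebraMap (Fb K N) (ModField K N) x := mem_Gamma0_iff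

/-- **Degree of the function field of `X₀(N)`.** -/
theorem finrank_Fb : Module.finrank (RatFunc K) (Fb K N) = dedekindPsi N := by
  rw [finrank_eq_index rho_surjective (fun γ => mem_Gamma0_iff' (K := K) (N := N) (γ := γ)),
    Subgroup.index, H14.card_X]

instance finite_adjoin_jB : FiniteDimensional K⟮jB K N⟯ (Fb K N) := by
  let _ : Algebra (RatFunc K) K⟮jB K N⟯ :=
    (RatFunc.algEquivOfTranscendental (jB K N) transcendental_jB).toRingEquiv.toRingHom.toAlgebra
  have : IsScalarTower (RatFunc K) K⟮jB K N⟯ (Fb K N) := IsScalarTower.of_algebraMap_eq fun _ => rfl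
  exact FiniteDimensional.right (RatFunc K) K⟮jB K N⟯ (Fb K N)

theorem finrank_adjoin_jB : Module.finrank K⟮jB K N⟯ (Fb K N) = dedekindPsi N := by
  rw [← ratFuncAlgebra_finrank (jB K N) transcendental_jB]
  exact finrank_Fb

variable (K N) in
/-- The function field of `X₀(N)` is a function field in one variable. -/
theorem exists_transcendental :
    ∃ x : Fb K N, Transcendental K x ∧ FiniteDimensional K⟮x⟯ (Fb K N) :=
  ⟨jB K N, transcendental_jB, inferInstance⟩

/-! ### Decomposition groups -/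

theorem neg_one_smul_eq (τ : ℍ) : (-1 : SL(2, ℤ)) • τ = τ := by
  rw [ModularGroup.SL_neg_smul, one_smul]

theorem rho_neg_one : rho K N (-1) = 1 := by
  ext x
  rw [rho_apply]
  have : toGfin K N (-1) = 1 := by
    apply Subtype.ext
    ext f : 1
    apply Subtype.ext
    show tr (-1)⁻¹ (f : ℍ → ℂ) = f
    ext z
    rw [tr_apply, inv_neg_one, neg_one_smul_eq]
  rw [this, one_smul]
  rfl

theorem jM_sub_ne_zero (c : K) : jM K N - algebraMap K (ModField K N) c ≠ 0 := by
  intro h
  have h1 : jM K N = algebraMap K (ModField K N) c := sub_eq_zero.mp h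
  exact transcendental_jM (h1 ▸ isAlgebraic_algebraMap c)

theorem g_ptOrd {τ : ℍ} {c : K} (hc : jfun τ = algebraMap K ℂ c) :
    (ptOrd N hc).g (jM K N - algebraMap K (ModField K N) c) =
      ordAt τ (jfun - fun _ => algebraMap K ℂ c) := by
  have h1 : jM K N - algebraMap K (ModField K N) c =
      algebraMap (funAlg K N) (ModField K N) (jc K N c) := by
    rw [jc, map_sub, ← IsScalarTower.algebraMap_apply K (funAlg K N) (ModField K N)]
    rfl
  rw [h1, ptOrd_g, DomOrd.gF_algebraMap _ (jc_ne_zero c)]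
  rfl

theorem ord_toPlace_pos_iff {F : Type*} [Field F] [Algebra K F] (o : OrdData K F)
    {x : F} (hx : x ≠ 0) : 0 < o.toPlace.ord x ↔ 0 < o.g x := by
  rw [o.g_eq_idx_mul_ord hx]
  have := o.idx_pos
  constructor
  · intro h; positivity
  · intro h
    exact (mul_pos_iff_of_pos_left (by exact_mod_cast this : (0 : ℤ) < o.idx)).mp h

theorem restrict_ptPlace {τ : ℍ} {c : K} (hc : jfun τ = algebraMap K ℂ c) :
    (ptPlace (N := N) hc).restrict (RatFunc K) = ratPlace c := by
  rw [restrict_eq_ratPlace_iff, algebraMap_X_modField, ptPlace,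
    ord_toPlace_pos_iff _ (jM_sub_ne_zero c), g_ptOrd]
  have := ordAt_pos_of_zero (mdiff_jfun_sub (algebraMap K ℂ c)) (jfun_sub_ne_zero _) (τ := τ)
    (by simp [hc])
  exact_mod_cast this

theorem card_decomp_ptPlace_le {τ : ℍ} {c : K} (hc : jfun τ = algebraMap K ℂ c) :
    Nat.card (decomp (E := RatFunc K) (ptPlace (N := N) hc)) ≤
      ordAt τ (jfun - fun _ => algebraMap K ℂ c) := by
  rw [card_decomp, inertiaDeg_eq_one, mul_one]
  have h1 := ord_eq_ramificationIndex _ c (restrict_ptPlace (N := N) hc)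
  rw [algebraMap_X_modField] at h1
  have h2 := (ptOrd N hc).g_eq_idx_mul_ord (jM_sub_ne_zero (N := N) c)
  rw [g_ptOrd] at h2
  change _ = _ * (ptPlace (N := N) hc).ord _ at h2
  rw [h1] at h2
  have h3 := (ptOrd N hc).idx_pos
  have h4 : ordAt τ (jfun - fun _ => algebraMap K ℂ c) = (ptOrd N hc).idx *
      (ptPlace (N := N) hc).ramificationIndex (RatFunc K) := by exact_mod_cast h2
  rw [h4]
  exact Nat.le_mul_of_pos_left _ h3

theorem jM_ne_zero : jM K N ≠ 0 := by
  have := jM_sub_ne_zero (K := K) (N := N) 0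
  rwa [map_zero, sub_zero] at this

theorem restrict_infPl : (infPl K N).restrict (RatFunc K) = infPlace K := by
  rw [restrict_eq_infPlace_iff, algebraMap_X_modField]
  have h1 := (infOrd K N).g_eq_idx_mul_ord (jM_ne_zero (K := K) (N := N))
  rw [g_infOrd_jM] at h1
  have h3 := (infOrd K N).idx_pos
  have h4 := NeZero.pos N
  by_contra hneg
  push Not at hneg
  have : 0 ≤ ((infOrd K N).idx : ℤ) * (infOrd K N).toPlace.ord (jM K N) :=
    mul_nonneg (by positivity) hneg
  omega

theorem card_decomp_infPl_le : Nat.card (decomp (E := RatFunc K) (infPl K N)) ≤ N := by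
  rw [card_decomp, inertiaDeg_eq_one, mul_one]
  have h1 := ord_eq_neg_ramificationIndex _ (restrict_infPl (K := K) (N := N))
  rw [algebraMap_X_modField] at h1
  have h2 := (infOrd K N).g_eq_idx_mul_ord (jM_ne_zero (K := K) (N := N))
  rw [g_infOrd_jM] at h2
  change _ = _ * (infPl K N).ord _ at h2
  rw [h1] at h2
  have h3 := (infOrd K N).idx_pos
  have h4 : N = (infOrd K N).idx * (infPl K N).ramificationIndex (RatFunc K) := by
    have : (N : ℤ) = (infOrd K N).idx * (infPl K N).ramificationIndex (RatFunc K) := by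
      linear_combination -h2
    exact_mod_cast this
  calc (infPl K N).ramificationIndex (RatFunc K) ≤
      (infOrd K N).idx * (infPl K N).ramificationIndex (RatFunc K) := Nat.le_mul_of_pos_left _ h3
    _ = N := h4.symm

/-! ### Group theory -/

theorem rho_ne_one_of_notMem {γ : SL(2, ℤ)} (h : γ ∉ Gamma0 N) : rho K N γ ≠ 1 := fun h1 =>
  h (ker_rho_le (MonoidHom.mem_ker.mpr h1))

theorem S_notMem (hN : N ≠ 1) : ModularGroup.S ∉ Gamma0 N := by
  rw [Gamma0_mem]
  have : Nontrivial (ZMod N) := by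
    have h1 := NeZero.pos N
    have : Fact (1 < N) := ⟨by omega⟩
    infer_instance
  simp [ModularGroup.S]

theorem ST_notMem (hN : N ≠ 1) : ModularGroup.S * ModularGroup.T ∉ Gamma0 N := by
  rw [Gamma0_mem]
  have : Nontrivial (ZMod N) := by
    have h1 := NeZero.pos N
    have : Fact (1 < N) := ⟨by omega⟩
    infer_instance
  simp [ModularGroup.S, ModularGroup.T]

theorem gal_trivial (hN : N = 1) (σ : ModField K N ≃ₐ[RatFunc K] ModField K N) : σ = 1 := by
  obtain ⟨γ, rfl⟩ := rho_surjective σ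
  apply rho_eq_one_of_mem
  subst hN
  rw [CongruenceSubgroup.Gamma_one_top]
  trivial

theorem S_sq : ModularGroup.S ^ 2 = (-1 : SL(2, ℤ)) := by
  ext i j
  fin_cases i <;> fin_cases j <;> simp [ModularGroup.S, pow_two]

theorem ST_cube : (ModularGroup.S * ModularGroup.T) ^ 3 = (-1 : SL(2, ℤ)) := by
  ext i j
  fin_cases i <;> fin_cases j <;>
    simp [ModularGroup.S, ModularGroup.T, pow_succ]

theorem zpowers_eq_of_prime {G : Type*} [Group G] [Finite G] {D : Subgroup G} {g : G} {p : ℕ}
    (hp : p.Prime) (hg : g ∈ D) (hD : Nat.card D ≤ p) (hgp : g ^ p = 1)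
    (h1 : g ≠ 1 ∨ ∀ x : G, x = 1) : Subgroup.zpowers g = D := by
  rcases h1 with h1 | h1
  · have : Fact p.Prime := ⟨hp⟩
    apply Subgroup.eq_of_le_of_card_ge
    · rwa [Subgroup.zpowers_le]
    · rw [Nat.card_zpowers, orderOf_eq_prime hgp h1]
      exact hD
  · ext x
    rw [h1 x]
    simp [one_mem]

theorem map_zpowers_S_eq {c : K} (hc : jfun UpperHalfPlane.I = algebraMap K ℂ c) :
    (Subgroup.zpowers ModularGroup.S).map (rho K N) =
      decomp (E := RatFunc K) (ptPlace (N := N) hc) := by
  rw [MonoidHom.map_zpowers]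
  apply zpowers_eq_of_prime Nat.prime_two
  · exact rho_mem_decomp hc S_smul_I
  · refine (card_decomp_ptPlace_le hc).trans ?_
    rw [← hc, jfun_I, ordAt_jfun_sub_of_E6 E6_I]
  · rw [← map_pow, S_sq, rho_neg_one]
  · by_cases hN : N = 1
    · exact Or.inr fun x => gal_trivial hN x
    · exact Or.inl (rho_ne_one_of_notMem (S_notMem hN))

theorem map_zpowers_ST_eq {c : K} (hc : jfun rhoPt = algebraMap K ℂ c) :
    (Subgroup.zpowers (ModularGroup.S * ModularGroup.T)).map (rho K N) =
      decomp (E := RatFunc K) (ptPlace (N := N) hc) := by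
  rw [MonoidHom.map_zpowers]
  apply zpowers_eq_of_prime Nat.prime_three
  · exact rho_mem_decomp hc ST_smul_rhoPt
  · refine (card_decomp_ptPlace_le hc).trans ?_
    rw [← hc, jfun_rhoPt, ordAt_jfun_of_E4 E4_rhoPt]
  · rw [← map_pow, ST_cube, rho_neg_one]
  · by_cases hN : N = 1
    · exact Or.inr fun x => gal_trivial hN x
    · exact Or.inl (rho_ne_one_of_notMem (ST_notMem hN))

theorem map_bot_eq {τ : ℍ} {c : K} (hc : jfun τ = algebraMap K ℂ c) (h0 : c ≠ 0)
    (h1 : c ≠ 1728) :
    (⊥ : Subgroup SL(2, ℤ)).map (rho K N) = decomp (E := RatFunc K) (ptPlace (N := N) hc) := by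
  rw [Subgroup.map_bot, eq_comm, ← Subgroup.card_eq_one]
  apply le_antisymm
  · refine (card_decomp_ptPlace_le hc).trans ?_
    rw [ordAt_jfun_sub_of_ne hc]
    · exact (map_ne_zero _).mpr h0
    · intro h
      apply h1
      apply (algebraMap K ℂ).injective
      rw [h, map_ofNat]
  · exact Nat.card_pos

theorem dvd_of_rho_T_pow {k : ℕ} (h : rho K N ModularGroup.T ^ k = 1) : N ∣ k := by
  rw [← map_pow] at h
  have h1 : rho K N (ModularGroup.S * ModularGroup.T ^ k * ModularGroup.S⁻¹) = 1 := by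
    rw [map_mul, map_mul, h, mul_one, ← map_mul, mul_inv_cancel, map_one]
  have h2 := ker_rho_le (MonoidHom.mem_ker.mpr h1)
  rw [Gamma0_mem, ZMod.intCast_zmod_eq_zero_iff_dvd] at h2
  have h3 : (ModularGroup.S * ModularGroup.T ^ k * ModularGroup.S⁻¹ : SL(2, ℤ)) 1 0 = -(k : ℤ) := by
    have h4 := ModularGroup.coe_T_zpow k
    rw [zpow_natCast] at h4
    simp [Matrix.SpecialLinearGroup.coe_mul, Matrix.mul_apply, Fin.sum_univ_two, ModularGroup.S, h4,
      Matrix.SpecialLinearGroup.coe_inv, Matrix.adjugate_fin_two]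
  rw [h3, dvd_neg] at h2
  exact_mod_cast h2

theorem map_zpowers_T_eq :
    (Subgroup.zpowers ModularGroup.T).map (rho K N) = decomp (E := RatFunc K) (infPl K N) := by
  rw [MonoidHom.map_zpowers]
  apply Subgroup.eq_of_le_of_card_ge
  · rw [Subgroup.zpowers_le]
    exact rho_T_mem_decomp
  · refine card_decomp_infPl_le.trans ?_
    rw [Nat.card_zpowers]
    exact Nat.le_of_dvd (orderOf_pos _) (dvd_of_rho_T_pow (pow_orderOf_eq_one _))

/-! ### Number of places -/

theorem card_places_ratPlace {τ : ℍ} {c : K} (hc : jfun τ = algebraMap K ℂ c)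
    {Δ : Subgroup SL(2, ℤ)}
    (h : Δ.map (rho K N) = decomp (E := RatFunc K) (ptPlace (N := N) hc)) :
    Nat.card {w : Place K (Fb K N) // w.restrict (RatFunc K) = ratPlace c} =
      Nat.card (MulAction.orbitRel.Quotient Δ (SL(2, ℤ) ⧸ Gamma0 N)) := by
  rw [← card_places_eq (fun γ => mem_Gamma0_iff' (K := K) (N := N) (γ := γ)) rho_surjective _ h,
    restrict_ptPlace]

theorem card_places_inf :
    Nat.card {w : Place K (Fb K N) // w.restrict (RatFunc K) = infPlace K} =
      Nat.card (MulAction.orbitRel.Quotient (Subgroup.zpowers ModularGroup.T)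
        (SL(2, ℤ) ⧸ Gamma0 N)) := by
  rw [← card_places_eq (fun γ => mem_Gamma0_iff' (K := K) (N := N) (γ := γ)) rho_surjective _
    map_zpowers_T_eq, restrict_infPl]

theorem card_places_1728 :
    Nat.card {w : Place K (Fb K N) // w.restrict (RatFunc K) = ratPlace 1728} =
      Nat.card (MulAction.orbitRel.Quotient (Subgroup.zpowers ModularGroup.S)
        (SL(2, ℤ) ⧸ Gamma0 N)) :=
  card_places_ratPlace (by rw [jfun_I, map_ofNat]) (map_zpowers_S_eq _)

theorem card_places_zero :
    Nat.card {w : Place K (Fb K N) // w.restrict (RatFunc K) = ratPlace 0} =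
      Nat.card (MulAction.orbitRel.Quotient (Subgroup.zpowers (ModularGroup.S * ModularGroup.T))
        (SL(2, ℤ) ⧸ Gamma0 N)) :=
  card_places_ratPlace (by rw [jfun_rhoPt, map_zero]) (map_zpowers_ST_eq _)

theorem card_places_generic {c : K} (h0 : c ≠ 0) (h1 : c ≠ 1728) :
    Nat.card {w : Place K (Fb K N) // w.restrict (RatFunc K) = ratPlace c} =
      Nat.card (SL(2, ℤ) ⧸ Gamma0 N) := by
  obtain ⟨τ, hτ⟩ := jfun_surjective (algebraMap K ℂ c)
  rw [card_places_ratPlace hτ (map_bot_eq hτ h0 h1)]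
  refine (Nat.card_congr (Equiv.ofBijective
    (fun x : SL(2, ℤ) ⧸ Gamma0 N => (Quotient.mk'' x :
      MulAction.orbitRel.Quotient (⊥ : Subgroup SL(2, ℤ)) (SL(2, ℤ) ⧸ Gamma0 N))) ⟨?_, ?_⟩)).symm
  · intro x y hxy
    obtain ⟨⟨g, hg⟩, hgx⟩ := Quotient.exact' hxy
    rw [Subgroup.mem_bot] at hg
    subst hg
    have : y = x := by
      rw [← hgx]
      exact (one_smul _ y).symm
    exact this.symm
  · exact Quotient.mk''_surjective

end Fermat.Agent.H18
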