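import Fermat.Agent.H18_Norm

set_option autoImplicit false
set_option linter.unusedSectionVars false
set_option linter.unusedVariables false

/-!
# Places of an intermediate field as orbits of a decomposition group
-/

noncomputable section

open AlgebraicCurve IsDedekindDomain IsLocalRing

open scoped Pointwise

namespace Fermat.Agent.H18

section Orbits

variable {K E F M : Type*} [Field K] [Field E] [Field F] [Field M] [Algebra K E] [Algebra K F]
  [Algebra K M] [Algebra E F] [Algebra E M] [Algebra F M] [IsScalarTower K E F]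
  [IsScalarTower K F M] [IsScalarTower K E M] [IsScalarTower E F M]
  [FiniteDimensional E F] [FiniteDimensional F M] [FiniteDimensional E M]
  [IsGalois E M]
  {Γ : Type*} [Group Γ] {ρ : Γ →* (M ≃ₐ[E] M)} {Γ₀ : Subgroup Γ}

theorem rs_mul (σ τ : M ≃ₐ[E] M) (w : Place K M) :
    (σ * τ).restrictScalars K • w = σ.restrictScalars K • (τ.restrictScalars K • w) := by
  have : (σ * τ).restrictScalars K = σ.restrictScalars K * τ.restrictScalars K := rfl
  rw [this, mul_smul]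

theorem rs_one (w : Place K M) :
    (1 : M ≃ₐ[E] M).restrictScalars K • w = w := by
  have : ((1 : M ≃ₐ[E] M).restrictScalars K) = (1 : M ≃ₐ[K] M) := rfl
  rw [this, one_smul]

/-- automorphisms fixing `F` -/
def liftF (σ : M ≃ₐ[E] M) (h : ∀ x : F, σ (algebraMap F M x) = algebraMap F M x) : M ≃ₐ[F] M :=
  AlgEquiv.ofRingEquiv (f := (σ : M ≃+* M)) h

/-- `M/F` is Galois. -/
theorem isGalois_top (E F M : Type*) [Field E] [Field F] [Field M] [Algebra E F] [Algebra E M]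
    [Algebra F M] [IsScalarTower E F M] [IsGalois E M] : IsGalois F M :=
  IsGalois.tower_top_of_isGalois E F M

variable (F) in
theorem restrict_gal_of_fix (σ : M ≃ₐ[E] M)
    (h : ∀ x : F, σ (algebraMap F M x) = algebraMap F M x) (w : Place K M) :
    (σ.restrictScalars K • w).restrict F = w.restrict F := by
  have := restrict_gal (E := F) (liftF σ h) w
  exact this

theorem exists_of_restrict_eq (w w' : Place K M) (h : w.restrict F = w'.restrict F) :
    ∃ σ : M ≃ₐ[E] M, (∀ x : F, σ (algebraMap F M x) = algebraMap F M x) ∧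
      σ.restrictScalars K • w = w' := by
  haveI : IsGalois F M := isGalois_top E F M
  obtain ⟨σ, hσ⟩ := exists_gal_smul_eq (E := F) w w' h
  exact ⟨σ.restrictScalars E, fun x => σ.commutes x, hσ⟩

theorem finrank_eq_index (hρ : Function.Surjective ρ)
    (hΓ₀ : ∀ γ, γ ∈ Γ₀ ↔ ∀ x : F, ρ γ (algebraMap F M x) = algebraMap F M x) :
    Module.finrank E F = Γ₀.index := by
  have hker : ρ.ker ≤ Γ₀ := fun γ hγ => by
    rw [hΓ₀, MonoidHom.mem_ker.mp hγ]
    exact fun x => rfl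
  have h1 : fixingSubgroup (M ≃ₐ[E] M) (Set.range (algebraMap F M)) = Γ₀.map ρ := by
    ext σ
    rw [mem_fixingSubgroup_iff, Subgroup.mem_map]
    constructor
    · intro h
      obtain ⟨γ, rfl⟩ := hρ σ
      exact ⟨γ, (hΓ₀ γ).mpr fun x => h _ ⟨x, rfl⟩, rfl⟩
    · rintro ⟨γ, hγ, rfl⟩ _ ⟨x, rfl⟩
      exact (hΓ₀ γ).mp hγ x
  have h2 : IsGaloisGroup (Γ₀.map ρ) F M := h1 ▸ IsGaloisGroup.of_isScalarTower (M ≃ₐ[E] M) E M F
  have h3 : Nat.card (Γ₀.map ρ) = Module.finrank F M := IsGaloisGroup.card_eq_finrank _ F M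
  have h4 : Nat.card (M ≃ₐ[E] M) = Module.finrank E M := IsGaloisGroup.card_eq_finrank _ E M
  have h5 := (Γ₀.map ρ).card_mul_index
  rw [Subgroup.index_map_eq _ hρ hker, h3, h4, ← Module.finrank_mul_finrank E F M, mul_comm] at h5
  exact (Nat.eq_of_mul_eq_mul_right Module.finrank_pos h5).symm

variable (hΓ₀ : ∀ γ, γ ∈ Γ₀ ↔ ∀ x : F, ρ γ (algebraMap F M x) = algebraMap F M x)

/-- The place of `F` attached to a coset. -/
def cosetPlace (w₀ : Place K M) : Γ ⧸ Γ₀ → Place K F :=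
  fun q => Quotient.liftOn' q (fun γ => (((ρ γ)⁻¹).restrictScalars K • w₀).restrict F) (by
    intro a b hab
    rw [QuotientGroup.leftRel_apply] at hab
    show (((ρ a)⁻¹).restrictScalars K • w₀).restrict F =
      (((ρ b)⁻¹).restrictScalars K • w₀).restrict F
    have h1 : (ρ b)⁻¹ = ρ ((a⁻¹ * b)⁻¹) * (ρ a)⁻¹ := by
      rw [← map_inv, ← map_inv, ← map_mul]; congr 1; group
    rw [h1, rs_mul]
    exact (restrict_gal_of_fix (K := K) (E := E) F (ρ (a⁻¹ * b)⁻¹)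
      ((hΓ₀ _).mp (inv_mem hab)) _).symm)

theorem cosetPlace_mk (w₀ : Place K M) (γ : Γ) :
    cosetPlace hΓ₀ w₀ (γ : Γ ⧸ Γ₀) = (((ρ γ)⁻¹).restrictScalars K • w₀).restrict F := rfl

variable [Algebra.IsSeparable E F]

theorem cosetPlace_restrict (w₀ : Place K M) (q : Γ ⧸ Γ₀) :
    (cosetPlace hΓ₀ w₀ q).restrict E = w₀.restrict E := by
  induction q using QuotientGroup.induction_on with
  | H γ => rw [cosetPlace_mk, restrict_restrict, restrict_gal]

theorem cosetPlace_surj (hρ : Function.Surjective ρ) (w₀ : Place K M) (w : Place K F)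
    (hw : w.restrict E = w₀.restrict E) : ∃ q : Γ ⧸ Γ₀, cosetPlace hΓ₀ w₀ q = w := by
  haveI : IsGalois F M := isGalois_top E F M
  obtain ⟨u, rfl⟩ := exists_restrict_eq (F := M) w
  rw [restrict_restrict] at hw
  obtain ⟨σ, rfl⟩ := exists_gal_smul_eq (E := E) w₀ u hw.symm
  obtain ⟨γ, hγ⟩ := hρ σ⁻¹
  refine ⟨(γ : Γ ⧸ Γ₀), ?_⟩
  rw [cosetPlace_mk, hγ, inv_inv]

theorem cosetPlace_eq_iff (hρ : Function.Surjective ρ) (w₀ : Place K M) {Δ : Subgroup Γ}
    (hΔ : Δ.map ρ = decomp (E := E) w₀) (q q' : Γ ⧸ Γ₀) :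
    cosetPlace hΓ₀ w₀ q = cosetPlace hΓ₀ w₀ q' ↔ ∃ δ : Δ, δ • q = q' := by
  have hker : ρ.ker ≤ Γ₀ := fun γ hγ => by
    rw [hΓ₀, MonoidHom.mem_ker.mp hγ]
    exact fun x => rfl
  induction q using QuotientGroup.induction_on with
  | H a =>
  induction q' using QuotientGroup.induction_on with
  | H b =>
  rw [cosetPlace_mk, cosetPlace_mk]
  constructor
  · intro h
    obtain ⟨σ, hσ, hσw⟩ := exists_of_restrict_eq (E := E) _ _ h
    obtain ⟨g, rfl⟩ := hρ σ
    have hg : g ∈ Γ₀ := (hΓ₀ g).mpr hσ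
    have h1 : ρ (b * g * a⁻¹) ∈ decomp (E := E) w₀ := by
      rw [mem_decomp, map_mul, map_mul, rs_mul, rs_mul, map_inv, hσw, ← rs_mul, mul_inv_cancel,
        rs_one]
    rw [← hΔ] at h1
    obtain ⟨δ, hδ, h2⟩ := h1
    refine ⟨⟨δ, hδ⟩, ?_⟩
    show ((δ * a : Γ) : Γ ⧸ Γ₀) = (b : Γ ⧸ Γ₀)
    rw [QuotientGroup.eq]
    have h3 : δ⁻¹ * (b * g * a⁻¹) ∈ ρ.ker := by
      rw [MonoidHom.mem_ker, map_mul, ← h2, map_inv, inv_mul_cancel]
    have h4 : a⁻¹ * (δ⁻¹ * (b * g * a⁻¹)) * a⁻¹⁻¹ ∈ ρ.ker :=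
      (inferInstance : ρ.ker.Normal).conj_mem _ h3 a⁻¹
    have h5 := hker h4
    have h6 : (δ * a)⁻¹ * b = (a⁻¹ * (δ⁻¹ * (b * g * a⁻¹)) * a⁻¹⁻¹) * g⁻¹ := by group
    rw [h6]
    exact mul_mem h5 (inv_mem hg)
  · rintro ⟨δ, hδ⟩
    have h1 : ((δ : Γ) * a : Γ) = (δ * a : Γ) := rfl
    have h2 : (((δ : Γ) * a : Γ) : Γ ⧸ Γ₀) = (b : Γ ⧸ Γ₀) := hδ
    have h3 : cosetPlace hΓ₀ w₀ (((δ : Γ) * a : Γ) : Γ ⧸ Γ₀) = cosetPlace hΓ₀ w₀ (b : Γ ⧸ Γ₀) := by
      rw [h2]
    rw [cosetPlace_mk, cosetPlace_mk] at h3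
    rw [← h3]
    have h4 : (ρ ((δ : Γ) * a))⁻¹ = (ρ a)⁻¹ * ρ (δ : Γ)⁻¹ := by
      rw [map_mul, mul_inv_rev, map_inv]
    rw [h4, rs_mul]
    have h5 : ρ (δ : Γ)⁻¹ ∈ decomp (E := E) w₀ := by
      rw [← hΔ]
      exact ⟨_, inv_mem δ.2, rfl⟩
    rw [mem_decomp] at h5
    rw [h5]

/-- The places of `F` above `w₀.restrict E` are the orbits of the decomposition group. -/
def placesEquivOrbits (hρ : Function.Surjective ρ) (w₀ : Place K M) {Δ : Subgroup Γ}
    (hΔ : Δ.map ρ = decomp (E := E) w₀) :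
    MulAction.orbitRel.Quotient Δ (Γ ⧸ Γ₀) ≃
      {w : Place K F // w.restrict E = w₀.restrict E} :=
  Equiv.ofBijective
    (fun q => Quotient.liftOn' q
      (fun x => (⟨cosetPlace hΓ₀ w₀ x, cosetPlace_restrict hΓ₀ w₀ x⟩ :
        {w : Place K F // w.restrict E = w₀.restrict E}))
      (by
        rintro x y ⟨δ, hδ⟩
        exact Subtype.ext ((cosetPlace_eq_iff hΓ₀ hρ w₀ hΔ y x).mpr ⟨δ, hδ⟩).symm))
    (by
      constructor
      · intro a b hab
        induction a using Quotient.inductionOn' with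
        | h x =>
        induction b using Quotient.inductionOn' with
        | h y =>
        have h1 : cosetPlace hΓ₀ w₀ y = cosetPlace hΓ₀ w₀ x := (congrArg Subtype.val hab).symm
        obtain ⟨δ, hδ⟩ := (cosetPlace_eq_iff hΓ₀ hρ w₀ hΔ y x).mp h1
        exact Quotient.sound' ⟨δ, hδ⟩
      · rintro ⟨w, hw⟩
        obtain ⟨q, hq⟩ := cosetPlace_surj hΓ₀ hρ w₀ w hw
        exact ⟨Quotient.mk'' q, Subtype.ext hq⟩)

include hΓ₀ in
theorem card_places_eq (hρ : Function.Surjective ρ) (w₀ : Place K M) {Δ : Subgroup Γ}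
    (hΔ : Δ.map ρ = decomp (E := E) w₀) :
    Nat.card {w : Place K F // w.restrict E = w₀.restrict E} =
      Nat.card (MulAction.orbitRel.Quotient Δ (Γ ⧸ Γ₀)) :=
  (Nat.card_congr (placesEquivOrbits hΓ₀ hρ w₀ hΔ)).symm

end Orbits

end Fermat.Agent.H18
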