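import Fermat.Agent.H18_ModEmb
import Fermat.Agent.H18_Orbits

set_option autoImplicit false

/-!
# The places of the Galois closure attached to points of `ℍ` and to `i∞`

-/

noncomputable section

open UpperHalfPlane hiding I
open ModularForm EisensteinSeries Filter Complex Topology Function CongruenceSubgroup
open scoped MatrixGroups Manifold Real Polynomial

namespace Fermat.Agent.H18

open Fermat.Agent.H02 (tr tr_apply tr_mul tr_add tr_pow tr_tr tr_one IsSlow isSlow_const jN
  jN_smul isSlow_jN tr_jN_of_mem tr_jfun Gamma0_le_of_dvd isSlow_jfun)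
open Fermat.Agent.Igusa (IsExp jf isExp_jf scl lin coe_scl coe_lin twist zr)
open ModularCurve (coeffMap qExpand jqModC coeffEmb jq laurentBaseChange modularFunctionFieldFull
  coeffEmb_mem_laurentBaseChange jqd_mem_full)
open Fermat.Agent.H01 (ordAt)
open AlgebraicCurve IntermediateField

/-! ### Orders on a domain and its fraction field -/

/-- An order function on a domain. -/
structure DomOrd (K B : Type*) [Field K] [CommRing B] [Algebra K B] where
  g : B → ℤ
  mul : ∀ x y, x ≠ 0 → y ≠ 0 → g (x * y) = g x + g y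
  add : ∀ x y, x ≠ 0 → y ≠ 0 → x + y ≠ 0 → min (g x) (g y) ≤ g (x + y)
  const : ∀ a : K, a ≠ 0 → 0 ≤ g (algebraMap K B a)

namespace DomOrd

variable {K B M : Type*} [Field K] [CommRing B] [IsDomain B] [Algebra K B] [Field M] [Algebra B M]
  [IsFractionRing B M] [Algebra K M] [IsScalarTower K B M] (o : DomOrd K B)

variable (M) in
theorem exists_rep (x : M) : ∃ a b : B, b ≠ 0 ∧ x = algebraMap B M a / algebraMap B M b := by
  obtain ⟨a, b, hb, rfl⟩ := IsFractionRing.div_surjective B x
  exact ⟨a, b, nonZeroDivisors.ne_zero hb, rfl⟩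

variable (M) in
/-- the extension to the fraction field -/
def gF (x : M) : ℤ := o.g (exists_rep M x (B := B)).choose -
  o.g (exists_rep M x (B := B)).choose_spec.choose

theorem gF_div {a b : B} (ha : a ≠ 0) (hb : b ≠ 0) :
    o.gF M (algebraMap B M a / algebraMap B M b) = o.g a - o.g b := by
  set x := algebraMap B M a / algebraMap B M b with hx
  set c := (exists_rep M x (B := B)).choose with hc
  set d := (exists_rep M x (B := B)).choose_spec.choose with hd
  obtain ⟨hd0, h⟩ : d ≠ 0 ∧ x = algebraMap B M c / algebraMap B M d :=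
    (exists_rep M x (B := B)).choose_spec.choose_spec
  show o.g c - o.g d = _
  have hinj := IsFractionRing.injective B M
  have hd1 : algebraMap B M d ≠ 0 := (map_ne_zero_iff _ hinj).mpr hd0
  have hb1 : algebraMap B M b ≠ 0 := (map_ne_zero_iff _ hinj).mpr hb
  rw [hx, div_eq_div_iff hb1 hd1, ← map_mul, ← map_mul] at h
  have h2 := hinj h
  have hc0 : c ≠ 0 := by
    intro h0
    rw [h0, zero_mul] at h2
    rcases mul_eq_zero.mp h2 with h3 | h3
    · exact ha h3
    · exact hd0 h3
  have h3 := congrArg o.g h2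
  rw [o.mul _ _ ha hd0, o.mul _ _ hc0 hb] at h3
  omega

theorem g_one : o.g 1 = 0 := by
  have := o.mul 1 1 one_ne_zero one_ne_zero
  rw [mul_one] at this
  omega

theorem gF_algebraMap {a : B} (ha : a ≠ 0) : o.gF M (algebraMap B M a) = o.g a := by
  have := o.gF_div (M := M) ha one_ne_zero
  rwa [map_one, div_one, o.g_one, sub_zero] at this

theorem exists_rep' {x : M} (hx : x ≠ 0) : ∃ a b : B, a ≠ 0 ∧ b ≠ 0 ∧
    x = algebraMap B M a / algebraMap B M b := by
  obtain ⟨a, b, hb, rfl⟩ := exists_rep M x (B := B)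
  refine ⟨a, b, ?_, hb, rfl⟩
  rintro rfl
  apply hx
  simp

variable (M) in
/-- The order function on the fraction field. -/
def toOrdData (hn : ∃ x : M, x ≠ 0 ∧ o.gF M x ≠ 0) : OrdData K M where
  g := o.gF M
  mul x y hx hy := by
    obtain ⟨a, b, ha, hb, rfl⟩ := exists_rep' (B := B) hx
    obtain ⟨c, d, hc, hd, rfl⟩ := exists_rep' (B := B) hy
    rw [div_mul_div_comm, ← map_mul, ← map_mul, o.gF_div (mul_ne_zero ha hc) (mul_ne_zero hb hd),
      o.gF_div ha hb, o.gF_div hc hd, o.mul _ _ ha hc, o.mul _ _ hb hd]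
    ring
  add x y hx hy hxy := by
    obtain ⟨a, b, ha, hb, rfl⟩ := exists_rep' (B := B) hx
    obtain ⟨c, d, hc, hd, rfl⟩ := exists_rep' (B := B) hy
    have hinj := IsFractionRing.injective B M
    have hd1 : algebraMap B M d ≠ 0 := (map_ne_zero_iff _ hinj).mpr hd
    have hb1 : algebraMap B M b ≠ 0 := (map_ne_zero_iff _ hinj).mpr hb
    rw [div_add_div _ _ hb1 hd1, ← map_mul, ← map_mul, ← map_mul, ← map_add] at hxy ⊢
    have hs : a * d + b * c ≠ 0 := by
      intro h0
      apply hxy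
      rw [h0]
      simp
    rw [o.gF_div hs (mul_ne_zero hb hd), o.gF_div ha hb, o.gF_div hc hd]
    have h1 := o.add _ _ (mul_ne_zero ha hd) (mul_ne_zero hb hc) hs
    rw [o.mul _ _ ha hd, o.mul _ _ hb hc] at h1
    rw [o.mul _ _ hb hd]
    omega
  const a ha := by
    rw [IsScalarTower.algebraMap_apply K B M]
    have h0 : algebraMap K B a ≠ 0 := (map_ne_zero_iff _ (algebraMap K B).injective).mpr ha
    rw [o.gF_algebraMap h0]
    exact o.const a ha
  nontriv := hn

end DomOrd

/-! ### Places of `ModField` -/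

variable {K : Type*} [Field K] [Algebra K ℂ] [IsAlgClosed K] {N : ℕ} [NeZero N]

theorem coe_ne_zero {f : funAlg K N} (hf : f ≠ 0) : (f : ℍ → ℂ) ≠ 0 :=
  fun h => hf (Subtype.ext h)

theorem ordAt_tr {f : ℍ → ℂ} (γ : SL(2, ℤ)) (τ : ℍ) :
    ordAt τ (tr γ f) = ordAt (γ • τ) f := by
  have hg : 0 < ((γ : GL (Fin 2) ℝ)).val.det := by
    have : ((γ : GL (Fin 2) ℝ)).val.det = 1 :=
      ((Matrix.SpecialLinearGroup.map (Int.castRingHom ℝ)) γ).det_coe
    rw [this]
    exact one_pos
  have h1 := analyticOrderAt_comp_of_deriv_ne_zero (f := f ∘ ofComplex)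
    (UpperHalfPlane.analyticAt_smul hg τ) (UpperHalfPlane.deriv_smul_ne_zero hg τ)
  have h2 : (f ∘ ofComplex) ∘ (fun z ↦ (((γ : GL (Fin 2) ℝ) • ofComplex z : ℍ) : ℂ)) =
      (tr γ f) ∘ ofComplex := by
    ext z
    simp only [comp_apply, ofComplex_apply]
    rfl
  rw [h2] at h1
  rw [ordAt, ordAt, analyticOrderNatAt, analyticOrderNatAt, h1]
  simp only [ofComplex_apply]
  rfl

variable (K N) in
/-- The order at a point. -/
def ptDomOrd (τ : ℍ) : DomOrd K (funAlg K N) where
  g f := (ordAt τ (f : ℍ → ℂ) : ℤ)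
  mul f g hf hg := by
    have := H01.ordAt_mul (mdiff_of_mem f.2) (mdiff_of_mem g.2) (coe_ne_zero hf)
      (coe_ne_zero hg) τ
    show (ordAt τ ((f : ℍ → ℂ) * g) : ℤ) = _
    rw [this]
    push_cast
    rfl
  add f g hf hg hfg := by
    have := H01.ordAt_add (mdiff_of_mem f.2) (mdiff_of_mem g.2) (coe_ne_zero hf)
      (coe_ne_zero hg) (coe_ne_zero hfg) τ
    show min (ordAt τ (f : ℍ → ℂ) : ℤ) (ordAt τ (g : ℍ → ℂ) : ℤ) ≤
      (ordAt τ ((f : ℍ → ℂ) + g) : ℤ)
    exact_mod_cast this
  const a ha := by positivity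

theorem ptDomOrd_smul (γ : SL(2, ℤ)) (τ : ℍ) (f : funAlg K N) :
    (ptDomOrd K N τ).g (γ • f) = (ptDomOrd K N (γ⁻¹ • τ)).g f := by
  show (ordAt τ (tr γ⁻¹ f) : ℤ) = _
  rw [ordAt_tr]
  rfl

/-- `j - c` -/
def jc (K : Type*) [Field K] [Algebra K ℂ] (N : ℕ) [NeZero N] (c : K) : funAlg K N :=
  jF K N - algebraMap K _ c

theorem coe_jc (c : K) : (jc K N c : ℍ → ℂ) = jfun - fun _ => algebraMap K ℂ c := rfl

theorem jc_ne_zero (c : K) : jc K N c ≠ 0 := fun h =>
  jfun_sub_ne_zero (algebraMap K ℂ c) (congrArg Subtype.val h)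

theorem ordAt_pos_of_zero {f : ℍ → ℂ} (hf : MDiff f) (h0 : f ≠ 0) {τ : ℍ} (h : f τ = 0) :
    0 < ordAt τ f := by
  have h1 := (H01.analyticAt_comp_ofComplex hf τ).analyticOrderAt_ne_zero.mpr (by simpa using h)
  rw [ordAt, analyticOrderNatAt]
  have h2 := H01.analyticOrderAt_ne_top hf h0 τ
  exact Nat.pos_of_ne_zero fun h3 => (ENat.toNat_eq_zero.mp h3).elim h1 h2

theorem ptDomOrd_nontriv {τ : ℍ} {c : K} (hc : jfun τ = algebraMap K ℂ c) :
    ∃ x : ModField K N, x ≠ 0 ∧ (ptDomOrd K N τ).gF (ModField K N) x ≠ 0 := by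
  refine ⟨algebraMap (funAlg K N) (ModField K N) (jc K N c), ?_, ?_⟩
  · exact (map_ne_zero_iff _ (IsFractionRing.injective (funAlg K N) (ModField K N))).mpr
      (jc_ne_zero c)
  · rw [(ptDomOrd K N τ).gF_algebraMap (jc_ne_zero c)]
    have := ordAt_pos_of_zero (mdiff_jfun_sub (algebraMap K ℂ c)) (jfun_sub_ne_zero _) (τ := τ)
      (by simp [hc])
    show (ordAt τ (jc K N c : ℍ → ℂ) : ℤ) ≠ 0
    rw [coe_jc]
    omega

variable (N) in
/-- The order data at a point. -/
def ptOrd {τ : ℍ} {c : K} (hc : jfun τ = algebraMap K ℂ c) : OrdData K (ModField K N) :=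
  (ptDomOrd K N τ).toOrdData (ModField K N) (ptDomOrd_nontriv hc)

theorem ptOrd_g {τ : ℍ} {c : K} (hc : jfun τ = algebraMap K ℂ c) (x : ModField K N) :
    (ptOrd N hc).g x = (ptDomOrd K N τ).gF (ModField K N) x := rfl

/-- The place attached to a point. -/
def ptPlace {τ : ℍ} {c : K} (hc : jfun τ = algebraMap K ℂ c) : Place K (ModField K N) :=
  (ptOrd N hc).toPlace

/-- equality of places -/
theorem place_eq_of_sign {F : Type*} [Field F] [Algebra K F] {v w : Place K F}
    (h : ∀ x : F, x ≠ 0 → (0 ≤ v.ord x ↔ 0 ≤ w.ord x)) : v = w := by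
  apply Place.ext
  ext x
  rcases eq_or_ne x 0 with rfl | hx
  · simp [mem_iff]
  · rw [mem_iff, mem_iff, h x hx]

theorem ord_ptPlace_nonneg_iff {τ : ℍ} {c : K} (hc : jfun τ = algebraMap K ℂ c)
    {x : ModField K N} (hx : x ≠ 0) :
    0 ≤ (ptPlace hc).ord x ↔ 0 ≤ (ptDomOrd K N τ).gF (ModField K N) x := by
  rw [← ptOrd_g hc, (ptOrd N hc).g_eq_idx_mul_ord hx]
  have := (ptOrd N hc).idx_pos
  constructor
  · intro h; positivity
  · intro h
    by_contra hneg
    push Not at hneg
    have h2 := mul_neg_of_pos_of_neg (by exact_mod_cast this : (0 : ℤ) < (ptOrd N hc).idx) hneg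
    exact absurd h (not_le.mpr h2)

theorem gF_rho (γ : SL(2, ℤ)) (τ : ℍ) {x : ModField K N} (hx : x ≠ 0) :
    (ptDomOrd K N τ).gF (ModField K N) (rho K N γ x) =
      (ptDomOrd K N (γ⁻¹ • τ)).gF (ModField K N) x := by
  obtain ⟨a, b, ha, hb, rfl⟩ := DomOrd.exists_rep' (B := funAlg K N) hx
  have ha' : γ • a ≠ 0 := fun h => ha (by simpa using congrArg (fun y => γ⁻¹ • y) h)
  have hb' : γ • b ≠ 0 := fun h => hb (by simpa using congrArg (fun y => γ⁻¹ • y) h)
  rw [map_div₀, rho_algebraMap, rho_algebraMap, DomOrd.gF_div _ ha' hb', DomOrd.gF_div _ ha hb,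
    ptDomOrd_smul, ptDomOrd_smul]

theorem smul_ptPlace (γ : SL(2, ℤ)) {τ : ℍ} {c : K} (hc : jfun τ = algebraMap K ℂ c)
    (hc' : jfun (γ • τ) = algebraMap K ℂ c) :
    (rho K N γ).restrictScalars K • ptPlace (N := N) hc = ptPlace hc' := by
  apply place_eq_of_sign
  intro x hx
  have hx' : (rho K N γ)⁻¹ x ≠ 0 := (map_ne_zero _).mpr hx
  rw [ord_gal', ord_ptPlace_nonneg_iff hc hx', ord_ptPlace_nonneg_iff hc' hx, ← map_inv]
  rw [gF_rho _ _ hx, inv_inv]

theorem rho_mem_decomp {γ : SL(2, ℤ)} {τ : ℍ} {c : K} (hc : jfun τ = algebraMap K ℂ c)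
    (hγ : γ • τ = τ) : rho K N γ ∈ decomp (E := RatFunc K) (ptPlace (N := N) hc) := by
  rw [mem_decomp, smul_ptPlace γ hc (by rw [hγ, hc])]
  simp only [hγ]

/-! ### The place at infinity -/

variable (K N) in
/-- The order at `i∞`, with respect to `q^{1/N}`. -/
def infDomOrd : DomOrd K (funAlg K N) where
  g f := (expK K N f).order
  mul f g hf hg := by
    rw [map_mul, HahnSeries.order_mul]
    · exact (map_ne_zero_iff _ expK_injective).mpr hf
    · exact (map_ne_zero_iff _ expK_injective).mpr hg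
  add f g hf hg hfg := by
    rw [map_add]
    refine HahnSeries.min_order_le_order_add ?_
    rw [← map_add]
    exact (map_ne_zero_iff _ expK_injective).mpr hfg
  const a ha := by
    rw [AlgHom.commutes, ModularCurve.algebraMap_laurentSeries_eq_single,
      HahnSeries.order_single ha]

theorem order_expK_smul_T (f : funAlg K N) :
    (expK K N (ModularGroup.T • f)).order = (expK K N f).order := by
  have h1 := isExp_expK f
  have h2 : IsExp N ((ModularGroup.T • f : funAlg K N) : ℍ → ℂ)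
      (twist (zr N ^ (-1 : ℤ)) (theta K (expK K N f))) := by
    intro τ
    have h3 := h1 (ModularGroup.T⁻¹ • τ)
    have h4 : Function.Periodic.qParam (N : ℝ) ((ModularGroup.T⁻¹ • τ : ℍ) : ℂ) =
        ((zr N ^ (-1 : ℤ) : ℂˣ) : ℂ) * Function.Periodic.qParam (N : ℝ) (τ : ℂ) := by
      have h5 : ((ModularGroup.T⁻¹ • τ : ℍ) : ℂ) = τ + (-1 : ℤ) := by
        rw [← zpow_neg_one, UpperHalfPlane.modular_T_zpow_smul]
        simp [add_comm]
      have h6 : (N : ℂ) ≠ 0 := by exact_mod_cast NeZero.ne N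
      rw [h5, Function.Periodic.qParam, Function.Periodic.qParam, Units.val_zpow_eq_zpow_val, zr,
        Units.val_mk0, ← Complex.exp_int_mul, ← Complex.exp_add]
      congr 1
      push_cast
      ring
    simp only [h4, mul_zpow] at h3
    have h7 : ((ModularGroup.T • f : funAlg K N) : ℍ → ℂ) τ =
        (f : ℍ → ℂ) (ModularGroup.T⁻¹ • τ) := rfl
    have h8 : (fun n : ℤ => (twist (zr N ^ (-1 : ℤ)) (theta K (expK K N f))).coeff n *
        Function.Periodic.qParam (N : ℝ) (τ : ℂ) ^ n) = fun n : ℤ =>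
        (theta K (expK K N f)).coeff n * (((zr N ^ (-1 : ℤ) : ℂˣ) : ℂ) ^ n *
          Function.Periodic.qParam (N : ℝ) (τ : ℂ) ^ n) := by
      funext n
      rw [Igusa.twist_coeff, Units.val_zpow_eq_zpow_val (zr N ^ (-1 : ℤ)) n]
      ring
    rw [h7, h8]
    exact h3
  have h3 := (isExp_expK (ModularGroup.T • f)).unique (NeZero.pos N) h2
  have h4 : ∀ n, (expK K N (ModularGroup.T • f)).coeff n = 0 ↔ (expK K N f).coeff n = 0 := by
    intro n
    have h5 := congrArg (fun F => HahnSeries.coeff F n) h3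
    simp only [Igusa.twist_coeff, ModularCurve.coeffMap_coeff] at h5
    rw [← map_eq_zero (algebraMap K ℂ), h5, mul_eq_zero, map_eq_zero,
      or_iff_left (Units.ne_zero _)]
  rcases eq_or_ne (expK K N f) 0 with h0 | h0
  · have h6 : expK K N (ModularGroup.T • f) = 0 := by
      ext n
      rw [HahnSeries.coeff_zero, h4, h0, HahnSeries.coeff_zero]
    rw [h0, h6]
  · have h6 : expK K N (ModularGroup.T • f) ≠ 0 := by
      intro h7
      apply h0
      ext n
      rw [HahnSeries.coeff_zero, ← h4, h7, HahnSeries.coeff_zero]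
    apply le_antisymm
    · apply HahnSeries.order_le_of_coeff_ne_zero
      rw [Ne, h4]
      exact fun h => (HahnSeries.coeff_order_eq_zero.not.mpr h0) h
    · apply HahnSeries.order_le_of_coeff_ne_zero
      rw [Ne, ← h4]
      exact fun h => (HahnSeries.coeff_order_eq_zero.not.mpr h6) h

theorem order_eq_of {R : Type*} [CommRing R] {F : LaurentSeries R} {m : ℤ}
    (h : F.coeff m ≠ 0) (h' : ∀ k < m, F.coeff k = 0) : F.order = m := by
  apply le_antisymm (HahnSeries.order_le_of_coeff_ne_zero h)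
  by_contra hlt
  push Not at hlt
  have hF : F ≠ 0 := fun h0 => h (by rw [h0, HahnSeries.coeff_zero])
  exact (HahnSeries.coeff_order_eq_zero.not.mpr hF) (h' _ hlt)

theorem order_jqModC {R : Type*} [CommRing R] [Nontrivial R] : (jqModC R).order = -1 := by
  apply order_eq_of
  · rw [ModularCurve.coeff_jqModC_neg_one]
    exact one_ne_zero
  · intro k hk
    have := ModularCurve.coeff_jqModC_pow_of_lt R (b := 1) (m := k) (by simpa using hk)
    rwa [pow_one] at this

theorem jqModC_ne_zero {R : Type*} [CommRing R] [Nontrivial R] : jqModC R ≠ 0 := fun h => by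
  have h0 : (jqModC R).coeff (-1) = 1 := ModularCurve.coeff_jqModC_neg_one R
  rw [h, HahnSeries.coeff_zero] at h0
  exact zero_ne_one h0

theorem order_qExpand {R : Type*} [CommRing R] (n : ℕ) [NeZero n] {F : LaurentSeries R}
    (hF : F ≠ 0) : (qExpand R n F).order = n * F.order := by
  apply order_eq_of
  · rw [ModularCurve.qExpand_coeff_mul]
    exact HahnSeries.coeff_order_eq_zero.not.mpr hF
  · intro k hk
    by_cases hd : (n : ℤ) ∣ k
    · obtain ⟨m, rfl⟩ := hd
      rw [ModularCurve.qExpand_coeff_mul]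
      apply HahnSeries.coeff_eq_zero_of_lt_order
      have hn : (0 : ℤ) < n := by exact_mod_cast NeZero.pos n
      exact lt_of_mul_lt_mul_left hk hn.le
    · exact ModularCurve.qExpand_coeff_of_not_dvd n _ hd

theorem expK_jF : expK K N (jF K N) = qExpand K N (jqModC K) := by
  have h1 := expK_jN (K := K) (N := N) (one_dvd N)
  rw [ModularCurve.qExpand_one_apply] at h1
  rw [← h1]
  congr 1
  exact Subtype.ext jN_one.symm

theorem jF_ne_zero : jF K N ≠ 0 := fun h => by
  have h1 := expK_jF (K := K) (N := N)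
  rw [h, map_zero] at h1
  have h2 := ModularCurve.qExpand_injective N (h1.symm.trans (map_zero _).symm)
  exact jqModC_ne_zero h2

theorem infDomOrd_jF : (infDomOrd K N).g (jF K N) = -N := by
  show (expK K N (jF K N)).order = -N
  rw [expK_jF, order_qExpand N jqModC_ne_zero, order_jqModC]
  ring

variable (K N) in
/-- The order data at `i∞`. -/
def infOrd : OrdData K (ModField K N) :=
  (infDomOrd K N).toOrdData (ModField K N) ⟨jM K N, by
    rw [jM]
    exact (map_ne_zero_iff _ (IsFractionRing.injective (funAlg K N) (ModField K N))).mpr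
      jF_ne_zero, by
    rw [jM, DomOrd.gF_algebraMap _ jF_ne_zero, infDomOrd_jF]
    have := NeZero.pos N
    omega⟩

variable (K N) in
/-- The place at `i∞`. -/
def infPl : Place K (ModField K N) := (infOrd K N).toPlace

theorem g_infOrd_jM : (infOrd K N).g (jM K N) = -N := by
  show (infDomOrd K N).gF (ModField K N) (jM K N) = _
  rw [jM, DomOrd.gF_algebraMap _ jF_ne_zero, infDomOrd_jF]

theorem gF_inf_rho_T {x : ModField K N} (hx : x ≠ 0) :
    (infDomOrd K N).gF (ModField K N) (rho K N ModularGroup.T x) =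
      (infDomOrd K N).gF (ModField K N) x := by
  obtain ⟨a, b, ha, hb, rfl⟩ := DomOrd.exists_rep' (B := funAlg K N) hx
  have ha' : ModularGroup.T • a ≠ 0 := fun h =>
    ha (by simpa using congrArg (fun y => ModularGroup.T⁻¹ • y) h)
  have hb' : ModularGroup.T • b ≠ 0 := fun h =>
    hb (by simpa using congrArg (fun y => ModularGroup.T⁻¹ • y) h)
  rw [map_div₀, rho_algebraMap, rho_algebraMap, DomOrd.gF_div _ ha' hb', DomOrd.gF_div _ ha hb]
  show (expK K N (ModularGroup.T • a)).order - (expK K N (ModularGroup.T • b)).order = _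
  rw [order_expK_smul_T, order_expK_smul_T]
  rfl

theorem ord_toPlace_nonneg_iff {F : Type*} [Field F] [Algebra K F] (o : OrdData K F)
    {x : F} (hx : x ≠ 0) : 0 ≤ o.toPlace.ord x ↔ 0 ≤ o.g x := by
  rw [o.g_eq_idx_mul_ord hx]
  have := o.idx_pos
  constructor
  · intro h; positivity
  · intro h
    by_contra hneg
    push Not at hneg
    have h2 := mul_neg_of_pos_of_neg (by exact_mod_cast this : (0 : ℤ) < o.idx) hneg
    exact absurd h (not_le.mpr h2)

theorem rho_T_mem_decomp :
    rho K N ModularGroup.T ∈ decomp (E := RatFunc K) (infPl K N) := by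
  have h1 : (rho K N ModularGroup.T)⁻¹ ∈ decomp (E := RatFunc K) (infPl K N) → 
      rho K N ModularGroup.T ∈ decomp (E := RatFunc K) (infPl K N) := fun h => by
    simpa using inv_mem h
  apply h1
  rw [mem_decomp]
  apply place_eq_of_sign
  intro x hx
  rw [ord_gal', inv_inv]
  have hx' : (rho K N ModularGroup.T) x ≠ 0 := (map_ne_zero _).mpr hx
  rw [infPl, ord_toPlace_nonneg_iff _ hx, ord_toPlace_nonneg_iff _ hx']
  show 0 ≤ (infDomOrd K N).gF (ModField K N) _ ↔ 0 ≤ (infDomOrd K N).gF (ModField K N) _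
  rw [gF_inf_rho_T hx]

end Fermat.Agent.H18
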