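import Fermat.Agent.H18_Places
import Fermat.Agent.Descent.Canonical
import Fermat.Prelude.Def_AlgebraicCurve_BaseChangeGalois

set_option autoImplicit false

/-!
# Finiteness of the set of divisor classes fixed by a Frobenius automorphism

-/

noncomputable section

open AlgebraicCurve IsDedekindDomain WithZero IsLocalRing

namespace Fermat.Agent.H18

namespace FixedClasses

variable {K F : Type*} [Field K] [Field F] [Algebra K F]

theorem degree_principal [HasPrincipalDivisors K F] {D : Divisor K F}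
    (hD : D ∈ Divisor.principal (K := K) (F := F)) : Divisor.degree D = 0 := by
  obtain ⟨f, hf, hD⟩ := hD
  obtain ⟨D', h1, h2⟩ := HasPrincipalDivisors.exists_divisor (K := K) f hf
  have : D = D' := Finsupp.ext fun v => by rw [hD v, h1 v]
  rw [this, h2]

theorem degree_nonneg {D : Divisor K F} (hD : 0 ≤ D) : 0 ≤ Divisor.degree D := by
  rw [Divisor.degree, Finsupp.liftAddHom_apply]
  exact Finset.sum_nonneg fun v _ => mul_nonneg (hD v) (by positivity)

/-- Uniqueness of the effective divisor in a minimal class. -/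
theorem eq_of_minimal [IsAlgClosed K] [HasPrincipalDivisors K F] {E E' : Divisor K F} (hE : 0 ≤ E)
    (hE' : 0 ≤ E') (h : E - E' ∈ Divisor.principal (K := K) (F := F)) (P₀ : Place K F)
    (hP₀ : P₀.deg = 1)
    (hmin : ∀ E'' : Divisor K F, 0 ≤ E'' →
      E'' + Finsupp.single P₀ 1 - E ∉ Divisor.principal (K := K) (F := F)) : E = E' := by
  classical
  have sub_nonneg' : ∀ D : Divisor K F, 0 ≤ D → 1 ≤ D P₀ → 0 ≤ D - Finsupp.single P₀ 1 := by
    intro D hD h1 v
    rw [Finsupp.sub_apply, Finsupp.zero_apply]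
    by_cases hv : v = P₀
    · subst hv; simpa using h1
    · rw [Finsupp.single_eq_of_ne hv, sub_zero]; exact hD v
  have h0 : E P₀ = 0 := by
    by_contra hne
    have h1 : 1 ≤ E P₀ := by have := hE P₀; rw [Finsupp.zero_apply] at this; omega
    refine hmin (E - Finsupp.single P₀ 1) (sub_nonneg' E hE h1) ?_
    rw [sub_add_cancel, sub_self]
    exact zero_mem _
  have h0' : E' P₀ = 0 := by
    by_contra hne
    have h1 : 1 ≤ E' P₀ := by have := hE' P₀; rw [Finsupp.zero_apply] at this; omega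
    refine hmin (E' - Finsupp.single P₀ 1) (sub_nonneg' E' hE' h1) ?_
    rw [sub_add_cancel, ← neg_sub]
    exact neg_mem h
  obtain ⟨f, hf, hfD⟩ := h
  have hf0 : P₀.ord f = 0 := by rw [← hfD P₀, Finsupp.sub_apply, h0, h0', sub_zero]
  obtain ⟨a, ha⟩ := H26.exists_ord_sub_pos P₀ hP₀ hf0.ge
  by_cases hfa : f - algebraMap K F a = 0
  · refine Finsupp.ext fun v => ?_
    have h1 := hfD v
    rw [sub_eq_zero.mp hfa, ord_algebraMap, Finsupp.sub_apply] at h1
    omega
  have ha := ha.resolve_left hfa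
  exfalso
  obtain ⟨D', h1, -⟩ := HasPrincipalDivisors.exists_divisor (K := K) (f - algebraMap K F a) hfa
  refine hmin (D' + E' - Finsupp.single P₀ 1) (fun v => ?_) ?_
  · rw [Finsupp.zero_apply, Finsupp.sub_apply, Finsupp.add_apply, h1 v]
    by_cases hv : v = P₀
    · subst hv
      rw [Finsupp.single_eq_same, h0']
      omega
    · rw [Finsupp.single_eq_of_ne hv, sub_zero]
      have h2 : 0 ≤ E v := hE v
      have h3 : 0 ≤ E' v := hE' v
      have h4 := hfD v
      rw [Finsupp.sub_apply] at h4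
      have h5 : - E' v ≤ v.ord (f - algebraMap K F a) := by
        rw [sub_eq_add_neg] at hfa ⊢
        refine le_ord_add v hfa (Or.inr (by omega)) ?_
        by_cases ha0 : a = 0
        · left; rw [ha0, map_zero, neg_zero]
        · right; rw [ord_neg, ord_algebraMap]; omega
      omega
  · rw [sub_add_cancel, add_sub_assoc, ← neg_sub E E', ← sub_eq_add_neg]
    exact sub_mem ⟨_, hfa, h1⟩ ⟨f, hf, hfD⟩

/-- The places fixed by a power of a Frobenius are finite in number. -/
theorem finite_fixed_places [HasPrincipalDivisors K F]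
    (hdeg : ∀ v : Place K F, v.deg = 1) (σ : SemilinearAut K F) (x : F)
    (hx : Transcendental K x) (hσx : σ • x = x)
    (hK : {a : K | SemilinearAut.baseAut σ a = a}.Finite) :
    {v : Place K F | σ • v = v}.Finite := by
  classical
  have hne : ∀ a : K, x - algebraMap K F a ≠ 0 := fun a h => hx (by
    rw [sub_eq_zero.mp h]
    exact isAlgebraic_algebraMap a)
  have hx0 : x ≠ 0 := by simpa using hne 0
  choose D hD hD' using fun f : {f : F // f ≠ 0} =>
    HasPrincipalDivisors.exists_divisor (K := K) f.1 f.2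
  refine ((D ⟨x, hx0⟩).support.finite_toSet.union
    (hK.biUnion fun a _ => (D ⟨_, hne a⟩).support.finite_toSet)).subset ?_
  intro v hv
  rw [Set.mem_ofPred_eq] at hv
  by_cases h : v.ord x < 0
  · left
    rw [Finset.mem_coe, Finsupp.mem_support_iff, hD]
    exact h.ne
  · right
    obtain ⟨a, ha⟩ := H26.exists_ord_sub_pos v (hdeg v) (not_lt.mp h)
    have ha := ha.resolve_left (hne a)
    have h1 := SemilinearAut.ord_smul σ v (x - algebraMap K F a)
    rw [hv, smul_sub, hσx, SemilinearAut.smul_algebraMap] at h1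
    have h2 : SemilinearAut.baseAut σ a = a := by
      by_contra hc
      have h3 : algebraMap K F (SemilinearAut.baseAut σ a - a) ≠ 0 := by
        rw [_root_.map_ne_zero, sub_ne_zero]
        exact hc
      have h4 : (x - algebraMap K F a) + (-(x - algebraMap K F (SemilinearAut.baseAut σ a))) =
          algebraMap K F (SemilinearAut.baseAut σ a - a) := by
        rw [map_sub]; ring
      have h5 := le_ord_add v (n := 1) (f := x - algebraMap K F a)
        (g := -(x - algebraMap K F (SemilinearAut.baseAut σ a))) (by rw [h4]; exact h3)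
        (Or.inr (by omega)) (Or.inr (by rw [ord_neg]; omega))
      rw [h4, ord_algebraMap] at h5
      omega
    refine Set.mem_biUnion (x := a) h2 ?_
    rw [Finset.mem_coe, Finsupp.mem_support_iff, hD]
    exact ha.ne'

theorem smul_pow_fix {σ : SemilinearAut K F} {v : Place K F} {n m : ℕ} (h : σ ^ n • v = v)
    (hnm : n ∣ m) : σ ^ m • v = v := by
  obtain ⟨k, rfl⟩ := hnm
  induction k with
  | zero => simp
  | succ k ih => rw [Nat.mul_succ, pow_add, mul_smul, h, ih]

theorem card_support_le (hdeg : ∀ v : Place K F, v.deg = 1) {E : Divisor K F} (hE : 0 ≤ E) :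
    (E.support.card : ℤ) ≤ Divisor.degree E ∧ ∀ v, E v ≤ Divisor.degree E := by
  have h0 : Divisor.degree E = ∑ v ∈ E.support, E v := by
    rw [Divisor.degree, Finsupp.liftAddHom_apply]
    exact Finset.sum_congr rfl fun v _ => by
      show E v * (v.deg : ℤ) = E v
      rw [hdeg v]; simp
  refine ⟨?_, fun v => ?_⟩
  · rw [h0, Finset.card_eq_sum_ones, Nat.cast_sum]
    refine Finset.sum_le_sum fun v hv => ?_
    have h1 := hE v
    rw [Finsupp.mem_support_iff] at hv
    rw [Finsupp.zero_apply] at h1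
    push_cast
    omega
  · by_cases hv : v ∈ E.support
    · rw [h0]
      exact Finset.single_le_sum (f := fun v => E v) (fun v _ => hE v) hv
    · rw [Finsupp.notMem_support_iff.mp hv]
      exact degree_nonneg hE

theorem finite_fixed_effective (hdeg : ∀ v : Place K F, v.deg = 1) (σ : SemilinearAut K F)
    (g : ℕ) (hpl : ∀ n : ℕ, 0 < n → {v : Place K F | σ ^ n • v = v}.Finite) :
    {E : Divisor K F | 0 ≤ E ∧ Divisor.degree E ≤ g ∧ σ • E = E}.Finite := by
  classical
  set T := (hpl (g.factorial) g.factorial_pos).toFinset with hT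
  have hsupp : ∀ E : Divisor K F, 0 ≤ E → Divisor.degree E ≤ g → σ • E = E → E.support ⊆ T := by
    intro E hE hdE hσ v hv
    rw [hT, Set.Finite.mem_toFinset, Set.mem_ofPred_eq]
    have hmem : ∀ i : ℕ, σ ^ i • v ∈ E.support := by
      intro i
      induction i with
      | zero => simpa using hv
      | succ i ih =>
        rw [pow_succ', mul_smul, Finsupp.mem_support_iff]
        have := SemilinearAut.divisor_smul_apply_smul σ E (σ ^ i • v)
        rw [hσ] at this
        rw [this]
        exact Finsupp.mem_support_iff.mp ih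
    have hcard : E.support.card ≤ g := by
      have := (card_support_le hdeg hE).1
      omega
    obtain ⟨i, hi, j, hj, hij, heq⟩ := Finset.exists_ne_map_eq_of_card_lt_of_maps_to
      (s := Finset.range (g + 1)) (t := E.support) (by rw [Finset.card_range]; omega)
      (f := fun i => σ ^ i • v) (fun i _ => hmem i)
    rw [Finset.mem_range] at hi hj
    have key : ∀ i j : ℕ, i < g + 1 → j < g + 1 → i < j → σ ^ i • v = σ ^ j • v →
        σ ^ g.factorial • v = v := by
      intro i j hi hj hlt heq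
      obtain ⟨k, rfl⟩ := Nat.exists_eq_add_of_lt hlt
      have h1 : σ ^ (k + 1) • v = v := by
        have : σ ^ i • (σ ^ (k + 1) • v) = σ ^ i • v := by
          rw [← mul_smul, ← pow_add, heq, add_assoc]
        exact MulAction.injective (σ ^ i) this
      exact smul_pow_fix h1 (Nat.dvd_factorial (by omega) (by omega))
    rcases lt_or_gt_of_ne hij with h | h
    · exact key i j hi hj h heq
    · exact key j i hj hi h heq.symm
  have hfin : (Set.Icc (0 : Divisor K F) (∑ v ∈ T, Finsupp.single v (g : ℤ))).Finite :=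
    Set.finite_Icc _ _
  refine hfin.subset ?_
  rintro E ⟨hE, hdE, hσ⟩
  refine ⟨hE, fun v => ?_⟩
  rw [Finsupp.finsetSum_apply]
  by_cases hv : v ∈ T
  · rw [Finset.sum_eq_single v (fun w _ hw => Finsupp.single_eq_of_ne hw.symm)
      (fun h => absurd hv h), Finsupp.single_eq_same]
    exact ((card_support_le hdeg hE).2 v).trans hdE
  · have h1 : E v = 0 := by
      by_contra h
      exact hv (hsupp E hE hdE hσ (Finsupp.mem_support_iff.mpr h))
    rw [h1]
    refine Finset.sum_nonneg fun w _ => ?_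
    have : (0 : Divisor K F) ≤ Finsupp.single w (g : ℤ) := Finsupp.single_nonneg.mpr (by positivity)
    exact this v

/-- The class `c` is the class of `E - d P₀` with `E` effective. -/
def EffAt (P₀ : Place K F) (c : Pic0 K F) (d : ℕ) (E : Divisor K F) : Prop :=
  0 ≤ E ∧ ∃ h : E - Finsupp.single P₀ (d : ℤ) ∈ Divisor.degZero (K := K) (F := F),
    c = Pic0.mk ⟨_, h⟩

theorem mk_eq_mk_iff {D D' : Divisor.degZero (K := K) (F := F)} :
    Pic0.mk D = Pic0.mk D' ↔
      (D : Divisor K F) - (D' : Divisor K F) ∈ Divisor.principal (K := K) (F := F) := by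
  rw [Pic0.mk, Pic0.mk, ← sub_eq_zero, ← QuotientAddGroup.mk_sub, QuotientAddGroup.eq_zero_iff,
    AddSubgroup.mem_addSubgroupOf]
  rfl

theorem EffAt.degree {P₀ : Place K F} (hP₀ : P₀.deg = 1) {c : Pic0 K F} {d : ℕ}
    {E : Divisor K F} (h : EffAt P₀ c d E) : Divisor.degree E = d := by
  obtain ⟨-, h1, -⟩ := h
  rw [Divisor.mem_degZero, map_sub, Divisor.degree_single, hP₀] at h1
  push_cast at h1
  linarith

theorem exists_minimal [IsAlgClosed K] [HasPrincipalDivisors K F] {P₀ : Place K F}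
    (hP₀ : P₀.deg = 1) {c : Pic0 K F} {g : ℕ} {E₀ : Divisor K F} (h₀ : EffAt P₀ c g E₀) :
    ∃ (d : ℕ) (E : Divisor K F), d ≤ g ∧ EffAt P₀ c d E ∧ ∀ E', EffAt P₀ c d E' → E' = E := by
  classical
  have hex : ∃ d : ℕ, ∃ E, EffAt P₀ c d E := ⟨g, E₀, h₀⟩
  obtain ⟨E, hE⟩ := Nat.find_spec hex
  have hle : Nat.find hex ≤ g := Nat.find_min' hex ⟨E₀, h₀⟩
  refine ⟨Nat.find hex, E, hle, hE, fun E' hE' => ?_⟩
  have hprin : E' - E ∈ Divisor.principal (K := K) (F := F) := by
    obtain ⟨-, h1, h2⟩ := hE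
    obtain ⟨-, h1', h2'⟩ := hE'
    have h3 := mk_eq_mk_iff.mp (h2'.symm.trans h2)
    simpa using h3
  refine eq_of_minimal hE'.1 hE.1 hprin P₀ hP₀ fun E'' hE'' hp => ?_
  have hdeg := degree_principal hp
  rw [map_sub, map_add, Divisor.degree_single, hP₀, hE'.degree hP₀] at hdeg
  have h0 := degree_nonneg hE''
  have hpos : 0 < Nat.find hex := by push_cast at hdeg; omega
  refine Nat.find_min hex (Nat.sub_one_lt_of_lt hpos) ⟨E'', hE'', ?_⟩
  have hz : E'' - Finsupp.single P₀ ((Nat.find hex - 1 : ℕ) : ℤ) ∈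
      Divisor.degZero (K := K) (F := F) := by
    rw [Divisor.mem_degZero, map_sub, Divisor.degree_single, hP₀]
    push_cast [Nat.cast_sub (Nat.succ_le_of_lt hpos)] at hdeg ⊢
    linarith
  refine ⟨hz, ?_⟩
  obtain ⟨-, h1', h2'⟩ := hE'
  refine h2'.trans (mk_eq_mk_iff.mpr ?_)
  have : (E' - Finsupp.single P₀ ((Nat.find hex : ℕ) : ℤ)) -
      (E'' - Finsupp.single P₀ ((Nat.find hex - 1 : ℕ) : ℤ)) =
      -(E'' + Finsupp.single P₀ 1 - E') := by
    have h3 : Finsupp.single P₀ ((Nat.find hex : ℕ) : ℤ) =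
        Finsupp.single P₀ ((Nat.find hex - 1 : ℕ) : ℤ) + Finsupp.single P₀ 1 := by
      rw [← Finsupp.single_add]
      congr 1
      push_cast [Nat.cast_sub (Nat.succ_le_of_lt hpos)]
      ring
    rw [h3]
    abel
  exact this ▸ neg_mem hp

theorem EffAt.smul {P₀ : Place K F} {c : Pic0 K F} {d : ℕ} {E : Divisor K F}
    (h : EffAt P₀ c d E) {σ : SemilinearAut K F} (hσ : σ • P₀ = P₀) (hc : σ • c = c) :
    EffAt P₀ c d (σ • E) := by
  obtain ⟨h0, h1, h2⟩ := h
  have h3 : σ • (E - Finsupp.single P₀ (d : ℤ)) = σ • E - Finsupp.single P₀ (d : ℤ) := by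
    rw [smul_sub, SemilinearAut.smul_single, hσ]
  refine ⟨fun v => ?_, h3 ▸ SemilinearAut.smul_mem_degZero σ h1, ?_⟩
  · rw [SemilinearAut.divisor_smul_apply]
    exact h0 _
  · rw [← hc, h2, SemilinearAut.pic0_smul_mk]
    congr 1
    exact Subtype.ext h3

/-- **Finiteness of the set of divisor classes fixed by a Frobenius.** -/
theorem finite_fixed_classes [IsAlgClosed K] [HasPrincipalDivisors K F]
    (hdeg : ∀ v : Place K F, v.deg = 1) (σ : SemilinearAut K F)
    {P₀ : Place K F} (hP₀ : σ • P₀ = P₀) {x : F} (hx : Transcendental K x) (hσx : σ • x = x)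
    (hK : ∀ n : ℕ, 0 < n → {a : K | SemilinearAut.baseAut (σ ^ n) a = a}.Finite) (g : ℕ)
    {S : Set (Pic0 K F)} (hS : ∀ c ∈ S, σ • c = c) (heff : ∀ c ∈ S, ∃ E, EffAt P₀ c g E) :
    S.Finite := by
  classical
  have hσn : ∀ n : ℕ, σ ^ n • x = x := by
    intro n
    induction n with
    | zero => rw [pow_zero, one_smul]
    | succ n ih => rw [pow_succ, mul_smul, hσx, ih]
  have hpl : ∀ n : ℕ, 0 < n → {v : Place K F | σ ^ n • v = v}.Finite := fun n hn =>
    finite_fixed_places hdeg (σ ^ n) x hx (hσn n) (hK n hn)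
  have hfin := finite_fixed_effective hdeg σ g hpl
  choose! E₀ hE₀ using heff
  have hmin : ∀ c ∈ S, ∃ p : ℕ × Divisor K F, p.1 ≤ g ∧ EffAt P₀ c p.1 p.2 ∧
      ∀ E', EffAt P₀ c p.1 E' → E' = p.2 := fun c hc => by
    obtain ⟨d, E, h1, h2, h3⟩ := exists_minimal (hdeg P₀) (hE₀ c hc)
    exact ⟨(d, E), h1, h2, h3⟩
  choose! p hp1 hp2 hp3 using hmin
  refine Set.Finite.of_finite_image (f := p) (((Set.finite_Iic g).prod hfin).subset ?_) ?_
  · rintro _ ⟨c, hc, rfl⟩
    refine ⟨hp1 c hc, (hp2 c hc).1, ?_, ?_⟩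
    · rw [(hp2 c hc).degree (hdeg P₀)]
      exact_mod_cast hp1 c hc
    · exact hp3 c hc _ ((hp2 c hc).smul hP₀ (hS c hc))
  · intro c hc c' hc' h
    obtain ⟨-, h1, h2⟩ := hp2 c hc
    obtain ⟨-, h1', h2'⟩ := hp2 c' hc'
    rw [h2, h2', mk_eq_mk_iff]
    simp only [h, sub_self]
    exact zero_mem _

end FixedClasses

end Fermat.Agent.H18
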