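import Mathlib
import Fermat.Prelude.Def_AlgebraicCurve_CanonicalDivisor
import Fermat.Agent.H18_FunField

set_option autoImplicit false
set_option linter.unusedSectionVars false
set_option linter.style.haveILetI false
set_option linter.unusedVariables false

noncomputable section

open AlgebraicCurve IsDedekindDomain WithZero IsLocalRing Polynomial IntermediateField
  KaehlerDifferential
open scoped TensorProduct

namespace Fermat.Agent.H18

section Kaehler

variable {K F : Type*} [Field K] [Field F] [Algebra K F]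

/-- For a separating element `t`, the module of differentials is free on `dt`. -/
theorem exists_kaehlerEquiv (t : F) (ht : Transcendental K t) [FiniteDimensional K⟮t⟯ F]
    [Algebra.IsSeparable K⟮t⟯ F] :
    ∃ e : Ω[F⁄K] ≃ₗ[F] F, e (KaehlerDifferential.D K F t) = 1 := by
  letI := ratFuncAlgebra t ht
  haveI := ratFuncAlgebra_tower t ht
  haveI := ratFuncAlgebra_finite t ht
  haveI := ratFuncAlgebra_separable t ht
  have hX := ratFuncAlgebra_X t ht
  letI : Algebra K[X] F := ((algebraMap (RatFunc K) F).comp (algebraMap K[X] (RatFunc K))).toAlgebra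
  haveI : IsScalarTower K[X] (RatFunc K) F := IsScalarTower.of_algebraMap_eq fun _ => rfl
  haveI : IsScalarTower K K[X] F := IsScalarTower.of_algebraMap_eq fun a => by
    rw [IsScalarTower.algebraMap_apply K (RatFunc K) F]
    rfl
  haveI : Algebra.FormallyEtale K[X] (RatFunc K) :=
    Algebra.FormallyEtale.of_isLocalization (nonZeroDivisors K[X])
  haveI : Algebra.FormallyEtale (RatFunc K) F := Algebra.FormallyEtale.of_isSeparable _ _
  haveI : Algebra.FormallyEtale K[X] F := Algebra.FormallyEtale.comp K[X] (RatFunc K) F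
  let e1 := (KaehlerDifferential.tensorKaehlerEquivOfFormallyEtale K K[X] F)
  let e2 : F ⊗[K[X]] Ω[K[X]⁄K] ≃ₗ[F] F ⊗[K[X]] K[X] :=
    (KaehlerDifferential.polynomialEquiv K).baseChange K[X] F _ _
  let e3 : F ⊗[K[X]] K[X] ≃ₗ[F] F := TensorProduct.AlgebraTensorModule.rid K[X] F F
  refine ⟨(e1.symm.trans e2).trans e3, ?_⟩
  have h1 : e1.symm (KaehlerDifferential.D K F t) = 1 ⊗ₜ KaehlerDifferential.D K K[X] Polynomial.X := by
    have h0 : t = algebraMap K[X] F Polynomial.X := by
      show t = algebraMap (RatFunc K) F (algebraMap K[X] (RatFunc K) Polynomial.X)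
      rw [RatFunc.algebraMap_X, hX]
    conv_lhs => rw [h0]
    exact KaehlerDifferential.tensorKaehlerEquivOfFormallyEtale_symm_D_algebraMap K K[X] F _
  show e3 (e2 (e1.symm _)) = 1
  rw [h1]
  show e3 ((1 : F) ⊗ₜ (KaehlerDifferential.polynomialEquiv K) (KaehlerDifferential.D K K[X] Polynomial.X)) = 1
  rw [KaehlerDifferential.polynomialEquiv_D, Polynomial.derivative_X]
  show (1 : K[X]) • (1 : F) = 1
  rw [one_smul]

end Kaehler

section Bounded

variable {K F : Type*} [Field K] [Field F] [Algebra K F]

theorem exists_mul_pow_mem (w : Place K F) {π : F} (hπ : w.ord π = 1) (hπ0 : π ≠ 0) (y : F) :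
    ∃ k : ℕ, ∀ k', k ≤ k' → y * π ^ k' ∈ w.toValuationSubring := by
  refine ⟨(w.ord y).natAbs, fun k' hk => ?_⟩
  rcases eq_or_ne y 0 with rfl | hy
  · rw [zero_mul]; exact zero_mem _
  · apply mem_of_ord_nonneg
    rw [w.ord_mul hy (pow_ne_zero _ hπ0), ord_pow, hπ]
    omega

/-- A derivation has bounded denominators on the valuation ring of a place. -/
theorem derivation_bounded (δ : Derivation K F F) (w : Place K F) (x : F)
    (hx : Transcendental K x) [FiniteDimensional K⟮x⟯ F] [Algebra.IsSeparable K⟮x⟯ F]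
    (hx0 : 0 ≤ w.ord x) {π : F} (hπ : w.ord π = 1) (hπ0 : π ≠ 0) :
    ∃ k : ℕ, ∀ f ∈ w.toValuationSubring, δ f * π ^ k ∈ w.toValuationSubring := by
  classical
  letI := ratFuncAlgebra x hx
  haveI := ratFuncAlgebra_tower x hx
  haveI := ratFuncAlgebra_finite x hx
  haveI := ratFuncAlgebra_separable x hx
  have hX := ratFuncAlgebra_X x hx
  letI : Algebra K[X] F := ((algebraMap (RatFunc K) F).comp (algebraMap K[X] (RatFunc K))).toAlgebra
  haveI : IsScalarTower K[X] (RatFunc K) F := IsScalarTower.of_algebraMap_eq fun _ => rfl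
  haveI : IsScalarTower K K[X] F := IsScalarTower.of_algebraMap_eq fun a => by
    rw [IsScalarTower.algebraMap_apply K (RatFunc K) F]
    rfl
  have hpx : ∀ p : K[X], algebraMap K[X] F p = aeval x p := by
    intro p
    have h0 : x = algebraMap K[X] F Polynomial.X := by
      show x = algebraMap (RatFunc K) F (algebraMap K[X] (RatFunc K) Polynomial.X)
      rw [RatFunc.algebraMap_X, hX]
    conv_rhs => rw [h0]
    rw [Polynomial.aeval_algebraMap_apply, Polynomial.aeval_X_left_apply]
  have hxm : x ∈ w.toValuationSubring := mem_of_ord_nonneg w hx0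
  have hpm : ∀ p : K[X], aeval x p ∈ w.toValuationSubring := by
    intro p
    rw [Polynomial.aeval_eq_sum_range]
    refine sum_mem fun i _ => ?_
    rw [Algebra.smul_def]
    exact mul_mem (w.algebraMap_mem' _) (pow_mem hxm _)
  let R := integralClosure K[X] F
  haveI : IsDedekindDomain R := integralClosure.isDedekindDomain K[X] (RatFunc K) F
  haveI : IsFractionRing R F := integralClosure.isFractionRing_of_finite_extension (RatFunc K) F
  haveI : Module.Finite K[X] R := IsIntegralClosure.finite K[X] (RatFunc K) F R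
  have hmem : ∀ r : R, algebraMap R F r ∈ w.toValuationSubring := by
    rintro ⟨r, hr⟩
    show r ∈ w.toValuationSubring
    letI : Algebra K[X] w.toValuationSubring :=
      (((algebraMap K[X] F).codRestrict w.toValuationSubring.toSubring
        (fun p => by rw [hpx]; exact hpm p))).toAlgebra
    haveI : IsScalarTower K[X] w.toValuationSubring F :=
      IsScalarTower.of_algebraMap_eq fun a => rfl
    have h1 : IsIntegral K[X] r := hr
    have h2 : IsIntegral w.toValuationSubring r := h1.tower_top
    obtain ⟨y, hy⟩ := IsIntegrallyClosed.isIntegral_iff.mp h2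
    exact hy ▸ y.2
  -- bound on generators
  obtain ⟨S, hS⟩ := (inferInstance : Module.Finite K[X] R).fg_top
  have hbd : ∃ k : ℕ, δ x * π ^ k ∈ w.toValuationSubring ∧
      ∀ b ∈ S, δ (algebraMap R F b) * π ^ k ∈ w.toValuationSubring := by
    obtain ⟨k₀, hk₀⟩ := exists_mul_pow_mem w hπ hπ0 (δ x)
    choose kf hkf using fun b : R => exists_mul_pow_mem w hπ hπ0 (δ (algebraMap R F b))
    refine ⟨k₀ + ∑ b ∈ S, kf b, hk₀ _ (by omega), fun b hb => hkf b _ ?_⟩
    have := Finset.single_le_sum (f := kf) (fun _ _ => Nat.zero_le _) hb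
    omega
  obtain ⟨k, hkx, hkS⟩ := hbd
  -- derivative of polynomials in x
  have hder : ∀ p : K[X], δ (aeval x p) = aeval x (derivative p) * δ x := by
    intro p
    have := δ.map_aeval p x
    rw [this, smul_eq_mul]
  have hR : ∀ r : R, δ (algebraMap R F r) * π ^ k ∈ w.toValuationSubring := by
    intro r
    have hr : r ∈ Submodule.span K[X] (S : Set R) := by rw [hS]; exact Submodule.mem_top
    induction hr using Submodule.span_induction with
    | mem b hb => exact hkS b hb
    | zero =>
      rw [map_zero, map_zero, zero_mul]; exact zero_mem _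
    | add a b _ _ ha hb =>
      rw [map_add, map_add, add_mul]; exact add_mem ha hb
    | smul p b _ hb =>
      rw [Algebra.smul_def, map_mul, ← IsScalarTower.algebraMap_apply, hpx, Derivation.leibniz,
        smul_eq_mul, smul_eq_mul, hder]
      have e : (aeval x p * δ (algebraMap R F b) +
          algebraMap R F b * (aeval x (derivative p) * δ x)) * π ^ k =
          aeval x p * (δ (algebraMap R F b) * π ^ k) +
            algebraMap R F b * (aeval x (derivative p) * (δ x * π ^ k)) := by ring
      rw [e]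
      exact add_mem (mul_mem (hpm p) hb) (mul_mem (hmem b) (mul_mem (hpm _) hkx))
  refine ⟨k, fun f hf => ?_⟩
  have hwP : placeOfPrime K F (center w hmem) = w := placeOfPrime_center w hmem
  have hle : (center w hmem).valuation F f ≤ 1 := by
    rw [← mem_placeOfPrime K F (center w hmem) f, hwP]
    exact hf
  obtain ⟨n, d, hnd⟩ := (center w hmem).exists_primeCompl_mul_eq_of_integer f hle
  have hd0 : (d : R) ≠ 0 := by
    intro h0
    apply d.2
    rw [h0]
    exact Ideal.zero_mem _
  have hdF : algebraMap R F d ≠ 0 := by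
    intro h0
    apply hd0
    exact (IsFractionRing.injective R F) (by rw [h0, map_zero])
  have hdu : w.ord (algebraMap R F d) = 0 := by
    have h1 := ord_nonneg_of_mem w (hmem d)
    have h2 : ¬ 0 < w.ord (algebraMap R F d) := by
      rw [← mem_centerIdeal w hmem hd0]
      exact d.2
    omega
  have hdinv : (algebraMap R F d)⁻¹ ∈ w.toValuationSubring := by
    apply mem_of_ord_nonneg
    rw [w.ord_inv, hdu]
    simp
  -- δ f = (δ n - f δ d) / d
  have h3 : δ f * π ^ k = (algebraMap R F d)⁻¹ *
      (δ (algebraMap R F n) * π ^ k - f * (δ (algebraMap R F d) * π ^ k)) := by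
    have h4 := congrArg δ hnd
    rw [Derivation.leibniz, smul_eq_mul, smul_eq_mul] at h4
    field_simp
    rw [← h4]
    ring
  rw [h3]
  exact mul_mem hdinv (sub_mem (hR n) (mul_mem hf (hR d)))

/-- The derivation `d/dπ` preserves the valuation ring. -/
theorem derivation_mem [IsAlgClosed K] (δ : Derivation K F F) (w : Place K F)
    [Module.Finite K w.ResidueField] {π : F} (hπ : w.ord π = 1) (hπ0 : π ≠ 0) (hδ : δ π = 1)
    (hbd : ∃ k : ℕ, ∀ f ∈ w.toValuationSubring, δ f * π ^ k ∈ w.toValuationSubring)
    (f : F) (hf : f ∈ w.toValuationSubring) : δ f ∈ w.toValuationSubring := by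
  classical
  have hk := Nat.find_spec hbd
  set k := Nat.find hbd with hkdef
  rcases Nat.eq_zero_or_pos k with h0 | hpos
  · have := hk f hf
    rwa [h0, pow_zero, mul_one] at this
  · exfalso
    have hmin := Nat.find_min hbd (m := k - 1) (by omega)
    apply hmin
    intro g hg
    -- residue of g
    have hsurj : Function.Surjective (algebraMap K w.ResidueField) :=
      IsAlgClosed.algebraMap_bijective_of_isIntegral.2
    obtain ⟨c, hc⟩ := hsurj (IsLocalRing.residue w.toValuationSubring ⟨g, hg⟩)
    have hmem : (⟨g, hg⟩ - algebraMap K w.toValuationSubring c : w.toValuationSubring) ∈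
        maximalIdeal w.toValuationSubring := by
      rw [← IsLocalRing.residue_eq_zero_iff, map_sub, ← hc, sub_eq_zero]
      rfl
    have hg' : ∃ h ∈ w.toValuationSubring, g = algebraMap K F c + π * h := by
      refine ⟨(g - algebraMap K F c) / π, ?_, by field_simp; ring⟩
      by_cases hz : g - algebraMap K F c = 0
      · rw [hz, zero_div]; exact zero_mem _
      · apply mem_of_ord_nonneg
        have h1 : 0 < w.ord (g - algebraMap K F c) := by
          rw [← mem_maximalIdeal_iff w (sub_mem hg (w.algebraMap_mem' c)) hz]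
          exact hmem
        rw [div_eq_mul_inv, w.ord_mul hz (inv_ne_zero hπ0), w.ord_inv, hπ]
        omega
    obtain ⟨h, hh, rfl⟩ := hg'
    have e1 : δ (algebraMap K F c + π * h) * π ^ (k - 1) = h * π ^ (k - 1) + δ h * π ^ k := by
      rw [map_add, Derivation.map_algebraMap, zero_add, Derivation.leibniz, smul_eq_mul,
        smul_eq_mul, hδ]
      have : π ^ k = π ^ (k - 1) * π := by
        rw [← pow_succ]; congr 1; omega
      rw [this]
      ring
    rw [e1]
    exact add_mem (mul_mem hh (pow_mem (mem_of_ord_nonneg w (by omega)) _)) (hk h hh)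

/-- order of the derivative -/
theorem ord_derivation (δ : Derivation K F F) (w : Place K F)
    {π : F} (hπ : w.ord π = 1) (hπ0 : π ≠ 0) (hδ : δ π = 1)
    (hint : ∀ f ∈ w.toValuationSubring, δ f ∈ w.toValuationSubring)
    (f : F) (hf : f ≠ 0) (hn : ((w.ord f : ℤ) : K) ≠ 0) :
    w.ord (δ f) = w.ord f - 1 ∧ δ f ≠ 0 := by
  set n := w.ord f with hndef
  set u := f * π ^ (-n) with hu
  have hπn : ∀ m : ℤ, π ^ m ≠ 0 := fun m => zpow_ne_zero m hπ0
  have hu0 : u ≠ 0 := mul_ne_zero hf (hπn _)
  have huord : w.ord u = 0 := by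
    rw [hu, w.ord_mul hf (hπn _), w.ord_zpow, hπ]
    omega
  have hfu : f = u * π ^ n := by
    rw [hu, mul_assoc, ← zpow_add₀ hπ0]
    simp
  have h1 : δ f = (algebraMap K F (n : K)) * (u * π ^ (n - 1)) + δ u * π ^ n := by
    conv_lhs => rw [hfu]
    rw [Derivation.leibniz, smul_eq_mul, smul_eq_mul, Derivation.leibniz_zpow, hδ]
    simp only [zsmul_eq_mul, smul_eq_mul, mul_one, map_intCast]
    ring
  have hA0 : (algebraMap K F (n : K)) * (u * π ^ (n - 1)) ≠ 0 :=
    mul_ne_zero ((map_ne_zero (algebraMap K F)).mpr hn) (mul_ne_zero hu0 (hπn _))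
  have hA : w.ord ((algebraMap K F (n : K)) * (u * π ^ (n - 1))) = n - 1 := by
    rw [w.ord_mul ((map_ne_zero (algebraMap K F)).mpr hn) (mul_ne_zero hu0 (hπn _)), ord_algebraMap,
      w.ord_mul hu0 (hπn _), w.ord_zpow, hπ, huord]
    ring
  have hB : δ u * π ^ n = 0 ∨ w.ord ((algebraMap K F (n : K)) * (u * π ^ (n - 1))) <
      w.ord (δ u * π ^ n) := by
    by_cases hz : δ u = 0
    · left; rw [hz, zero_mul]
    · right
      rw [hA, w.ord_mul hz (hπn _), w.ord_zpow, hπ]
      have := ord_nonneg_of_mem w (hint u (mem_of_ord_nonneg w huord.ge))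
      omega
  have h2 := ord_add_eq_of_lt w hA0 hB
  rw [← h1, hA] at h2
  exact h2

end Bounded

section CharZero

variable {K F : Type*} [Field K] [Field F] [Algebra K F] [IsAlgClosed K] [CharZero K]

theorem transcendental_of_ord_ne_zero (w : Place K F) {f : F} (h : w.ord f ≠ 0) :
    Transcendental K f := by
  intro halg
  have hint : IsIntegral K f := halg.isIntegral
  have hmem : f ∈ (algebraMap K F).range := by
    haveI : Algebra.IsIntegral K K⟮f⟯ := by
      haveI := adjoin.finiteDimensional hint
      infer_instance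
    have hs : Function.Surjective (algebraMap K K⟮f⟯) :=
      (IsAlgClosed.algebraMap_bijective_of_isIntegral (k := K) (K := K⟮f⟯)).2
    obtain ⟨c, hc⟩ := hs ⟨f, mem_adjoin_simple_self K f⟩
    exact ⟨c, congrArg Subtype.val hc⟩
  obtain ⟨c, rfl⟩ := hmem
  exact h (ord_algebraMap w c)

theorem separable_of_charZero (x : F) [FiniteDimensional K⟮x⟯ F] :
    Algebra.IsSeparable K⟮x⟯ F := by
  haveI : CharZero K⟮x⟯ := charZero_of_injective_algebraMap (algebraMap K K⟮x⟯).injective
  infer_instance

/-- Data at a place in characteristic zero: the derivation `d/dπ` -/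
theorem exists_local_derivation (hF : ∃ x : F, Transcendental K x ∧ FiniteDimensional K⟮x⟯ F)
    (w : Place K F) {π : F} (hπ : w.ord π = 1) :
    ∃ e : Ω[F⁄K] ≃ₗ[F] F, e (KaehlerDifferential.D K F π) = 1 ∧
      ∀ f ∈ w.toValuationSubring, e (KaehlerDifferential.D K F f) ∈ w.toValuationSubring := by
  obtain ⟨x, hx, hfin⟩ := hF
  have hπ0 : π ≠ 0 := by rintro rfl; simp at hπ
  have hπt : Transcendental K π := transcendental_of_ord_ne_zero w (by omega)
  haveI : FiniteDimensional K⟮π⟯ F := finite_adjoin_of_transcendental x π hπt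
  haveI : Algebra.IsSeparable K⟮π⟯ F := separable_of_charZero π
  obtain ⟨e, he⟩ := exists_kaehlerEquiv π hπt
  refine ⟨e, he, ?_⟩
  let δ : Derivation K F F := e.toLinearMap.compDer (KaehlerDifferential.D K F)
  have hδ : ∀ f, δ f = e (KaehlerDifferential.D K F f) := fun f => rfl
  haveI : Module.Finite K w.ResidueField := by
    letI := ratFuncAlgebra π hπt
    haveI := ratFuncAlgebra_tower π hπt
    haveI := ratFuncAlgebra_finite π hπt
    haveI := ratFuncAlgebra_separable π hπt
    exact finite_residueField_of_ratFunc w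
  have hbd := derivation_bounded δ w π hπt (by omega) hπ hπ0
  intro f hf
  rw [← hδ]
  exact derivation_mem δ w hπ hπ0 (by rw [hδ, he]) hbd f hf

theorem span_dCoord (hF : ∃ x : F, Transcendental K x ∧ FiniteDimensional K⟮x⟯ F)
    (w : Place K F) : w.DCoordGenerates := by
  constructor
  obtain ⟨π, hπ, hd⟩ : ∃ π : F, w.ord π = 1 ∧ w.dCoord = KaehlerDifferential.D K F π := by
    refine ⟨((IsDiscreteValuationRing.exists_irreducible w.toValuationSubring).choose : F), ?_, rfl⟩
    exact w.ord_coe_irreducible
      (IsDiscreteValuationRing.exists_irreducible w.toValuationSubring).choose_spec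
  obtain ⟨e, he, -⟩ := exists_local_derivation hF w hπ
  rw [eq_top_iff]
  intro ω _
  rw [Submodule.mem_span_singleton]
  refine ⟨e ω, ?_⟩
  apply e.injective
  rw [map_smul, hd, he, smul_eq_mul, mul_one]

theorem nontrivial_kaehler (hF : ∃ x : F, Transcendental K x ∧ FiniteDimensional K⟮x⟯ F) :
    Nontrivial Ω[F⁄K] := by
  obtain ⟨x, hx, hfin⟩ := hF
  haveI : Algebra.IsSeparable K⟮x⟯ F := separable_of_charZero x
  obtain ⟨e, he⟩ := exists_kaehlerEquiv x hx
  exact e.toEquiv.nontrivial

/-- The order of `dy` at a place where `y` has nonzero order. -/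
theorem ordDifferential_D (hF : ∃ x : F, Transcendental K x ∧ FiniteDimensional K⟮x⟯ F)
    (w : Place K F) (y : F) (hy : w.ord y ≠ 0) :
    w.ordDifferential (KaehlerDifferential.D K F y) = w.ord y - 1 := by
  obtain ⟨π, hπ, hd⟩ : ∃ π : F, w.ord π = 1 ∧ w.dCoord = KaehlerDifferential.D K F π := by
    refine ⟨((IsDiscreteValuationRing.exists_irreducible w.toValuationSubring).choose : F), ?_, rfl⟩
    exact w.ord_coe_irreducible
      (IsDiscreteValuationRing.exists_irreducible w.toValuationSubring).choose_spec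
  obtain ⟨e, he, hint⟩ := exists_local_derivation hF w hπ
  haveI := span_dCoord hF w
  haveI := nontrivial_kaehler hF
  have hc : w.differentialCoeff (KaehlerDifferential.D K F y) = e (KaehlerDifferential.D K F y) := by
    apply w.differentialCoeff_unique
    apply e.injective
    rw [map_smul, hd, he, smul_eq_mul, mul_one]
  let δ : Derivation K F F := e.toLinearMap.compDer (KaehlerDifferential.D K F)
  have hπ0 : π ≠ 0 := by rintro rfl; simp at hπ
  have hy0 : y ≠ 0 := by rintro rfl; simp at hy
  have h := ord_derivation δ w hπ hπ0 he hint y hy0 (by exact_mod_cast hy)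
  rw [Place.ordDifferential, hc]
  exact h.1

/-- differentials: change of `ω` -/
theorem ordDifferential_smul' (hF : ∃ x : F, Transcendental K x ∧ FiniteDimensional K⟮x⟯ F)
    (w : Place K F) (c : F) (hc : c ≠ 0) (ω : Ω[F⁄K]) (hω : ω ≠ 0) :
    w.ordDifferential (c • ω) = w.ord c + w.ordDifferential ω := by
  haveI := span_dCoord hF w
  haveI := nontrivial_kaehler hF
  apply w.ordDifferential_smul hc
  intro h0
  apply hω
  rw [← w.differentialCoeff_smul_dCoord ω, h0, zero_smul]

/-- `Ω` has rank one: any two nonzero differentials are proportional. -/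
theorem exists_eq_smul (hF : ∃ x : F, Transcendental K x ∧ FiniteDimensional K⟮x⟯ F)
    (ω ω' : Ω[F⁄K]) (hω : ω ≠ 0) (hω' : ω' ≠ 0) : ∃ c : F, c ≠ 0 ∧ ω' = c • ω := by
  obtain ⟨x, hx, hfin⟩ := hF
  haveI : Algebra.IsSeparable K⟮x⟯ F := separable_of_charZero x
  obtain ⟨e, he⟩ := exists_kaehlerEquiv x hx
  have h1 : e ω ≠ 0 := by simpa using hω
  have h2 : e ω' ≠ 0 := by simpa using hω'
  refine ⟨e ω' / e ω, div_ne_zero h2 h1, ?_⟩
  apply e.injective
  rw [map_smul, smul_eq_mul]
  field_simp

/-- Function fields are curves in the sense of the prelude. -/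
theorem isCurveOver (hF : ∃ x : F, Transcendental K x ∧ FiniteDimensional K⟮x⟯ F) :
    IsCurveOver K F := by
  obtain ⟨x, hx, hfin⟩ := hF
  haveI : Algebra.IsSeparable K⟮x⟯ F := separable_of_charZero x
  obtain ⟨e, he⟩ := exists_kaehlerEquiv x hx
  haveI := hasPrincipalDivisors_of_transcendental x hx
  letI := ratFuncAlgebra x hx
  haveI := ratFuncAlgebra_tower x hx
  haveI := ratFuncAlgebra_finite x hx
  haveI := ratFuncAlgebra_separable x hx
  refine { finiteResidue := fun v => finite_residueField_of_ratFunc v,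
           kaehler_free_rank_one := ⟨Module.Free.of_equiv e.symm, ?_⟩ }
  rw [e.finrank_eq, Module.finrank_self]

end CharZero

end Fermat.Agent.H18
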