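import Fermat.Agent.H18_FunField
import Fermat.Agent.H18_Differential
import Fermat.Prelude.Def_AlgebraicCurve_CanonicalDivisor

set_option autoImplicit false
set_option linter.unusedSectionVars false

/-!
# Degree of the canonical divisor and ramification over the line (Riemann–Hurwitz)
-/

noncomputable section

open AlgebraicCurve IntermediateField

namespace Fermat.Agent.H18

section RH

variable {K F : Type*} [Field K] [Field F] [Algebra K F] [IsAlgClosed K] [CharZero K]
  [Algebra (RatFunc K) F] [IsScalarTower K (RatFunc K) F] [FiniteDimensional (RatFunc K) F]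
  [Algebra.IsSeparable (RatFunc K) F]

/-- number of places above `v` -/
def numPl (F : Type*) [Field F] [Algebra K F] [Algebra (RatFunc K) F]
    [IsScalarTower K (RatFunc K) F] [FiniteDimensional (RatFunc K) F] (v : Place K (RatFunc K)) : ℕ :=
  Nat.card {w : Place K F // w.restrict (RatFunc K) = v}

theorem numPl_eq (v : Place K (RatFunc K)) :
    numPl F v = (fiber_finite F v).toFinset.card := by
  rw [numPl, ← Nat.card_eq_card_finite_toFinset]
  rfl

theorem mem_fib {v : Place K (RatFunc K)} {w : Place K F} :
    w ∈ (fiber_finite F v).toFinset ↔ w.restrict (RatFunc K) = v := by simp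

theorem D_sub_const (x : F) (c : K) :
    KaehlerDifferential.D K F (x - algebraMap K F c) = KaehlerDifferential.D K F x := by
  rw [map_sub, Derivation.map_algebraMap, sub_zero]

theorem ord_D_finite (hF : ∃ x : F, Transcendental K x ∧ FiniteDimensional K⟮x⟯ F)
    (w : Place K F) (c : K) (hw : w.restrict (RatFunc K) = ratPlace c) :
    w.ordDifferential (KaehlerDifferential.D K F (algebraMap (RatFunc K) F RatFunc.X)) =
      w.ramificationIndex (RatFunc K) - 1 := by
  have h1 := ord_eq_ramificationIndex w c hw
  have hpos : 0 < w.ramificationIndex (RatFunc K) := w.ramificationIndex_pos (F := RatFunc K)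
  rw [← D_sub_const _ c, ordDifferential_D hF w _ (by rw [h1]; omega), h1]

theorem ord_D_inf (hF : ∃ x : F, Transcendental K x ∧ FiniteDimensional K⟮x⟯ F)
    (w : Place K F) (hw : w.restrict (RatFunc K) = infPlace K) :
    w.ordDifferential (KaehlerDifferential.D K F (algebraMap (RatFunc K) F RatFunc.X)) =
      - (w.ramificationIndex (RatFunc K) : ℤ) - 1 := by
  have h1 := ord_eq_neg_ramificationIndex w hw
  have hpos : 0 < w.ramificationIndex (RatFunc K) := w.ramificationIndex_pos (F := RatFunc K)
  rw [ordDifferential_D hF w _ (by rw [h1]; omega), h1]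

theorem degree_eq_sum (D : Divisor K F) {T : Finset (Place K F)}
    (hT : ∀ w, D w ≠ 0 → w ∈ T) : Divisor.degree D = ∑ w ∈ T, D w := by
  have h1 : D = ∑ w ∈ T, Finsupp.single w (D w) := by
    ext u
    rw [Finsupp.finset_sum_apply]
    by_cases hu : u ∈ T
    · rw [Finset.sum_eq_single u]
      · simp
      · intro b _ hb
        simp [Finsupp.single_apply, hb]
      · exact fun h => absurd hu h
    · have h0 : D u = 0 := by
        by_contra h
        exact hu (hT u h)
      rw [h0, eq_comm]
      apply Finset.sum_eq_zero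
      intro b hb
      have : b ≠ u := fun h => hu (h ▸ hb)
      simp [Finsupp.single_apply, this]
  conv_lhs => rw [h1]
  rw [map_sum]
  refine Finset.sum_congr rfl fun w _ => ?_
  rw [Divisor.degree_single, deg_eq_one w]
  simp

theorem ratPlace_injective : Function.Injective (ratPlace : K → Place K (RatFunc K)) := by
  intro c c' h
  by_contra hne
  have h1 : (ratPlace c).ord (ratX c) = 1 := ord_ratPlace c
  have h2 : (ratPlace c).ord (ratX c') = 1 := by rw [h]; exact ord_ratPlace c'
  have h3 : ratX c' - ratX c = algebraMap K (RatFunc K) (c - c') := by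
    rw [ratX_eq, ratX_eq, map_sub]; ring
  have h4 : algebraMap K (RatFunc K) (c - c') ≠ 0 :=
    (map_ne_zero _).mpr (sub_ne_zero.mpr hne)
  have h6 : ratX c' + (- ratX c) = algebraMap K (RatFunc K) (c - c') := by rw [← h3]; ring
  have h7 : (1 : ℤ) ≤ (ratPlace c).ord (ratX c' + (- ratX c)) :=
    le_ord_add (v := ratPlace c) (by rw [h6]; exact h4) (Or.inr h2.ge)
      (Or.inr (by rw [ord_neg, h1]))
  rw [h6, ord_algebraMap] at h7
  omega

theorem ratPlace_ne_infPlace (c : K) : ratPlace c ≠ infPlace K := by
  intro h
  have h1 := (eq_infPlace_iff (ratPlace c)).mp h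
  have h2 : (RatFunc.X : RatFunc K) = ratX c + algebraMap K (RatFunc K) c := by
    rw [ratX_eq]; ring
  have h3 : (0 : ℤ) ≤ (ratPlace c).ord (ratX c + algebraMap K (RatFunc K) c) := by
    apply le_ord_add
    · rw [← h2]; exact RatFunc.X_ne_zero
    · exact Or.inr (by rw [ord_ratPlace]; omega)
    · exact Or.inr (by rw [ord_algebraMap])
  rw [← h2] at h3
  omega

theorem eq_ratPlace_or_infPlace (v : Place K (RatFunc K)) :
    (∃ c, v = ratPlace c) ∨ v = infPlace K := by
  by_cases h : v.ord RatFunc.X < 0
  · exact Or.inr ((eq_infPlace_iff v).mpr h)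
  · exact Or.inl (exists_eq_ratPlace v (not_lt.mp h))

theorem sum_fib_sub_one (v : Place K (RatFunc K)) :
    ∑ w ∈ (fiber_finite F v).toFinset, ((w.ramificationIndex (RatFunc K) : ℤ) - 1) =
      Module.finrank (RatFunc K) F - numPl F v := by
  rw [Finset.sum_sub_distrib, numPl_eq, ← sum_ramificationIndex_eq F v]
  simp

theorem ramificationIndex_eq_one_of (v : Place K (RatFunc K))
    (h : numPl F v = Module.finrank (RatFunc K) F) (w : Place K F)
    (hw : w.restrict (RatFunc K) = v) : w.ramificationIndex (RatFunc K) = 1 := by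
  have h1 := sum_fib_sub_one (F := F) v
  rw [h, sub_self] at h1
  have h2 := (Finset.sum_eq_zero_iff_of_nonneg (fun u _ => by
    have : 0 < u.ramificationIndex (RatFunc K) := u.ramificationIndex_pos (F := RatFunc K)
    omega)).mp h1 w (mem_fib.mpr hw)
  omega

theorem numPl_le (v : Place K (RatFunc K)) : numPl F v ≤ Module.finrank (RatFunc K) F := by
  have h1 := sum_fib_sub_one (F := F) v
  have h2 : 0 ≤ ∑ w ∈ (fiber_finite F v).toFinset,
      ((w.ramificationIndex (RatFunc K) : ℤ) - 1) := Finset.sum_nonneg fun u _ => by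
    have : 0 < u.ramificationIndex (RatFunc K) := u.ramificationIndex_pos (F := RatFunc K)
    omega
  omega

/-- **Riemann–Hurwitz** for the divisor of `dx`. -/
theorem degree_canonical_D [HasCanonicalDivisor (K := K) (F := F)]
    (hF : ∃ x : F, Transcendental K x ∧ FiniteDimensional K⟮x⟯ F) {S : Finset K}
    (hS : ∀ c, c ∉ S → numPl F (ratPlace c) = Module.finrank (RatFunc K) F)
    (hω : KaehlerDifferential.D K F (algebraMap (RatFunc K) F RatFunc.X) ≠ 0) :
    Divisor.degree (canonicalDivisorOf hω) =
      ∑ c ∈ S, ((Module.finrank (RatFunc K) F : ℤ) - numPl F (ratPlace c)) -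
        Module.finrank (RatFunc K) F - numPl F (infPlace K) := by
  classical
  set V : Finset (Place K (RatFunc K)) := insert (infPlace K) (S.image ratPlace) with hV
  set T : Finset (Place K F) := V.biUnion fun v => (fiber_finite F v).toFinset with hT
  have hsupp : ∀ w, canonicalDivisorOf hω w ≠ 0 → w ∈ T := by
    intro w hw
    rw [hT, Finset.mem_biUnion]
    refine ⟨w.restrict (RatFunc K), ?_, mem_fib.mpr rfl⟩
    rw [hV, Finset.mem_insert, Finset.mem_image]
    by_contra hcon
    push Not at hcon
    obtain ⟨h1, h2⟩ := hcon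
    rcases eq_ratPlace_or_infPlace (w.restrict (RatFunc K)) with ⟨c, hc⟩ | h3
    · have hcS : c ∉ S := fun h => h2 c h hc.symm
      apply hw
      rw [canonicalDivisorOf_apply, ord_D_finite hF w c hc,
        ramificationIndex_eq_one_of (ratPlace c) (hS c hcS) w hc]
      norm_num
    · exact h1 h3
  rw [degree_eq_sum _ hsupp, hT, Finset.sum_biUnion]
  · rw [hV, Finset.sum_insert, Finset.sum_image]
    · have h1 : ∑ w ∈ (fiber_finite F (infPlace K)).toFinset, canonicalDivisorOf hω w =
          - (Module.finrank (RatFunc K) F : ℤ) - numPl F (infPlace K) := by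
        rw [numPl_eq, ← sum_ramificationIndex_eq F (infPlace K)]
        push_cast
        rw [Finset.card_eq_sum_ones, Nat.cast_sum, ← Finset.sum_neg_distrib,
          ← Finset.sum_sub_distrib]
        refine Finset.sum_congr rfl fun w hw => ?_
        rw [canonicalDivisorOf_apply, ord_D_inf hF w (mem_fib.mp hw)]
        simp
      have h2 : ∀ c ∈ S, ∑ w ∈ (fiber_finite F (ratPlace c)).toFinset,
          canonicalDivisorOf hω w = (Module.finrank (RatFunc K) F : ℤ) - numPl F (ratPlace c) := by
        intro c _
        rw [← sum_fib_sub_one]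
        refine Finset.sum_congr rfl fun w hw => ?_
        rw [canonicalDivisorOf_apply, ord_D_finite hF w c (mem_fib.mp hw)]
      rw [h1, Finset.sum_congr rfl h2]
      ring
    · intro a _ b _ h
      exact ratPlace_injective h
    · rw [Finset.mem_image]
      rintro ⟨c, -, hc⟩
      exact ratPlace_ne_infPlace c hc
  · intro v _ v' _ hne
    rw [Function.onFun, Finset.disjoint_left]
    intro w hw hw'
    exact hne ((mem_fib.mp hw).symm.trans (mem_fib.mp hw'))

theorem D_X_ne_zero (hF : ∃ x : F, Transcendental K x ∧ FiniteDimensional K⟮x⟯ F) :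
    KaehlerDifferential.D K F (algebraMap (RatFunc K) F RatFunc.X) ≠ 0 := by
  intro h0
  obtain ⟨w, hw⟩ := exists_restrict_eq (F := F) (infPlace K)
  have h1 := ord_D_inf hF w hw
  rw [h0] at h1
  have h2 : w.ordDifferential (0 : Ω[F⁄K]) = 0 := by
    have := span_dCoord hF w
    have := nontrivial_kaehler hF
    rw [Place.ordDifferential, Place.differentialCoeff_zero, Place.ord_zero]
  rw [h2] at h1
  omega

theorem degree_canonical_eq [HasCanonicalDivisor (K := K) (F := F)]
    (hF : ∃ x : F, Transcendental K x ∧ FiniteDimensional K⟮x⟯ F) {ω ω' : Ω[F⁄K]} (hω : ω ≠ 0)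
    (hω' : ω' ≠ 0) :
    Divisor.degree (canonicalDivisorOf hω') = Divisor.degree (canonicalDivisorOf hω) := by
  obtain ⟨c, hc, h⟩ := exists_eq_smul hF ω ω' hω hω'
  obtain ⟨x, hx, hfin⟩ := id hF
  have : Algebra.IsSeparable K⟮x⟯ F := separable_of_charZero x
  have := hasPrincipalDivisors_of_transcendental x hx
  obtain ⟨E, hE, hE0⟩ := HasPrincipalDivisors.exists_divisor (K := K) c hc
  have h1 : canonicalDivisorOf hω' = E + canonicalDivisorOf hω := by
    ext v
    rw [Finsupp.add_apply, canonicalDivisorOf_apply, canonicalDivisorOf_apply, hE, h,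
      ordDifferential_smul' hF v c hc ω hω]
  rw [h1, map_add, hE0, zero_add]

/-- The genus in terms of the numbers of places over the points of the line. -/
theorem genus_eq [HasCanonicalDivisor (K := K) (F := F)]
    (hF : ∃ x : F, Transcendental K x ∧ FiniteDimensional K⟮x⟯ F) {S : Finset K}
    (hS : ∀ c, c ∉ S → numPl F (ratPlace c) = Module.finrank (RatFunc K) F) :
    genus K F = (∑ c ∈ S, ((Module.finrank (RatFunc K) F : ℤ) - numPl F (ratPlace c)) -
        Module.finrank (RatFunc K) F - numPl F (infPlace K) + 2).toNat / 2 := by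
  have hD := D_X_ne_zero hF
  have h : ∃ ω : Ω[F⁄K], ω ≠ 0 := ⟨_, hD⟩
  rw [genus, dif_pos h, degree_canonical_eq hF hD, degree_canonical_D hF hS hD]

end RH

end Fermat.Agent.H18
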