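import Fermat.Statements.S53
import Fermat.Agent.DefRing.Univ4

set_option autoImplicit false
set_option autoImplicit false
open GaloisRep

namespace Fermat.Agent.S53

open Fermat.Agent.H04 IsLocalRing

theorem result
    (𝒪 : Type) [CommRing 𝒪] [IsDomain 𝒪] [IsDiscreteValuationRing 𝒪]
    [IsAdicComplete (IsLocalRing.maximalIdeal 𝒪) 𝒪] [Finite (IsLocalRing.ResidueField 𝒪)]
    (ρbar : ResidualGaloisRep (IsLocalRing.ResidueField 𝒪))
    (𝒟 : ∀ ⦃A : Type⦄ [CommRing A] [IsLocalRing A] [Algebra 𝒪 A], GaloisRepAdic A → Prop)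
    (habs : ρbar.IsAbsolutelyIrreducible)
    (h𝒟 : GaloisRep.IsDeformationCondition 𝒪 𝒟)
    (hbar : 𝒟 (GaloisRepAdic.ofResidualGaloisRep ρbar))
    (hfin : GaloisRep.TangentFinite 𝒪 ρbar 𝒟) :
    Nonempty (GaloisRep.DeformationRingData 𝒪 ρbar 𝒟) := by
  obtain ⟨b, D, hD⟩ := exists_dat ρbar habs
  obtain ⟨S, hS⟩ := exists_coords hD hfin
  obtain ⟨ϖ, hϖ⟩ := IsDiscreteValuationRing.exists_irreducible 𝒪
  have hmax : maximalIdeal 𝒪 = Ideal.span {ϖ} := hϖ.maximalIdeal_eq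
  let c : Ctx 𝒟 D ϖ S := ⟨h𝒟, hS, hmax, inferInstance, exists_base_nrep hD h𝒟 hbar⟩
  have hpre := preTest_RU c
  have hloc : IsLocalHom (algebraMap 𝒪 (RU c)) := hpre.isLocalHom
  refine ⟨{ R := RU c
            instIsLocalHom := hloc
            residue_surjective := (preTest_iff.mp hpre).2
            absIrr := habs
            ρ := ofMat (rU c) (isNRep_rU c).cont
            isOfType := type_rU c
            residual_isEquiv := ?_
            universal := ?_ }⟩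
  · exact residual_ofMat hD _ (fun x => ResidueField.map_residue _ _) (rU c) (isNRep_rU c).cont
      (isNRep_rU c).red
  · intro A _ _ _ _ _ hlocA hsurj ρA hρA hres
    have hA : PreTest 𝒪 A := preTest_iff.mpr ⟨hlocA, hsurj⟩
    obtain ⟨r0, hr0, hred0, ⟨e0⟩⟩ := exists_mat hD _
      (fun x => ResidueField.map_residue (algebraMap 𝒪 A) x) ρA hres
    obtain ⟨r, hr, ⟨e1⟩⟩ := exists_isNRep (D := D) hlocA r0 hr0 hred0
    -- `ofMat r` is isomorphic to `ρA`
    have e2 : GaloisRepAdic.Equiv (ofMat r hr.cont) ρA := e1.trans e0.symm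
    have hd : 𝒟 (ofMat r hr.cont) := by
      refine (h𝒟.iff_forall_surjective hlocA hsurj _).mpr fun B _ _ _ hB q hq hqs => ?_
      have h1 := (h𝒟.iff_forall_surjective hlocA hsurj _).mp hρA hB q hq hqs
      exact h𝒟.of_isEquiv hB ⟨e2.symm.baseChangeAlong (q : A →+* B) hq⟩ h1
    obtain ⟨φ, hφ, hmap⟩ := exists_hom c hA hr hd
    refine ⟨φ, ⟨hφ, ?_⟩, ?_⟩
    · obtain ⟨e3⟩ := ofMat_baseChange (rU c) (isNRep_rU c).cont (φ : RU c →+* A) hφ
      have key : ∀ (r' : GQ →* M2 A) (hc : IsCont r'), r' = r →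
          (ofMat r' hc).IsEquiv (ofMat r hr.cont) := by
        rintro r' hc rfl
        exact ⟨GaloisRepAdic.Equiv.refl _⟩
      obtain ⟨e4⟩ := key _ ((isNRep_rU c).cont.map (φ : RU c →+* A) hφ) hmap
      exact ⟨(e3.trans e4).trans e2⟩
    · rintro ψ ⟨hψ, ⟨e5⟩⟩
      obtain ⟨e6⟩ := ofMat_baseChange (rU c) (isNRep_rU c).cont (ψ : RU c →+* A) hψ
      have h1 : mapM (ψ : RU c →+* A) (rU c) = r := by
        refine IsNRep.eq_of_isEquiv hlocA ((isNRep_rU c).map ψ hψ) hr ⟨?_⟩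
        exact (e6.symm.trans e5).trans e2.symm
      exact hom_unique c hA ψ φ hψ (h1.trans hmap.symm)

end Fermat.Agent.S53
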