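import Fermat.Statements.S60
import Fermat.Agent.H01.P2.Full2
import Fermat.Agent.H28N.Sel3M
import Fermat.Agent.H09.M2G
import Fermat.Agent.Ell.Sel3G
import Fermat.Agent.ZK.SwitchFin

set_option autoImplicit false
open WeierstrassCurve WeierstrassCurve.Affine WeierstrassCurve.Affine.Point
open CuspForm ModularFormClass UpperHalfPlane
open WeierstrassCurve

namespace Fermat.Agent.S60

theorem result (W : WeierstrassCurve ℤ) (hΔ : W.Δ ≠ 0) (hW : W.IsSemistableModel) : (W.map (Int.castRingHom ℚ)).IsModular :=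
  Fermat.Agent.P2.s60_of_mz2 Fermat.Agent.H09.M2.mz2All_three Fermat.Agent.H09.M2.mz2All_five
    Fermat.Agent.H28N.sel3Mult Fermat.Agent.Ell.sel3Good Fermat.Agent.ZK.switch5Two W hΔ hW

end Fermat.Agent.S60
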