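import Mathlib

set_option autoImplicit false

/-!
# Counting orbits of an element of prime order
-/

namespace Fermat.Agent.H18

open MulAction Function

theorem minimalPeriod_dvd_of {Γ X : Type*} [Group Γ] [MulAction Γ X] {γ : Γ} {p : ℕ} {x : X}
    (h : γ ^ p • x = x) : minimalPeriod (γ • · : X → X) x ∣ p := by
  apply IsPeriodicPt.minimalPeriod_dvd
  rw [IsPeriodicPt, IsFixedPt, smul_iterate]
  exact h

/-- Number of orbits of an element acting with prime order. -/
theorem card_orbits_prime {Γ X : Type*} [Group Γ] [MulAction Γ X] [Finite X] {γ : Γ} {p : ℕ}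
    (hp : p.Prime) (h : ∀ x : X, γ ^ p • x = x) :
    p * Nat.card (orbitRel.Quotient (Subgroup.zpowers γ) X) =
      Nat.card X + (p - 1) * Nat.card {x : X // γ • x = x} := by
  classical
  have := Fintype.ofFinite X
  have : Fintype (orbitRel.Quotient (Subgroup.zpowers γ) X) := Fintype.ofFinite _
  have key : ∀ ω : orbitRel.Quotient (Subgroup.zpowers γ) X,
      ∑ x ∈ Finset.univ.filter (fun x : X => (Quotient.mk'' x :
        orbitRel.Quotient (Subgroup.zpowers γ) X) = ω),
        (1 + (p - 1) * (if γ • x = x then 1 else 0)) = p := by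
    intro ω
    induction ω using Quotient.inductionOn' with
    | h x₀ =>
    have hmem : ∀ x : X, (Quotient.mk'' x : orbitRel.Quotient (Subgroup.zpowers γ) X) =
        Quotient.mk'' x₀ ↔ x ∈ orbit (Subgroup.zpowers γ) x₀ := fun x => by
      rw [Quotient.eq'']
      rfl
    by_cases hx : γ • x₀ = x₀
    · have h1 : Finset.univ.filter (fun x : X => (Quotient.mk'' x :
        orbitRel.Quotient (Subgroup.zpowers γ) X) = Quotient.mk'' x₀) = {x₀} := by
        ext x
        rw [Finset.mem_filter, hmem, Finset.mem_singleton]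
        constructor
        · rintro ⟨-, ⟨⟨_, n, rfl⟩, rfl⟩⟩
          show γ ^ n • x₀ = x₀
          have : γ ∈ stabilizer Γ x₀ := hx
          exact Subgroup.zpow_mem _ this n
        · rintro rfl
          exact ⟨Finset.mem_univ _, mem_orbit_self _⟩
      rw [h1, Finset.sum_singleton, if_pos hx]
      have := hp.one_lt
      omega
    · have h2 : ∀ x ∈ Finset.univ.filter (fun x : X => (Quotient.mk'' x :
        orbitRel.Quotient (Subgroup.zpowers γ) X) = Quotient.mk'' x₀),
          (1 + (p - 1) * (if γ • x = x then 1 else 0)) = 1 := by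
        intro x hxm
        rw [Finset.mem_filter, hmem] at hxm
        obtain ⟨-, ⟨⟨_, n, rfl⟩, rfl⟩⟩ := hxm
        have h6 : ¬ (γ • ((⟨γ ^ n, ⟨n, rfl⟩⟩ : Subgroup.zpowers γ) • x₀) =
            (⟨γ ^ n, ⟨n, rfl⟩⟩ : Subgroup.zpowers γ) • x₀) := by
          intro h3
          apply hx
          change γ • γ ^ n • x₀ = γ ^ n • x₀ at h3
          rw [← mul_smul, ← zpow_one_add, add_comm, zpow_add, mul_smul, zpow_one] at h3
          exact smul_left_cancel _ h3
        exact (congrArg (fun t => 1 + (p - 1) * t) (if_neg h6)).trans (by simp)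
      rw [Finset.sum_congr rfl h2, Finset.sum_const, smul_eq_mul, mul_one]
      have h4 : (Finset.univ.filter (fun x : X => (Quotient.mk'' x :
        orbitRel.Quotient (Subgroup.zpowers γ) X) = Quotient.mk'' x₀)).card =
          Fintype.card (orbit (Subgroup.zpowers γ) x₀) := by
        rw [← Set.toFinset_card]
        congr 1
        ext x
        rw [Finset.mem_filter, hmem, Set.mem_toFinset]
        simp
      rw [h4, ← minimalPeriod_eq_card]
      rcases (Nat.dvd_prime hp).mp (minimalPeriod_dvd_of (h x₀)) with h5 | h5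
      · rw [minimalPeriod_eq_one_iff_isFixedPt] at h5
        exact absurd h5 hx
      · exact h5
  have h1 : ∑ x : X, (1 + (p - 1) * (if γ • x = x then 1 else 0)) =
      ∑ ω : orbitRel.Quotient (Subgroup.zpowers γ) X, p := by
    rw [← Finset.sum_congr rfl fun ω _ => key ω]
    exact (Finset.sum_fiberwise (s := (Finset.univ : Finset X))
      (g := fun x => (Quotient.mk'' x : orbitRel.Quotient (Subgroup.zpowers γ) X))
      (f := fun x => (1 + (p - 1) * (if γ • x = x then 1 else 0)))).symm
  rw [Finset.sum_add_distrib, ← Finset.mul_sum, Finset.sum_const, Finset.sum_const,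
    Finset.sum_boole, smul_eq_mul, smul_eq_mul, mul_one, Finset.card_univ, Finset.card_univ,
    Nat.cast_id] at h1
  rw [Nat.card_eq_fintype_card, Nat.card_eq_fintype_card, Nat.card_eq_fintype_card,
    Fintype.card_subtype, h1]
  ring

end Fermat.Agent.H18
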