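import Fermat.Statements.S24
import Fermat.Agent.H18_ModDeg
import Fermat.Agent.H18_Genus
import Fermat.Agent.H18_Comb
import Fermat.Agent.H14.Gamma0

set_option autoImplicit false
open ModularCurve

namespace Fermat.Agent.S24

open Fermat.Agent.H18 AlgebraicCurve CongruenceSubgroup
open scoped MatrixGroups

attribute [local instance] algFb algFM

theorem neg_one_smul_mk (N : ℕ) (g : SL(2, ℤ)) :
    (-1 : SL(2, ℤ)) • (g : SL(2, ℤ) ⧸ Gamma0 N) = (g : SL(2, ℤ) ⧸ Gamma0 N) := by
  rw [MulAction.Quotient.smul_coe, smul_eq_mul, QuotientGroup.eq]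
  have : (-1 * g)⁻¹ * g = -1 := by
    rw [mul_inv_rev, inv_neg_one, mul_neg, mul_one, neg_mul, inv_mul_cancel]
  rw [this, Gamma0_mem]
  simp

theorem orbits_S (N : ℕ) [NeZero N] :
    2 * Nat.card (MulAction.orbitRel.Quotient (Subgroup.zpowers ModularGroup.S)
      (SL(2, ℤ) ⧸ Gamma0 N)) = dedekindPsi N + nuTwo N := by
  have h := card_orbits_prime (X := SL(2, ℤ) ⧸ Gamma0 N) (γ := ModularGroup.S) Nat.prime_two
    (fun x => by
      induction x using QuotientGroup.induction_on with
      | H g =>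
        rw [S_sq]
        exact neg_one_smul_mk N g)
  rw [H14.card_X, H14.card_fix_S] at h
  exact h.trans (by norm_num)

theorem orbits_ST (N : ℕ) [NeZero N] :
    3 * Nat.card (MulAction.orbitRel.Quotient (Subgroup.zpowers (ModularGroup.S * ModularGroup.T))
      (SL(2, ℤ) ⧸ Gamma0 N)) = dedekindPsi N + 2 * nuThree N := by
  have h := card_orbits_prime (X := SL(2, ℤ) ⧸ Gamma0 N)
    (γ := ModularGroup.S * ModularGroup.T) Nat.prime_three
    (fun x => by
      induction x using QuotientGroup.induction_on with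
      | H g =>
        rw [ST_cube]
        exact neg_one_smul_mk N g)
  rw [H14.card_X, H14.card_fix_ST] at h
  exact h

theorem genus_Fb (K : Type*) [Field K] [Algebra K ℂ] [IsAlgClosed K] [Algebra ℚ K]
    (N : ℕ) [NeZero N] [HasCanonicalDivisor (K := K) (F := Fb K N)] :
    (genus K (Fb K N) : ℚ) = genusFormula N := by
  classical
  have : CharZero K := charZero_of
  have hF := exists_transcendental K N
  have h1728 : (1728 : K) ≠ 0 := by norm_num
  have hS : ∀ c : K, c ∉ ({0, 1728} : Finset K) →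
      numPl (Fb K N) (ratPlace c) = Module.finrank (RatFunc K) (Fb K N) := by
    intro c hc
    rw [Finset.mem_insert, Finset.mem_singleton, not_or] at hc
    rw [numPl, card_places_generic hc.1 hc.2, finrank_Fb, H14.card_X]
  rw [genus_eq hF hS, Finset.sum_pair h1728.symm]
  have h2 := orbits_S N
  have h3 := orbits_ST N
  have h4 := H14.card_orbits_T N
  rw [← card_places_1728 (K := K)] at h2
  rw [← card_places_zero (K := K)] at h3
  rw [← card_places_inf (K := K)] at h4
  change 2 * numPl (Fb K N) (ratPlace (1728 : K)) = _ at h2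
  change 3 * numPl (Fb K N) (ratPlace (0 : K)) = _ at h3
  change numPl (Fb K N) (infPlace K) = _ at h4
  rw [finrank_Fb]
  have h5 := H14.finrank_cuspForm_two N
  set g := Module.finrank ℂ (CuspForm (Gamma0 N) 2) with hg
  have h6 : ((dedekindPsi N : ℤ) - numPl (Fb K N) (ratPlace (0 : K)) +
      ((dedekindPsi N : ℤ) - numPl (Fb K N) (ratPlace (1728 : K))) - dedekindPsi N -
      numPl (Fb K N) (infPlace K) + 2) = 2 * (g : ℤ) := by
    have h7 : ((((dedekindPsi N : ℤ) - numPl (Fb K N) (ratPlace (0 : K)) +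
      ((dedekindPsi N : ℤ) - numPl (Fb K N) (ratPlace (1728 : K))) - dedekindPsi N -
      numPl (Fb K N) (infPlace K) + 2 : ℤ)) : ℚ) = ((2 * (g : ℤ) : ℤ) : ℚ) := by
      push_cast
      rw [h5, genusFormula]
      have h2' : (2 : ℚ) * numPl (Fb K N) (ratPlace (1728 : K)) = dedekindPsi N + nuTwo N := by
        exact_mod_cast h2
      have h3' : (3 : ℚ) * numPl (Fb K N) (ratPlace (0 : K)) = dedekindPsi N + 2 * nuThree N := by
        exact_mod_cast h3
      have h4' : (numPl (Fb K N) (infPlace K) : ℚ) = cuspCount N := by exact_mod_cast h4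
      linear_combination (-1/2 : ℚ) * h2' - (1/3 : ℚ) * h3' - h4'
    exact_mod_cast h7
  rw [h6, ← h5]
  have h8 : (2 * (g : ℤ)).toNat / 2 = g := by omega
  rw [h8]

theorem result (N : ℕ) [NeZero N]
    [AlgebraicCurve.HasCanonicalDivisor (K := AlgebraicClosure ℚ) (F := ↥(ModularCurve.modularFunctionFieldBar N))] :
    (AlgebraicCurve.genus (AlgebraicClosure ℚ) ↥(ModularCurve.modularFunctionFieldBar N) : ℚ)
      = ModularCurve.genusFormula N := by
  let φ : AlgebraicClosure ℚ →+* ℂ :=
    letI : Algebra ℚ (AlgebraicClosure ℚ) := AlgebraicClosure.instAlgebra ℚ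
    (IsAlgClosed.lift : AlgebraicClosure ℚ →ₐ[ℚ] ℂ).toRingHom
  let _ : Algebra (AlgebraicClosure ℚ) ℂ := φ.toAlgebra
  exact genus_Fb (AlgebraicClosure ℚ) N

end Fermat.Agent.S24
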