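import Fermat.Statements.S25
import Fermat.Agent.J25.FinalB
import Fermat.Agent.J25.WP8b
import Fermat.Agent.J25.GA10
import Fermat.Agent.J25.Pts4
import Fermat.Agent.J25.ChiLoc
import Fermat.Agent.J25.DX5
import Fermat.Agent.H02J.GeoHyp
import Fermat.Agent.J25.WP7

set_option autoImplicit false
set_option autoImplicit false
universe u
open CategoryTheory CategoryTheory.Limits AlgebraicGeometry AlgebraicGeometry.RelPicard NeronModelInfra
  GoodReductionJacobian
open AlgebraicGeometry AlgebraicGeometry.RelPicard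

namespace Fermat.Agent.S25

open Fermat.Agent.J25 in
theorem result
    (k : Type u) [Field k] [IsAlgClosed k] {C : Scheme.{u}} (c : C ⟶ Spec (CommRingCat.of k))
    [IsProper c] [SmoothOfRelativeDimension 1 c] [IsIntegral C]
    (ε : SchemeHomOver (𝟙 (Spec (CommRingCat.of k))) c) :
    ∃ D : RelativePic0Designation k c,
      Nonempty (RepresentsRelSubPic c ε (algEquivZeroCut c ε) D) ∧
        Smooth D.toBase ∧ IsProper D.toBase ∧ GeometricallyConnected D.toBase := by
  obtain ⟨g⟩ := G.geo k c ε
  have h6 : Cut.H6b g := KF.h6b g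
  obtain ⟨P, x, huniv, ι, j, hj, ht, hcov, hpair⟩ := CF.wp7 g.picData
  obtain ⟨N, η, h3b⟩ := g.picData.h3b
  exact Cut.s25_of_rep g.picData h6 x huniv
    (AJ.smooth_proper_connected_of_charts g.picData (I.formallySmooth_geo g) x huniv
      (fun t h1 l h2 s h3 => Cut.hcon g.picData h6 t h1 l h2 s h3) g.delta
      (fun y => DX.picData_delta g k y) N η h3b j hj ht hcov hpair)

end Fermat.Agent.S25
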