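import Fermat.Statements.S26
import Fermat.Agent.H20.Torsion

set_option autoImplicit false
set_option autoImplicit false
open CategoryTheory CategoryTheory.Limits AlgebraicGeometry NeronModelInfra GoodReductionJacobian
universe u
open GoodReductionJacobian GoodReductionJacobian.RelativeGroupLaw

namespace Fermat.Agent.S26

theorem result
    (K : Type u) [Field K] [IsAlgClosed K] {A : Scheme.{u}} (f : A ⟶ Spec (CommRingCat.of K))
    (L : RelativeGroupLaw K f) (hc : L.IsCommutative) (hA : AbelianSchemePropertyBundle K f)
    (g : ℕ) [SmoothOfRelativeDimension g f] (n : ℕ) (hn : (n : K) ≠ 0) :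
    Nat.card {x : SchemeHomOver (𝟙 (Spec (CommRingCat.of K))) f //
        L.IsTorsionPoint (𝟙 (Spec (CommRingCat.of K))) n x} = n ^ (2 * g) := by
  letI : Fermat.Agent.H20.KSch K A := ⟨f⟩
  exact Fermat.Agent.H20.card_torsion K (A := A) (L := L) hc hA g n hn

end Fermat.Agent.S26
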