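import Fermat.Statements.S05
import Fermat.Agent.H08.InertiaTrivial

set_option autoImplicit false
open WeierstrassCurve WeierstrassCurve.Affine WeierstrassCurve.Affine.Point
open CuspForm ModularFormClass UpperHalfPlane
open FreyPackage

namespace Fermat.Agent.S05

open Fermat.Agent.H08

variable {L : Type*} [Field L] [Algebra ℚ L]

set_option linter.unusedSectionVars false

section

variable [CharZero L] (P : FreyPackage)

lemma frey_a₁ : (P.freyCurve⁄L).a₁ = 1 := by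
  show algebraMap ℚ L 1 = 1
  exact map_one _

lemma frey_a₂ : (P.freyCurve⁄L).a₂ = ((P.b : L) ^ P.p - 1 - (P.a : L) ^ P.p) / 4 := by
  show algebraMap ℚ L ((P.b ^ P.p - 1 - P.a ^ P.p) / 4) = _
  simp

lemma frey_a₃ : (P.freyCurve⁄L).a₃ = 0 := by
  show algebraMap ℚ L 0 = 0
  exact _root_.map_zero _

lemma frey_a₄ : (P.freyCurve⁄L).a₄ = -((P.a : L) ^ P.p) * (P.b : L) ^ P.p / 16 := by
  show algebraMap ℚ L (-(P.a ^ P.p) * (P.b ^ P.p) / 16) = _
  simp

lemma frey_a₆ : (P.freyCurve⁄L).a₆ = 0 := by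
  show algebraMap ℚ L 0 = 0
  exact _root_.map_zero _

lemma frey_b₂ : (P.freyCurve⁄L).b₂ = (P.b : L) ^ P.p - (P.a : L) ^ P.p := by
  rw [WeierstrassCurve.b₂, frey_a₁, frey_a₂]; ring

lemma frey_b₄ : 8 * (P.freyCurve⁄L).b₄ = -((P.a : L) ^ P.p) * (P.b : L) ^ P.p := by
  rw [WeierstrassCurve.b₄, frey_a₁, frey_a₃, frey_a₄]; ring

lemma frey_b₆ : (P.freyCurve⁄L).b₆ = 0 := by
  rw [WeierstrassCurve.b₆, frey_a₃, frey_a₆]; ring

lemma frey_root {e : L} (he : e = 0 ∨ e = (P.a : L) ^ P.p ∨ e = -(P.b : L) ^ P.p) :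
    e ^ 3 + (P.freyCurve⁄L).b₂ * e ^ 2 + 8 * (P.freyCurve⁄L).b₄ * e
      + 16 * (P.freyCurve⁄L).b₆ = 0 := by
  rw [frey_b₂, frey_b₄, frey_b₆]
  rcases he with rfl | rfl | rfl <;> ring

lemma frey_c : (P.a : L) ^ P.p + (P.b : L) ^ P.p = (P.c : L) ^ P.p := by
  exact_mod_cast congrArg (Int.cast : ℤ → L) P.hFLT

end

section

variable [DecidableEq L] [CharZero L] [Algebra.IsAlgebraic ℚ L] {P : FreyPackage} {q : ℕ} {A : ValuationSubring L}

lemma val_two (hq : q.Prime) (hq2 : q ≠ 2) (hA : A.LiesOverPrime q) :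
    A.valuation (2 : L) = 1 := by
  have := val_natCast_eq_one (L := L) hq hA (n := 2)
    (fun h => hq2 ((Nat.prime_dvd_prime_iff_eq hq Nat.prime_two).mp h))
  exact_mod_cast this

lemma val_four (hq : q.Prime) (hq2 : q ≠ 2) (hA : A.LiesOverPrime q) :
    A.valuation (4 : L) = 1 := by
  have : (4 : L) = 2 * 2 := by norm_num
  rw [this, map_mul, val_two hq hq2 hA, one_mul]

lemma frey_integral (hq : q.Prime) (hq2 : q ≠ 2) (hA : A.LiesOverPrime q) :
    IsIntegralFor A.valuation (P.freyCurve⁄L) := by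
  have h4 := val_four hq hq2 hA
  have h16 : A.valuation (16 : L) = 1 := by
    have : (16 : L) = 4 * 4 := by norm_num
    rw [this, map_mul, h4, one_mul]
  have ha := val_intCast_le_one A P.a
  have hb := val_intCast_le_one A P.b
  refine ⟨?_, ?_, ?_, ?_, ?_⟩
  · rw [frey_a₁, map_one]
  · rw [frey_a₂, map_div₀, h4, div_one]
    exact v_sub_le_one (v_sub_le_one (v_pow_le_one hb _) (by simp)) (v_pow_le_one ha _)
  · rw [frey_a₃]; simp
  · rw [frey_a₄, map_div₀, h16, div_one]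
    exact v_mul_le_one (v_neg_le_one (v_pow_le_one ha _)) (v_pow_le_one hb _)
  · rw [frey_a₆]; simp

lemma isCoprime_of_gcd {x y : ℤ} (h : gcd x y = 1) : IsCoprime x y :=
  (gcd_isUnit_iff x y).mp (by rw [h]; exact isUnit_one)

lemma not_dvd_of_dvd (hq : q.Prime) {x y : ℤ} (h : gcd x y = 1) (hx : (q : ℤ) ∣ x) :
    ¬ (q : ℤ) ∣ y := by
  intro hy
  have h1 := (isCoprime_of_gcd h).isUnit_of_dvd' hx hy
  exact (Nat.prime_iff_prime_int.mp hq).not_isUnit h1

/-- The multiplicative case, for a general root. -/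
theorem multiplicative_case (hq : q.Prime) (hq2 : q ≠ 2) (hqp : q ≠ P.p)
    (hA : A.LiesOverPrime q) {σ : L ≃ₐ[ℚ] L} (hσ : σ ∈ A.inertiaSubgroupIn ℚ)
    {e : L} {n α : ℤ} (hen : e = (n : L)) (hα0 : α ≠ 0)
    (he : e = 0 ∨ e = (P.a : L) ^ P.p ∨ e = -(P.b : L) ^ P.p)
    (hva : A.valuation (3 * e + (P.freyCurve⁄L).b₂) = 1)
    (hb : 3 * e ^ 2 + 2 * (P.freyCurve⁄L).b₂ * e + 8 * (P.freyCurve⁄L).b₄ = (α : L) ^ P.p
      ∨ 3 * e ^ 2 + 2 * (P.freyCurve⁄L).b₂ * e + 8 * (P.freyCurve⁄L).b₄ = -(α : L) ^ P.p)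
    (hα : (q : ℤ) ∣ α)
    {Q : (P.freyCurve⁄L).Point} (hQ : Q ≠ 0) (hpQ : P.p • Q = 0) : σ • Q = Q := by
  have hW := frey_integral (P := P) hq hq2 hA
  have hroot := frey_root P he
  obtain ⟨w, hw⟩ := exists_isLogVal (L := L) hq hA
  have hvp : A.valuation ((P.p : ℕ) : L) = 1 := by
    exact val_natCast_eq_one hq hA (fun h => hqp ((Nat.prime_dvd_prime_iff_eq hq P.pp).mp h))
  have hve : A.valuation e ≤ 1 := by rw [hen]; exact val_intCast_le_one A n
  have hvα : A.valuation (3 * e ^ 2 + 2 * (P.freyCurve⁄L).b₂ * e + 8 * (P.freyCurve⁄L).b₄)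
      = A.valuation ((α : L) ^ P.p) := by
    rcases hb with h | h
    · rw [h]
    · rw [h, Valuation.map_neg]
  have hαlt : A.valuation (α : L) < 1 := val_intCast_lt_one hA hα
  have hvb : A.valuation (3 * e ^ 2 + 2 * (P.freyCurve⁄L).b₂ * e + 8 * (P.freyCurve⁄L).b₄) < 1 := by
    rw [hvα]; exact v_pow_lt_one hαlt P.hp0
  have hαL : (α : L) ≠ 0 := by exact_mod_cast hα0
  have hint : ∀ R : (P.freyCurve⁄L).Point, P.p • R = 0 → A.valuation (4 * px R - e) ≤ 1 := by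
    intro R hR
    exact v_sub_le_one (v_mul_le_one (v_ofNat_le_one _ 4) (val_px_le_one_of_torsion hW hR hvp)) hve
  have H : KHyp (fun R : (P.freyCurve⁄L).Point => 4 * px R - e) (3 * e + (P.freyCurve⁄L).b₂)
      (3 * e ^ 2 + 2 * (P.freyCurve⁄L).b₂ * e + 8 * (P.freyCurve⁄L).b₄) A.valuation P.p :=
    { K := kummerSystem_of_root two_ne_zero hroot
      hp := P.pp
      hp5 := P.hp5
      v2 := val_two hq hq2 hA
      va := hva
      vb := hvb
      b0 := by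
        rw [← Valuation.ne_zero_iff A.valuation, hvα, Valuation.ne_zero_iff]
        exact pow_ne_zero _ hαL
      int := fun R _ hR => hint R hR }
  rcases lt_or_eq_of_le (hint Q hpQ) with h1 | h1
  · exact inertia_trivial_of_singular hσ hw hroot H (by rw [hen, map_intCast])
      (map_intCast σ α) hvα hQ hpQ h1
  · apply inertia_trivial_of_nonsingularRed hW hσ hpQ hvp
    by_contra hns
    have h2 := val_lt_of_not_nonsingularRed hW hQ (val_px_le_one_of_torsion hW hpQ hvp) hns hve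
      hroot
    have h3 : A.valuation ((4 * px Q - e) ^ 2) = 1 := by rw [map_pow, h1, one_pow]
    rw [Valuation.map_sub_eq_of_lt_left _ (by rwa [h3]), h3] at h2
    exact lt_irrefl _ h2

theorem good_case (hq : q.Prime) (hq2 : q ≠ 2) (hqp : q ≠ P.p)
    (hA : A.LiesOverPrime q) {σ : L ≃ₐ[ℚ] L} (hσ : σ ∈ A.inertiaSubgroupIn ℚ)
    (ha : ¬ (q : ℤ) ∣ P.a) (hb : ¬ (q : ℤ) ∣ P.b) (hc : ¬ (q : ℤ) ∣ P.c)
    {Q : (P.freyCurve⁄L).Point} (hQ : Q ≠ 0) (hpQ : P.p • Q = 0) : σ • Q = Q := by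
  have hW := frey_integral (P := P) hq hq2 hA
  have hvp : A.valuation ((P.p : ℕ) : L) = 1 := by
    exact val_natCast_eq_one hq hA (fun h => hqp ((Nat.prime_dvd_prime_iff_eq hq P.pp).mp h))
  have hva : A.valuation ((P.a : L) ^ P.p) = 1 := by
    rw [map_pow, val_intCast_eq_one hq hA ha, one_pow]
  have hvb : A.valuation ((P.b : L) ^ P.p) = 1 := by
    rw [map_pow, val_intCast_eq_one hq hA hb, one_pow]
  have hvc : A.valuation ((P.c : L) ^ P.p) = 1 := by
    rw [map_pow, val_intCast_eq_one hq hA hc, one_pow]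
  apply inertia_trivial_of_nonsingularRed hW hσ hpQ hvp
  by_contra hns
  have hQx := val_px_le_one_of_torsion hW hpQ hvp
  have h0 := val_lt_of_not_nonsingularRed hW hQ hQx hns (e := 0) (by simp)
    (frey_root P (Or.inl rfl))
  have h1 := val_lt_of_not_nonsingularRed hW hQ hQx hns (e := (P.a : L) ^ P.p) hva.le
    (frey_root P (Or.inr (Or.inl rfl)))
  have h2 := val_lt_of_not_nonsingularRed hW hQ hQx hns (e := -(P.b : L) ^ P.p)
    (by rw [Valuation.map_neg]; exact hvb.le) (frey_root P (Or.inr (Or.inr rfl)))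
  rw [frey_b₂, frey_b₄] at h0 h1 h2
  have hc' := frey_c (L := L) P
  set a := (P.a : L) ^ P.p with hadef
  set b := (P.b : L) ^ P.p with hbdef
  set c := (P.c : L) ^ P.p with hcdef
  have h3 := v_sub_lt_one h1 h0
  have e3 : (4 * px Q - a) ^ 2 - (3 * a ^ 2 + 2 * (b - a) * a + -a * b)
      - ((4 * px Q - 0) ^ 2 - (3 * 0 ^ 2 + 2 * (b - a) * 0 + -a * b))
      = -(2 * a * (4 * px Q + b)) := by ring
  rw [e3, Valuation.map_neg, map_mul, map_mul, val_two hq hq2 hA, hva, one_mul, one_mul] at h3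
  have e4 : (4 * px Q - -b) ^ 2 - (3 * (-b) ^ 2 + 2 * (b - a) * -b + -a * b)
      = (4 * px Q + b) ^ 2 - b * c := by rw [← hc']; ring
  rw [e4] at h2
  have h5 := v_sub_lt_one (v_pow_lt_one h3 two_ne_zero) h2
  rw [sub_sub_cancel, map_mul, hvb, hvc, one_mul] at h5
  exact lt_irrefl _ h5

theorem all_cases (hq : q.Prime) (hq2 : q ≠ 2) (hqp : q ≠ P.p)
    (hA : A.LiesOverPrime q) {σ : L ≃ₐ[ℚ] L} (hσ : σ ∈ A.inertiaSubgroupIn ℚ)
    {Q : (P.freyCurve⁄L).Point} (hQ : Q ≠ 0) (hpQ : P.p • Q = 0) : σ • Q = Q := by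
  have hv2 := val_two hq hq2 hA
  have vnd : ∀ {n : ℤ}, ¬ (q : ℤ) ∣ n → A.valuation ((n : L) ^ P.p) = 1 := fun h => by
    rw [map_pow, val_intCast_eq_one hq hA h, one_pow]
  have vd : ∀ {n : ℤ}, (q : ℤ) ∣ n → A.valuation ((n : L) ^ P.p) < 1 := fun h =>
    v_pow_lt_one (val_intCast_lt_one hA h) P.hp0
  by_cases hc : (q : ℤ) ∣ P.c
  · -- `e = a ^ p`
    have ha : ¬ (q : ℤ) ∣ P.a := fun h => not_dvd_of_dvd hq P.hgcdac h hc
    refine multiplicative_case (e := (P.a : L) ^ P.p) (n := P.a ^ P.p) (α := P.a * P.c) hq hq2 hqp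
      hA hσ (by push_cast; rfl) (mul_ne_zero P.ha0 P.hc0) (Or.inr (Or.inl rfl)) ?_ (Or.inl ?_)
      (Dvd.dvd.mul_left hc _) hQ hpQ
    · rw [frey_b₂]
      have e1 : 3 * (P.a : L) ^ P.p + ((P.b : L) ^ P.p - (P.a : L) ^ P.p)
        = (P.a : L) ^ P.p + (P.c : L) ^ P.p := by rw [← frey_c P]; ring
      rw [e1, Valuation.map_add_eq_of_lt_left, vnd ha]
      rw [vnd ha]; exact vd hc
    · rw [frey_b₂, frey_b₄]
      push_cast
      rw [mul_pow, ← frey_c P]; ring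
  by_cases hab : (q : ℤ) ∣ P.a * P.b
  · refine multiplicative_case (e := 0) (n := 0) (α := P.a * P.b) hq hq2 hqp
      hA hσ (by simp) (mul_ne_zero P.ha0 P.hb0) (Or.inl rfl) ?_ (Or.inr ?_)
      hab hQ hpQ
    · rw [frey_b₂, mul_zero, zero_add]
      rcases (Nat.prime_iff_prime_int.mp hq).dvd_or_dvd hab with h | h
      · have hb : ¬ (q : ℤ) ∣ P.b := not_dvd_of_dvd hq P.hgcdab h
        rw [Valuation.map_sub_eq_of_lt_left, vnd hb]
        rw [vnd hb]; exact vd h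
      · have ha : ¬ (q : ℤ) ∣ P.a := fun h' => not_dvd_of_dvd hq P.hgcdab h' h
        rw [Valuation.map_sub_eq_of_lt_right, vnd ha]
        rw [vnd ha]; exact vd h
    · rw [frey_b₂, frey_b₄]
      push_cast
      rw [mul_pow]; ring
  · have ha : ¬ (q : ℤ) ∣ P.a := fun h => hab (Dvd.dvd.mul_right h _)
    have hb : ¬ (q : ℤ) ∣ P.b := fun h => hab (Dvd.dvd.mul_left h _)
    exact good_case hq hq2 hqp hA hσ ha hb hc hQ hpQ

end

theorem result (P : FreyPackage) {q : ℕ} (hq : q.Prime) (hq2 : q ≠ 2) (hqp : q ≠ P.p) : P.GaloisRepUnramifiedAt q := by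
  intro A hA σ hσ x
  apply Subtype.ext
  by_cases hx : x.1 = 0
  · change σ • x.1 = x.1
    rw [hx]; exact smul_zero σ
  · change σ • x.1 = x.1
    apply all_cases hq hq2 hqp hA hσ hx
    have h := x.2
    rw [Submodule.mem_torsionBy_iff] at h
    rw [← natCast_zsmul]
    exact h

end Fermat.Agent.S05
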