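import Mathlib

/-!
# Sophie Germain's criterion (Case I) for exponents 5, 7, 11, 13
-/

set_option autoImplicit false

namespace Fermat.Agent.H11

open Finset

/-- The cofactor of `y + z` in `y ^ p + z ^ p` for odd `p`. -/
def cof (p : ℕ) (y z : ℤ) : ℤ := ∑ i ∈ range p, y ^ i * (-z) ^ (p - 1 - i)

lemma add_mul_cof {p : ℕ} (hp : Odd p) (y z : ℤ) : (y + z) * cof p y z = y ^ p + z ^ p := by
  have h := Commute.mul_geom_sum₂ (Commute.all y (-z)) p
  rw [hp.neg_pow] at h
  unfold cof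
  linear_combination h

/-- If `r ∣ y + z` then the cofactor is `p * y ^ (p-1)` modulo `r`. -/
lemma cof_modEq {p : ℕ} {y z r : ℤ} (h : r ∣ y + z) :
    r ∣ cof p y z - p * y ^ (p - 1) := by
  have h1 : ∀ i ∈ range p, r ∣ y ^ i * (-z) ^ (p - 1 - i) - y ^ (p - 1) := by
    intro i hi
    have hi' : i + (p - 1 - i) = p - 1 := by
      have := mem_range.mp hi
      omega
    have h2 : r ∣ (-z) - y := by
      have := (dvd_neg (a := r)).mpr h
      have e : -(y + z) = -z - y := by ring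
      rwa [e] at this
    have h3 : r ∣ (-z) ^ (p - 1 - i) - y ^ (p - 1 - i) := h2.trans (sub_dvd_pow_sub_pow _ _ _)
    have h4 : y ^ i * (-z) ^ (p - 1 - i) - y ^ (p - 1)
        = y ^ i * ((-z) ^ (p - 1 - i) - y ^ (p - 1 - i)) := by
      rw [mul_sub, ← pow_add, hi']
    rw [h4]
    exact h3.mul_left _
  have h5 : cof p y z - p * y ^ (p - 1)
      = ∑ i ∈ range p, (y ^ i * (-z) ^ (p - 1 - i) - y ^ (p - 1)) := by
    rw [sum_sub_distrib, sum_const, card_range, nsmul_eq_mul]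
    rfl
  rw [h5]
  exact dvd_sum h1

/-- If `r ∣ x` then the cofactor of `x, y` is `y ^ (p-1)` modulo `r` (for odd `p`). -/
lemma cof_modEq' {p : ℕ} (hp : Odd p) {y z r : ℤ} (h : r ∣ y) :
    r ∣ cof p y z - z ^ (p - 1) := by
  obtain ⟨k, rfl⟩ := hp
  have h0 : cof (2 * k + 1) y z - z ^ (2 * k + 1 - 1)
      = ∑ i ∈ range (2 * k), y ^ (i + 1) * (-z) ^ (2 * k + 1 - 1 - (i + 1)) := by
    unfold cof
    rw [sum_range_succ']
    simp [Even.neg_pow (even_two_mul k)]
  rw [h0]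
  refine dvd_sum fun i _ => ?_
  rw [pow_succ]
  exact (h.mul_left _).mul_right _

lemma factor_lemma {p : ℕ} (hpp : p.Prime) (hp : Odd p) {x y z : ℤ}
    (h : x ^ p + y ^ p + z ^ p = 0) (hyz : IsCoprime y z) (hx : ¬ (p : ℤ) ∣ x) :
    ∃ a α : ℤ, y + z = a ^ p ∧ cof p y z = α ^ p ∧ x = -(a * α) := by
  have hprod : (y + z) * cof p y z = (-x) ^ p := by
    rw [add_mul_cof hp, hp.neg_pow]
    linear_combination h
  have hcop : IsCoprime (y + z) (cof p y z) := by
    rw [Int.isCoprime_iff_gcd_eq_one]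
    by_contra hne
    obtain ⟨r, hr, hrd⟩ := Nat.exists_prime_and_dvd hne
    have hr' : Prime (r : ℤ) := Nat.prime_iff_prime_int.mp hr
    have h1 : (r : ℤ) ∣ y + z := (Int.natCast_dvd_natCast.mpr hrd).trans (Int.gcd_dvd_left ..)
    have h2 : (r : ℤ) ∣ cof p y z := (Int.natCast_dvd_natCast.mpr hrd).trans (Int.gcd_dvd_right ..)
    have h3 : (r : ℤ) ∣ p * y ^ (p - 1) := by
      have := dvd_sub h2 (cof_modEq (p := p) h1)
      simpa using this
    rcases hr'.dvd_or_dvd h3 with h4 | h4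
    · have h5 : r = p := (Nat.prime_dvd_prime_iff_eq hr hpp).mp (Int.natCast_dvd_natCast.mp h4)
      subst h5
      have h6 : (r : ℤ) ∣ (-x) ^ r := by
        rw [← hprod]; exact h1.mul_right _
      exact hx ((dvd_neg).mp (hr'.dvd_of_dvd_pow h6))
    · have h5 : (r : ℤ) ∣ y := hr'.dvd_of_dvd_pow h4
      have h6 : (r : ℤ) ∣ z := by
        have := dvd_sub h1 h5
        simpa using this
      have h7 : IsUnit (r : ℤ) := hyz.isUnit_of_dvd' h5 h6
      exact hr'.not_isUnit h7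
  obtain ⟨⟨a, ha⟩, ⟨α, hα⟩⟩ := Int.eq_pow_of_mul_eq_pow_odd hcop hp hprod
  refine ⟨a, α, ha, hα, ?_⟩
  rw [ha, hα, ← mul_pow] at hprod
  have h1 : a * α = -x := hp.strictMono_pow.injective hprod
  rw [h1, neg_neg]

/-- Sophie Germain's criterion. -/
theorem sophie_germain {p q : ℕ} (hpp : p.Prime) (hp : Odd p) (hq : q.Prime)
    (H1 : ∀ x y z : ZMod q, x ^ p + y ^ p + z ^ p = 0 → x = 0 ∨ y = 0 ∨ z = 0)
    (H2 : ∀ x : ZMod q, x ^ p ≠ p)
    {x y z : ℤ} (h : x ^ p + y ^ p + z ^ p = 0) (hxy : IsCoprime x y) (hyz : IsCoprime y z)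
    (hzx : IsCoprime z x) : (p : ℤ) ∣ x * y * z := by
  by_contra hcon
  have hpx : ¬ (p : ℤ) ∣ x := fun h' => hcon ((h'.mul_right _).mul_right _)
  have hpy : ¬ (p : ℤ) ∣ y := fun h' => hcon ((h'.mul_left _).mul_right _)
  have hpz : ¬ (p : ℤ) ∣ z := fun h' => hcon (h'.mul_left _)
  have hq' : Prime (q : ℤ) := Nat.prime_iff_prime_int.mp hq
  -- the core argument, for `q ∣ x`
  have core : ∀ x y z : ℤ, x ^ p + y ^ p + z ^ p = 0 → IsCoprime x y → IsCoprime y z →
      IsCoprime z x → ¬ (p : ℤ) ∣ x → ¬ (p : ℤ) ∣ y → ¬ (p : ℤ) ∣ z → ¬ (q : ℤ) ∣ x := by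
    intro x y z h hxy hyz hzx hpx hpy hpz hqx
    obtain ⟨a, α, ha, hα, hx⟩ := factor_lemma hpp hp h hyz hpx
    obtain ⟨b, β, hb, hβ, hy⟩ := factor_lemma hpp hp (x := y) (y := z) (z := x)
      (by linear_combination h) hzx hpy
    obtain ⟨c, γ, hc, hγ, hz⟩ := factor_lemma hpp hp (x := z) (y := x) (z := y)
      (by linear_combination h) hxy hpz
    have hqy : ¬ (q : ℤ) ∣ y := fun h' => hq'.not_isUnit (hxy.isUnit_of_dvd' hqx h')
    have hqz : ¬ (q : ℤ) ∣ z := fun h' => hq'.not_isUnit (hzx.isUnit_of_dvd' h' hqx)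
    -- `q ∣ a`
    have hqa : (q : ℤ) ∣ a := by
      have h1 : (b : ZMod q) ^ p + (c : ZMod q) ^ p + ((-a : ℤ) : ZMod q) ^ p = 0 := by
        have h2 : b ^ p + c ^ p + (-a) ^ p = 2 * x := by
          rw [hp.neg_pow, ← ha, ← hb, ← hc]; ring
        have h3 : ((b ^ p + c ^ p + (-a) ^ p : ℤ) : ZMod q) = 0 := by
          rw [h2, ZMod.intCast_zmod_eq_zero_iff_dvd]
          exact hqx.mul_left _
        exact_mod_cast h3
      rcases H1 _ _ _ h1 with h2 | h2 | h2
      · exfalso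
        rw [ZMod.intCast_zmod_eq_zero_iff_dvd] at h2
        apply hqy
        rw [hy]
        exact (dvd_neg.mpr (h2.mul_right _))
      · exfalso
        rw [ZMod.intCast_zmod_eq_zero_iff_dvd] at h2
        apply hqz
        rw [hz]
        exact (dvd_neg.mpr (h2.mul_right _))
      · rw [ZMod.intCast_zmod_eq_zero_iff_dvd] at h2
        exact dvd_neg.mp h2
    have hyz' : (q : ℤ) ∣ y + z := by
      rw [ha]; exact hqa.trans (dvd_pow_self _ hpp.ne_zero)
    -- `α ^ p ≡ p * y ^ (p-1)`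
    have h1 : (q : ℤ) ∣ α ^ p - p * y ^ (p - 1) := hα ▸ cof_modEq hyz'
    have h2 : (q : ℤ) ∣ γ ^ p - y ^ (p - 1) := hγ ▸ cof_modEq' hp hqx
    have h3 : (α : ZMod q) ^ p = p * (y : ZMod q) ^ (p - 1) := by
      have := (ZMod.intCast_zmod_eq_zero_iff_dvd _ q).mpr h1
      push_cast at this
      exact sub_eq_zero.mp this
    have h4 : (γ : ZMod q) ^ p = (y : ZMod q) ^ (p - 1) := by
      have := (ZMod.intCast_zmod_eq_zero_iff_dvd _ q).mpr h2
      push_cast at this
      exact sub_eq_zero.mp this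
    have : Fact q.Prime := ⟨hq⟩
    have hγ0 : (γ : ZMod q) ≠ 0 := by
      intro h5
      rw [ZMod.intCast_zmod_eq_zero_iff_dvd] at h5
      apply hqz
      rw [hz]
      exact (dvd_neg.mpr (h5.mul_left _))
    apply H2 ((α : ZMod q) / γ)
    rw [div_pow, h3, ← h4, mul_div_assoc, div_self (pow_ne_zero _ hγ0), mul_one]
  have h0 : (x : ZMod q) ^ p + (y : ZMod q) ^ p + (z : ZMod q) ^ p = 0 := by
    have : ((x ^ p + y ^ p + z ^ p : ℤ) : ZMod q) = 0 := by rw [h]; simp
    exact_mod_cast this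
  rcases H1 _ _ _ h0 with h1 | h1 | h1
  · rw [ZMod.intCast_zmod_eq_zero_iff_dvd] at h1
    exact core x y z h hxy hyz hzx hpx hpy hpz h1
  · rw [ZMod.intCast_zmod_eq_zero_iff_dvd] at h1
    exact core y z x (by linear_combination h) hyz hzx hxy hpy hpz hpx h1
  · rw [ZMod.intCast_zmod_eq_zero_iff_dvd] at h1
    exact core z x y (by linear_combination h) hzx hxy hyz hpz hpx hpy h1

lemma pow_values_11 : ∀ x : ZMod 11, x = 0 ∨ x ^ 5 = 1 ∨ x ^ 5 = -1 := by decide

lemma pow_values_29 : ∀ x : ZMod 29, x = 0 ∨ x ^ 7 = 1 ∨ x ^ 7 = -1 ∨ x ^ 7 = 12 ∨ x ^ 7 = -12 := by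
  decide

lemma pow_values_23 : ∀ x : ZMod 23, x = 0 ∨ x ^ 11 = 1 ∨ x ^ 11 = -1 := by decide

lemma pow_values_53 : ∀ x : ZMod 53,
    x = 0 ∨ x ^ 13 = 1 ∨ x ^ 13 = -1 ∨ x ^ 13 = 23 ∨ x ^ 13 = -23 := by
  decide

/-- Case I of Fermat's Last Theorem for exponents 5, 7, 11, 13. -/
theorem caseI (p : ℕ) (hp : p = 5 ∨ p = 7 ∨ p = 11 ∨ p = 13) (x y z : ℤ)
    (h : x ^ p + y ^ p + z ^ p = 0) (hxy : IsCoprime x y) (hyz : IsCoprime y z)
    (hzx : IsCoprime z x) : (p : ℤ) ∣ x * y * z := by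
  rcases hp with rfl | rfl | rfl | rfl
  · refine sophie_germain (q := 11) (by norm_num) (by decide) (by norm_num) ?_ ?_ h hxy hyz hzx
    · intro x y z hxyz
      by_contra hcon
      push Not at hcon
      obtain ⟨hx, hy, hz⟩ := hcon
      rcases (pow_values_11 x).resolve_left hx with h1 | h1 <;>
      rcases (pow_values_11 y).resolve_left hy with h2 | h2 <;>
      rcases (pow_values_11 z).resolve_left hz with h3 | h3 <;>
      rw [h1, h2, h3] at hxyz <;> revert hxyz <;> decide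
    · decide
  · refine sophie_germain (q := 29) (by norm_num) (by decide) (by norm_num) ?_ ?_ h hxy hyz hzx
    · intro x y z hxyz
      by_contra hcon
      push Not at hcon
      obtain ⟨hx, hy, hz⟩ := hcon
      rcases (pow_values_29 x).resolve_left hx with h1 | h1 | h1 | h1 <;>
      rcases (pow_values_29 y).resolve_left hy with h2 | h2 | h2 | h2 <;>
      rcases (pow_values_29 z).resolve_left hz with h3 | h3 | h3 | h3 <;>
      rw [h1, h2, h3] at hxyz <;> revert hxyz <;> decide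
    · decide
  · refine sophie_germain (q := 23) (by norm_num) (by decide) (by norm_num) ?_ ?_ h hxy hyz hzx
    · intro x y z hxyz
      by_contra hcon
      push Not at hcon
      obtain ⟨hx, hy, hz⟩ := hcon
      rcases (pow_values_23 x).resolve_left hx with h1 | h1 <;>
      rcases (pow_values_23 y).resolve_left hy with h2 | h2 <;>
      rcases (pow_values_23 z).resolve_left hz with h3 | h3 <;>
      rw [h1, h2, h3] at hxyz <;> revert hxyz <;> decide
    · decide
  · refine sophie_germain (q := 53) (by norm_num) (by decide) (by norm_num) ?_ ?_ h hxy hyz hzx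
    · intro x y z hxyz
      by_contra hcon
      push Not at hcon
      obtain ⟨hx, hy, hz⟩ := hcon
      rcases (pow_values_53 x).resolve_left hx with h1 | h1 | h1 | h1 <;>
      rcases (pow_values_53 y).resolve_left hy with h2 | h2 | h2 | h2 <;>
      rcases (pow_values_53 z).resolve_left hz with h3 | h3 | h3 | h3 <;>
      rw [h1, h2, h3] at hxyz <;> revert hxyz <;> decide
    · decide

end Fermat.Agent.H11
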