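import Mathlib

/-!
# Tools for proving that the ring of integers of `ℚ(ζ_n)` is a PID, `n` prime
-/

set_option autoImplicit false

namespace Fermat.Agent.H11

open NumberField Ideal Polynomial Module InfinitePlace
open scoped Real

section principal

variable (n q : ℕ) [hn : Fact n.Prime] [hq : Fact q.Prime]
  (K : Type*) [Field K] [NumberField K] [hK : IsCyclotomicExtension {n} ℚ K]

include hn hq hK in
/-- A degree one prime `(q, ζ - a)` is principal as soon as it has an explicit generator. -/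
theorem exists_principal_deg_one (a : ℤ) (α β γ δ ε : ℤ[X])
    (ha : (q : ℤ) ∣ (cyclotomic n ℤ).eval a) (hα : (q : ℤ) ∣ α.eval a)
    (h1 : α * β = C (q : ℤ) + cyclotomic n ℤ * δ)
    (h2 : α * γ = X - C a + cyclotomic n ℤ * ε) :
    ∃ P ∈ primesOver (span {(q : ℤ)}) (𝓞 K), Submodule.IsPrincipal P := by
  have : NeZero n := ⟨hn.out.ne_zero⟩
  have hζ := IsCyclotomicExtension.zeta_spec n ℚ K
  set z : 𝓞 K := hζ.toInteger with hz
  have hzp : IsPrimitiveRoot z n := hζ.toInteger_isPrimitiveRoot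
  have hzc : aeval z (cyclotomic n ℤ) = 0 := by
    have h := hzp.isRoot_cyclotomic (NeZero.pos n)
    rw [← map_cyclotomic_int n (𝓞 K), IsRoot.def, eval_map] at h
    exact h
  have hmin : minpoly ℤ z = cyclotomic n ℤ := by
    rw [cyclotomic_eq_minpoly hζ (NeZero.pos n), ← hζ.coe_toInteger, ← RingOfIntegers.minpoly_coe z,
      hz]
    rfl
  -- evaluation at `a` modulo `q`
  have haq : aeval ((a : ℤ) : ZMod q) (minpoly ℤ hζ.integralPowerBasis.gen) = 0 := by
    rw [hζ.integralPowerBasis_gen, hmin]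
    have : aeval ((a : ℤ) : ZMod q) (cyclotomic n ℤ) = (((cyclotomic n ℤ).eval a : ℤ) : ZMod q) := by
      have := Polynomial.aeval_algebraMap_apply (ZMod q) a (cyclotomic n ℤ)
      simpa using this
    rw [this]
    exact (ZMod.intCast_zmod_eq_zero_iff_dvd _ _).mpr ha
  let ψ : 𝓞 K →ₐ[ℤ] ZMod q := hζ.integralPowerBasis.lift ((a : ℤ) : ZMod q) haq
  have hψz : ψ z = ((a : ℤ) : ZMod q) := by
    have := hζ.integralPowerBasis.lift_gen ((a : ℤ) : ZMod q) haq
    rwa [hζ.integralPowerBasis_gen] at this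
  have hψ : ∀ f : ℤ[X], ψ (aeval z f) = ((f.eval a : ℤ) : ZMod q) := by
    intro f
    rw [← Polynomial.aeval_algHom_apply, hψz]
    have := Polynomial.aeval_algebraMap_apply (ZMod q) a f
    simpa using this
  let P : Ideal (𝓞 K) := RingHom.ker ψ
  have hPp : P.IsPrime := RingHom.ker_isPrime ψ
  have hPover : P.LiesOver (span {(q : ℤ)}) := by
    rw [liesOver_iff]
    ext x
    rw [Ideal.mem_comap, RingHom.mem_ker, Ideal.mem_span_singleton]
    rw [show ψ ((algebraMap ℤ (𝓞 K)) x) = algebraMap ℤ (ZMod q) x from ψ.commutes x]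
    rw [eq_intCast, ZMod.intCast_zmod_eq_zero_iff_dvd]
  refine ⟨P, ⟨hPp, hPover⟩, ⟨⟨aeval z α, ?_⟩⟩⟩
  apply le_antisymm
  · intro x hx
    have hx' : ψ x = 0 := hx
    have hxtop : x ∈ Algebra.adjoin ℤ {z} := by
      rw [IsCyclotomicExtension.Rat.adjoin_singleton_eq_top hζ]; trivial
    obtain ⟨f, rfl⟩ : ∃ f : ℤ[X], aeval z f = x := by
      rw [Algebra.adjoin_singleton_eq_range_aeval] at hxtop
      exact hxtop
    rw [hψ, ZMod.intCast_zmod_eq_zero_iff_dvd] at hx'
    have hq1 : aeval z α ∣ ((q : ℤ) : 𝓞 K) := by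
      refine ⟨aeval z β, ?_⟩
      rw [← map_mul, h1]
      simp [hzc]
    have hq2 : aeval z α ∣ z - ((a : ℤ) : 𝓞 K) := by
      refine ⟨aeval z γ, ?_⟩
      rw [← map_mul, h2]
      simp [hzc]
    change aeval z f ∈ Ideal.span {aeval z α}
    rw [Ideal.mem_span_singleton]
    have h3 : aeval z f = (aeval z f - ((f.eval a : ℤ) : 𝓞 K)) + ((f.eval a : ℤ) : 𝓞 K) := by ring
    rw [h3]
    apply dvd_add
    · refine hq2.trans ?_
      have h4 := Polynomial.sub_dvd_eval_sub z ((a : ℤ) : 𝓞 K) (f.map (Int.castRingHom (𝓞 K)))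
      have h5 : eval ((a : ℤ) : 𝓞 K) (f.map (Int.castRingHom (𝓞 K))) = ((f.eval a : ℤ) : 𝓞 K) := by
        simp
      have h6 : eval z (f.map (Int.castRingHom (𝓞 K))) = aeval z f := by
        rw [eval_map]; rfl
      rwa [h5, h6] at h4
    · refine hq1.trans ?_
      obtain ⟨k, hk⟩ := hx'
      rw [hk]
      exact ⟨(k : 𝓞 K), by push_cast; ring⟩
  · change Ideal.span {aeval z α} ≤ P
    rw [Ideal.span_singleton_le_iff_mem]
    change ψ (aeval z α) = 0
    rw [hψ]
    exact (ZMod.intCast_zmod_eq_zero_iff_dvd _ _).mpr hα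

include hn in
/-- The PID criterion for cyclotomic fields of prime conductor. -/
theorem pid_criterion (B : ℕ)
    (hB : (4 / π) ^ nrComplexPlaces K * ((finrank ℚ K).factorial / (finrank ℚ K) ^ (finrank ℚ K) *
      √|discr K|) < (B : ℝ) + 1)
    (H : ∀ q f : ℕ, q.Prime → 0 < f → q ≤ B → q ^ f ≤ B → q ^ f % n = 1 → q ≠ n →
      f = orderOf (q : ZMod n) → ∃ P ∈ primesOver (span {(q : ℤ)}) (𝓞 K), Submodule.IsPrincipal P) :
    IsPrincipalIdealRing (𝓞 K) := by
  have : NeZero n := ⟨hn.out.ne_zero⟩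
  have : IsGalois ℚ K := IsCyclotomicExtension.isGalois {n} ℚ K
  have hζ := IsCyclotomicExtension.zeta_spec n ℚ K
  have hfl : ⌊(4 / π) ^ nrComplexPlaces K * ((finrank ℚ K).factorial / (finrank ℚ K) ^ (finrank ℚ K) *
      √|discr K|)⌋₊ ≤ B := by
    refine Nat.lt_succ_iff.mp ?_
    refine (Nat.floor_lt' (by omega)).mpr ?_
    push_cast
    exact hB
  apply RingOfIntegers.isPrincipalIdealRing_of_isPrincipal_of_lt_or_isPrincipal_of_mem_primesOver_of_mem_Icc
  intro q hqm hqp
  have hqB : q ≤ B := (Finset.mem_Icc.mp hqm).2.trans hfl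
  have : Fact q.Prime := ⟨hqp⟩
  by_cases hqn : q = n
  · subst hqn
    have h1 : (span {hζ.toInteger - 1}).IsPrime := IsCyclotomicExtension.Rat.isPrime_span_zeta_sub_one' q hζ
    refine ⟨span {hζ.toInteger - 1}, ⟨h1, ?_⟩, Or.inr ⟨⟨_, rfl⟩⟩⟩
    rw [liesOver_iff]
    refine IsMaximal.eq_of_le (Int.ideal_span_isMaximal_of_prime q) IsPrime.ne_top' ?_
    rw [span_singleton_le_iff_mem, mem_comap, Ideal.mem_span_singleton]
    exact (IsCyclotomicExtension.Rat.zeta_sub_one_dvd_intCast_iff' q hζ).mpr dvd_rfl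
  · by_cases hle : q ^ orderOf (q : ZMod n) ≤ B
    · have hcop : Nat.Coprime q n := (Nat.coprime_primes hqp hn.out).mpr hqn
      have hu : IsUnit (q : ZMod n) := by
        rw [ZMod.isUnit_iff_coprime]; exact hcop
      have hpos : 0 < orderOf (q : ZMod n) := by
        have := orderOf_pos (ZMod.unitOfCoprime q hcop)
        rwa [← orderOf_units] at this
      have hmod : q ^ orderOf (q : ZMod n) % n = 1 := by
        have h2 : ((q ^ orderOf (q : ZMod n) : ℕ) : ZMod n) = ((1 : ℕ) : ZMod n) := by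
          push_cast
          exact pow_orderOf_eq_one _
        have h3 := (ZMod.natCast_eq_natCast_iff _ _ _).mp h2
        have h4 : 1 % n = 1 := Nat.mod_eq_of_lt hn.out.one_lt
        rw [Nat.ModEq, h4] at h3
        exact h3
      obtain ⟨P, hP, hP'⟩ := H q _ hqp hpos hqB hle hmod hqn rfl
      exact ⟨P, hP, Or.inr hP'⟩
    · obtain ⟨⟨P, hP1, hP2⟩⟩ := (span {(q : ℤ)}).nonempty_primesOver (S := 𝓞 K)
      refine ⟨P, ⟨hP1, hP2⟩, Or.inl ?_⟩
      rw [IsCyclotomicExtension.Rat.inertiaDeg_eq_of_not_dvd q K P (m := n) ?_]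
      · exact lt_of_le_of_lt hfl (not_le.mp hle)
      · intro hd
        exact hqn ((Nat.prime_dvd_prime_iff_eq hqp hn.out).mp hd)

end principal

end Fermat.Agent.H11
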