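import Mathlib
import Fermat.Agent.H11_PIDBasic

/-!
# `ℤ[ζ₇]` and `ℤ[ζ₁₁]` are principal ideal domains
-/

set_option autoImplicit false

namespace Fermat.Agent.H11

open NumberField Ideal Polynomial Module InfinitePlace
open scoped Real

variable (K : Type*) [Field K] [NumberField K]

theorem seven_pid [hK : IsCyclotomicExtension {7} ℚ K] : IsPrincipalIdealRing (𝓞 K) := by
  have : Fact (Nat.Prime 7) := ⟨by norm_num⟩
  apply pid_criterion 7 K 6
  · rw [IsCyclotomicExtension.Rat.discr_prime 7 K, IsCyclotomicExtension.finrank (n := 7) K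
      (cyclotomic.irreducible_rat (by simp)),
      IsCyclotomicExtension.Rat.nrComplexPlaces_eq_totient_div_two 7,
      Nat.totient_prime (by norm_num)]
    norm_num [Nat.factorial]
    have hπ : (4 / π) < 4 / 3.14 := by
      apply div_lt_div_of_pos_left (by norm_num) (by norm_num) Real.pi_gt_d2
    have hπ0 : 0 < 4 / π := by positivity
    have hs : √16807 < 130 := by
      rw [Real.sqrt_lt' (by norm_num)]; norm_num
    have hs0 : 0 ≤ √(16807 : ℝ) := Real.sqrt_nonneg _
    calc (4 / π) ^ 3 * (5 / 324 * √16807) ≤ (4 / 3.14) ^ 3 * (5 / 324 * 130) := by gcongr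
      _ < 7 := by norm_num
  · intro q f hq hf hqB hle hmod hqn hord
    exfalso
    have h1 : 2 ≤ q ^ f := by
      calc 2 ≤ q := hq.two_le
        _ = q ^ 1 := (pow_one q).symm
        _ ≤ q ^ f := Nat.pow_le_pow_right hq.pos hf
    omega

theorem eleven_pid [hK : IsCyclotomicExtension {11} ℚ K] : IsPrincipalIdealRing (𝓞 K) := by
  have : Fact (Nat.Prime 11) := ⟨by norm_num⟩
  apply pid_criterion 11 K 66
  · rw [IsCyclotomicExtension.Rat.discr_prime 11 K, IsCyclotomicExtension.finrank (n := 11) K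
      (cyclotomic.irreducible_rat (by simp)),
      IsCyclotomicExtension.Rat.nrComplexPlaces_eq_totient_div_two 11,
      Nat.totient_prime (by norm_num)]
    norm_num [Nat.factorial]
    have hπ : (4 / π) < 4 / 3.14 := by
      apply div_lt_div_of_pos_left (by norm_num) (by norm_num) Real.pi_gt_d2
    have hπ0 : 0 < 4 / π := by positivity
    have hs : √2357947691 < 48559 := by
      rw [Real.sqrt_lt' (by norm_num)]; norm_num
    have hs0 : 0 ≤ √(2357947691 : ℝ) := Real.sqrt_nonneg _
    calc (4 / π) ^ 5 * (567 / 1562500 * √2357947691)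
        ≤ (4 / 3.14) ^ 5 * (567 / 1562500 * 48559) := by gcongr
      _ < 67 := by norm_num
  · intro q f hq hf hqB hle hmod hqn hord
    have h1 : 2 ≤ q ^ f := by
      calc 2 ≤ q := hq.two_le
        _ = q ^ 1 := (pow_one q).symm
        _ ≤ q ^ f := Nat.pow_le_pow_right hq.pos hf
    have hq23 : q = 23 := by
      have h2 : q ^ f = 12 ∨ q ^ f = 23 ∨ q ^ f = 34 ∨ q ^ f = 45 ∨ q ^ f = 56 := by omega
      have h3 : (q ^ f).primeFactors = {q} := Nat.primeFactors_prime_pow hf.ne' hq
      have key : ∀ r s m : ℕ, r.Prime → s.Prime → r ≠ s → r ∣ m → s ∣ m → q ^ f ≠ m := by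
        intro r s m hr hs hrs hrm hsm hm
        have h4 : r = q := (Nat.prime_dvd_prime_iff_eq hr hq).mp (hr.dvd_of_dvd_pow (hm ▸ hrm))
        have h5 : s = q := (Nat.prime_dvd_prime_iff_eq hs hq).mp (hs.dvd_of_dvd_pow (hm ▸ hsm))
        exact hrs (h4.trans h5.symm)
      rcases h2 with h2 | h2 | h2 | h2 | h2
      · exact absurd h2 (key 2 3 _ (by norm_num) (by norm_num) (by norm_num) (by norm_num)
          (by norm_num))
      · have h4 : q ∣ 23 := by rw [← h2]; exact dvd_pow_self q hf.ne'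
        exact (Nat.prime_dvd_prime_iff_eq hq (by norm_num)).mp h4
      · exact absurd h2 (key 2 17 _ (by norm_num) (by norm_num) (by norm_num) (by norm_num)
          (by norm_num))
      · exact absurd h2 (key 3 5 _ (by norm_num) (by norm_num) (by norm_num) (by norm_num)
          (by norm_num))
      · exact absurd h2 (key 2 7 _ (by norm_num) (by norm_num) (by norm_num) (by norm_num)
          (by norm_num))
    subst hq23
    have : Fact (Nat.Prime 23) := ⟨by norm_num⟩
    refine exists_principal_deg_one 11 23 K 2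
      (1 + X - X ^ 8)
      (8 - 11 * X - 9 * X ^ 2 - 8 * X ^ 3 + 4 * X ^ 4 - 13 * X ^ 5 - 10 * X ^ 6 + 3 * X ^ 7
        - 2 * X ^ 8 - 16 * X ^ 9)
      (2 * X + X ^ 2 + X ^ 3 + 2 * X ^ 5 + X ^ 6 + X ^ 8 + 2 * X ^ 9)
      (-15 + 12 * X - 17 * X ^ 2 + 3 * X ^ 3 + 13 * X ^ 4 - 5 * X ^ 5 - 14 * X ^ 6 + 16 * X ^ 7)
      (2 - X + 2 * X ^ 2 - X ^ 3 - X ^ 4 + X ^ 5 + X ^ 6 - 2 * X ^ 7) ?_ ?_ ?_ ?_
    · rw [cyclotomic_prime]
      simp only [eval_finsetSum, eval_pow, eval_X, Finset.sum_range_succ, Finset.sum_range_zero]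
      norm_num
    · simp
    · rw [cyclotomic_prime]
      simp only [Finset.sum_range_succ, Finset.sum_range_zero]
      have : (C ((23 : ℕ) : ℤ) : ℤ[X]) = 23 := by simp
      rw [this]
      ring
    · rw [cyclotomic_prime]
      simp only [Finset.sum_range_succ, Finset.sum_range_zero]
      have : (C (2 : ℤ) : ℤ[X]) = 2 := by simp
      rw [this]
      ring

end Fermat.Agent.H11
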