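import Mathlib
import Fermat.Agent.H11_PIDBasic

/-!
# `ℤ[ζ₁₃]` is a principal ideal domain
-/

set_option autoImplicit false

namespace Fermat.Agent.H11

open NumberField Ideal Polynomial Module InfinitePlace
open scoped Real

variable (K : Type*) [Field K] [NumberField K]

/-- The prime above `3` in `ℚ(ζ₁₃)` is principal. -/
theorem exists_principal_three [hK : IsCyclotomicExtension {13} ℚ K] :
    ∃ P ∈ primesOver (span {((3 : ℕ) : ℤ)}) (𝓞 K), Submodule.IsPrincipal P := by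
  have : Fact (Nat.Prime 13) := ⟨by norm_num⟩
  have h3f : Fact (Nat.Prime 3) := ⟨by norm_num⟩
  have hirr : Irreducible (cyclotomic 13 ℚ) := cyclotomic.irreducible_rat (by norm_num)
  have hζ := IsCyclotomicExtension.zeta_spec 13 ℚ K
  set ζ : K := IsCyclotomicExtension.zeta 13 ℚ K with hζdef
  have h13 : ζ ^ 13 = 1 := hζ.pow_eq_one
  have hsum : 1 + ζ + ζ ^ 2 + ζ ^ 3 + ζ ^ 4 + ζ ^ 5 + ζ ^ 6 + ζ ^ 7 + ζ ^ 8 + ζ ^ 9 + ζ ^ 10
      + ζ ^ 11 + ζ ^ 12 = 0 := by
    have h := hζ.geom_sum_eq_zero (by norm_num)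
    simp only [Finset.sum_range_succ, Finset.sum_range_zero] at h
    linear_combination h
  let z : 𝓞 K := hζ.toInteger
  let α : 𝓞 K := z + z ^ 3 + z ^ 9
  have hα : (α : K) = ζ + ζ ^ 3 + ζ ^ 9 := by
    simp [α, z]
  -- norms of conjugates
  have hconj : ∀ k : ℕ, Nat.Coprime k 13 →
      Algebra.norm ℚ (ζ ^ k + (ζ ^ k) ^ 3 + (ζ ^ k) ^ 9) = Algebra.norm ℚ (α : K) := by
    intro k hk
    have hμ : IsPrimitiveRoot (ζ ^ k) 13 := hζ.pow_of_coprime k hk
    let σ := IsCyclotomicExtension.fromZetaAut hμ hirr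
    have hσ : σ ζ = ζ ^ k := IsCyclotomicExtension.fromZetaAut_spec hμ hirr
    have : ζ ^ k + (ζ ^ k) ^ 3 + (ζ ^ k) ^ 9 = σ (α : K) := by
      rw [hα, map_add, map_add, map_pow, map_pow, hσ]
    rw [this]
    exact Algebra.norm_eq_of_algEquiv σ (α : K)
  have hprod : (α : K) * (ζ ^ 2 + (ζ ^ 2) ^ 3 + (ζ ^ 2) ^ 9) * (ζ ^ 4 + (ζ ^ 4) ^ 3 + (ζ ^ 4) ^ 9)
      * (ζ ^ 8 + (ζ ^ 8) ^ 3 + (ζ ^ 8) ^ 9) = 3 := by
    have e1 : (ζ ^ 2) ^ 9 = ζ ^ 5 := by linear_combination ζ ^ 5 * h13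
    have e2 : (ζ ^ 4) ^ 3 = ζ ^ 12 := by ring
    have e3 : (ζ ^ 4) ^ 9 = ζ ^ 10 := by linear_combination ζ ^ 10 * (ζ ^ 13 + 1) * h13
    have e4 : (ζ ^ 8) ^ 3 = ζ ^ 11 := by linear_combination ζ ^ 11 * h13
    have e5 : (ζ ^ 8) ^ 9 = ζ ^ 7 := by
      linear_combination ζ ^ 7 * (ζ ^ 52 + ζ ^ 39 + ζ ^ 26 + ζ ^ 13 + 1) * h13
    have e6 : (ζ ^ 2) ^ 3 = ζ ^ 6 := by ring
    rw [hα, e1, e2, e3, e4, e5, e6]
    linear_combination (-3 + 3 * ζ - 3 * ζ ^ 13 + 4 * ζ ^ 14 + ζ ^ 17 + ζ ^ 18 - ζ ^ 19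
      + 2 * ζ ^ 20 - ζ ^ 21 + ζ ^ 22 + ζ ^ 23 + ζ ^ 26) * hsum
  have hfr : finrank ℚ K = 12 := by
    rw [IsCyclotomicExtension.finrank (n := 13) K hirr, Nat.totient_prime (by norm_num)]
  have hN4 : (Algebra.norm ℚ (α : K)) ^ 4 = 27 ^ 4 := by
    have h := congrArg (Algebra.norm ℚ) hprod
    rw [map_mul, map_mul, map_mul, hconj 2 (by norm_num), hconj 4 (by norm_num),
      hconj 8 (by norm_num)] at h
    have h3 : Algebra.norm ℚ (3 : K) = 3 ^ 12 := by
      have := Algebra.norm_algebraMap (S := K) (3 : ℚ)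
      rw [hfr] at this
      simpa using this
    rw [h3] at h
    linear_combination h
  have hNabs : (Algebra.norm ℤ α).natAbs = 27 := by
    have h1 : ((Algebra.norm ℤ α : ℤ) : ℚ) = Algebra.norm ℚ (α : K) := Algebra.coe_norm_int α
    rw [← h1] at hN4
    have h2 : (Algebra.norm ℤ α) ^ 4 = 27 ^ 4 := by exact_mod_cast hN4
    have h3 : (Algebra.norm ℤ α).natAbs ^ 4 = 27 ^ 4 := by
      rw [← Int.natAbs_pow, h2]; rfl
    exact Nat.pow_left_injective (n := 4) (by norm_num) h3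
  have hNspan : absNorm (span {α}) = 27 := by
    rw [absNorm_span_singleton, hNabs]
  have hne : span {α} ≠ ⊤ := by
    intro h
    rw [h, absNorm_top] at hNspan
    norm_num at hNspan
  obtain ⟨P, hPm, hPle⟩ := Ideal.exists_le_maximal _ hne
  have h27 : ((27 : ℕ) : 𝓞 K) ∈ P := by
    apply hPle
    rw [← hNspan]
    exact absNorm_mem _
  have h3P : (3 : 𝓞 K) ∈ P := by
    have h : ((27 : ℕ) : 𝓞 K) = 3 ^ 3 := by norm_num
    rw [h] at h27
    exact hPm.isPrime.mem_of_pow_mem _ h27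
  have hover : P.LiesOver (span {((3 : ℕ) : ℤ)}) := by
    rw [liesOver_iff]
    refine IsMaximal.eq_of_le (Int.ideal_span_isMaximal_of_prime 3) ?_ ?_
    · have := hPm.isPrime
      exact IsPrime.ne_top'
    rw [span_singleton_le_iff_mem, mem_comap]
    simpa using h3P
  have hPp := hPm.isPrime
  have hdeg : P.inertiaDeg ℤ = 3 := by
    rw [IsCyclotomicExtension.Rat.inertiaDeg_eq_of_not_dvd 3 K P (m := 13) (by norm_num)]
    rw [orderOf_eq_iff (by norm_num)]
    constructor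
    · decide
    · intro m hm hm0
      interval_cases m <;> decide
  have hPN : absNorm P = 27 := by
    rw [← Ideal.pow_inertiaDeg 3 P, hdeg]; norm_num
  refine ⟨P, ⟨hPp, hover⟩, ⟨⟨α, ?_⟩⟩⟩
  change P = span {α}
  obtain ⟨J, hJ⟩ := Ideal.dvd_iff_le.mpr hPle
  have hJ1 : absNorm J = 1 := by
    have h := hNspan
    rw [hJ, map_mul, hPN] at h
    omega
  rw [absNorm_eq_one_iff] at hJ1
  rw [hJ, hJ1, Ideal.mul_top]

theorem thirteen_pid [hK : IsCyclotomicExtension {13} ℚ K] : IsPrincipalIdealRing (𝓞 K) := by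
  have : Fact (Nat.Prime 13) := ⟨by norm_num⟩
  apply pid_criterion 13 K 312
  · rw [IsCyclotomicExtension.Rat.discr_prime 13 K, IsCyclotomicExtension.finrank (n := 13) K
      (cyclotomic.irreducible_rat (by simp)),
      IsCyclotomicExtension.Rat.nrComplexPlaces_eq_totient_div_two 13,
      Nat.totient_prime (by norm_num)]
    norm_num [Nat.factorial]
    have hπ : (4 / π) < 4 / 3.14 := by
      apply div_lt_div_of_pos_left (by norm_num) (by norm_num) Real.pi_gt_d2
    have hπ0 : 0 < 4 / π := by positivity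
    have hs : √1792160394037 < 1338720 := by
      rw [Real.sqrt_lt' (by norm_num)]; norm_num
    have hs0 : 0 ≤ √(1792160394037 : ℝ) := Real.sqrt_nonneg _
    calc (4 / π) ^ 6 * (1925 / 35831808 * √1792160394037)
        ≤ (4 / 3.14) ^ 6 * (1925 / 35831808 * 1338720) := by gcongr
      _ < 313 := by norm_num
  · intro q f hq hf hqB hle hmod hqn hord
    have h1 : 2 ≤ q ^ f := by
      calc 2 ≤ q := hq.two_le
        _ = q ^ 1 := (pow_one q).symm
        _ ≤ q ^ f := Nat.pow_le_pow_right hq.pos hf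
    have key : ∀ r s m : ℕ, r.Prime → s.Prime → r ≠ s → r ∣ m → s ∣ m → q ^ f ≠ m := by
      intro r s m hr hs hrs hrm hsm hm
      have h4 : r = q := (Nat.prime_dvd_prime_iff_eq hr hq).mp (hr.dvd_of_dvd_pow (hm ▸ hrm))
      have h5 : s = q := (Nat.prime_dvd_prime_iff_eq hs hq).mp (hs.dvd_of_dvd_pow (hm ▸ hsm))
      exact hrs (h4.trans h5.symm)
    have hq5 : q = 3 ∨ q = 53 ∨ q = 79 ∨ q = 131 ∨ q = 157 := by
      obtain ⟨k, hk⟩ : ∃ k, q ^ f = 13 * k + 1 := ⟨q ^ f / 13, by omega⟩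
      have hk1 : 1 ≤ k := by omega
      have hk2 : k ≤ 23 := by omega
      have hdvd : q ∣ q ^ f := dvd_pow_self q hf.ne'
      have key2 : ∀ m r : ℕ, r.Prime → q ^ f = m → r ∣ m → q = r := by
        intro m r hr hm hrm
        exact ((Nat.prime_dvd_prime_iff_eq hr hq).mp (hr.dvd_of_dvd_pow (hm ▸ hrm))).symm
      interval_cases k
      · exact absurd hk (key 2 7 _ (by norm_num) (by norm_num) (by norm_num) (by norm_num)
          (by norm_num))
      · exact Or.inl (key2 _ 3 (by norm_num) hk (by norm_num))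
      · exact absurd hk (key 2 5 _ (by norm_num) (by norm_num) (by norm_num) (by norm_num)
          (by norm_num))
      · exact Or.inr (Or.inl (key2 _ 53 (by norm_num) hk (by norm_num)))
      · exact absurd hk (key 2 3 _ (by norm_num) (by norm_num) (by norm_num) (by norm_num)
          (by norm_num))
      · exact Or.inr (Or.inr (Or.inl (key2 _ 79 (by norm_num) hk (by norm_num))))
      · exact absurd hk (key 2 23 _ (by norm_num) (by norm_num) (by norm_num) (by norm_num)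
          (by norm_num))
      · exact absurd hk (key 3 5 _ (by norm_num) (by norm_num) (by norm_num) (by norm_num)
          (by norm_num))
      · exact absurd hk (key 2 59 _ (by norm_num) (by norm_num) (by norm_num) (by norm_num)
          (by norm_num))
      · exact Or.inr (Or.inr (Or.inr (Or.inl (key2 _ 131 (by norm_num) hk (by norm_num)))))
      · exact absurd hk (key 2 3 _ (by norm_num) (by norm_num) (by norm_num) (by norm_num)
          (by norm_num))
      · exact Or.inr (Or.inr (Or.inr (Or.inr (key2 _ 157 (by norm_num) hk (by norm_num)))))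
      · exact absurd hk (key 2 5 _ (by norm_num) (by norm_num) (by norm_num) (by norm_num)
          (by norm_num))
      · exact absurd hk (key 3 61 _ (by norm_num) (by norm_num) (by norm_num) (by norm_num)
          (by norm_num))
      · exact absurd hk (key 2 7 _ (by norm_num) (by norm_num) (by norm_num) (by norm_num)
          (by norm_num))
      · exact absurd hk (key 11 19 _ (by norm_num) (by norm_num) (by norm_num) (by norm_num)
          (by norm_num))
      · exact absurd hk (key 2 3 _ (by norm_num) (by norm_num) (by norm_num) (by norm_num)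
          (by norm_num))
      · exact absurd hk (key 5 47 _ (by norm_num) (by norm_num) (by norm_num) (by norm_num)
          (by norm_num))
      · exact absurd hk (key 2 31 _ (by norm_num) (by norm_num) (by norm_num) (by norm_num)
          (by norm_num))
      · exact absurd hk (key 3 29 _ (by norm_num) (by norm_num) (by norm_num) (by norm_num)
          (by norm_num))
      · exact absurd hk (key 2 137 _ (by norm_num) (by norm_num) (by norm_num) (by norm_num)
          (by norm_num))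
      · exact absurd hk (key 7 41 _ (by norm_num) (by norm_num) (by norm_num) (by norm_num)
          (by norm_num))
      · exact absurd hk (key 2 3 _ (by norm_num) (by norm_num) (by norm_num) (by norm_num)
          (by norm_num))
    rcases hq5 with rfl | rfl | rfl | rfl | rfl
    · exact exists_principal_three K
    · have : Fact (Nat.Prime 53) := ⟨by norm_num⟩
      refine exists_principal_deg_one 13 53 K 10
        (1 + X + X ^ 5)
        (-8 - 30 * X - 11 * X ^ 2 - 25 * X ^ 3 - 37 * X ^ 4 - 17 * X ^ 5 - 15 * X ^ 6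
          - 36 * X ^ 7 - X ^ 8 - 24 * X ^ 9 - 21 * X ^ 10 - 26 * X ^ 11)
        (2 + 6 * X + 2 * X ^ 2 + 5 * X ^ 3 + 7 * X ^ 4 + 3 * X ^ 5 + 3 * X ^ 6 + 7 * X ^ 7
          + 5 * X ^ 9 + 4 * X ^ 10 + 5 * X ^ 11)
        (-61 + 23 * X - 3 * X ^ 2 + 5 * X ^ 3 - 26 * X ^ 4)
        (12 - 5 * X + X ^ 2 - X ^ 3 + 5 * X ^ 4) ?_ ?_ ?_ ?_
      · rw [cyclotomic_prime]
        norm_num [Finset.sum_range_succ, Finset.sum_range_zero]
      · norm_num
      · rw [cyclotomic_prime]
        simp only [Finset.sum_range_succ, Finset.sum_range_zero]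
        have : (C ((53 : ℕ) : ℤ) : ℤ[X]) = 53 := by simp
        rw [this]
        ring
      · rw [cyclotomic_prime]
        simp only [Finset.sum_range_succ, Finset.sum_range_zero]
        have : (C (10 : ℤ) : ℤ[X]) = 10 := by simp
        rw [this]
        ring
    · have : Fact (Nat.Prime 79) := ⟨by norm_num⟩
      refine exists_principal_deg_one 13 79 K 8
        (1 + X ^ 2 - X ^ 8)
        (29 + 3 * X - 20 * X ^ 2 - 13 * X ^ 3 - 22 * X ^ 4 - 33 * X ^ 5 + 15 * X ^ 6
          + 21 * X ^ 7 + 2 * X ^ 8 - 30 * X ^ 9 - 34 * X ^ 10 + 5 * X ^ 11)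
        (-3 + 2 * X ^ 2 + X ^ 3 + 2 * X ^ 4 + 3 * X ^ 5 - 2 * X ^ 6 - 2 * X ^ 7 + 3 * X ^ 9
          + 3 * X ^ 10 - X ^ 11)
        (-50 + 53 * X + 6 * X ^ 2 - 19 * X ^ 3 - 32 * X ^ 4 - 4 * X ^ 5 + 39 * X ^ 6 - 5 * X ^ 7)
        (5 - 6 * X + 2 * X ^ 3 + 3 * X ^ 4 - 4 * X ^ 6 + X ^ 7) ?_ ?_ ?_ ?_
      · rw [cyclotomic_prime]
        norm_num [Finset.sum_range_succ, Finset.sum_range_zero]
      · norm_num
      · rw [cyclotomic_prime]
        simp only [Finset.sum_range_succ, Finset.sum_range_zero]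
        have : (C ((79 : ℕ) : ℤ) : ℤ[X]) = 79 := by simp
        rw [this]
        ring
      · rw [cyclotomic_prime]
        simp only [Finset.sum_range_succ, Finset.sum_range_zero]
        have : (C (8 : ℤ) : ℤ[X]) = 8 := by simp
        rw [this]
        ring
    · have : Fact (Nat.Prime 131) := ⟨by norm_num⟩
      refine exists_principal_deg_one 13 131 K 39
        (1 - X ^ 2 - X ^ 6)
        (65 + 23 * X + 32 * X ^ 2 + 2 * X ^ 3 - 29 * X ^ 4 - 13 * X ^ 5 + 21 * X ^ 6 - 5 * X ^ 7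
          + 38 * X ^ 8 - 18 * X ^ 9 - 6 * X ^ 10 - 46 * X ^ 11)
        (-19 - 6 * X - 9 * X ^ 2 + 9 * X ^ 4 + 4 * X ^ 5 - 6 * X ^ 6 + 2 * X ^ 7 - 11 * X ^ 8
          + 6 * X ^ 9 + 2 * X ^ 10 + 14 * X ^ 11)
        (-66 + 89 * X - 56 * X ^ 2 + 12 * X ^ 3 - 40 * X ^ 4 + 46 * X ^ 5)
        (20 - 27 * X + 17 * X ^ 2 - 4 * X ^ 3 + 12 * X ^ 4 - 14 * X ^ 5) ?_ ?_ ?_ ?_
      · rw [cyclotomic_prime]
        norm_num [Finset.sum_range_succ, Finset.sum_range_zero]
      · norm_num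
      · rw [cyclotomic_prime]
        simp only [Finset.sum_range_succ, Finset.sum_range_zero]
        have : (C ((131 : ℕ) : ℤ) : ℤ[X]) = 131 := by simp
        rw [this]
        ring
      · rw [cyclotomic_prime]
        simp only [Finset.sum_range_succ, Finset.sum_range_zero]
        have : (C (39 : ℤ) : ℤ[X]) = 39 := by simp
        rw [this]
        ring
    · have : Fact (Nat.Prime 157) := ⟨by norm_num⟩
      refine exists_principal_deg_one 13 157 K 14
        (1 + X + X ^ 3 + X ^ 10)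
        (-41 - 100 * X - 93 * X ^ 2 - 14 * X ^ 3 - 42 * X ^ 4 - 44 * X ^ 5 - 89 * X ^ 6
          - 81 * X ^ 7 - 58 * X ^ 8 - 90 * X ^ 9 - 25 * X ^ 10 - 54 * X ^ 11)
        (4 + 9 * X + 8 * X ^ 2 + X ^ 3 + 4 * X ^ 4 + 4 * X ^ 5 + 8 * X ^ 6 + 7 * X ^ 7
          + 5 * X ^ 8 + 8 * X ^ 9 + 2 * X ^ 10 + 5 * X ^ 11)
        (-198 + 57 * X - 52 * X ^ 2 + 45 * X ^ 3 - 8 * X ^ 4 - 23 * X ^ 5 + 32 * X ^ 6
          - 65 * X ^ 7 + 29 * X ^ 8 - 54 * X ^ 9)
        (18 - 6 * X + 5 * X ^ 2 - 4 * X ^ 3 + X ^ 4 + 2 * X ^ 5 - 3 * X ^ 6 + 6 * X ^ 7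
          - 3 * X ^ 8 + 5 * X ^ 9) ?_ ?_ ?_ ?_
      · rw [cyclotomic_prime]
        norm_num [Finset.sum_range_succ, Finset.sum_range_zero]
      · norm_num
      · rw [cyclotomic_prime]
        simp only [Finset.sum_range_succ, Finset.sum_range_zero]
        have : (C ((157 : ℕ) : ℤ) : ℤ[X]) = 157 := by simp
        rw [this]
        ring
      · rw [cyclotomic_prime]
        simp only [Finset.sum_range_succ, Finset.sum_range_zero]
        have : (C (14 : ℤ) : ℤ[X]) = 14 := by simp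
        rw [this]
        ring

end Fermat.Agent.H11
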