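import Fermat.Statements.S10
import Fermat.Agent.H10.Assemble

set_option autoImplicit false
open WeierstrassCurve WeierstrassCurve.Affine WeierstrassCurve.Affine.Point
open CuspForm ModularFormClass UpperHalfPlane
open FreyPackage

namespace Fermat.Agent.S10

theorem result (P : FreyPackage) (hp : P.p = 5 ∨ P.p = 7 ∨ P.p = 13) : ¬ HasGaloisStableCofixedLine (K := AlgebraicClosure ℚ) ℚ P.freyCurve P.p := by
  intro _
  refine Fermat.Agent.H10.flt_small P.p (by rcases hp with h | h | h <;> simp [h]) P.ha0 P.hb0 P.hc0 ?_ ?_ ?_ P.hFLT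
  · exact (gcd_isUnit_iff _ _).mp (by rw [P.hgcdab]; exact isUnit_one)
  · exact (gcd_isUnit_iff _ _).mp (by rw [P.hgcdbc]; exact isUnit_one)
  · exact ((gcd_isUnit_iff _ _).mp (by rw [P.hgcdac]; exact isUnit_one)).symm

end Fermat.Agent.S10
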