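import Fermat.Statements.S07
import Fermat.Prelude.Thm_ModularForm_sturm_bound_Gamma0

set_option autoImplicit false
open WeierstrassCurve WeierstrassCurve.Affine WeierstrassCurve.Affine.Point
open CuspForm ModularFormClass UpperHalfPlane
open ModularForm

namespace Fermat.Agent.S07

open scoped MatrixGroups in
theorem index_Gamma0_two_le : (CongruenceSubgroup.Gamma0 2).index ≤ 4 := by
  classical
  let F : SL(2, ℤ) ⧸ CongruenceSubgroup.Gamma0 2 → ZMod 2 × ZMod 2 :=
    Quotient.lift (fun g : SL(2, ℤ) => ((g 0 0 : ZMod 2), (g 1 0 : ZMod 2))) (by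
      intro a b hab
      have h : a⁻¹ * b ∈ CongruenceSubgroup.Gamma0 2 := QuotientGroup.leftRel_apply.mp hab
      rw [CongruenceSubgroup.Gamma0_mem] at h
      rw [Matrix.SpecialLinearGroup.coe_mul, Matrix.SpecialLinearGroup.SL2_inv_expl] at h
      simp [Matrix.mul_apply, Fin.sum_univ_two] at h
      have ha := a.det_coe
      have hb := b.det_coe
      rw [Matrix.det_fin_two] at ha hb
      have ha' : ((a 0 0 : ℤ) : ZMod 2) * (a 1 1 : ℤ) - (a 0 1 : ℤ) * (a 1 0 : ℤ) = 1 := by
        exact_mod_cast congrArg (Int.cast : ℤ → ZMod 2) ha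
      have hb' : ((b 0 0 : ℤ) : ZMod 2) * (b 1 1 : ℤ) - (b 0 1 : ℤ) * (b 1 0 : ℤ) = 1 := by
        exact_mod_cast congrArg (Int.cast : ℤ → ZMod 2) hb
      generalize ((a 0 0 : ℤ) : ZMod 2) = a00 at *
      generalize ((a 0 1 : ℤ) : ZMod 2) = a01 at *
      generalize ((a 1 0 : ℤ) : ZMod 2) = a10 at *
      generalize ((a 1 1 : ℤ) : ZMod 2) = a11 at *
      generalize ((b 0 0 : ℤ) : ZMod 2) = b00 at *
      generalize ((b 0 1 : ℤ) : ZMod 2) = b01 at *
      generalize ((b 1 0 : ℤ) : ZMod 2) = b10 at *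
      generalize ((b 1 1 : ℤ) : ZMod 2) = b11 at *
      clear ha hb hab
      simp only [Prod.mk.injEq]
      revert a00 a01 a10 a11 b00 b01 b10 b11
      decide)
  have hF : Function.Injective F := by
    rintro ⟨a⟩ ⟨b⟩ hab
    change ((a 0 0 : ZMod 2), (a 1 0 : ZMod 2)) = ((b 0 0 : ZMod 2), (b 1 0 : ZMod 2)) at hab
    simp only [Prod.mk.injEq] at hab
    apply Quotient.sound
    change QuotientGroup.leftRel _ a b
    rw [QuotientGroup.leftRel_apply, CongruenceSubgroup.Gamma0_mem,
      Matrix.SpecialLinearGroup.coe_mul, Matrix.SpecialLinearGroup.SL2_inv_expl]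
    simp [Matrix.mul_apply, Fin.sum_univ_two, hab.1, hab.2]
    have h2 : (2 : ZMod 2) = 0 := rfl
    linear_combination ((b 1 0 : ℤ) : ZMod 2) * ((b 0 0 : ℤ) : ZMod 2) * h2
  have := Nat.card_le_card_of_injective F hF
  rw [Subgroup.index]
  refine this.trans ?_
  simp

theorem result (f : CuspForm (CongruenceSubgroup.Gamma0 2) 2) : f = 0 := by
  have hidx : (CongruenceSubgroup.Gamma0 2).index ≤ 4 := index_Gamma0_two_le
  have h1 : (1 : ℝ) ∈ (CongruenceSubgroup.Gamma0 2 : Subgroup (GL (Fin 2) ℝ)).strictPeriods := by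
    simp [CongruenceSubgroup.strictPeriods_Gamma0]
  let g : ModularForm (CongruenceSubgroup.Gamma0 2) 2 :=
    { toSlashInvariantForm := f.toSlashInvariantForm
      holo' := f.holo'
      bdd_at_cusps' := fun hc γ hγ => (f.zero_at_cusps' hc γ hγ).isBoundedAtImInfty }
  have hg : (g : ℍ → ℂ) = f := rfl
  have hg0 : g = 0 := by
    apply ModularForm.sturm_bound_Gamma0 2 g
    intro n hn
    have : n = 0 := by
      have : ((2 : ℤ) * (CongruenceSubgroup.Gamma0 2).index).toNat / 12 = 0 := by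
        omega
      omega
    subst this
    rw [hg]
    exact CuspFormClass.qExpansion_coeff_zero f one_pos h1
  ext z
  have := DFunLike.congr_fun hg0 z
  exact this

end Fermat.Agent.S07
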