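import Fermat.Statements.S03
import Fermat.Agent.Ell.Z8
import Fermat.Agent.ZF.ThmZ
import Fermat.Agent.TFin.Lift
import Fermat.Agent.S05
import Fermat.Agent.S09
import Fermat.Agent.S43
import Fermat.Agent.S44

set_option autoImplicit false
open FreyPackage

namespace Fermat.Agent.S03

theorem result (P : FreyPackage) : False :=
  Fermat.Agent.Ell.s03_of_LIFT Fermat.Agent.ZF.thmZ Fermat.Agent.TFin.lift
    (by exact Fermat.Agent.S05.result) (by exact Fermat.Agent.S09.result)
    (by exact Fermat.Agent.S43.result) (by exact Fermat.Agent.S44.result) P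

end Fermat.Agent.S03
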