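import Mathlib.NumberTheory.FLT.Basic
import Fermat.Agent.S01
import Fermat.Agent.S03
import Fermat.Agent.S60
import Fermat.Agent.H24S.LowerSq

/-!
# The main theorems in convenient forms

* `Fermat.Agent.Main.fermatLastTheorem`: Mathlib's statement `FermatLastTheorem`;
* `Fermat.Agent.Main.flt_int`, `flt_rat`: Fermat's Last Theorem for nonzero integers and rationals;
* `Fermat.Agent.Main.no_fermat_point`: the rational points of the curve `x ^ n + y ^ n = 1`;
* `Fermat.Agent.Main.modular_of_semistable`: every semistable elliptic curve over `ℚ` is modular of level its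
  conductor (the product of the bad primes).

This file is not used by any of the statement files.
-/

set_option autoImplicit false

namespace Fermat.Agent.Main

/-- **Fermat's Last Theorem**, in the form stated in Mathlib. -/
theorem fermatLastTheorem : FermatLastTheorem :=
  Fermat.Agent.H01.flt_of_no_freyPackage Fermat.Agent.S03.result

/-- Fermat's Last Theorem for nonzero integers. -/
theorem flt_int (n : ℕ) (hn : 3 ≤ n) (a b c : ℤ) (ha : a ≠ 0) (hb : b ≠ 0) (hc : c ≠ 0) :
    a ^ n + b ^ n ≠ c ^ n :=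
  (fermatLastTheoremFor_iff_int.mp (fermatLastTheorem n hn)) a b c ha hb hc

/-- Fermat's Last Theorem for nonzero rational numbers. -/
theorem flt_rat (n : ℕ) (hn : 3 ≤ n) (a b c : ℚ) (ha : a ≠ 0) (hb : b ≠ 0) (hc : c ≠ 0) :
    a ^ n + b ^ n ≠ c ^ n :=
  (fermatLastTheoremFor_iff_rat.mp (fermatLastTheorem n hn)) a b c ha hb hc

/-- The affine Fermat curve `x ^ n + y ^ n = 1`, `n ≥ 3`, has only the trivial rational points. -/
theorem no_fermat_point (n : ℕ) (hn : 3 ≤ n) (x y : ℚ) (h : x ^ n + y ^ n = 1) : x = 0 ∨ y = 0 := by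
  by_contra! hxy
  exact flt_rat n hn x y 1 hxy.1 hxy.2 one_ne_zero (by rw [h, one_pow])

open WeierstrassCurve in
/-- **Modularity of semistable elliptic curves over `ℚ`**, with the exact level: for a semistable integral
Weierstrass equation `W` with `Δ ≠ 0` there are a squarefree `N`, divisible exactly by the bad primes, and a
normalised eigenform `f` of weight `2` and level `Γ₀(N)` with `a_ℓ(f) = ℓ + 1 - #W(𝔽_ℓ)` for all good primes. -/
theorem modular_of_semistable (W : WeierstrassCurve ℤ) (hΔ : W.Δ ≠ 0) (hW : W.IsSemistableModel) :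
    ∃ N : ℕ, 0 < N ∧ Squarefree N ∧ (∀ q : ℕ, q.Prime → (q ∣ N ↔ (q : ℤ) ∣ W.Δ)) ∧
      ∃ f : CuspForm (CongruenceSubgroup.Gamma0 N) 2, f.IsNormalizedEigenform ∧
        ∀ ℓ : ℕ, ℓ.Prime → ¬ (ℓ : ℤ) ∣ W.Δ →
          ModularFormClass.qCoeff f ℓ = (W.apOfModel ℓ : ℂ) := by
  obtain ⟨N, hN, hsq, hsupp, f, hf, hfW⟩ := Fermat.Agent.H24S.full W hΔ hW
  exact ⟨N, hN, hsq, hsupp, f, hf, fun ℓ hℓ hgood =>
    hfW ℓ hℓ hgood fun h => hgood ((hsupp ℓ hℓ).mp h)⟩

/-- A Weierstrass curve over `ℚ` with a semistable integral model is modular. -/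
theorem isModular_of_isIntegralModelOf {E : WeierstrassCurve ℚ} {W : WeierstrassCurve ℤ}
    (hWE : W.IsIntegralModelOf E) (hΔ : W.Δ ≠ 0) (hW : W.IsSemistableModel) : E.IsModular := by
  obtain ⟨N, hN, -, -, f, hf, hfW⟩ := modular_of_semistable W hΔ hW
  exact ⟨W, hWE, N, hN, f, hf, fun ℓ hℓ hgood _ => hfW ℓ hℓ hgood⟩

end Fermat.Agent.Main
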