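import Mathlib

/-!
# Two-dimensional representations from a quadratic relation

If a group `G` acts on a nonzero finite dimensional vector space `W` over a field `k` in such a
way that every `g` satisfies `g² - t(g) g + d(g) = 0` with scalars `t(g), d(g) ∈ k` and `d`
multiplicative, then there is a two-dimensional matrix representation of `G` in which `g` has
characteristic polynomial `X² - t(g) X + d(g)`.
-/

set_option autoImplicit false

namespace Fermat.Agent.H01

open Module Polynomial

section Simple

variable {G : Type*} [Group G] {k : Type*} [Field k] {V : Type*} [AddCommGroup V] [Module k V]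

/-- Every nonzero invariant subspace is everything. -/
def QSimple (ρ : G →* Module.End k V) : Prop :=
  ∀ U : Submodule k V, (∀ g : G, ∀ u ∈ U, ρ g u ∈ U) → U ≠ ⊥ → U = ⊤

variable (ρ : G →* Module.End k V) (t : G → k) (d : G →* k)

/-- The quadratic relation. -/
def QuadRel : Prop :=
  ∀ g : G, ∀ v : V, ρ g (ρ g v) - t g • ρ g v + d g • v = 0

variable {ρ t d}

lemma d_ne_zero (d : G →* k) (g : G) : d g ≠ 0 := by
  intro h
  have h1 : d g * d g⁻¹ = 1 := by rw [← map_mul, mul_inv_cancel, map_one]
  rw [h, zero_mul] at h1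
  exact zero_ne_one h1

lemma rho_inv_apply (ρ : G →* Module.End k V) (g : G) (v : V) : ρ g⁻¹ (ρ g v) = v := by
  have : (ρ g⁻¹ * ρ g) v = v := by rw [← map_mul, inv_mul_cancel, map_one]; rfl
  exact this

lemma rho_apply_inv (ρ : G →* Module.End k V) (g : G) (v : V) : ρ g (ρ g⁻¹ v) = v := by
  have : (ρ g * ρ g⁻¹) v = v := by rw [← map_mul, mul_inv_cancel, map_one]; rfl
  exact this

/-- `g + d(g) g⁻¹ = t(g)`. -/
lemma QuadRel.add_inv (h : QuadRel ρ t d) (g : G) (v : V) :
    ρ g v + d g • ρ g⁻¹ v = t g • v := by
  have h1 := congrArg (ρ g⁻¹) (h g v)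
  rw [map_add, map_sub, map_smul, map_smul, rho_inv_apply, rho_inv_apply, map_zero] at h1
  have h2 : ρ g v + d g • ρ g⁻¹ v = (ρ g v - t g • v + d g • ρ g⁻¹ v) + t g • v := by abel
  rw [h2, h1, zero_add]

/-- Key computation: for an eigenvector `v` of `g` with eigenvalue `l`, the operator
`g - d(g)/l` maps every `h v` into the line `k v`. -/
lemma QuadRel.key (h : QuadRel ρ t d) {g : G} {l : k} {v : V} (hl : l ≠ 0)
    (hv : ρ g v = l • v) (x : G) :
    ρ g (ρ x v) - (d g / l) • ρ x v ∈ Submodule.span k {v} := by
  have hginv : ρ g⁻¹ v = l⁻¹ • v := by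
    have h1 := rho_inv_apply ρ g v
    rw [hv, map_smul] at h1
    rw [eq_inv_smul_iff₀ hl]
    exact h1
  have h1 := h.add_inv (g * x) v
  have h2 := h.add_inv x v
  rw [mul_inv_rev, map_mul, map_mul, map_mul, Module.End.mul_apply, Module.End.mul_apply, hginv,
    map_smul] at h1
  have h3 : d x • ρ x⁻¹ v = t x • v - ρ x v := by rw [← h2]; abel
  have h4 : (d g * d x) • l⁻¹ • ρ x⁻¹ v = (d g / l) • (t x • v - ρ x v) := by
    rw [← h3, smul_smul, smul_smul]
    congr 1
    field_simp
  rw [h4] at h1
  have h5 : ρ g (ρ x v) - (d g / l) • ρ x v = (t (g * x) - (d g / l) * t x) • v := by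
    rw [sub_smul, ← h1, smul_sub, smul_smul]
    abel
  rw [h5]
  exact Submodule.smul_mem _ _ (Submodule.mem_span_singleton_self v)

/-- In a simple module the operator `g - d(g)/l` has image in the line `k v`. -/
lemma QuadRel.image_le (h : QuadRel ρ t d) (hs : QSimple ρ) {g : G} {l : k} {v : V} (hl : l ≠ 0)
    (hv0 : v ≠ 0) (hv : ρ g v = l • v) (w : V) :
    ρ g w - (d g / l) • w ∈ Submodule.span k {v} := by
  have htop : Submodule.span k (Set.range fun x : G => ρ x v) = ⊤ := by
    apply hs
    · intro y u hu
      induction hu using Submodule.span_induction with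
      | mem u hu =>
        obtain ⟨x, rfl⟩ := hu
        apply Submodule.subset_span
        exact ⟨y * x, by simp [map_mul]⟩
      | zero => rw [map_zero]; exact Submodule.zero_mem _
      | add a b _ _ ha hb => rw [map_add]; exact Submodule.add_mem _ ha hb
      | smul c a _ ha => rw [map_smul]; exact Submodule.smul_mem _ _ ha
    · intro hbot
      apply hv0
      have : v ∈ Submodule.span k (Set.range fun x : G => ρ x v) :=
        Submodule.subset_span ⟨1, by simp⟩
      rw [hbot] at this
      simpa using this
  have hw : w ∈ Submodule.span k (Set.range fun x : G => ρ x v) := by rw [htop]; trivial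
  induction hw using Submodule.span_induction with
  | mem u hu =>
    obtain ⟨x, rfl⟩ := hu
    exact h.key hl hv x
  | zero => simp
  | add a b _ _ ha hb =>
    have : ρ g (a + b) - (d g / l) • (a + b) =
        (ρ g a - (d g / l) • a) + (ρ g b - (d g / l) • b) := by
      rw [map_add, smul_add]; abel
    rw [this]
    exact Submodule.add_mem _ ha hb
  | smul c a _ ha =>
    have : ρ g (c • a) - (d g / l) • (c • a) = c • (ρ g a - (d g / l) • a) := by
      rw [map_smul, smul_sub, smul_comm]
    rw [this]
    exact Submodule.smul_mem _ _ ha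

/-- A simple module satisfying the quadratic relation on which some `g` is not scalar but has an
eigenvector has dimension two. -/
theorem QuadRel.finrank_eq_two (h : QuadRel ρ t d) (hs : QSimple ρ) [FiniteDimensional k V] {g : G}
    {l : k} {v : V} (hv0 : v ≠ 0) (hv : ρ g v = l • v) (hns : ∀ c : k, ∃ w : V, ρ g w ≠ c • w) :
    finrank k V = 2 := by
  have hl : l ≠ 0 := by
    rintro rfl
    rw [zero_smul] at hv
    have := rho_inv_apply ρ g v
    rw [hv, map_zero] at this
    exact hv0 this.symm
  set m : k := d g / l with hm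
  have hm0 : m ≠ 0 := div_ne_zero (d_ne_zero d g) hl
  have hlm : d g / m = l := by rw [hm]; field_simp [d_ne_zero d g]
  -- the operator `g - m`
  set A : Module.End k V := ρ g - m • 1 with hA
  have hAapp : ∀ w, A w = ρ g w - m • w := fun w => by simp [hA]
  have hrange : LinearMap.range A ≤ Submodule.span k {v} := by
    rintro _ ⟨w, rfl⟩
    rw [hAapp]
    exact h.image_le hs hl hv0 hv w
  have hrk1 : finrank k (LinearMap.range A) ≤ 1 := by
    refine (Submodule.finrank_mono hrange).trans ?_
    exact (finrank_span_singleton hv0).le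
  have hrn := LinearMap.finrank_range_add_finrank_ker A
  -- the kernel has dimension at most one
  have hker : finrank k (LinearMap.ker A) ≤ 1 := by
    by_contra hcon
    push Not at hcon
    -- take `w ≠ 0` in the kernel; then the image of `g - l` lies in `k w`
    have himg : ∀ w ∈ LinearMap.ker A, w ≠ 0 → ∀ x : V, ρ g x - l • x ∈ Submodule.span k {w} := by
      intro w hw hw0 x
      have hw' : ρ g w = m • w := by
        rw [LinearMap.mem_ker, hAapp, sub_eq_zero] at hw
        exact hw
      have := h.image_le hs hm0 hw0 hw' x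
      rwa [hlm] at this
    -- two independent vectors in the kernel
    have hker_ne : LinearMap.ker A ≠ ⊥ := by
      intro hb
      rw [hb, finrank_bot] at hcon
      omega
    obtain ⟨w, hw, hw0⟩ := Submodule.exists_mem_ne_zero_of_ne_bot hker_ne
    have hnle : ¬ LinearMap.ker A ≤ Submodule.span k {w} := by
      intro hle
      have := Submodule.finrank_mono hle
      rw [finrank_span_singleton hw0] at this
      omega
    obtain ⟨w', hw', hw'span⟩ := Set.not_subset.1 hnle
    have hw'0 : w' ≠ 0 := by
      rintro rfl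
      exact hw'span (Submodule.zero_mem _)
    obtain ⟨x, hx⟩ := hns l
    apply hx
    have h1 := himg w hw hw0 x
    have h2 := himg w' hw' hw'0 x
    obtain ⟨a, ha⟩ := Submodule.mem_span_singleton.1 h1
    obtain ⟨b, hb⟩ := Submodule.mem_span_singleton.1 h2
    rcases eq_or_ne b 0 with hb0 | hb0
    · rw [hb0, zero_smul] at hb
      exact sub_eq_zero.1 hb.symm
    · exfalso
      apply hw'span
      have : w' = (b⁻¹ * a) • w := by
        rw [mul_smul, ha, ← hb, smul_smul, inv_mul_cancel₀ hb0, one_smul]
      rw [this]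
      exact Submodule.smul_mem _ _ (Submodule.mem_span_singleton_self w)
  -- dimension is not `≤ 1`
  have hge : 2 ≤ finrank k V := by
    by_contra hcon
    push Not at hcon
    have hle : finrank k V ≤ 1 := by omega
    rw [finrank_le_one_iff] at hle
    obtain ⟨e, he⟩ := hle
    obtain ⟨c, hc⟩ := he (ρ g e)
    obtain ⟨w, hw⟩ := hns c
    apply hw
    obtain ⟨a, rfl⟩ := he w
    rw [map_smul, ← hc, smul_comm]
  omega

/-- If a simple module satisfying the quadratic relation is two-dimensional and not every element
acts as a scalar, then characteristic polynomials are the expected ones. -/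
theorem QuadRel.charpoly_eq (h : QuadRel ρ t d) [FiniteDimensional k V] (h2 : finrank k V = 2)
    {x : G} (hx : ∀ c : k, ∃ w : V, ρ x w ≠ c • w) (g : G) :
    (ρ g).charpoly = X ^ 2 - C (t g) * X + C (d g) := by
  -- general form of the characteristic polynomial in dimension two
  have hform : ∀ f : Module.End k V, f.charpoly =
      X ^ 2 - C (LinearMap.trace k V f) * X + C (LinearMap.det f) := by
    intro f
    have hb := finBasisOfFinrankEq k V h2
    rw [← LinearMap.charpoly_toMatrix f hb, Matrix.charpoly_fin_two,
      LinearMap.trace_eq_matrix_trace k hb, ← LinearMap.det_toMatrix hb]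
  have hCH : ∀ f : Module.End k V, ∀ v : V,
      f (f v) - (LinearMap.trace k V f) • f v + (LinearMap.det f) • v = 0 := by
    intro f v
    have h1 := LinearMap.aeval_self_charpoly f
    rw [hform f] at h1
    have h3 := congrArg (fun F : Module.End k V => F v) h1
    simp only [map_add, map_sub, map_mul, map_pow, aeval_X, aeval_C] at h3
    simpa [pow_two, Algebra.smul_def, Module.algebraMap_end_apply] using h3
  -- nonscalar elements
  have hns : ∀ y : G, (∀ c : k, ∃ w : V, ρ y w ≠ c • w) →
      LinearMap.trace k V (ρ y) = t y ∧ LinearMap.det (ρ y) = d y := by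
    intro y hy
    have hdiff : ∀ v : V, (LinearMap.trace k V (ρ y) - t y) • ρ y v =
        (LinearMap.det (ρ y) - d y) • v := by
      intro v
      have e1 := hCH (ρ y) v
      have e2 := h y v
      have e3 : (LinearMap.trace k V (ρ y) - t y) • ρ y v - (LinearMap.det (ρ y) - d y) • v =
          (ρ y (ρ y v) - t y • ρ y v + d y • v) -
          (ρ y (ρ y v) - (LinearMap.trace k V (ρ y)) • ρ y v + (LinearMap.det (ρ y)) • v) := by
        rw [sub_smul, sub_smul]; abel
      rw [e1, e2, sub_zero] at e3
      exact sub_eq_zero.1 e3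
    have htr : LinearMap.trace k V (ρ y) - t y = 0 := by
      by_contra hne
      obtain ⟨w, hw⟩ := hy ((LinearMap.trace k V (ρ y) - t y)⁻¹ * (LinearMap.det (ρ y) - d y))
      apply hw
      rw [mul_smul, ← hdiff w, smul_smul, inv_mul_cancel₀ hne, one_smul]
    have hdet : LinearMap.det (ρ y) - d y = 0 := by
      have : Nontrivial V := Module.nontrivial_of_finrank_eq_succ (n := 1) h2
      obtain ⟨v, hv⟩ := exists_ne (0 : V)
      have := hdiff v
      rw [htr, zero_smul] at this
      exact (smul_eq_zero.1 this.symm).resolve_right hv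
    exact ⟨sub_eq_zero.1 htr, sub_eq_zero.1 hdet⟩
  by_cases hg : ∀ c : k, ∃ w : V, ρ g w ≠ c • w
  · obtain ⟨h1, h3⟩ := hns g hg
    rw [hform, h1, h3]
  · push Not at hg
    obtain ⟨c, hc⟩ := hg
    have : Nontrivial V := Module.nontrivial_of_finrank_eq_succ (n := 1) h2
    have hc' : ρ g = c • 1 := by
      ext v
      simp [hc v]
    have hc0 : c ≠ 0 := by
      rintro rfl
      obtain ⟨v, hv⟩ := exists_ne (0 : V)
      apply hv
      rw [← rho_inv_apply ρ g v, hc v, zero_smul, map_zero]
    have hgx : ∀ c' : k, ∃ w : V, ρ (g * x) w ≠ c' • w := by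
      intro c'
      obtain ⟨w, hw⟩ := hx (c⁻¹ * c')
      refine ⟨w, fun h' => hw ?_⟩
      rw [map_mul, Module.End.mul_apply, hc] at h'
      rw [mul_smul, ← h', smul_smul, inv_mul_cancel₀ hc0, one_smul]
    have hdet1 := (hns _ hgx).2
    have hdet2 := (hns _ hx).2
    rw [map_mul, map_mul, map_mul, hdet2, hc', LinearMap.det_smul, h2, map_one, mul_one] at hdet1
    have hd : d g = c ^ 2 := (mul_right_cancel₀ (d_ne_zero d x) hdet1).symm
    have ht : t g = 2 * c := by
      obtain ⟨v, hv⟩ := exists_ne (0 : V)
      have e := h g v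
      rw [hc, hc, hd, smul_smul, smul_smul, ← sub_smul, ← add_smul] at e
      have e2 := (smul_eq_zero.1 e).resolve_right hv
      have e3 : c * (2 * c - t g) = 0 := by linear_combination e2
      have e4 := (mul_eq_zero.1 e3).resolve_left hc0
      exact (sub_eq_zero.1 e4).symm
    rw [hform, hc', map_smul, LinearMap.trace_one, h2, LinearMap.det_smul, h2, map_one, hd, ht]
    simp only [smul_eq_mul, Nat.cast_ofNat, mul_one]
    ring_nf

end Simple

section Main

variable {G : Type*} [Group G] {k : Type*} [Field k] {W : Type*} [AddCommGroup W] [Module k W]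

/-- The restriction of a representation to an invariant subspace. -/
def restrictRep (ρ : G →* Module.End k W) (U : Submodule k W) (hU : ∀ g : G, ∀ u ∈ U, ρ g u ∈ U) :
    G →* Module.End k U where
  toFun g := (ρ g).restrict (hU g)
  map_one' := by ext; simp
  map_mul' g h := by ext; simp

@[simp] lemma coe_restrictRep_apply (ρ : G →* Module.End k W) (U : Submodule k W)
    (hU : ∀ g : G, ∀ u ∈ U, ρ g u ∈ U) (g : G) (u : U) :
    ((restrictRep ρ U hU g u : U) : W) = ρ g u := rfl

/-- A minimal nonzero invariant subspace. -/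
lemma exists_simple_sub [FiniteDimensional k W] [Nontrivial W] (ρ : G →* Module.End k W) :
    ∃ (U : Submodule k W) (hU : ∀ g : G, ∀ u ∈ U, ρ g u ∈ U), U ≠ ⊥ ∧
      QSimple (restrictRep ρ U hU) := by
  let S : Set (Submodule k W) := {U | U ≠ ⊥ ∧ ∀ g : G, ∀ u ∈ U, ρ g u ∈ U}
  have hne : S.Nonempty := ⟨⊤, top_ne_bot, fun _ _ _ => trivial⟩
  obtain ⟨U, ⟨hU0, hU⟩, hmin⟩ := (wellFounded_lt (α := Submodule k W)).has_min S hne
  refine ⟨U, hU, hU0, ?_⟩
  intro U' hU' hU'0
  by_contra hcon
  have hmem : U'.map U.subtype ∈ S := by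
    refine ⟨?_, ?_⟩
    · intro hb
      apply hU'0
      apply Submodule.map_injective_of_injective U.subtype_injective
      rw [hb, Submodule.map_bot]
    · rintro g _ ⟨u, hu, rfl⟩
      exact ⟨restrictRep ρ U hU g u, hU' g u hu, rfl⟩
  apply hmin _ hmem
  refine lt_of_le_of_ne (Submodule.map_subtype_le _ _) ?_
  intro heq
  apply hcon
  rw [eq_top_iff]
  rintro ⟨u, hu⟩ -
  have : u ∈ U'.map U.subtype := by rw [heq]; exact hu
  obtain ⟨u', hu', h⟩ := this
  have : u' = ⟨u, hu⟩ := Subtype.ext h
  rwa [this] at hu'

/-- A one-dimensional constituent gives a diagonal two-dimensional representation. -/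
lemma exists_matrix_of_character (ψ : G →* k) (t : G → k) (d : G →* k)
    (h : ∀ g, ψ g * ψ g - t g * ψ g + d g = 0) :
    ∃ r : G →* Matrix (Fin 2) (Fin 2) k,
      (∀ g, (r g).charpoly = X ^ 2 - C (t g) * X + C (d g)) ∧
      ∀ g, ψ g = 1 → d g = 1 → r g = 1 := by
  have hψ := fun g => d_ne_zero ψ g
  refine ⟨{ toFun := fun g => !![ψ g, 0; 0, d g / ψ g]
            map_one' := ?_
            map_mul' := ?_ }, ?_, ?_⟩
  · rw [map_one, map_one, div_one]
    exact (Matrix.one_fin_two).symm
  · intro a b
    rw [map_mul, map_mul, Matrix.mul_fin_two]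
    congr 1
    ext i j
    fin_cases i <;> fin_cases j <;> simp [mul_div_mul_comm]
  · intro g
    have ht : t g = ψ g + d g / ψ g := by
      field_simp [hψ g]
      linear_combination -h g
    simp only [MonoidHom.coe_mk, OneHom.coe_mk]
    rw [Matrix.charpoly_fin_two, Matrix.trace_fin_two_of, Matrix.det_fin_two_of, ht]
    congr 2
    rw [mul_zero, sub_zero, mul_div_cancel₀ _ (hψ g)]
  · intro g h1 h2
    simp only [MonoidHom.coe_mk, OneHom.coe_mk]
    rw [h1, h2, div_one]
    exact (Matrix.one_fin_two).symm

/-- **Main theorem**. Let `G` act on a nonzero finite dimensional vector space `W` over an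
algebraically closed field `k` such that each `g` satisfies `g² - t(g) g + d(g) = 0`. Then there
is a two-dimensional matrix representation with characteristic polynomials `X² - t(g) X + d(g)`,
trivial on all `g` which act trivially on `W` and satisfy `d(g) = 1`. -/
theorem exists_matrixRep_of_quadRel [IsAlgClosed k] [FiniteDimensional k W] [Nontrivial W]
    (ρ : G →* Module.End k W) (t : G → k) (d : G →* k)
    (h : ∀ g : G, ∀ v : W, ρ g (ρ g v) - t g • ρ g v + d g • v = 0) :
    ∃ r : G →* Matrix (Fin 2) (Fin 2) k,
      (∀ g, (r g).charpoly = X ^ 2 - C (t g) * X + C (d g)) ∧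
      ∀ g, ρ g = 1 → d g = 1 → r g = 1 := by
  obtain ⟨U, hU, hU0, hs⟩ := exists_simple_sub ρ
  have : Nontrivial U := Submodule.nontrivial_iff_ne_bot.2 hU0
  have hq : QuadRel (restrictRep ρ U hU) t d := by
    intro g v
    apply Subtype.ext
    simpa using h g v
  by_cases hsc : ∀ g : G, ∃ c : k, ∀ u : U, restrictRep ρ U hU g u = c • u
  · -- all elements act by scalars
    choose ψ hψ using hsc
    obtain ⟨v, hv⟩ := exists_ne (0 : U)
    have hinj : ∀ a b : k, a • v = b • v → a = b := fun a b hab =>
      smul_left_injective k hv hab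
    let ψ' : G →* k :=
      { toFun := ψ
        map_one' := hinj _ _ (by rw [← hψ, map_one, one_smul]; rfl)
        map_mul' := fun a b => hinj _ _ (by
          rw [← hψ, map_mul, Module.End.mul_apply, hψ, hψ, smul_smul, mul_comm]) }
    obtain ⟨r, hr, hr1⟩ := exists_matrix_of_character ψ' t d (by
      intro g
      have e := hq g v
      rw [hψ, hψ, smul_smul, smul_smul, ← sub_smul, ← add_smul] at e
      exact (smul_eq_zero.1 e).resolve_right hv)
    refine ⟨r, hr, fun g hg hd => hr1 g ?_ hd⟩
    apply hinj
    show ψ g • v = _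
    rw [← hψ, one_smul]
    apply Subtype.ext
    rw [coe_restrictRep_apply, hg]
    rfl
  · push Not at hsc
    obtain ⟨x, hx⟩ := hsc
    obtain ⟨l, hl⟩ := Module.End.exists_eigenvalue (restrictRep ρ U hU x)
    obtain ⟨v, hv⟩ := hl.exists_hasEigenvector
    have h2 : finrank k U = 2 := hq.finrank_eq_two hs hv.2 hv.apply_eq_smul hx
    let b := finBasisOfFinrankEq k U h2
    refine ⟨(LinearMap.toMatrixAlgEquiv b : Module.End k U →* _).comp (restrictRep ρ U hU),
      ?_, ?_⟩
    · intro g
      have := hq.charpoly_eq h2 hx g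
      rw [← this, ← LinearMap.charpoly_toMatrix _ b]
      rfl
    · intro g hg _
      have : restrictRep ρ U hU g = 1 := by
        ext u
        simp [hg]
      rw [MonoidHom.comp_apply, this, map_one]

end Main

end Fermat.Agent.H01
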