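import Mathlib

set_option autoImplicit false

/-!
# Eisenstein series with bounded coefficients and with a character of `Γ₀(N)`

`Fa k a z = ∑ v : ℤ², a v * (v₀ z + v₁)^(-k)` for a bounded function `a` on `ℤ²`, `k ≥ 3`.
-/

noncomputable section

open UpperHalfPlane Filter Function Complex Manifold CongruenceSubgroup EisensteinSeries
  ModularForm Matrix Topology

open scoped MatrixGroups

namespace Fermat.Agent.H02

section general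

variable {k : ℤ} {a : (Fin 2 → ℤ) → ℂ} {M : ℝ}

/-- The Eisenstein-type series with coefficients `a`. -/
def Fa (k : ℤ) (a : (Fin 2 → ℤ) → ℂ) (z : ℍ) : ℂ := ∑' v : Fin 2 → ℤ, a v * eisSummand k v z

lemma summable_Fa (hk : 3 ≤ k) (ha : ∀ v, ‖a v‖ ≤ M) (z : ℍ) :
    Summable fun v : Fin 2 → ℤ => a v * eisSummand k v z := by
  refine Summable.of_norm_bounded ((summable_norm_eisSummand hk z).mul_left M) fun v => ?_
  rw [norm_mul]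
  exact mul_le_mul_of_nonneg_right (ha v) (norm_nonneg _)

lemma norm_term_le (hk : 3 ≤ k) (ha : ∀ v, ‖a v‖ ≤ M) {A B : ℝ} (hB : 0 < B) {z : ℍ}
    (hz : z ∈ verticalStrip A B) (v : Fin 2 → ℤ) :
    ‖a v * eisSummand k v z‖ ≤ M * (r ⟨⟨A, B⟩, hB⟩ ^ (-k : ℝ) * ‖v‖ ^ (-k : ℝ)) := by
  have hM : 0 ≤ M := (norm_nonneg _).trans (ha v)
  rw [norm_mul]
  refine mul_le_mul (ha v) ?_ (norm_nonneg _) hM
  have hk' : (0 : ℝ) ≤ k := by exact_mod_cast (by omega : (0 : ℤ) ≤ k)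
  simpa only [eisSummand, norm_zpow, ← Real.rpow_intCast, Int.cast_neg] using
    summand_bound_of_mem_verticalStrip hk' v hB hz

lemma summable_bound (hk : 3 ≤ k) (M : ℝ) {A B : ℝ} (hB : 0 < B) :
    Summable fun v : Fin 2 → ℤ => M * (r ⟨⟨A, B⟩, hB⟩ ^ (-k : ℝ) * ‖v‖ ^ (-k : ℝ)) := by
  have hk' : (2 : ℝ) < k := by exact_mod_cast (by omega : (2 : ℤ) < k)
  exact ((summable_one_div_norm_rpow hk').mul_left _).mul_left _

/-- The series is holomorphic. -/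
theorem mdiff_Fa (hk : 3 ≤ k) (ha : ∀ v, ‖a v‖ ≤ M) : MDiff (Fa k a) := by
  have h1 : TendstoLocallyUniformly
      (fun (s : Finset (Fin 2 → ℤ)) (z : ℍ) ↦ ∑ v ∈ s, a v * eisSummand k v z)
      (Fa k a) Filter.atTop := by
    simp only [tendstoLocallyUniformly_iff_forall_isCompact]
    intro K hK
    obtain ⟨A, B, hB, HABK⟩ := subset_verticalStrip_of_isCompact hK
    exact (tendstoUniformlyOn_tsum (summable_bound hk M hB)
      (fun v z hz ↦ norm_term_le hk ha hB hz v)).mono HABK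
  have h2 : TendstoLocallyUniformlyOn (fun (s : Finset (Fin 2 → ℤ)) ↦
      ↑ₕ(fun (z : ℍ) ↦ ∑ v ∈ s, a v * eisSummand k v z)) (↑ₕ(Fa k a))
          Filter.atTop {z : ℂ | 0 < z.im} := by
    rw [← upperHalfPlaneSet, ← range_coe, ← Set.image_univ]
    apply TendstoLocallyUniformlyOn.comp (s := ⊤) _ _ _ (OpenPartialHomeomorph.continuousOn_symm _)
    · simp only [Set.top_eq_univ, tendstoLocallyUniformlyOn_univ]
      exact h1
    · simp only [Topology.IsOpenEmbedding.toOpenPartialHomeomorph_target, Set.top_eq_univ,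
        Set.mapsTo_range_iff, Set.mem_univ, forall_const]
  intro τ
  suffices DifferentiableAt ℂ (↑ₕ(Fa k a)) τ.1 by
    convert!
      MDifferentiableAt.comp τ (DifferentiableAt.mdifferentiableAt this) τ.mdifferentiable_coe
    exact funext fun z ↦ (comp_ofComplex (Fa k a) z).symm
  refine DifferentiableOn.differentiableAt ?_ (isOpen_upperHalfPlaneSet.mem_nhds τ.2)
  refine h2.differentiableOn (Eventually.of_forall fun s ↦ ?_) isOpen_upperHalfPlaneSet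
  refine DifferentiableOn.fun_sum fun v _ ↦ ?_
  exact (eisSummand_extension_differentiableOn k v).const_mul (a v)

lemma vecMul_mul_inv (δ : SL(2, ℤ)) (v : Fin 2 → ℤ) :
    (v ᵥ* (δ : Matrix (Fin 2) (Fin 2) ℤ)) ᵥ* ((δ⁻¹ : SL(2, ℤ)) : Matrix (Fin 2) (Fin 2) ℤ) = v := by
  have h : (δ : Matrix (Fin 2) (Fin 2) ℤ) * ((δ⁻¹ : SL(2, ℤ)) : Matrix (Fin 2) (Fin 2) ℤ) = 1 :=
    (Matrix.SpecialLinearGroup.coe_mul δ δ⁻¹).symm.trans
      ((congrArg Subtype.val (mul_inv_cancel δ)).trans Matrix.SpecialLinearGroup.coe_one)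
  rw [vecMul_vecMul]
  exact (congrArg (fun A => v ᵥ* A) h).trans (vecMul_one v)

lemma vecMul_inv_mul (δ : SL(2, ℤ)) (v : Fin 2 → ℤ) :
    (v ᵥ* ((δ⁻¹ : SL(2, ℤ)) : Matrix (Fin 2) (Fin 2) ℤ)) ᵥ* (δ : Matrix (Fin 2) (Fin 2) ℤ) = v := by
  have h : ((δ⁻¹ : SL(2, ℤ)) : Matrix (Fin 2) (Fin 2) ℤ) * (δ : Matrix (Fin 2) (Fin 2) ℤ) = 1 :=
    (Matrix.SpecialLinearGroup.coe_mul δ⁻¹ δ).symm.trans
      ((congrArg Subtype.val (inv_mul_cancel δ)).trans Matrix.SpecialLinearGroup.coe_one)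
  rw [vecMul_vecMul]
  exact (congrArg (fun A => v ᵥ* A) h).trans (vecMul_one v)

/-- Right multiplication by an element of `SL₂(ℤ)` as a permutation of `ℤ²`. -/
def vecEquiv (δ : SL(2, ℤ)) : (Fin 2 → ℤ) ≃ (Fin 2 → ℤ) where
  toFun v := v ᵥ* (δ : Matrix (Fin 2) (Fin 2) ℤ)
  invFun v := v ᵥ* ((δ⁻¹ : SL(2, ℤ)) : Matrix (Fin 2) (Fin 2) ℤ)
  left_inv := vecMul_mul_inv δ
  right_inv := vecMul_inv_mul δ

/-- Slash action of `SL₂(ℤ)` on the series. -/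
theorem Fa_slash (k : ℤ) (a : (Fin 2 → ℤ) → ℂ) (δ : SL(2, ℤ)) :
    Fa k a ∣[k] δ = Fa k (fun v => a (v ᵥ* ((δ⁻¹ : SL(2, ℤ)) : Matrix (Fin 2) (Fin 2) ℤ))) := by
  ext1 z
  rw [SL_slash_apply, Fa, Fa, _root_.zpow_neg,
    mul_inv_eq_iff_eq_mul₀ (zpow_ne_zero _ <| denom_ne_zero _ z)]
  simp_rw [eisSummand_SL2_apply]
  rw [← tsum_mul_right]
  rw [← (vecEquiv δ).tsum_eq (fun v => a (v ᵥ* ((δ⁻¹ : SL(2, ℤ)) : Matrix (Fin 2) (Fin 2) ℤ))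
    * eisSummand k v z * denom δ z ^ k)]
  refine tsum_congr fun v => ?_
  have h : (vecEquiv δ v) ᵥ* ((δ⁻¹ : SL(2, ℤ)) : Matrix (Fin 2) (Fin 2) ℤ) = v :=
    (vecEquiv δ).left_inv v
  rw [h]
  show a v * (_ * eisSummand k (v ᵥ* (δ : Matrix (Fin 2) (Fin 2) ℤ)) z) =
    a v * eisSummand k (v ᵥ* (δ : Matrix (Fin 2) (Fin 2) ℤ)) z * _
  ring

/-- Bound in vertical strips. -/
theorem norm_Fa_le (hk : 3 ≤ k) (ha : ∀ v, ‖a v‖ ≤ M) {A B : ℝ} (hB : 0 < B) {z : ℍ}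
    (hz : z ∈ verticalStrip A B) :
    ‖Fa k a z‖ ≤ ∑' v : Fin 2 → ℤ, M * (r ⟨⟨A, B⟩, hB⟩ ^ (-k : ℝ) * ‖v‖ ^ (-k : ℝ)) :=
  tsum_of_norm_bounded (summable_bound hk M hB).hasSum
    (fun v => norm_term_le hk ha hB hz v)

/-- Periodicity statement: `f (T^n z) = f z` for all multiples `n` of `N`. -/
lemma periodic_zpow {N : ℕ} {f : ℍ → ℂ} (hf : ∀ z, f ((ModularGroup.T ^ (N : ℤ) : SL(2, ℤ)) • z) = f z)
    (n : ℤ) (z : ℍ) : f ((ModularGroup.T ^ ((N : ℤ) * n) : SL(2, ℤ)) • z) = f z := by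
  rw [_root_.zpow_mul]
  generalize (ModularGroup.T ^ (N : ℤ) : SL(2, ℤ)) = S at hf
  have h1 : ∀ (m : ℕ) (z : ℍ), f ((S ^ m : SL(2, ℤ)) • z) = f z := by
    intro m
    induction m with
    | zero => intro z; simp
    | succ m ih => intro z; rw [pow_succ', mul_smul, hf, ih]
  rcases Int.eq_nat_or_neg n with ⟨m, rfl | rfl⟩
  · rw [zpow_natCast]; exact h1 m z
  · rw [_root_.zpow_neg, zpow_natCast, ← h1 m ((S ^ m)⁻¹ • z), smul_inv_smul]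

/-- Boundedness at `i∞` of periodic series. -/
theorem isBoundedAtImInfty_Fa (hk : 3 ≤ k) (ha : ∀ v, ‖a v‖ ≤ M) {N : ℕ} (hN : 0 < N)
    (hper : ∀ z, Fa k a ((ModularGroup.T ^ (N : ℤ) : SL(2, ℤ)) • z) = Fa k a z) :
    IsBoundedAtImInfty (Fa k a) := by
  rw [UpperHalfPlane.isBoundedAtImInfty_iff]
  refine ⟨∑' v : Fin 2 → ℤ, M * (r ⟨⟨N, 2⟩, two_pos⟩ ^ (-k : ℝ) * ‖v‖ ^ (-k : ℝ)), 2,
    fun z hz => ?_⟩
  obtain ⟨n, hn⟩ := (ModularGroup_T_zpow_mem_verticalStrip z hN)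
  rw [← periodic_zpow hper n z]
  exact norm_Fa_le hk ha two_pos (verticalStrip_anti_right N hz hn)

/-- The constant term. -/
def constA (k : ℤ) (a : (Fin 2 → ℤ) → ℂ) : ℂ :=
  ∑' v : Fin 2 → ℤ, if v 0 = 0 then a v * (v 1 : ℂ) ^ (-k) else 0

lemma tendsto_term (hk : 3 ≤ k) (v : Fin 2 → ℤ) :
    Tendsto (fun z : ℍ => a v * eisSummand k v z) atImInfty
      (𝓝 (if v 0 = 0 then a v * (v 1 : ℂ) ^ (-k) else 0)) := by
  by_cases h : v 0 = 0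
  · simp only [h, if_true, eisSummand, Int.cast_zero, zero_mul, zero_add]
    exact tendsto_const_nhds
  · simp only [h, if_false]
    rw [show (0 : ℂ) = a v * 0 by ring]
    refine Tendsto.const_mul _ ?_
    rw [tendsto_zero_iff_norm_tendsto_zero]
    obtain ⟨m, rfl⟩ : ∃ m : ℕ, k = m := ⟨k.toNat, by omega⟩
    have hm : m ≠ 0 := by omega
    have h2 : Tendsto (fun z : ℍ => ((z.im : ℝ)⁻¹) ^ m) atImInfty (𝓝 0) := by
      have h3 : Tendsto (fun z : ℍ => (z.im : ℝ)⁻¹) atImInfty (𝓝 0) :=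
        tendsto_inv_atTop_zero.comp tendsto_comap
      simpa [hm] using h3.pow m
    refine squeeze_zero (fun _ => norm_nonneg _) (fun z => ?_) h2
    rw [eisSummand, norm_zpow, _root_.zpow_neg, zpow_natCast, ← inv_pow]
    refine pow_le_pow_left₀ (inv_nonneg.mpr (norm_nonneg _)) ?_ m
    refine inv_anti₀ z.im_pos ?_
    refine le_trans ?_ (Complex.abs_im_le_norm _)
    have h4 : ((v 0 : ℂ) * z + v 1).im = (v 0 : ℝ) * z.im := by simp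
    rw [h4, abs_mul, abs_of_pos z.im_pos]
    have h5 : (1 : ℝ) ≤ |(v 0 : ℝ)| := by
      exact_mod_cast Int.one_le_abs h
    nlinarith [z.im_pos]

/-- Limit at `i∞` of periodic series. -/
theorem tendsto_Fa (hk : 3 ≤ k) (ha : ∀ v, ‖a v‖ ≤ M) {N : ℕ} (hN : 0 < N)
    (hper : ∀ z, Fa k a ((ModularGroup.T ^ (N : ℤ) : SL(2, ℤ)) • z) = Fa k a z) :
    Tendsto (Fa k a) atImInfty (𝓝 (constA k a)) := by
  have h1 : Tendsto (Fa k a) (atImInfty ⊓ 𝓟 (verticalStrip N 1)) (𝓝 (constA k a)) := by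
    refine tendsto_tsum_of_dominated_convergence (summable_bound (A := N) hk M one_pos)
      (fun v => (tendsto_term hk v).mono_left inf_le_left) ?_
    rw [eventually_inf_principal]
    exact Eventually.of_forall fun z hz v => norm_term_le hk ha one_pos hz v
  choose n hn using fun z : ℍ => ModularGroup_T_zpow_mem_verticalStrip z hN
  let w : ℍ → ℍ := fun z => (ModularGroup.T ^ ((N : ℤ) * n z) : SL(2, ℤ)) • z
  have him : ∀ z, (w z).im = z.im := fun z => by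
    show ((ModularGroup.T ^ ((N : ℤ) * n z) : SL(2, ℤ)) • z).im = z.im
    rw [ModularGroup.im_T_zpow_smul]
  have hw : Tendsto w atImInfty (atImInfty ⊓ 𝓟 (verticalStrip N 1)) := by
    rw [tendsto_inf]
    constructor
    · rw [atImInfty, tendsto_comap_iff]
      exact tendsto_comap.congr fun z => (him z).symm
    · rw [tendsto_principal]
      have h2 : ∀ᶠ z : ℍ in atImInfty, 1 ≤ z.im :=
        tendsto_comap.eventually (eventually_ge_atTop (1 : ℝ))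
      filter_upwards [h2] with z hz
      exact verticalStrip_anti_right N hz (hn z)
  refine (h1.comp hw).congr fun z => ?_
  exact periodic_zpow hper (n z) z

end general

section character

variable {N : ℕ}

/-- A character of `Γ₀(N)` trivial on all parabolic elements and on `-1`. -/
structure TrivOnPar (ψ : ↥(Gamma0 N) →* ℂˣ) : Prop where
  par : ∀ (g : SL(2, ℤ)) (w : ℤ) (γ : ↥(Gamma0 N)),
    (γ : SL(2, ℤ)) = g * ModularGroup.T ^ w * g⁻¹ → ψ γ = 1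
  neg : ∀ γ : ↥(Gamma0 N), (γ : SL(2, ℤ)) = -1 → ψ γ = 1

open Classical in
/-- Coefficient function of the Eisenstein series with character `ψ`. -/
def coefChar (ψ : ↥(Gamma0 N) →* ℂˣ) (v : Fin 2 → ℤ) : ℂ :=
  if h : ∃ γ : ↥(Gamma0 N), (γ : SL(2, ℤ)) 1 0 = v 0 ∧ (γ : SL(2, ℤ)) 1 1 = v 1 then
    (((ψ h.choose)⁻¹ : ℂˣ) : ℂ) else 0

lemma T_zpow_mem_Gamma0 (n : ℤ) : (ModularGroup.T ^ n : SL(2, ℤ)) ∈ Gamma0 N := by
  rw [Gamma0_mem, ModularGroup.coe_T_zpow]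
  simp

/-- Two elements of `SL₂(ℤ)` with the same bottom row differ by a translation. -/
lemma eq_T_zpow_mul {g g' : SL(2, ℤ)} (h0 : g' 1 0 = g 1 0) (h1 : g' 1 1 = g 1 1) :
    ∃ n : ℤ, g' = ModularGroup.T ^ n * g := by
  refine ⟨g' 0 1 * g 0 0 - g' 0 0 * g 0 1, ?_⟩
  have hg := g.det_coe
  have hg' := g'.det_coe
  rw [det_fin_two] at hg hg'
  ext i j
  rw [Matrix.SpecialLinearGroup.coe_mul, ModularGroup.coe_T_zpow]
  fin_cases i <;> fin_cases j <;>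
    simp [Matrix.mul_apply, Fin.sum_univ_two, h0, h1]
  · rw [h0, h1] at hg'
    linear_combination (g 0 0 : ℤ) * hg' - (g' 0 0 : ℤ) * hg
  · rw [h0, h1] at hg'
    linear_combination (g 0 1 : ℤ) * hg' - (g' 0 1 : ℤ) * hg

lemma TrivOnPar.T_zpow {ψ : ↥(Gamma0 N) →* ℂˣ} (hψ : TrivOnPar ψ) (n : ℤ) :
    ψ ⟨ModularGroup.T ^ n, T_zpow_mem_Gamma0 n⟩ = 1 :=
  hψ.par 1 n _ (by simp)

lemma coefChar_of_row {ψ : ↥(Gamma0 N) →* ℂˣ} (hψ : TrivOnPar ψ) (γ : ↥(Gamma0 N))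
    {v : Fin 2 → ℤ} (h0 : (γ : SL(2, ℤ)) 1 0 = v 0) (h1 : (γ : SL(2, ℤ)) 1 1 = v 1) :
    coefChar ψ v = (((ψ γ)⁻¹ : ℂˣ) : ℂ) := by
  have h : ∃ γ : ↥(Gamma0 N), (γ : SL(2, ℤ)) 1 0 = v 0 ∧ (γ : SL(2, ℤ)) 1 1 = v 1 := ⟨γ, h0, h1⟩
  rw [coefChar, dif_pos h]
  have hs := h.choose_spec
  set γ' := h.choose
  obtain ⟨n, hn⟩ := eq_T_zpow_mul (g := γ) (g' := γ') (hs.1.trans h0.symm) (hs.2.trans h1.symm)
  have h2 : γ' = ⟨ModularGroup.T ^ n, T_zpow_mem_Gamma0 n⟩ * γ := Subtype.ext hn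
  rw [h2, map_mul, hψ.T_zpow n, one_mul]

lemma coefChar_norm_le {ψ : ↥(Gamma0 N) →* ℂˣ} (hn : ∀ γ, ‖(ψ γ : ℂ)‖ = 1) (v : Fin 2 → ℤ) :
    ‖coefChar ψ v‖ ≤ 1 := by
  rw [coefChar]
  split_ifs with h
  · rw [Units.val_inv_eq_inv_val, norm_inv, hn, inv_one]
  · simp

lemma row_mul (γ δ : SL(2, ℤ)) (i : Fin 2) :
    ((γ * δ : SL(2, ℤ)) 1 i : ℤ) =
      ((fun j : Fin 2 => (γ 1 j : ℤ)) ᵥ* (δ : Matrix (Fin 2) (Fin 2) ℤ)) i := by
  rw [Matrix.SpecialLinearGroup.coe_mul]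
  simp [Matrix.mul_apply, Matrix.vecMul, dotProduct]

lemma coefChar_vecMul {ψ : ↥(Gamma0 N) →* ℂˣ} (hψ : TrivOnPar ψ) (γ : ↥(Gamma0 N))
    (v : Fin 2 → ℤ) :
    coefChar ψ (v ᵥ* (((γ : SL(2, ℤ))⁻¹ : SL(2, ℤ)) : Matrix (Fin 2) (Fin 2) ℤ)) =
      (ψ γ : ℂ) * coefChar ψ v := by
  have key : ∀ (g γ : ↥(Gamma0 N)) (v : Fin 2 → ℤ), (g : SL(2, ℤ)) 1 0 = v 0 →
      (g : SL(2, ℤ)) 1 1 = v 1 → ∀ i : Fin 2, ((g * γ : ↥(Gamma0 N)) : SL(2, ℤ)) 1 i =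
        (v ᵥ* ((γ : SL(2, ℤ)) : Matrix (Fin 2) (Fin 2) ℤ)) i := by
    intro g γ v h0 h1 i
    have h : (fun j : Fin 2 => ((g : SL(2, ℤ)) 1 j : ℤ)) = v := by
      ext j; fin_cases j
      · exact h0
      · exact h1
    rw [← h]
    exact row_mul _ _ i
  by_cases h : ∃ g : ↥(Gamma0 N), (g : SL(2, ℤ)) 1 0 = v 0 ∧ (g : SL(2, ℤ)) 1 1 = v 1
  · obtain ⟨g, h0, h1⟩ := h
    have hk : ∀ i : Fin 2, ((g * γ⁻¹ : ↥(Gamma0 N)) : SL(2, ℤ)) 1 i =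
        (v ᵥ* (((γ : SL(2, ℤ))⁻¹ : SL(2, ℤ)) : Matrix (Fin 2) (Fin 2) ℤ)) i :=
      key g γ⁻¹ v h0 h1
    rw [coefChar_of_row hψ g h0 h1, coefChar_of_row hψ (g * γ⁻¹) (hk 0) (hk 1)]
    rw [map_mul, map_inv, _root_.mul_inv_rev, inv_inv, Units.val_mul]
  · have h' : ¬ ∃ g : ↥(Gamma0 N), (g : SL(2, ℤ)) 1 0 =
        (v ᵥ* (((γ : SL(2, ℤ))⁻¹ : SL(2, ℤ)) : Matrix (Fin 2) (Fin 2) ℤ)) 0 ∧
        (g : SL(2, ℤ)) 1 1 =
        (v ᵥ* (((γ : SL(2, ℤ))⁻¹ : SL(2, ℤ)) : Matrix (Fin 2) (Fin 2) ℤ)) 1 := by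
      rintro ⟨g, h0, h1⟩
      have hk := key g γ _ h0 h1
      rw [vecMul_inv_mul] at hk
      exact h ⟨g * γ, hk 0, hk 1⟩
    rw [coefChar, coefChar, dif_neg h, dif_neg h', mul_zero]

/-- The Eisenstein series with character `ψ`. -/
def EisChar (k : ℤ) (ψ : ↥(Gamma0 N) →* ℂˣ) : ℍ → ℂ := Fa k (coefChar ψ)

theorem mdiff_EisChar {k : ℤ} (hk : 3 ≤ k) {ψ : ↥(Gamma0 N) →* ℂˣ}
    (hn : ∀ γ, ‖(ψ γ : ℂ)‖ = 1) : MDiff (EisChar k ψ) :=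
  mdiff_Fa hk (coefChar_norm_le hn)

theorem EisChar_slash (k : ℤ) {ψ : ↥(Gamma0 N) →* ℂˣ} (hψ : TrivOnPar ψ) (γ : ↥(Gamma0 N)) :
    EisChar k ψ ∣[k] (γ : SL(2, ℤ)) = (ψ γ : ℂ) • EisChar k ψ := by
  rw [EisChar, Fa_slash]
  simp_rw [coefChar_vecMul hψ]
  ext z
  simp only [Fa, Pi.smul_apply, smul_eq_mul, mul_assoc]
  rw [tsum_mul_left]

lemma slash_T_zpow (k : ℤ) (f : ℍ → ℂ) (n : ℤ) (z : ℍ) :
    (f ∣[k] (ModularGroup.T ^ n : SL(2, ℤ))) z = f ((ModularGroup.T ^ n : SL(2, ℤ)) • z) := by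
  rw [SL_slash_apply]
  have h : denom ((ModularGroup.T ^ n : SL(2, ℤ)) : GL (Fin 2) ℝ) z = 1 := by
    rw [ModularGroup.denom_apply, ModularGroup.coe_T_zpow]
    simp
  rw [h, _root_.one_zpow, mul_one]

lemma conj_T_mem_Gamma0 (δ : SL(2, ℤ)) :
    δ * ModularGroup.T ^ (N : ℤ) * δ⁻¹ ∈ Gamma0 N := by
  have h1 : (ModularGroup.T ^ (N : ℤ)) ∈ CongruenceSubgroup.Gamma N := by
    simpa using ModularGroup_T_pow_mem_Gamma (N : ℤ) (N : ℤ) dvd_rfl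
  have h2 : δ * ModularGroup.T ^ (N : ℤ) * δ⁻¹ ∈ CongruenceSubgroup.Gamma N := (Gamma_normal N).conj_mem _ h1 δ
  rw [Gamma_mem] at h2
  rw [Gamma0_mem]
  exact h2.2.2.1

theorem EisChar_slash_periodic (k : ℤ) {ψ : ↥(Gamma0 N) →* ℂˣ} (hψ : TrivOnPar ψ)
    (δ : SL(2, ℤ)) (z : ℍ) :
    (EisChar k ψ ∣[k] δ) ((ModularGroup.T ^ (N : ℤ) : SL(2, ℤ)) • z) =
      (EisChar k ψ ∣[k] δ) z := by
  rw [← slash_T_zpow k (EisChar k ψ ∣[k] δ), ← SlashAction.slash_mul]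
  have h1 : δ * ModularGroup.T ^ (N : ℤ) = (δ * ModularGroup.T ^ (N : ℤ) * δ⁻¹) * δ := by group
  have h2 := EisChar_slash k hψ ⟨_, conj_T_mem_Gamma0 δ⟩
  rw [hψ.par δ N ⟨_, conj_T_mem_Gamma0 δ⟩ rfl, Units.val_one, one_smul] at h2
  rw [h1, SlashAction.slash_mul, h2]

theorem isBoundedAtImInfty_EisChar_slash [NeZero N] {k : ℤ} (hk : 3 ≤ k)
    {ψ : ↥(Gamma0 N) →* ℂˣ} (hn : ∀ γ, ‖(ψ γ : ℂ)‖ = 1) (hψ : TrivOnPar ψ) (δ : SL(2, ℤ)) :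
    IsBoundedAtImInfty (EisChar k ψ ∣[k] δ) := by
  have h := EisChar_slash_periodic k hψ δ
  rw [EisChar, Fa_slash] at h ⊢
  exact isBoundedAtImInfty_Fa hk (fun v => coefChar_norm_le hn _) (NeZero.pos N) h

lemma coefChar_zero_row {ψ : ↥(Gamma0 N) →* ℂˣ} {v : Fin 2 → ℤ}
    (h0 : v 0 = 0) (h1 : v ≠ ![0, 1]) (h2 : v ≠ ![0, -1]) : coefChar ψ v = 0 := by
  rw [coefChar, dif_neg]
  rintro ⟨γ, e0, e1⟩
  have hg := (γ : SL(2, ℤ)).det_coe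
  rw [det_fin_two, e0, h0, mul_zero, sub_zero, e1] at hg
  rcases Int.eq_one_or_neg_one_of_mul_eq_one' hg with h | h
  · exact h1 (by ext i; fin_cases i <;> simp [h0, h.2])
  · exact h2 (by ext i; fin_cases i <;> simp [h0, h.2])

lemma constA_coefChar {k : ℤ} (hk : Even k) {ψ : ↥(Gamma0 N) →* ℂˣ} (hψ : TrivOnPar ψ) :
    constA k (coefChar ψ) = 2 := by
  rw [constA, tsum_eq_sum (s := {![0, 1], ![0, -1]})]
  · have h1 : coefChar ψ ![0, 1] = 1 := by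
      rw [coefChar_of_row hψ 1 (by simp) (by simp)]; simp
    have h2 : coefChar ψ ![0, -1] = 1 := by
      have hm : (-1 : SL(2, ℤ)) ∈ Gamma0 N := by rw [Gamma0_mem]; simp
      rw [coefChar_of_row hψ ⟨-1, hm⟩ (by simp) (by simp), hψ.neg ⟨-1, hm⟩ rfl]; simp
    rw [Finset.sum_pair (by simp)]
    simp only [cons_val_zero, if_true, cons_val_one, cons_val_fin_one, h1, h2, one_mul,
      Int.cast_one, _root_.one_zpow, Int.cast_neg]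
    rw [(hk.neg).neg_one_zpow]
    norm_num
  · intro v hv
    simp only [Finset.mem_insert, Finset.mem_singleton, not_or] at hv
    split_ifs with h
    · rw [coefChar_zero_row h hv.1 hv.2, zero_mul]
    · rfl

/-- Value at the cusp `i∞`. -/
theorem tendsto_EisChar {k : ℤ} (hk : 3 ≤ k) (hk2 : Even k) {ψ : ↥(Gamma0 N) →* ℂˣ}
    (hn : ∀ γ, ‖(ψ γ : ℂ)‖ = 1) (hψ : TrivOnPar ψ) :
    Tendsto (EisChar k ψ) atImInfty (𝓝 2) := by
  rw [← constA_coefChar hk2 hψ]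
  refine tendsto_Fa hk (coefChar_norm_le hn) one_pos fun z => ?_
  have h := congrFun (EisChar_slash k hψ ⟨_, T_zpow_mem_Gamma0 1⟩) z
  rw [hψ.T_zpow 1, Units.val_one, one_smul, slash_T_zpow] at h
  exact_mod_cast h

end character

end Fermat.Agent.H02
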