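import Fermat.Agent.H02_ModAlg
import Fermat.Prelude.Def_ModularCurve_X0
import Fermat.Prelude.Def_ModularCurve_LaurentCoeff

set_option autoImplicit false

/-!
# The `q`-expansion of `j` is the prelude's `jq`

-/

noncomputable section

open UpperHalfPlane hiding I
open ModularForm EisensteinSeries Filter Complex Topology Function CongruenceSubgroup
open scoped MatrixGroups Manifold Real Nat

namespace Fermat.Agent.H02

local notation "𝕢" => Function.Periodic.qParam
local notation "Δ" => ModularForm.discriminant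

open Fermat.Agent.H18 (jfun)

/-! ### The analytic Euler product and its Taylor coefficients -/

/-- `∏ (1 - q^(n+1))` as a function on `ℂ`. -/
def eulerF (q : ℂ) : ℂ := ∏' n : ℕ, (1 - q ^ (n + 1))

lemma differentiableOn_eulerF : DifferentiableOn ℂ eulerF (Metric.ball (0 : ℂ) 1) :=
  differentiableOn_tprod_one_sub_pow

/-- partial products as polynomials -/
def eulerP (s : Finset ℕ) : Polynomial ℂ := ∏ i ∈ s, (1 - Polynomial.X ^ (i + 1))

lemma eulerP_eval (s : Finset ℕ) (q : ℂ) : (eulerP s).eval q = ∏ i ∈ s, (1 - q ^ (i + 1)) := by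
  rw [eulerP, Polynomial.eval_prod]
  simp

lemma iterate_deriv_eval (p : Polynomial ℂ) (m : ℕ) :
    deriv^[m] (fun q => p.eval q) = fun q => (Polynomial.derivative^[m] p).eval q := by
  induction m generalizing p with
  | zero => rfl
  | succ m ih =>
    rw [Function.iterate_succ, Function.comp_apply, Function.iterate_succ, Function.comp_apply,
      ← ih]
    congr 1
    ext q
    exact Polynomial.deriv p

lemma tendsto_iterate_deriv (m : ℕ) :
    TendstoLocallyUniformlyOn (fun (s : Finset ℕ) => deriv^[m] (fun q => (eulerP s).eval q))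
      (deriv^[m] eulerF) atTop (Metric.ball (0 : ℂ) 1) := by
  induction m with
  | zero =>
    simp only [Function.iterate_zero, id_eq]
    have h := multipliableLocallyUniformlyOn_one_sub_pow.hasProdLocallyUniformlyOn
    rw [hasProdLocallyUniformlyOn_iff_tendstoLocallyUniformlyOn] at h
    refine h.congr fun s => fun q _ => ?_
    rw [eulerP_eval]
  | succ m ih =>
    have h := ih.deriv (Eventually.of_forall fun s => ?_) Metric.isOpen_ball
    · simp_rw [Function.iterate_succ']
      exact h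
    · rw [iterate_deriv_eval]
      exact (Polynomial.differentiable _).differentiableOn

lemma coe_eulerP (s : Finset ℕ) :
    ((eulerP s : Polynomial ℂ) : PowerSeries ℂ) = ∏ n ∈ s, (1 - PowerSeries.X ^ (n + 1)) := by
  have h := map_prod (Polynomial.coeToPowerSeries.ringHom (R := ℂ))
    (fun i : ℕ => (1 - Polynomial.X ^ (i + 1) : Polynomial ℂ)) s
  simp only [Polynomial.coeToPowerSeries.ringHom_apply] at h
  rw [eulerP, h]
  simp

theorem iteratedDeriv_eulerF (m : ℕ) :
    iteratedDeriv m eulerF 0 = m ! * (PowerSeries.pentagonalSeries ℂ).coeff m := by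
  have h1 : Tendsto (fun s : Finset ℕ => deriv^[m] (fun q => (eulerP s).eval q) 0) atTop
      (𝓝 (deriv^[m] eulerF 0)) :=
    (tendsto_iterate_deriv m).tendsto_at (Metric.mem_ball_self one_pos)
  have h2 : Tendsto (fun s : Finset ℕ => deriv^[m] (fun q => (eulerP s).eval q) 0) atTop
      (𝓝 (m ! * (PowerSeries.pentagonalSeries ℂ).coeff m)) := by
    refine tendsto_nhds_of_eventually_eq ?_
    filter_upwards [PowerSeries.coeff_prod_one_sub_X_pow_eventually_eq ℂ m] with s hs
    rw [iterate_deriv_eval, ← hs, ← coe_eulerP, Polynomial.coeff_coe]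
    show (Polynomial.derivative^[m] (eulerP s)).eval 0 = _
    rw [← Polynomial.coeff_zero_eq_eval_zero, Polynomial.coeff_iterate_derivative]
    simp [Nat.descFactorial_self, nsmul_eq_mul]
  rw [iteratedDeriv_eq_iterate]
  exact tendsto_nhds_unique h1 h2

theorem hasSum_eulerF {q : ℂ} (hq : ‖q‖ < 1) :
    HasSum (fun m : ℕ => (PowerSeries.pentagonalSeries ℂ).coeff m • q ^ m) (eulerF q) := by
  have h := hasSum_taylorSeries_on_ball differentiableOn_eulerF (z := q) (by simpa using hq)
  convert! h using 2 with m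
  have hm : (m ! : ℂ) ≠ 0 := by exact_mod_cast Nat.factorial_ne_zero m
  rw [iteratedDeriv_eulerF, sub_zero]
  simp only [smul_eq_mul]
  field_simp

/-! ### The functions `𝕢` and `φ = ∏(1 - 𝕢^n)` on `ℍ` -/

/-- The parameter `q = e^{2π i z}`. -/
def qf (z : ℍ) : ℂ := 𝕢 1 z

lemma qf_ne_zero (z : ℍ) : qf z ≠ 0 := Complex.exp_ne_zero _

lemma norm_qf_lt_one (z : ℍ) : ‖qf z‖ < 1 := Periodic.norm_qParam_lt_one one_pos z.im_pos

lemma qf_ofComplex {w : ℂ} (hw : 0 < w.im) : qf (ofComplex w) = 𝕢 1 w := by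
  rw [qf, ofComplex_apply_of_im_pos hw]

lemma periodic_of_qf (F : ℂ → ℂ) : Function.Periodic ((fun z => F (qf z)) ∘ ofComplex) 1 := by
  intro w
  by_cases hw : 0 < im w
  · have h1 : 0 < im (w + 1) := by simpa using hw
    simp only [comp_apply, qf_ofComplex h1, qf_ofComplex hw]
    have : 𝕢 1 (w + 1) = 𝕢 1 w := by
      simp [Function.Periodic.qParam, mul_add, Complex.exp_add]
    rw [this]
  · have h1 : im (w + 1) ≤ 0 := by simpa using hw
    simp [comp_apply, ofComplex_apply_of_im_nonpos h1, ofComplex_apply_of_im_nonpos (not_lt.mp hw)]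

lemma mdiff_of_qf {F : ℂ → ℂ} (hF : DifferentiableOn ℂ F (Metric.ball (0 : ℂ) 1)) :
    MDiff (fun z : ℍ => F (qf z)) := by
  rw [UpperHalfPlane.mdifferentiable_iff]
  have h1 : DifferentiableOn ℂ (fun w : ℂ => F (𝕢 1 w)) {z : ℂ | 0 < z.im} := by
    refine hF.comp (Function.Periodic.differentiable_qParam).differentiableOn ?_
    intro w hw
    rw [mem_ball_zero_iff]
    exact Periodic.norm_qParam_lt_one one_pos hw
  refine h1.congr fun w hw => ?_
  simp only [comp_apply]
  rw [qf_ofComplex hw]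

lemma good_of_qf {F : ℂ → ℂ} (hF : DifferentiableOn ℂ F (Metric.ball (0 : ℂ) 1)) :
    Good (fun z : ℍ => F (qf z)) := by
  refine ⟨mdiff_of_qf hF, periodic_of_qf F, ?_⟩
  have h1 : ContinuousAt F 0 :=
    (hF.differentiableAt (Metric.ball_mem_nhds 0 one_pos)).continuousAt
  have h2 : Tendsto (fun z : ℍ => F (qf z)) atImInfty (𝓝 (F 0)) :=
    h1.tendsto.comp (qParam_tendsto_atImInfty one_pos)
  exact h2.isBigO_one ℝ

lemma good_qf : Good qf := good_of_qf (F := id) differentiableOn_id

/-- `φ(z) = ∏ (1 - q^(n+1))`. -/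
def phi (z : ℍ) : ℂ := eulerF (qf z)

lemma good_phi : Good phi := good_of_qf differentiableOn_eulerF

lemma phi_ne_zero (z : ℍ) : phi z ≠ 0 := by
  have h := eta_tprod_ne_zero (z := (z : ℂ)) z.2
  exact h

lemma discriminant_eq : Δ = qf * phi ^ 24 := by
  ext z
  rw [discriminant_eq_q_prod z, Pi.mul_apply, Pi.pow_apply, phi, eulerF, qf]
  congr 1
  exact (multipliable_one_sub_pow (norm_qf_lt_one z)).tprod_pow 24

lemma tendsto_phi : Tendsto phi atImInfty (𝓝 1) := by
  have h1 : ContinuousAt eulerF 0 :=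
    (differentiableOn_eulerF.differentiableAt (Metric.ball_mem_nhds 0 one_pos)).continuousAt
  have h2 : Tendsto phi atImInfty (𝓝 (eulerF 0)) :=
    h1.tendsto.comp (qParam_tendsto_atImInfty one_pos)
  have h3 : eulerF 0 = 1 := by simp [eulerF]
  rwa [h3] at h2

lemma qExpansion_qf : qExpansion 1 qf = PowerSeries.X := by
  rw [good_qf.qExpansion_unique (c := fun m => if m = 1 then 1 else 0)]
  · ext m
    rw [PowerSeries.coeff_mk, PowerSeries.coeff_X]
  · intro z
    have := hasSum_ite_eq (1 : ℕ) (qf z)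
    convert! this using 2 with m
    split_ifs with h
    · rw [h]; simp [qf]
    · simp

lemma qExpansion_phi : qExpansion 1 phi = PowerSeries.pentagonalSeries ℂ := by
  rw [good_phi.qExpansion_unique (c := fun m => (PowerSeries.pentagonalSeries ℂ).coeff m)]
  · ext m
    rw [PowerSeries.coeff_mk]
  · intro z
    exact hasSum_eulerF (norm_qf_lt_one z)

lemma qExpansion_discriminant :
    qExpansion 1 Δ = PowerSeries.X * PowerSeries.pentagonalSeries ℂ ^ 24 := by
  rw [discriminant_eq, good_qf.qExpansion_mul (good_phi.pow 24), good_phi.qExpansion_pow,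
    qExpansion_qf, qExpansion_phi]

/-! ### Comparison with the prelude's power series -/

lemma map_pentagonalSeries :
    (PowerSeries.pentagonalSeries ℤ).map (Int.castRingHom ℂ) =
      PowerSeries.pentagonalSeries ℂ := by
  ext n
  rw [PowerSeries.coeff_map, PowerSeries.pentagonalSeries, PowerSeries.pentagonalSeries,
    PowerSeries.coeff_mk, PowerSeries.coeff_mk]
  split_ifs with h <;> simp

lemma etaProd_eq : ModularCurve.etaProd = PowerSeries.pentagonalSeries ℤ :=
  PowerSeries.WithPiTopology.tprod_one_sub_X_pow ℤ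

lemma map_dedekindEtaUnit :
    ModularCurve.dedekindEtaUnit.map (Int.castRingHom ℂ) =
      PowerSeries.pentagonalSeries ℂ ^ 24 := by
  rw [ModularCurve.dedekindEtaUnit, map_pow, etaProd_eq, map_pentagonalSeries]

lemma qExpansion_E4 :
    qExpansion 1 (E₄ : ℍ → ℂ) = ModularCurve.eisenstein4.map (Int.castRingHom ℂ) := by
  ext m
  rw [PowerSeries.coeff_map, ModularCurve.eisenstein4, PowerSeries.coeff_mk,
    E_qExpansion_coeff _ ⟨2, rfl⟩]
  split_ifs with h
  · simp
  · rw [show bernoulli 4 = -1 / 30 by decide +kernel, ArithmeticFunction.sigma_apply]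
    push_cast
    norm_num

/-- Coefficientwise map of the prelude's `jNum`. -/
lemma map_jNum :
    ModularCurve.jNum.map (Int.castRingHom ℂ) * PowerSeries.pentagonalSeries ℂ ^ 24 =
      qExpansion 1 (E₄ : ℍ → ℂ) ^ 3 := by
  rw [ModularCurve.jNum, map_mul, map_pow, qExpansion_E4, ← map_dedekindEtaUnit, mul_assoc,
    ← map_mul, mul_comm ModularCurve.dedekindEtaUnitInv, ModularCurve.dedekindEtaUnit_mul_inv,
    map_one, mul_one]

/-- The image of `jq` in `LaurentSeries ℂ`. -/
lemma coeffEmb_jq : ModularCurve.coeffEmb ℂ ModularCurve.jq =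
    HahnSeries.single (-1 : ℤ) 1 *
      HahnSeries.ofPowerSeries ℤ ℂ (ModularCurve.jNum.map (Int.castRingHom ℂ)) := by
  have h : ∀ f : PowerSeries ℚ, ModularCurve.coeffEmb ℂ (HahnSeries.ofPowerSeries ℤ ℚ f) =
      HahnSeries.ofPowerSeries ℤ ℂ (f.map (algebraMap ℚ ℂ)) := by
    intro f
    ext k
    rw [ModularCurve.coeffEmb_coeff]
    rcases lt_or_ge k 0 with hk | hk
    · rw [ModularCurve.ofPowerSeries_coeff_of_neg _ hk,
        ModularCurve.ofPowerSeries_coeff_of_neg _ hk, map_zero]
    · obtain ⟨n, rfl⟩ := Int.eq_ofNat_of_zero_le hk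
      rw [HahnSeries.ofPowerSeries_apply_coeff, HahnSeries.ofPowerSeries_apply_coeff,
        PowerSeries.coeff_map]
  rw [ModularCurve.jq, map_mul, h, ModularCurve.jNumQ]
  congr 1
  · rw [ModularCurve.coeffEmb, ModularCurve.coeffMap_single, map_one]

lemma qS_qf : qS qf = HahnSeries.single (1 : ℤ) 1 := by
  rw [qS, qExpansion_qf, HahnSeries.ofPowerSeries_X]

lemma jfun_mem_lauAlg : jfun ∈ lauAlg := modAlg_le_lauAlg (Γ := ⊤) trivial (jfun_mem_modAlg ⊤)

lemma isLau_jfun : IsLau 1 jfun :=
  ⟨Fermat.Agent.H18.mdiff_jfun, periodic_of_T (tr_jfun _), by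
    rw [pow_one, jfun_mul_discriminant']
    exact ((good_of_modularForm E₄ one_mem_strictPeriods_SL).pow 3).bdd⟩

/-- **The `q`-expansion of `j` is `jq`.** -/
theorem qLauFun_jfun : qLauFun jfun = ModularCurve.coeffEmb ℂ ModularCurve.jq := by
  have h1 := isLau_jfun.qLauFun_mul_pow
  have hE := good_of_modularForm E₄ one_mem_strictPeriods_SL
  rw [pow_one, pow_one, jfun_mul_discriminant', hE.qS_pow] at h1
  refine mul_right_cancel₀ qS_discriminant_ne_zero (h1.trans ?_)
  rw [coeffEmb_jq, qS, qS, ← map_pow, ← map_jNum, qExpansion_discriminant, map_mul, map_mul,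
    HahnSeries.ofPowerSeries_X, mul_comm (HahnSeries.single (-1 : ℤ) (1 : ℂ)), mul_assoc,
    ← mul_assoc (HahnSeries.single (-1 : ℤ) (1 : ℂ)), HahnSeries.single_mul_single]
  simp

theorem qLau_jfun : qLau ⟨jfun, jfun_mem_lauAlg⟩ = ModularCurve.coeffEmb ℂ ModularCurve.jq :=
  qLauFun_jfun

/-! ### Pointwise convergence of Laurent `q`-expansions -/

lemma IsLau.good_mul_qf {n : ℕ} {f : ℍ → ℂ} (hf : IsLau n f) : Good (f * qf ^ n) := by
  refine ⟨hf.holo.mul (good_qf.pow n).holo, fun z => ?_, ?_⟩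
  · have h1 := hf.per z
    have h2 := (good_qf.pow n).per z
    simp only [comp_apply, Pi.mul_apply] at h1 h2 ⊢
    rw [h1, h2]
  · have h1 : Tendsto (fun z => (phi z ^ (24 * n))⁻¹) atImInfty (𝓝 1) := by
      have := (tendsto_phi.pow (24 * n)).inv₀ (by simp)
      simpa using this
    have h2 : IsBoundedAtImInfty (fun z => (phi z ^ (24 * n))⁻¹) := h1.isBigO_one ℝ
    have h3 : f * qf ^ n = (f * Δ ^ n) * fun z => (phi z ^ (24 * n))⁻¹ := by
      ext z
      have := phi_ne_zero z
      rw [discriminant_eq]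
      simp only [Pi.mul_apply, Pi.pow_apply]
      rw [mul_pow, ← pow_mul]
      field_simp
    rw [h3]
    exact hf.bdd.mul h2

lemma qS_phi_ne_zero : qS phi ≠ 0 := fun h =>
  phi_ne_zero UpperHalfPlane.I (congrFun (good_phi.eq_zero_of_qS h) _)

lemma IsLau.qLauFun_mul_single {n : ℕ} {f : ℍ → ℂ} (hf : IsLau n f) :
    qLauFun f * HahnSeries.single (n : ℤ) 1 = qS (f * qf ^ n) := by
  have h1 := hf.qLauFun_mul_pow
  have h2 : f * Δ ^ n = (f * qf ^ n) * phi ^ (24 * n) := by
    rw [discriminant_eq, mul_pow, ← pow_mul, mul_assoc]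
  rw [h2, hf.good_mul_qf.qS_mul (good_phi.pow _), good_phi.qS_pow, discriminant_eq,
    good_qf.qS_mul (good_phi.pow _), good_phi.qS_pow, mul_pow, ← pow_mul, ← mul_assoc] at h1
  have h3 := mul_right_cancel₀ (pow_ne_zero _ qS_phi_ne_zero) h1
  rw [← h3, qS_qf, HahnSeries.single_pow]
  simp

/-- The Laurent `q`-expansion converges to the function everywhere on `ℍ`. -/
theorem IsLau.hasSum {n : ℕ} {f : ℍ → ℂ} (hf : IsLau n f) (z : ℍ) :
    HasSum (fun k : ℤ => (qLauFun f).coeff k * qf z ^ k) (f z) := by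
  have h1 := hf.good_mul_qf.hasSum z
  have hq := qf_ne_zero z
  have h2 : HasSum (fun k : ℤ => (qS (f * qf ^ n)).coeff k * qf z ^ k) ((f * qf ^ n) z) := by
    rw [← Function.Injective.hasSum_iff (f := fun k : ℤ => (qS (f * qf ^ n)).coeff k * qf z ^ k)
      Nat.cast_injective]
    · convert! h1 using 2 with m
      simp only [comp_apply, qS, HahnSeries.ofPowerSeries_apply_coeff, zpow_natCast, smul_eq_mul]
      rfl
    · intro k hk
      have hk0 : k < 0 := by
        by_contra h
        exact hk ⟨k.toNat, Int.toNat_of_nonneg (not_lt.mp h)⟩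
      rw [qS, ModularCurve.ofPowerSeries_coeff_of_neg _ hk0, zero_mul]
  rw [← hf.qLauFun_mul_single] at h2
  have h3 := h2.mul_right ((qf z ^ n)⁻¹)
  have h4 : (f * qf ^ n) z * (qf z ^ n)⁻¹ = f z := by
    simp only [Pi.mul_apply, Pi.pow_apply]
    field_simp
  rw [h4, ← (Equiv.addRight (n : ℤ)).hasSum_iff] at h3
  convert! h3 using 2 with k
  simp only [comp_apply, Equiv.coe_addRight]
  rw [HahnSeries.coeff_mul_single, mul_one, add_sub_cancel_right, zpow_add₀ hq, zpow_natCast]
  field_simp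

theorem hasSum_jq (z : ℍ) :
    HasSum (fun k : ℤ => ((ModularCurve.jq.coeff k : ℚ) : ℂ) * qf z ^ k) (jfun z) := by
  have h := isLau_jfun.hasSum z
  rw [qLauFun_jfun] at h
  exact h

end Fermat.Agent.H02
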