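import Fermat.Agent.H18_Ramanujan

set_option autoImplicit false

/-!
# Laurent `q`-expansions of holomorphic 1-periodic functions on `ℍ` of moderate growth

`lauAlg` is the algebra of holomorphic functions `f` on `ℍ`, 1-periodic, with `Δ^n f` bounded at
`i∞` for some `n`; `qLau : lauAlg →ₐ[ℂ] LaurentSeries ℂ` is the `q`-expansion.
-/

noncomputable section

open UpperHalfPlane hiding I
open ModularForm EisensteinSeries Filter Complex Topology Function
open scoped MatrixGroups Manifold Real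

namespace Fermat.Agent.H02

local notation "𝕢" => Function.Periodic.qParam
local notation "Δ" => ModularForm.discriminant

/-- Holomorphic, 1-periodic functions, bounded at `i∞`. -/
structure Good (f : ℍ → ℂ) : Prop where
  holo : MDiff f
  per : Function.Periodic (f ∘ ofComplex) 1
  bdd : IsBoundedAtImInfty f

lemma Good.per' {f : ℍ → ℂ} (h : Good f) : Function.Periodic (f ∘ ofComplex) ((1 : ℝ) : ℂ) := by
  simpa using h.per

lemma Good.analyticAt {f : ℍ → ℂ} (h : Good f) : AnalyticAt ℂ (cuspFunction 1 f) 0 :=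
  analyticAt_cuspFunction_zero one_pos h.per' h.holo h.bdd

lemma Good.hasSum {f : ℍ → ℂ} (h : Good f) (z : ℍ) :
    HasSum (fun m : ℕ ↦ (qExpansion 1 f).coeff m • 𝕢 1 z ^ m) (f z) :=
  z.hasSum_qExpansion one_pos h.per' h.holo h.bdd

lemma Good.mul {f g : ℍ → ℂ} (hf : Good f) (hg : Good g) : Good (f * g) :=
  ⟨hf.holo.mul hg.holo, fun z => by
    have h1 := hf.per z
    have h2 := hg.per z
    simp only [comp_apply, Pi.mul_apply] at h1 h2 ⊢
    rw [h1, h2], hf.bdd.mul hg.bdd⟩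

lemma Good.add {f g : ℍ → ℂ} (hf : Good f) (hg : Good g) : Good (f + g) :=
  ⟨hf.holo.add hg.holo, fun z => by
    have h1 := hf.per z
    have h2 := hg.per z
    simp only [comp_apply, Pi.add_apply] at h1 h2 ⊢
    rw [h1, h2], hf.bdd.add hg.bdd⟩

lemma good_const (c : ℂ) : Good (fun _ : ℍ => c) :=
  ⟨mdifferentiable_const, fun z => by simp, Filter.const_boundedAtFilter _ c⟩

lemma good_one : Good (1 : ℍ → ℂ) := good_const 1

lemma Good.pow {f : ℍ → ℂ} (hf : Good f) (n : ℕ) : Good (f ^ n) := by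
  induction n with
  | zero => rw [pow_zero]; exact good_one
  | succ n ih => rw [pow_succ]; exact ih.mul hf

lemma Good.smul {f : ℍ → ℂ} (hf : Good f) (c : ℂ) : Good (c • f) :=
  (good_const c).mul hf

lemma good_of_modularForm {Γ : Subgroup (GL (Fin 2) ℝ)} [Fact (IsCusp OnePoint.infty Γ)]
    {k : ℤ} {F : Type*} [FunLike F ℍ ℂ] [ModularFormClass F Γ k] (f : F)
    (hΓ : (1 : ℝ) ∈ Γ.strictPeriods) : Good (f : ℍ → ℂ) :=
  ⟨ModularFormClass.holo f, by
    simpa using SlashInvariantFormClass.periodic_comp_ofComplex f hΓ,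
    ModularFormClass.bdd_at_infty f⟩

lemma good_discriminant : Good Δ := by
  have := good_of_modularForm CuspForm.discriminant one_mem_strictPeriods_SL
  simpa using this

lemma Good.qExpansion_mul {f g : ℍ → ℂ} (hf : Good f) (hg : Good g) :
    qExpansion 1 (f * g) = qExpansion 1 f * qExpansion 1 g :=
  UpperHalfPlane.qExpansion_mul hf.analyticAt hg.analyticAt

lemma Good.qExpansion_add {f g : ℍ → ℂ} (hf : Good f) (hg : Good g) :
    qExpansion 1 (f + g) = qExpansion 1 f + qExpansion 1 g :=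
  UpperHalfPlane.qExpansion_add hf.analyticAt hg.analyticAt

lemma Good.qExpansion_pow {f : ℍ → ℂ} (hf : Good f) (n : ℕ) :
    qExpansion 1 (f ^ n) = qExpansion 1 f ^ n := by
  induction n with
  | zero => rw [pow_zero, pow_zero]; exact qExpansion_one 1
  | succ n ih => rw [pow_succ, pow_succ, (hf.pow n).qExpansion_mul hf, ih]

lemma Good.eq_zero_of_qExpansion {f : ℍ → ℂ} (hf : Good f) (h : qExpansion 1 f = 0) : f = 0 :=
  (qExpansion_eq_zero_iff one_pos hf.per' hf.holo hf.bdd).mp h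

/-- Uniqueness of `q`-expansions. -/
lemma Good.qExpansion_unique {f : ℍ → ℂ} (hf : Good f) {c : ℕ → ℂ}
    (h : ∀ z : ℍ, HasSum (fun m ↦ c m • 𝕢 1 z ^ m) (f z)) :
    qExpansion 1 f = PowerSeries.mk c := by
  have h1 := hasFPowerSeriesOnBall_cuspFunction (f := f) one_pos hf.analyticAt h
  have h2 := hasFPowerSeriesOnBall_cuspFunction (f := f) one_pos hf.analyticAt hf.hasSum
  have h3 := h1.hasFPowerSeriesAt.eq_formalMultilinearSeries h2.hasFPowerSeriesAt
  ext n
  have h4 : (FormalMultilinearSeries.ofScalars ℂ c).coeff n =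
    (FormalMultilinearSeries.ofScalars ℂ (fun m => (qExpansion 1 f).coeff m)).coeff n := by
    rw [h3]
  rw [FormalMultilinearSeries.coeff_ofScalars, FormalMultilinearSeries.coeff_ofScalars] at h4
  rw [PowerSeries.coeff_mk, h4]

/-- `f` is holomorphic, 1-periodic and `Δ^n f` is bounded at `i∞`. -/
structure IsLau (n : ℕ) (f : ℍ → ℂ) : Prop where
  holo : MDiff f
  per : Function.Periodic (f ∘ ofComplex) 1
  bdd : IsBoundedAtImInfty (f * Δ ^ n)

lemma IsLau.good {n : ℕ} {f : ℍ → ℂ} (h : IsLau n f) : Good (f * Δ ^ n) :=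
  ⟨h.holo.mul (good_discriminant.pow n).holo, fun z => by
    have h1 := h.per z
    have h2 := (good_discriminant.pow n).per z
    simp only [comp_apply, Pi.mul_apply] at h1 h2 ⊢
    rw [h1, h2], h.bdd⟩

lemma Good.isLau {f : ℍ → ℂ} (h : Good f) : IsLau 0 f :=
  ⟨h.holo, h.per, by rw [pow_zero, mul_one]; exact h.bdd⟩

lemma IsLau.mono_add {n : ℕ} {f : ℍ → ℂ} (h : IsLau n f) (m : ℕ) : IsLau (n + m) f :=
  ⟨h.holo, h.per, by
    rw [pow_add, ← mul_assoc]; exact (h.good.mul (good_discriminant.pow m)).bdd⟩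

lemma IsLau.mono {n m : ℕ} {f : ℍ → ℂ} (h : IsLau n f) (hm : n ≤ m) : IsLau m f := by
  obtain ⟨k, rfl⟩ := Nat.exists_eq_add_of_le hm
  exact h.mono_add k

lemma IsLau.mul {n m : ℕ} {f g : ℍ → ℂ} (hf : IsLau n f) (hg : IsLau m g) :
    IsLau (n + m) (f * g) :=
  ⟨hf.holo.mul hg.holo, fun z => by
    have h1 := hf.per z
    have h2 := hg.per z
    simp only [comp_apply, Pi.mul_apply] at h1 h2 ⊢
    rw [h1, h2], by
    rw [show f * g * Δ ^ (n + m) = (f * Δ ^ n) * (g * Δ ^ m) by rw [pow_add]; ring]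
    exact hf.bdd.mul hg.bdd⟩

lemma IsLau.add {n m : ℕ} {f g : ℍ → ℂ} (hf : IsLau n f) (hg : IsLau m g) :
    IsLau (max n m) (f + g) :=
  ⟨hf.holo.add hg.holo, fun z => by
    have h1 := hf.per z
    have h2 := hg.per z
    simp only [comp_apply, Pi.add_apply] at h1 h2 ⊢
    rw [h1, h2], by
    rw [add_mul]
    exact (hf.mono (le_max_left n m)).bdd.add (hg.mono (le_max_right n m)).bdd⟩

/-- Algebra of holomorphic 1-periodic functions on `ℍ`, meromorphic at `i∞`. -/
def lauAlg : Subalgebra ℂ (ℍ → ℂ) where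
  carrier := {f | ∃ n, IsLau n f}
  mul_mem' := fun ⟨_, hf⟩ ⟨_, hg⟩ => ⟨_, hf.mul hg⟩
  add_mem' := fun ⟨_, hf⟩ ⟨_, hg⟩ => ⟨_, hf.add hg⟩
  algebraMap_mem' := fun c => ⟨0, (good_const c).isLau⟩

lemma mem_lauAlg {f : ℍ → ℂ} : f ∈ lauAlg ↔ ∃ n, IsLau n f := Iff.rfl

lemma Good.mem_lauAlg {f : ℍ → ℂ} (h : Good f) : f ∈ lauAlg := ⟨0, h.isLau⟩

/-- `q`-expansion as a Laurent series. -/
def qS (f : ℍ → ℂ) : LaurentSeries ℂ := HahnSeries.ofPowerSeries ℤ ℂ (qExpansion 1 f)

lemma Good.qS_mul {f g : ℍ → ℂ} (hf : Good f) (hg : Good g) : qS (f * g) = qS f * qS g := by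
  rw [qS, hf.qExpansion_mul hg, map_mul]; rfl

lemma Good.qS_add {f g : ℍ → ℂ} (hf : Good f) (hg : Good g) : qS (f + g) = qS f + qS g := by
  rw [qS, hf.qExpansion_add hg, map_add]; rfl

lemma Good.qS_pow {f : ℍ → ℂ} (hf : Good f) (n : ℕ) : qS (f ^ n) = qS f ^ n := by
  rw [qS, hf.qExpansion_pow, map_pow]; rfl

lemma Good.eq_zero_of_qS {f : ℍ → ℂ} (hf : Good f) (h : qS f = 0) : f = 0 := by
  refine hf.eq_zero_of_qExpansion ?_
  exact HahnSeries.ofPowerSeries_injective (h.trans (map_zero _).symm)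

lemma qS_discriminant_ne_zero : qS Δ ≠ 0 := fun h =>
  discriminant_ne_zero UpperHalfPlane.I (congrFun (good_discriminant.eq_zero_of_qS h) _)

/-- Auxiliary `q`-expansion with a given exponent of `Δ`. -/
def qL0 (n : ℕ) (f : ℍ → ℂ) : LaurentSeries ℂ := qS (f * Δ ^ n) * (qS Δ ^ n)⁻¹

lemma qL0_add {n : ℕ} {f : ℍ → ℂ} (hf : IsLau n f) (m : ℕ) : qL0 (n + m) f = qL0 n f := by
  rw [qL0, qL0, pow_add, ← mul_assoc, hf.good.qS_mul (good_discriminant.pow m),
    good_discriminant.qS_pow, pow_add]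
  have h := qS_discriminant_ne_zero
  field_simp

lemma qL0_congr {n m : ℕ} {f : ℍ → ℂ} (hf : IsLau n f) (hf' : IsLau m f) :
    qL0 n f = qL0 m f := by
  rcases le_total n m with h | h
  · obtain ⟨k, rfl⟩ := Nat.exists_eq_add_of_le h
    exact (qL0_add hf k).symm
  · obtain ⟨k, rfl⟩ := Nat.exists_eq_add_of_le h
    exact qL0_add hf' k

open Classical in
/-- The Laurent `q`-expansion of a function in `lauAlg` (junk value `0` otherwise). -/
def qLauFun (f : ℍ → ℂ) : LaurentSeries ℂ := if h : ∃ n, IsLau n f then qL0 h.choose f else 0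

lemma IsLau.qLauFun_eq {n : ℕ} {f : ℍ → ℂ} (hf : IsLau n f) : qLauFun f = qL0 n f := by
  have h : ∃ n, IsLau n f := ⟨n, hf⟩
  rw [qLauFun, dif_pos h]
  exact qL0_congr h.choose_spec hf

lemma IsLau.qLauFun_mul_pow {n : ℕ} {f : ℍ → ℂ} (hf : IsLau n f) :
    qLauFun f * qS Δ ^ n = qS (f * Δ ^ n) := by
  rw [hf.qLauFun_eq, qL0]
  have h := qS_discriminant_ne_zero
  field_simp

lemma Good.qLauFun_eq {f : ℍ → ℂ} (hf : Good f) : qLauFun f = qS f := by
  rw [hf.isLau.qLauFun_eq, qL0, pow_zero, pow_zero, mul_one, inv_one, mul_one]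

/-- The Laurent `q`-expansion, as an algebra homomorphism. -/
def qLau : lauAlg →ₐ[ℂ] LaurentSeries ℂ where
  toFun f := qLauFun f.1
  map_one' := by
    show qLauFun (1 : ℍ → ℂ) = 1
    rw [good_one.qLauFun_eq, qS, qExpansion_one, map_one]
  map_mul' := by
    rintro ⟨f, n, hf⟩ ⟨g, m, hg⟩
    show qLauFun (f * g) = qLauFun f * qLauFun g
    have h := qS_discriminant_ne_zero
    have h1 := hf.qLauFun_mul_pow
    have h2 := hg.qLauFun_mul_pow
    have h3 := (hf.mul hg).qLauFun_mul_pow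
    rw [show f * g * Δ ^ (n + m) = (f * Δ ^ n) * (g * Δ ^ m) by rw [pow_add]; ring,
      hf.good.qS_mul hg.good, ← h1, ← h2, pow_add] at h3
    have h4 : qS Δ ^ n * qS Δ ^ m ≠ 0 := mul_ne_zero (pow_ne_zero _ h) (pow_ne_zero _ h)
    refine mul_right_cancel₀ h4 ?_
    rw [h3]; ring
  map_zero' := by
    have h0 : Good (0 : ℍ → ℂ) := good_const 0
    show qLauFun (0 : ℍ → ℂ) = 0
    rw [h0.qLauFun_eq, qS, qExpansion_zero, map_zero]
  map_add' := by
    rintro ⟨f, n, hf⟩ ⟨g, m, hg⟩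
    show qLauFun (f + g) = qLauFun f + qLauFun g
    have h := qS_discriminant_ne_zero
    have hf' := hf.mono (le_max_left n m)
    have hg' := hg.mono (le_max_right n m)
    have h1 := hf'.qLauFun_mul_pow
    have h2 := hg'.qLauFun_mul_pow
    have h3 := (hf.add hg).qLauFun_mul_pow
    rw [add_mul, hf'.good.qS_add hg'.good, ← h1, ← h2, ← add_mul] at h3
    exact mul_right_cancel₀ (pow_ne_zero _ h) h3
  commutes' := by
    intro c
    show qLauFun (fun _ => c) = _
    have h1 : qExpansion 1 (fun _ : ℍ => c) = PowerSeries.C c := by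
      have h2 : (fun _ : ℍ => c) = c • (1 : ℍ → ℂ) := by ext; simp
      rw [h2, UpperHalfPlane.qExpansion_smul good_one.analyticAt, qExpansion_one]
      ext n
      simp [PowerSeries.coeff_one, PowerSeries.coeff_C]
    rw [(good_const c).qLauFun_eq, qS, h1, HahnSeries.algebraMap_apply']
    simp

lemma qLau_apply (f : lauAlg) : qLau f = qLauFun f.1 := rfl

lemma qLau_of_good {f : ℍ → ℂ} (hf : Good f) : qLau ⟨f, hf.mem_lauAlg⟩ = qS f := hf.qLauFun_eq

theorem qLau_injective : Function.Injective qLau := by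
  rw [injective_iff_map_eq_zero]
  rintro ⟨f, n, hf⟩ h
  have h1 : qLauFun f * qS Δ ^ n = 0 := by
    rw [show qLauFun f = 0 from h, zero_mul]
  rw [hf.qLauFun_mul_pow] at h1
  have h2 := hf.good.eq_zero_of_qS h1
  refine Subtype.ext (funext fun z => ?_)
  have h3 := congrFun h2 z
  simp only [Pi.mul_apply, Pi.pow_apply, Pi.zero_apply, mul_eq_zero, pow_eq_zero_iff',
    discriminant_ne_zero, false_and, or_false] at h3
  exact h3

end Fermat.Agent.H02
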