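import Fermat.Agent.H02_Lau

set_option autoImplicit false

/-!
# The algebra of holomorphic modular functions of moderate growth, descent to level one

-/

noncomputable section

open UpperHalfPlane hiding I
open ModularForm EisensteinSeries Filter Complex Topology Function CongruenceSubgroup
open scoped MatrixGroups Manifold Real

namespace Fermat.Agent.H02

local notation "𝕢" => Function.Periodic.qParam
local notation "Δ" => ModularForm.discriminant

open Fermat.Agent.H18 (jfun)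

/-- Translate of a function by an element of `SL₂(ℤ)`. -/
def tr (δ : SL(2, ℤ)) (f : ℍ → ℂ) : ℍ → ℂ := fun z => f (δ • z)

@[simp] lemma tr_apply (δ : SL(2, ℤ)) (f : ℍ → ℂ) (z : ℍ) : tr δ f z = f (δ • z) := rfl

lemma tr_mul (δ : SL(2, ℤ)) (f g : ℍ → ℂ) : tr δ (f * g) = tr δ f * tr δ g := rfl
lemma tr_add (δ : SL(2, ℤ)) (f g : ℍ → ℂ) : tr δ (f + g) = tr δ f + tr δ g := rfl
lemma tr_pow (δ : SL(2, ℤ)) (f : ℍ → ℂ) (n : ℕ) : tr δ (f ^ n) = tr δ f ^ n := rfl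
lemma tr_tr (δ ε : SL(2, ℤ)) (f : ℍ → ℂ) : tr δ (tr ε f) = tr (ε * δ) f := by
  ext z; simp [mul_smul]
lemma tr_one (f : ℍ → ℂ) : tr 1 f = f := by ext z; simp

lemma tr_eq_slash (δ : SL(2, ℤ)) (f : ℍ → ℂ) : tr δ f = f ∣[(0 : ℤ)] δ := by
  ext z; rw [SL_slash_apply]; simp

lemma mdiff_tr {f : ℍ → ℂ} (hf : MDiff f) (δ : SL(2, ℤ)) : MDiff (tr δ f) := by
  rw [tr_eq_slash]
  exact hf.slash 0 δ

/-- Holomorphic of moderate growth at all cusps. -/
structure IsSlow (f : ℍ → ℂ) : Prop where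
  holo : MDiff f
  bdd : ∀ δ : SL(2, ℤ), ∃ n : ℕ, IsBoundedAtImInfty (tr δ f * Δ ^ n)

lemma bdd_discriminant_pow (n : ℕ) : IsBoundedAtImInfty (Δ ^ n) := (good_discriminant.pow n).bdd

lemma bdd_mono {f : ℍ → ℂ} {n m : ℕ} (h : IsBoundedAtImInfty (f * Δ ^ n)) (hm : n ≤ m) :
    IsBoundedAtImInfty (f * Δ ^ m) := by
  obtain ⟨k, rfl⟩ := Nat.exists_eq_add_of_le hm
  rw [pow_add, ← mul_assoc]
  exact h.mul (bdd_discriminant_pow k)

lemma IsSlow.mul {f g : ℍ → ℂ} (hf : IsSlow f) (hg : IsSlow g) : IsSlow (f * g) :=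
  ⟨hf.holo.mul hg.holo, fun δ => by
    obtain ⟨n, hn⟩ := hf.bdd δ
    obtain ⟨m, hm⟩ := hg.bdd δ
    refine ⟨n + m, ?_⟩
    rw [tr_mul, show tr δ f * tr δ g * Δ ^ (n + m) = (tr δ f * Δ ^ n) * (tr δ g * Δ ^ m) by
      rw [pow_add]; ring]
    exact hn.mul hm⟩

lemma IsSlow.add {f g : ℍ → ℂ} (hf : IsSlow f) (hg : IsSlow g) : IsSlow (f + g) :=
  ⟨hf.holo.add hg.holo, fun δ => by
    obtain ⟨n, hn⟩ := hf.bdd δ
    obtain ⟨m, hm⟩ := hg.bdd δ
    refine ⟨max n m, ?_⟩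
    rw [tr_add, add_mul]
    exact (bdd_mono hn (le_max_left n m)).add (bdd_mono hm (le_max_right n m))⟩

lemma isSlow_const (c : ℂ) : IsSlow (fun _ : ℍ => c) :=
  ⟨mdifferentiable_const, fun δ => ⟨0, by
    rw [pow_zero, mul_one]; exact Filter.const_boundedAtFilter _ c⟩⟩

lemma IsSlow.tr {f : ℍ → ℂ} (hf : IsSlow f) (δ : SL(2, ℤ)) : IsSlow (tr δ f) :=
  ⟨mdiff_tr hf.holo δ, fun ε => by
    obtain ⟨n, hn⟩ := hf.bdd (δ * ε)
    exact ⟨n, by rw [tr_tr]; exact hn⟩⟩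

/-- The algebra of holomorphic `Γ`-invariant functions of moderate growth. -/
def modAlg (Γ : Subgroup SL(2, ℤ)) : Subalgebra ℂ (ℍ → ℂ) where
  carrier := {f | IsSlow f ∧ ∀ γ ∈ Γ, tr γ f = f}
  mul_mem' := fun ⟨hf, hf'⟩ ⟨hg, hg'⟩ => ⟨hf.mul hg, fun γ hγ => by
    rw [tr_mul, hf' γ hγ, hg' γ hγ]⟩
  add_mem' := fun ⟨hf, hf'⟩ ⟨hg, hg'⟩ => ⟨hf.add hg, fun γ hγ => by
    rw [tr_add, hf' γ hγ, hg' γ hγ]⟩
  algebraMap_mem' := fun c => ⟨isSlow_const c, fun γ _ => rfl⟩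

lemma mem_modAlg {Γ : Subgroup SL(2, ℤ)} {f : ℍ → ℂ} :
    f ∈ modAlg Γ ↔ IsSlow f ∧ ∀ γ ∈ Γ, tr γ f = f := Iff.rfl

lemma modAlg_mono {Γ Γ' : Subgroup SL(2, ℤ)} (h : Γ ≤ Γ') : modAlg Γ' ≤ modAlg Γ :=
  fun _ hf => ⟨hf.1, fun γ hγ => hf.2 γ (h hγ)⟩

lemma periodic_of_T {f : ℍ → ℂ} (h : tr ModularGroup.T f = f) :
    Function.Periodic (f ∘ ofComplex) 1 := by
  intro w
  by_cases hw : 0 < im w
  · have h1 : 0 < im (w + 1) := by simpa using hw
    simp only [comp_apply, ofComplex_apply_of_im_pos h1, ofComplex_apply_of_im_pos hw]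
    have h2 := congrFun h ⟨w, hw⟩
    rw [← h2, tr_apply, UpperHalfPlane.modular_T_smul]
    congr 1
    ext
    simp [add_comm]
  · have h1 : im (w + 1) ≤ 0 := by simpa using hw
    simp [comp_apply, ofComplex_apply_of_im_nonpos h1, ofComplex_apply_of_im_nonpos (not_lt.mp hw)]

lemma isLau_of_mem {Γ : Subgroup SL(2, ℤ)} (hT : ModularGroup.T ∈ Γ) {f : ℍ → ℂ}
    (hf : f ∈ modAlg Γ) : ∃ n, IsLau n f := by
  obtain ⟨n, hn⟩ := hf.1.bdd 1
  exact ⟨n, hf.1.holo, periodic_of_T (hf.2 _ hT), by rwa [tr_one] at hn⟩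

lemma modAlg_le_lauAlg {Γ : Subgroup SL(2, ℤ)} (hT : ModularGroup.T ∈ Γ) :
    modAlg Γ ≤ lauAlg := fun _ hf => isLau_of_mem hT hf

lemma T_mem_Gamma0 (N : ℕ) : ModularGroup.T ∈ Gamma0 N := by
  rw [Gamma0_mem, ModularGroup.coe_T]; simp

/-! ### The `j`-function -/

lemma tendsto_E4 : Tendsto (E₄ : ℍ → ℂ) atImInfty (𝓝 1) := by
  have h := Fermat.Agent.H18.tendsto_of_hasSum one_pos
    (good_of_modularForm E₄ one_mem_strictPeriods_SL).hasSum
  rwa [Fermat.Agent.H18.E4_coeff_zero] at h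

lemma jfun_mul_discriminant' : jfun * Δ = (E₄ : ℍ → ℂ) ^ 3 :=
  funext fun z => Fermat.Agent.H18.jfun_mul_discriminant z

lemma tr_jfun (γ : SL(2, ℤ)) : tr γ jfun = jfun := by
  ext z
  have h1 := congrFun (Fermat.Agent.H18.SL_slash_eq E₄ γ) z
  have h2 : (Δ ∣[(12 : ℤ)] γ) z = Δ z := congrFun
    (SlashInvariantForm.slash_action_generators_SL2Z discriminant_S_invariant discriminant_T_invariant γ) z
  rw [SL_slash_apply] at h1 h2
  have hd : denom γ z ≠ 0 := denom_ne_zero _ z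
  have hD := discriminant_ne_zero z
  have hD' := discriminant_ne_zero (γ • z)
  rw [tr_apply, jfun, jfun, ← h1, ← h2]
  have h3 : (denom γ z ^ (-4 : ℤ)) ^ 3 = denom γ z ^ (-12 : ℤ) := by
    rw [← zpow_natCast, ← zpow_mul]; norm_num
  have h4 : denom γ z ^ (-12 : ℤ) ≠ 0 := zpow_ne_zero _ hd
  rw [mul_pow, h3, mul_div_mul_right _ _ h4]

lemma isSlow_jfun : IsSlow jfun :=
  ⟨Fermat.Agent.H18.mdiff_jfun, fun δ => ⟨1, by
    rw [tr_jfun, pow_one, jfun_mul_discriminant']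
    exact ((good_of_modularForm E₄ one_mem_strictPeriods_SL).pow 3).bdd⟩⟩

lemma jfun_mem_modAlg (Γ : Subgroup SL(2, ℤ)) : jfun ∈ modAlg Γ :=
  ⟨isSlow_jfun, fun γ _ => tr_jfun γ⟩

/-! ### Level one: the algebra is `ℂ[j]` -/

lemma bounded_div_discriminant {g : ℍ → ℂ} (hg : Good g) (h0 : Tendsto g atImInfty (𝓝 0)) :
    IsBoundedAtImInfty (g / Δ) := by
  have h1 : g =O[atImInfty] fun τ ↦ Real.exp (-2 * π * τ.im / 1) :=
    IsZeroAtImInfty.exp_decay_atImInfty (h := 1) h0 one_pos hg.per' hg.holo hg.bdd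
  have h2 : g =O[atImInfty] Δ := h1.trans (by simpa using exp_isBigO_discriminant)
  have h3 := h2.mul (Asymptotics.isBigO_refl (Δ⁻¹ : ℍ → ℂ) atImInfty)
  rw [IsBoundedAtImInfty, BoundedAtFilter, div_eq_mul_inv]
  refine h3.trans ?_
  refine Asymptotics.IsBigO.of_bound 1 (Eventually.of_forall fun z => ?_)
  have hD := discriminant_ne_zero z
  simp [hD]

theorem levelOne_poly (n : ℕ) : ∀ f : ℍ → ℂ, MDiff f → (∀ γ : SL(2, ℤ), tr γ f = f) →
    IsBoundedAtImInfty (f * Δ ^ n) → ∃ P : Polynomial ℂ, f = Polynomial.aeval jfun P := by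
  induction n with
  | zero =>
    intro f hf hinv hb
    rw [pow_zero, mul_one] at hb
    let F : ModularForm 𝒮ℒ 0 :=
      { toFun := f
        slash_action_eq' := fun A hA => by
          obtain ⟨A, rfl⟩ := hA
          show f ∣[(0 : ℤ)] A = f
          rw [← tr_eq_slash, hinv]
        holo' := hf
        bdd_at_cusps' := fun {c} hc => by
          rw [OnePoint.isBoundedAt_iff_forall_SL2Z hc]
          intro γ _
          rw [← tr_eq_slash, hinv]; exact hb }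
    obtain ⟨c, hc⟩ := ModularFormClass.levelOne_weight_zero_const F
    refine ⟨Polynomial.C c, ?_⟩
    rw [Polynomial.aeval_C]
    exact hc
  | succ n ih =>
    intro f hf hinv hb
    have hF : Good (f * Δ ^ (n + 1)) :=
      (IsLau.mk hf (periodic_of_T (hinv _)) hb : IsLau (n + 1) f).good
    obtain ⟨c, hc⟩ : ∃ c, Tendsto (f * Δ ^ (n + 1)) atImInfty (𝓝 c) :=
      ⟨_, Fermat.Agent.H18.tendsto_of_hasSum one_pos hF.hasSum⟩
    have hJ : Tendsto (jfun ^ (n + 1) * Δ ^ (n + 1)) atImInfty (𝓝 1) := by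
      rw [← mul_pow, jfun_mul_discriminant']
      have h := (tendsto_E4.pow 3).pow (n + 1)
      rw [one_pow, one_pow] at h
      exact h
    have hJs : ∀ γ : SL(2, ℤ), tr γ (jfun ^ (n + 1)) = jfun ^ (n + 1) := fun γ => by
      rw [tr_pow, tr_jfun]
    have hJg : Good (jfun ^ (n + 1) * Δ ^ (n + 1)) := by
      rw [← mul_pow, jfun_mul_discriminant']
      exact ((good_of_modularForm E₄ one_mem_strictPeriods_SL).pow 3).pow (n + 1)
    have hg : Good ((f + (-c) • jfun ^ (n + 1)) * Δ ^ (n + 1)) := by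
      rw [add_mul, smul_mul_assoc]
      exact hF.add (hJg.smul _)
    have hg0 : Tendsto ((f + (-c) • jfun ^ (n + 1)) * Δ ^ (n + 1)) atImInfty (𝓝 0) := by
      rw [add_mul, smul_mul_assoc]
      have := hc.add (hJ.const_smul (-c))
      rw [smul_eq_mul, mul_one, add_neg_cancel] at this
      exact this
    have hb' := bounded_div_discriminant hg hg0
    obtain ⟨P, hP⟩ := ih (f + (-c) • jfun ^ (n + 1))
      (hf.add ((Fermat.Agent.H18.mdiff_jfun.pow (n + 1)).const_smul _))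
      (fun γ => by
        rw [tr_add, hinv]
        congr 1
        show (-c) • tr γ (jfun ^ (n + 1)) = _
        rw [hJs])
      (by
        convert! hb' using 1
        ext z
        have hD := discriminant_ne_zero z
        simp only [Pi.mul_apply, Pi.div_apply, Pi.pow_apply]
        field_simp
        ring)
    refine ⟨P + Polynomial.C c * Polynomial.X ^ (n + 1), ?_⟩
    rw [map_add, ← hP, map_mul, Polynomial.aeval_C, map_pow, Polynomial.aeval_X]
    ext z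
    simp [Algebra.algebraMap_eq_smul_one]

theorem exists_poly_of_mem_top {f : ℍ → ℂ} (hf : f ∈ modAlg ⊤) :
    ∃ P : Polynomial ℂ, f = Polynomial.aeval jfun P := by
  obtain ⟨n, hn⟩ := hf.1.bdd 1
  rw [tr_one] at hn
  exact levelOne_poly n f hf.1.holo (fun γ => hf.2 γ trivial) hn

end Fermat.Agent.H02
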