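import Fermat.Agent.H02_D3
import Fermat.Agent.H01.BaseChange
import Fermat.Agent.FF.T3
import Fermat.Agent.ES.JInj

set_option autoImplicit false

/-!
# The complex modular function field: generators, degree over `ℂ(j)`

-/

noncomputable section

open UpperHalfPlane hiding I
open ModularForm EisensteinSeries Filter Complex Topology Function CongruenceSubgroup
open ModularCurve
open scoped MatrixGroups Manifold Real Nat IntermediateField IntermediateField.algebraAdjoinAdjoin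

namespace Fermat.Agent.H02

local notation "𝕢" => Function.Periodic.qParam
local notation "Δ" => ModularForm.discriminant

open Fermat.Agent.H18 (jfun)
open Fermat.Agent.H01 (mfq mem_mfq' IsMF qLf qLf_pow)
open Fermat.Agent.FF (FunField)

theorem FC_eq_mfq (N : ℕ) [NeZero N] : FC N = mfq N :=
  le_antisymm (Fermat.Agent.H01.laurentBaseChange_le_mfq N) (mfq_le_FC N)

lemma mem_mfq_of_FC {N : ℕ} [NeZero N] (x : FC N) : (x : LaurentSeries ℂ) ∈ mfq N :=
  FC_eq_mfq N ▸ x.2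

section generic

variable {N : ℕ} [NeZero N] (E : IntermediateField ℂ (LaurentSeries ℂ))
  (hj : coeffEmb ℂ jq ∈ E) (hg : coeffEmb ℂ (qExpand ℚ N jq) ∈ E)

include hj in
lemma qLauFun_mem_of_top' {f : ℍ → ℂ} (hf : f ∈ modAlg ⊤) : qLauFun f ∈ E := by
  obtain ⟨P, rfl⟩ := exists_poly_of_mem_top hf
  rw [qLauFun_poly]
  exact aeval_mem_subalgebra E.toSubalgebra hj P

include hj hg in
theorem qLauFun_mem' {f : ℍ → ℂ} (hf : f ∈ modAlg (Gamma0 N)) :
    qLauFun f ∈ E := by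
  have hN : 0 < N := NeZero.pos N
  have hfin : Finite (SL(2, ℤ) ⧸ Gamma0 N) := Subgroup.finite_quotient_of_finiteIndex
  obtain ⟨n, D, c, hD, hD0, hc, h⟩ := exists_mul_eq_sum (jN_mem_modAlg hN)
    (fun β hβ => mem_Gamma0_of_tr_jN hN hβ) hf
  have hg' : jN N ∈ lauAlg := mem_lauAlg_of_mem (jN_mem_modAlg hN)
  have h1 := congrArg qLauFun h
  rw [qLauFun_mul (mem_lauAlg_of_mem_top hD) (mem_lauAlg_of_mem hf), qLauFun_sum] at h1
  · have h2 : qLauFun f = (qLauFun D)⁻¹ * ∑ k : Fin n, qLauFun (c k * jN N ^ (k : ℕ)) := by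
      rw [← h1, inv_mul_cancel_left₀ (qLauFun_ne_zero (mem_lauAlg_of_mem_top hD) hD0)]
    rw [h2]
    refine mul_mem (inv_mem (qLauFun_mem_of_top' E hj hD)) (sum_mem fun k _ => ?_)
    rw [qLauFun_mul (mem_lauAlg_of_mem_top (hc k)) (pow_mem hg' _), qLauFun_pow hg', qLauFun_jN]
    exact mul_mem (qLauFun_mem_of_top' E hj (hc k)) (pow_mem hg _)
  · intro k _
    exact mul_mem (mem_lauAlg_of_mem_top (hc k)) (pow_mem hg' _)

include hj hg in
theorem mfq_le' : mfq N ≤ E := by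
  intro x hx
  obtain ⟨k, f, g, hf, hg0, hg1, h⟩ := mem_mfq'.mp hx
  rcases lt_or_ge k 0 with hk | hk
  · exfalso
    obtain ⟨A, rfl⟩ := hg0
    apply hg1
    rw [ModularForm.isZero_of_neg_weight hk A]
    rfl
  obtain ⟨n, rfl⟩ := Int.eq_ofNat_of_zero_le hk
  have ha : IsMF N ((12 : ℤ) * n) (f * g ^ 11) :=
    (hf.mul (hg0.pow 11)).cast (by push_cast; ring)
  have hb : IsMF N ((12 : ℤ) * n) (g ^ 12) := (hg0.pow 12).cast (by push_cast; ring)
  have hqb : qLf (g ^ 12) = qLf g ^ 12 := qLf_pow hg0 12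
  have hqa : qLf (f * g ^ 11) = qLf f * qLf g ^ 11 := by
    rw [hf.qLf_mul (hg0.pow 11), qLf_pow hg0 11]
  have hg' : qLf g ≠ 0 := fun h0 => hg1 (hg0.qLf_eq_zero_iff.mp h0)
  have e1 := qLauFun_div_discriminant ha
  have e2 := qLauFun_div_discriminant hb
  have hD := pow_ne_zero n qS_discriminant_ne_zero
  have e3 : x * qLauFun (g ^ 12 / Δ ^ n) = qLauFun (f * g ^ 11 / Δ ^ n) := by
    refine mul_right_cancel₀ hD ?_
    rw [mul_assoc, e2, e1, hqb, hqa, ← h]
    ring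
  have e4 : qLauFun (g ^ 12 / Δ ^ n) ≠ 0 := by
    intro h0
    rw [h0, zero_mul, hqb] at e2
    exact pow_ne_zero 12 hg' e2.symm
  have e5 : x = qLauFun (f * g ^ 11 / Δ ^ n) * (qLauFun (g ^ 12 / Δ ^ n))⁻¹ := by
    rw [← e3, mul_inv_cancel_right₀ e4]
  rw [e5]
  exact mul_mem (qLauFun_mem' E hj hg (div_discriminant_mem ha))
    (inv_mem (qLauFun_mem' E hj hg (div_discriminant_mem hb)))

end generic

/-- `j` as an element of the function field. -/
def jC (N : ℕ) : FC N := ⟨coeffEmb ℂ jq, coeffEmb_jq_mem N⟩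

/-- `j(Nz)` as an element of the function field. -/
def gC (N : ℕ) [NeZero N] : FC N := ⟨coeffEmb ℂ (qExpand ℚ N jq), coeffEmb_jqd_mem dvd_rfl⟩

lemma coe_aeval_jC (N : ℕ) (P : Polynomial ℂ) :
    ((Polynomial.aeval (jC N) P : FC N) : LaurentSeries ℂ) =
      Polynomial.aeval (coeffEmb ℂ jq) P :=
  (Polynomial.aeval_algHom_apply (FC N).val (jC N) P).symm

lemma qLauFun_const (c : ℂ) : qLauFun (fun _ : ℍ => c) = algebraMap ℂ (LaurentSeries ℂ) c :=
  qLau.commutes c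

lemma qLauFun_injective {f g : ℍ → ℂ} (hf : f ∈ lauAlg) (hg : g ∈ lauAlg)
    (h : qLauFun f = qLauFun g) : f = g :=
  congrArg Subtype.val (qLau_injective (a₁ := ⟨f, hf⟩) (a₂ := ⟨g, hg⟩) h)

lemma transcendental_jC (N : ℕ) : Transcendental ℂ (jC N) := by
  apply Fermat.Agent.FF.transcendental_of_not_mem_range
  rintro ⟨c, hc⟩
  have h1 : qLauFun jfun = qLauFun (fun _ : ℍ => c) := by
    rw [qLauFun_jfun, qLauFun_const]
    exact (congrArg Subtype.val hc).symm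
  have h2 : jfun = fun _ : ℍ => c :=
    qLauFun_injective jfun_mem_lauAlg (good_const c).mem_lauAlg h1
  have h3 := congrFun h2 UpperHalfPlane.I
  have h4 := congrFun h2 UpperHalfPlane.ρ
  rw [Fermat.Agent.ES.jfun_I] at h3
  rw [Fermat.Agent.ES.jfun_rho] at h4
  rw [← h3] at h4
  norm_num at h4

section finite

variable (N : ℕ) [NeZero N]

lemma coe_sum_aeval (n : ℕ) (P : Fin n → Polynomial ℂ) :
    ((∑ k : Fin n, Polynomial.aeval (jC N) (P k) * gC N ^ (k : ℕ) : FC N) : LaurentSeries ℂ) =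
      qLauFun (∑ k : Fin n, Polynomial.aeval jfun (P k) * jN N ^ (k : ℕ)) := by
  have hg' : jN N ∈ lauAlg := mem_lauAlg_of_mem (jN_mem_modAlg (NeZero.pos N))
  have hp : ∀ P : Polynomial ℂ, Polynomial.aeval jfun P ∈ lauAlg := fun P =>
    aeval_mem_subalgebra lauAlg jfun_mem_lauAlg P
  rw [qLauFun_sum _ fun k _ => mul_mem (hp _) (pow_mem hg' _)]
  have h1 : ((∑ k : Fin n, Polynomial.aeval (jC N) (P k) * gC N ^ (k : ℕ) : FC N) :
      LaurentSeries ℂ) = ∑ k : Fin n, ((Polynomial.aeval (jC N) (P k) : FC N) :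
        LaurentSeries ℂ) * ((gC N : FC N) : LaurentSeries ℂ) ^ (k : ℕ) :=
    map_sum (FC N).val _ _
  rw [h1]
  refine Finset.sum_congr rfl fun k _ => ?_
  rw [qLauFun_mul (hp _) (pow_mem hg' _), qLauFun_pow hg', qLauFun_poly, qLauFun_jN, coe_aeval_jC]
  rfl

/-- Linear independence of `1, g, …, g^{μ-1}` over `ℂ(j)`, where `g = j(Nz)`. -/
theorem linearIndependent_pow_gC [Fintype (SL(2, ℤ) ⧸ Gamma0 N)] :
    LinearIndependent ℂ⟮jC N⟯
      (fun k : Fin (Fintype.card (SL(2, ℤ) ⧸ Gamma0 N)) => gC N ^ (k : ℕ)) := by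
  have hN : 0 < N := NeZero.pos N
  rw [← LinearIndependent.iff_fractionRing (Algebra.adjoin ℂ {jC N}) ℂ⟮jC N⟯]
  rw [Fintype.linearIndependent_iff]
  intro a ha
  have hP : ∀ k, ∃ P : Polynomial ℂ, Polynomial.aeval (jC N) P = (a k : FC N) := by
    intro k
    exact (Algebra.adjoin_singleton_eq_range_aeval ℂ (jC N)).le (a k).2
  choose P hP using hP
  have h1 : ∑ k, Polynomial.aeval (jC N) (P k) * gC N ^ (k : ℕ) = 0 := by
    rw [← ha]
    refine Finset.sum_congr rfl fun k _ => ?_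
    rw [hP]
    rfl
  have h2 := coe_sum_aeval N _ P
  rw [h1] at h2
  have hp : ∀ P : Polynomial ℂ, Polynomial.aeval jfun P ∈ modAlg ⊤ := fun P =>
    aeval_mem_subalgebra (modAlg ⊤) (jfun_mem_modAlg ⊤) P
  have hg' : jN N ∈ lauAlg := mem_lauAlg_of_mem (jN_mem_modAlg hN)
  have h3 : ∑ k, Polynomial.aeval jfun (P k) * jN N ^ (k : ℕ) = 0 := by
    refine qLauFun_injective (sum_mem fun k _ => mul_mem (mem_lauAlg_of_mem_top (hp _))
      (pow_mem hg' _)) (zero_mem _) ?_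
    rw [← h2]
    exact (map_zero qLau).symm
  intro k
  have h4 := coeff_eq_zero_of_sum_eq_zero (jN_mem_modAlg hN)
    (fun β hβ => mem_Gamma0_of_tr_jN hN hβ) (fun k => hp (P k)) h3 k
  apply Subtype.ext
  rw [← hP k]
  apply Subtype.ext
  rw [coe_aeval_jC, ← qLauFun_poly, h4]
  exact map_zero qLau

lemma isIntegral_gC : IsIntegral ℂ⟮jC N⟯ (gC N) := by
  have hN : 0 < N := NeZero.pos N
  have hfin : Finite (SL(2, ℤ) ⧸ Gamma0 N) := Subgroup.finite_quotient_of_finiteIndex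
  have := Fintype.ofFinite (SL(2, ℤ) ⧸ Gamma0 N)
  rw [← isAlgebraic_iff_isIntegral]
  set n := Fintype.card (SL(2, ℤ) ⧸ Gamma0 N) with hn
  obtain ⟨D, c, hD, hD0, hc, h⟩ := exists_mul_eq_sum_card (jN_mem_modAlg hN)
    (fun β hβ => mem_Gamma0_of_tr_jN hN hβ) (pow_mem (jN_mem_modAlg hN) n)
  obtain ⟨Q, hQ⟩ := exists_poly_of_mem_top hD
  choose P hP using fun k => exists_poly_of_mem_top (hc k)
  have hg' : jN N ∈ lauAlg := mem_lauAlg_of_mem (jN_mem_modAlg hN)
  have h1 : Polynomial.aeval (jC N) Q * gC N ^ n =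
      ∑ k : Fin n, Polynomial.aeval (jC N) (P k) * gC N ^ (k : ℕ) := by
    apply Subtype.ext
    rw [coe_sum_aeval]
    have h2 : ∑ k : Fin n, Polynomial.aeval jfun (P k) * jN N ^ (k : ℕ) =
        D * jN N ^ n := by
      rw [h]
      refine Finset.sum_congr rfl fun k _ => ?_
      rw [← hP]
    rw [h2, qLauFun_mul (mem_lauAlg_of_mem_top hD) (pow_mem hg' _), qLauFun_pow hg', hQ,
      qLauFun_poly, qLauFun_jN, ← coe_aeval_jC N]
    rfl
  have hQ0 : Polynomial.aeval (jC N) Q ≠ 0 := by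
    intro h0
    apply hD0
    refine qLauFun_injective (mem_lauAlg_of_mem_top hD) (zero_mem _) ?_
    rw [hQ, qLauFun_poly, ← coe_aeval_jC N, h0]
    exact (map_zero qLau).symm
  have hmem : ∀ R : Polynomial ℂ, Polynomial.aeval (jC N) R ∈ ℂ⟮jC N⟯ := fun R =>
    aeval_mem_subalgebra (ℂ⟮jC N⟯).toSubalgebra (IntermediateField.mem_adjoin_simple_self ℂ _) R
  let Q' : ℂ⟮jC N⟯ := ⟨_, hmem Q⟩
  let P' : Fin n → ℂ⟮jC N⟯ := fun k => ⟨_, hmem (P k)⟩
  refine ⟨Polynomial.C Q' * Polynomial.X ^ n - ∑ k : Fin n, Polynomial.C (P' k) * Polynomial.X ^ (k : ℕ),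
    ?_, ?_⟩
  · intro h0
    have h3 := congrArg (fun R => Polynomial.coeff R n) h0
    simp only [Polynomial.coeff_sub, Polynomial.coeff_C_mul, Polynomial.coeff_X_pow, if_true,
      mul_one, Polynomial.finsetSum_coeff, Polynomial.coeff_zero] at h3
    rw [Finset.sum_eq_zero, sub_zero] at h3
    · exact hQ0 (congrArg Subtype.val h3)
    · intro k _
      rw [if_neg (by have := k.2; omega), mul_zero]
  · rw [map_sub, map_mul, map_pow, Polynomial.aeval_X, Polynomial.aeval_C, map_sum, sub_eq_zero]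
    refine h1.trans (Finset.sum_congr rfl fun k _ => ?_)
    rw [map_mul, map_pow, Polynomial.aeval_X, Polynomial.aeval_C]
    rfl

instance finiteDimensional_jC : FiniteDimensional ℂ⟮jC N⟯ (FC N) := by
  have h1 : (ℂ⟮jC N⟯⟮gC N⟯ : IntermediateField ℂ⟮jC N⟯ (FC N)) = ⊤ := by
    rw [eq_top_iff]
    rintro x -
    let E : IntermediateField ℂ (LaurentSeries ℂ) :=
      ((ℂ⟮jC N⟯⟮gC N⟯ : IntermediateField ℂ⟮jC N⟯ (FC N)).restrictScalars ℂ).map (FC N).val
    have hj : coeffEmb ℂ jq ∈ E :=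
      ⟨jC N, (ℂ⟮jC N⟯⟮gC N⟯ : IntermediateField ℂ⟮jC N⟯ (FC N)).algebraMap_mem
        ⟨jC N, IntermediateField.mem_adjoin_simple_self ℂ _⟩, rfl⟩
    have hg : coeffEmb ℂ (qExpand ℚ N jq) ∈ E :=
      ⟨gC N, IntermediateField.mem_adjoin_simple_self ℂ⟮jC N⟯ _, rfl⟩
    obtain ⟨y, hy, hyx⟩ := mfq_le' E hj hg (mem_mfq_of_FC x)
    have : y = x := Subtype.ext hyx
    rw [← this]
    exact hy
  have h2 : FiniteDimensional ℂ⟮jC N⟯ (ℂ⟮jC N⟯⟮gC N⟯ : IntermediateField ℂ⟮jC N⟯ (FC N)) :=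
    IntermediateField.adjoin.finiteDimensional (isIntegral_gC N)
  rw [h1] at h2
  exact Module.Finite.equiv (IntermediateField.topEquiv (F := ℂ⟮jC N⟯) (E := FC N)).toLinearEquiv

instance funField_FC : FunField ℂ (FC N) := ⟨⟨jC N, transcendental_jC N, inferInstance⟩⟩

theorem card_le_finrank : Nat.card (SL(2, ℤ) ⧸ Gamma0 N) ≤ Module.finrank ℂ⟮jC N⟯ (FC N) := by
  have hfin : Finite (SL(2, ℤ) ⧸ Gamma0 N) := Subgroup.finite_quotient_of_finiteIndex
  have := Fintype.ofFinite (SL(2, ℤ) ⧸ Gamma0 N)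
  rw [Nat.card_eq_fintype_card]
  simpa using (linearIndependent_pow_gC N).fintype_card_le_finrank

end finite

end Fermat.Agent.H02
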