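import Fermat.Agent.H01.RootChar
import Fermat.Agent.H18_Ramanujan
import Fermat.Agent.H02_EisChar

set_option autoImplicit false

/-!
# Local analysis of modular forms at points and cusps

-/

noncomputable section

open UpperHalfPlane hiding I
open ModularForm EisensteinSeries Filter Complex Topology Function CongruenceSubgroup
open scoped MatrixGroups Manifold Real

namespace Fermat.Agent.H02

local notation "𝕢" => Function.Periodic.qParam
local notation "Δ" => ModularForm.discriminant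

open Fermat.Agent.H01 (NiceAt cuspOrd ordAt IsMF)

/-- Division of holomorphic functions. -/
theorem exists_quotient_of_ord {u D : ℍ → ℂ} (hu : MDiff u) (hD : MDiff D) (hu0 : u ≠ 0)
    (hD0 : D ≠ 0) (h : ∀ τ : ℍ, ordAt τ D ≤ ordAt τ u) :
    ∃ g : ℍ → ℂ, MDiff g ∧ u = g * D := by
  set U : Set ℂ := upperHalfPlaneSet with hU
  have hUo : IsOpen U := isOpen_upperHalfPlaneSet
  have hu' : AnalyticOnNhd ℂ (u ∘ ofComplex) U :=
    (UpperHalfPlane.mdifferentiable_iff.mp hu).analyticOnNhd hUo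
  have hD' : AnalyticOnNhd ℂ (D ∘ ofComplex) U :=
    (UpperHalfPlane.mdifferentiable_iff.mp hD).analyticOnNhd hUo
  set φ : ℂ → ℂ := (u ∘ ofComplex) / (D ∘ ofComplex) with hφ
  have hφm : MeromorphicOn φ U := fun x hx ↦ (hu' x hx).meromorphicAt.div (hD' x hx).meromorphicAt
  have hDne : ∀ x ∈ U, ∀ᶠ z in 𝓝[≠] x, (D ∘ ofComplex) z ≠ 0 := by
    intro x hx
    rcases (hD' x hx).eventually_eq_zero_or_eventually_ne_zero with h0 | h0
    · exfalso
      have := Fermat.Agent.H01.analyticOrderAt_ne_top hD hD0 ⟨x, hx⟩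
      exact this (analyticOrderAt_eq_top.mpr h0)
    · exact h0
  have hord : ∀ x ∈ U, 0 ≤ meromorphicOrderAt φ x := by
    intro x hx
    have h1 := h ⟨x, hx⟩
    have e1 := Nat.cast_analyticOrderNatAt (Fermat.Agent.H01.analyticOrderAt_ne_top hu hu0 ⟨x, hx⟩)
    have e2 := Nat.cast_analyticOrderNatAt (Fermat.Agent.H01.analyticOrderAt_ne_top hD hD0 ⟨x, hx⟩)
    rw [hφ, div_eq_mul_inv, meromorphicOrderAt_mul (hu' x hx).meromorphicAt
      (hD' x hx).meromorphicAt.inv, meromorphicOrderAt_inv, (hu' x hx).meromorphicOrderAt_eq,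
      (hD' x hx).meromorphicOrderAt_eq]
    change ((analyticOrderNatAt (u ∘ ofComplex) x : ℕ) : ℕ∞) = _ at e1
    change ((analyticOrderNatAt (D ∘ ofComplex) x : ℕ) : ℕ∞) = _ at e2
    change analyticOrderNatAt (D ∘ ofComplex) x ≤ analyticOrderNatAt (u ∘ ofComplex) x at h1
    change _ = analyticOrderAt (u ∘ ofComplex) x at e1
    change _ = analyticOrderAt (D ∘ ofComplex) x at e2
    rw [← e1, ← e2]
    have h2 : (0 : WithTop ℤ) ≤ ((analyticOrderNatAt (u ∘ ofComplex) x : ℤ) : WithTop ℤ) +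
        -((analyticOrderNatAt (D ∘ ofComplex) x : ℤ) : WithTop ℤ) := by
      rw [← WithTop.LinearOrderedAddCommGroup.coe_neg, ← WithTop.coe_add]
      exact_mod_cast (by omega : (0 : ℤ) ≤ (analyticOrderNatAt (u ∘ ofComplex) x : ℤ) +
        -(analyticOrderNatAt (D ∘ ofComplex) x : ℤ))
    exact h2
  set g' : ℂ → ℂ := toMeromorphicNFOn φ U with hg'
  have hg'an : ∀ x ∈ U, AnalyticAt ℂ g' x := by
    intro x hx
    have hnf := meromorphicNFOn_toMeromorphicNFOn φ U hx
    rw [← hnf.meromorphicOrderAt_nonneg_iff_analyticAt,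
      meromorphicOrderAt_toMeromorphicNFOn hφm hx]
    exact hord x hx
  refine ⟨fun z ↦ g' z, ?_, ?_⟩
  · rw [UpperHalfPlane.mdifferentiable_iff]
    refine DifferentiableOn.congr (f := g') (fun x hx ↦
      (hg'an x hx).differentiableAt.differentiableWithinAt) fun z hz ↦ ?_
    simp [ofComplex_apply_of_im_pos hz]
  · ext z
    have hz : (z : ℂ) ∈ U := z.2
    have h1 : (u ∘ ofComplex) =ᶠ[𝓝[≠] (z : ℂ)] g' * (D ∘ ofComplex) := by
      filter_upwards [hφm.toMeromorphicNFOn_eq_self_on_nhdsNE hz, hDne z hz] with y hy hy'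
      rw [Pi.mul_apply, hg', hy, hφ, Pi.div_apply, div_mul_cancel₀ _ hy']
    have h2 := (ContinuousAt.eventuallyEq_nhds_iff_eventuallyEq_nhdsNE
      (hu' z hz).continuousAt ((hg'an z hz).continuousAt.mul (hD' z hz).continuousAt)).mp h1
    have := h2.eq_of_nhds
    simpa using this

/-! ### Limits at the cusp -/

lemma qParam_ne_zero' (w : ℝ) (z : ℍ) : 𝕢 w z ≠ 0 := Complex.exp_ne_zero _

lemma tendsto_qParam {w : ℝ} (hw : 0 < w) : Tendsto (fun z : ℍ => 𝕢 w z) atImInfty (𝓝 0) :=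
  qParam_tendsto_atImInfty hw

/-- Leading term at the cusp. -/
theorem NiceAt.exists_tendsto {w : ℝ} (hw : 0 < w) {f : ℍ → ℂ} (hf : NiceAt w f) (hf0 : f ≠ 0) :
    ∃ c : ℂ, c ≠ 0 ∧ Tendsto (fun z : ℍ => f z / 𝕢 w z ^ cuspOrd w f) atImInfty (𝓝 c) := by
  have hq0 := hf.qExpansion_ne_zero hw hf0
  set m := cuspOrd w f with hm
  have hmo : (qExpansion w f).order = m := by
    rw [hm, cuspOrd, PowerSeries.coe_toNat_order hq0]
  refine ⟨(qExpansion w f).coeff m, ?_, ?_⟩
  · exact (PowerSeries.order_eq_nat.mp hmo).1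
  · have h1 : ∀ τ : ℍ, HasSum (fun k ↦ (qExpansion w f).coeff (k + m) • 𝕢 w τ ^ k)
        (f τ / 𝕢 w τ ^ m) := by
      intro τ
      have hq := qParam_ne_zero' w τ
      have h2 := τ.hasSum_qExpansion hw hf.per hf.mdiff hf.bdd
      rw [← hasSum_nat_add_iff' m] at h2
      rw [Finset.sum_eq_zero, sub_zero] at h2
      · convert! h2.div_const (𝕢 w τ ^ m) using 2 with k
        rw [smul_eq_mul, smul_eq_mul, pow_add]
        field_simp
      · intro i hi
        rw [(PowerSeries.order_eq_nat.mp hmo).2 i (Finset.mem_range.mp hi), zero_smul]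
    have h3 := Fermat.Agent.H18.tendsto_of_hasSum hw h1
    simpa using h3

/-- Characterisation of the order at the cusp. -/
theorem NiceAt.cuspOrd_eq {w : ℝ} (hw : 0 < w) {f : ℍ → ℂ} (hf : NiceAt w f) {m : ℕ} {c : ℂ}
    (hc : c ≠ 0) (h : Tendsto (fun z : ℍ => f z / 𝕢 w z ^ m) atImInfty (𝓝 c)) :
    cuspOrd w f = m := by
  have hf0 : f ≠ 0 := by
    rintro rfl
    simp only [Pi.zero_apply, zero_div] at h
    exact hc (tendsto_nhds_unique tendsto_const_nhds h).symm
  obtain ⟨c', hc', h'⟩ := NiceAt.exists_tendsto hw hf hf0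
  have hq := tendsto_qParam hw
  rcases lt_trichotomy (cuspOrd w f) m with hlt | heq | hlt
  · exfalso
    obtain ⟨k, hk⟩ := Nat.exists_eq_add_of_lt hlt
    have h1 : Tendsto (fun z : ℍ => (f z / 𝕢 w z ^ m) * 𝕢 w z ^ (k + 1)) atImInfty
        (𝓝 (c * 0 ^ (k + 1))) := h.mul (hq.pow _)
    rw [zero_pow (by omega), mul_zero] at h1
    refine hc' (tendsto_nhds_unique h' (h1.congr fun z => ?_))
    have := qParam_ne_zero' w z
    rw [hk]
    rw [show cuspOrd w f + k + 1 = cuspOrd w f + (k + 1) by ring, pow_add]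
    field_simp
  · exact heq
  · exfalso
    obtain ⟨k, hk⟩ := Nat.exists_eq_add_of_lt hlt
    have h1 : Tendsto (fun z : ℍ => (f z / 𝕢 w z ^ cuspOrd w f) * 𝕢 w z ^ (k + 1)) atImInfty
        (𝓝 (c' * 0 ^ (k + 1))) := h'.mul (hq.pow _)
    rw [zero_pow (by omega), mul_zero] at h1
    refine hc (tendsto_nhds_unique h (h1.congr fun z => ?_))
    have := qParam_ne_zero' w z
    rw [hk]
    rw [show m + k + 1 = m + (k + 1) by ring, pow_add]
    field_simp

lemma qParam_mul_pow {w : ℝ} (hw : 0 < w) {t : ℕ} (ht : 0 < t) (z : ℍ) :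
    𝕢 (t * w) z ^ t = 𝕢 w z := by
  rw [Function.Periodic.qParam, Function.Periodic.qParam, ← Complex.exp_nat_mul]
  congr 1
  have h1 : (w : ℂ) ≠ 0 := by exact_mod_cast hw.ne'
  have h2 : (t : ℂ) ≠ 0 := by exact_mod_cast ht.ne'
  push_cast
  field_simp

lemma NiceAt.natMul {w : ℝ} {f : ℍ → ℂ} (hf : NiceAt w f) (t : ℕ) :
    NiceAt (t * w) f where
  mdiff := hf.mdiff
  bdd := hf.bdd
  per := by
    have := hf.per.nat_mul t
    push_cast at this ⊢
    exact this

/-- The order at the cusp with respect to a multiple of the period. -/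
theorem NiceAt.cuspOrd_natMul {w : ℝ} (hw : 0 < w) {f : ℍ → ℂ} (hf : NiceAt w f) (hf0 : f ≠ 0)
    {t : ℕ} (ht : 0 < t) : cuspOrd (t * w) f = t * cuspOrd w f := by
  obtain ⟨c, hc, h⟩ := NiceAt.exists_tendsto hw hf hf0
  refine NiceAt.cuspOrd_eq (by positivity) (NiceAt.natMul hf t) hc ?_
  refine h.congr fun z => ?_
  rw [pow_mul, qParam_mul_pow hw ht]

/-- A quotient with nonnegative order at the cusp is bounded. -/
theorem NiceAt.bdd_of_le {w : ℝ} (hw : 0 < w) {f D g : ℍ → ℂ} (hf : NiceAt w f) (hf0 : f ≠ 0)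
    (hD : NiceAt w D) (hD0 : D ≠ 0) (h : cuspOrd w D ≤ cuspOrd w f) (hg : f = g * D) :
    IsBoundedAtImInfty g := by
  obtain ⟨c, hc, h1⟩ := NiceAt.exists_tendsto hw hf hf0
  obtain ⟨d, hd, h2⟩ := NiceAt.exists_tendsto hw hD hD0
  obtain ⟨k, hk⟩ := Nat.exists_eq_add_of_le h
  have h3 : Tendsto (fun z : ℍ => (f z / 𝕢 w z ^ cuspOrd w f) / (D z / 𝕢 w z ^ cuspOrd w D) *
      𝕢 w z ^ k) atImInfty (𝓝 (c / d * 0 ^ k)) := (h1.div h2 hd).mul ((tendsto_qParam hw).pow _)
  have h4 : g =ᶠ[atImInfty] (fun z : ℍ => (f z / 𝕢 w z ^ cuspOrd w f) /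
      (D z / 𝕢 w z ^ cuspOrd w D) * 𝕢 w z ^ k) := by
    filter_upwards [h2.eventually_ne hd] with z hz
    have hq := qParam_ne_zero' w z
    have hDz : D z ≠ 0 := fun h0 => hz (by rw [h0, zero_div])
    rw [hg, Pi.mul_apply, ← hg, hk, pow_add]
    field_simp
  exact (h3.isBigO_one ℝ).congr' h4.symm (EventuallyEq.refl _ _)

end Fermat.Agent.H02
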