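import Fermat.Agent.H02_EisChar

set_option autoImplicit false

/-!
# Roots of modular forms with a given character
-/

noncomputable section

open UpperHalfPlane Filter Function Complex Manifold CongruenceSubgroup EisensteinSeries
  ModularForm Topology

open scoped MatrixGroups

namespace Fermat.Agent.H02

section mk

variable {N : ℕ} [NeZero N] {k : ℤ}

/-- Package a holomorphic function, slash-invariant under `Γ₀(N)`, all whose `SL₂(ℤ)`-translates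
are bounded at `i∞`, as a modular form. -/
def mkMF (k : ℤ) (f : ℍ → ℂ) (hf : MDiff f)
    (hinv : ∀ γ : SL(2, ℤ), γ ∈ Gamma0 N → f ∣[k] γ = f)
    (hb : ∀ δ : SL(2, ℤ), IsBoundedAtImInfty (f ∣[k] δ)) : ModularForm (Gamma0 N) k where
  toFun := f
  slash_action_eq' g hg := by
    obtain ⟨γ, hγ, rfl⟩ := hg
    exact hinv γ hγ
  holo' := hf
  bdd_at_cusps' {c} hc := by
    have hc' : IsCusp c 𝒮ℒ := (Subgroup.IsArithmetic.isCusp_iff_isCusp_SL2Z _).mp hc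
    rw [OnePoint.isBoundedAt_iff_forall_SL2Z hc']
    exact fun γ _ => hb γ

@[simp] lemma coe_mkMF (f : ℍ → ℂ) (hf : MDiff f)
    (hinv : ∀ γ : SL(2, ℤ), γ ∈ Gamma0 N → f ∣[k] γ = f)
    (hb : ∀ δ : SL(2, ℤ), IsBoundedAtImInfty (f ∣[k] δ)) :
    ((mkMF k f hf hinv hb : ModularForm (Gamma0 N) k) : ℍ → ℂ) = f := rfl

end mk

/-- Power of a function under the slash action. -/
lemma pow_slash (k : ℤ) (f : ℍ → ℂ) (δ : SL(2, ℤ)) (m : ℕ) :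
    (f ^ m) ∣[(m : ℤ) * k] δ = (f ∣[k] δ) ^ m := by
  ext z
  rw [SL_slash_apply, Pi.pow_apply, Pi.pow_apply, SL_slash_apply, mul_pow, ← zpow_natCast,
    ← zpow_natCast (denom _ _ ^ (-k)), ← zpow_mul]
  ring_nf

variable {N : ℕ}

lemma norm_eq_one_of_pow {ψ : ↥(Gamma0 N) →* ℂˣ} {m : ℕ} (hm : m ≠ 0)
    (hψm : ∀ γ, ψ γ ^ m = 1) (γ : ↥(Gamma0 N)) : ‖(ψ γ : ℂ)‖ = 1 := by
  refine Complex.norm_eq_one_of_pow_eq_one (n := m) ?_ hm
  rw [← Units.val_pow_eq_pow_val, hψm γ, Units.val_one]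

lemma trivOnPar_one : TrivOnPar (1 : ↥(Gamma0 N) →* ℂˣ) :=
  ⟨fun _ _ _ _ => rfl, fun _ _ => rfl⟩

lemma isBoundedAtImInfty_mul {f g : ℍ → ℂ} (hf : IsBoundedAtImInfty f)
    (hg : IsBoundedAtImInfty g) : IsBoundedAtImInfty (f * g) :=
  hf.mul hg

lemma isBoundedAtImInfty_one : IsBoundedAtImInfty (1 : ℍ → ℂ) :=
  Filter.const_boundedAtFilter _ (1 : ℂ)

lemma isBoundedAtImInfty_pow {f : ℍ → ℂ} (hf : IsBoundedAtImInfty f) (n : ℕ) :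
    IsBoundedAtImInfty (f ^ n) := by
  induction n with
  | zero => rw [pow_zero]; exact isBoundedAtImInfty_one
  | succ n ih => rw [pow_succ]; exact isBoundedAtImInfty_mul ih hf

variable [NeZero N]

/-- The Eisenstein series `E_ψ` of weight 4 to the power `m = ord ψ`, as a modular form. -/
def EisPow (ψ : ↥(Gamma0 N) →* ℂˣ) (hψ : TrivOnPar ψ) (m : ℕ) (hm : m ≠ 0)
    (hψm : ∀ γ, ψ γ ^ m = 1) : ModularForm (Gamma0 N) ((m : ℤ) * 4) :=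
  mkMF ((m : ℤ) * 4) (EisChar 4 ψ ^ m)
    ((mdiff_EisChar (by norm_num) (norm_eq_one_of_pow hm hψm)).pow m)
    (fun γ hγ => by
      rw [pow_slash, EisChar_slash 4 hψ ⟨γ, hγ⟩, smul_pow, ← Units.val_pow_eq_pow_val,
        hψm, Units.val_one, one_smul])
    (fun δ => by
      rw [pow_slash]
      exact isBoundedAtImInfty_pow (isBoundedAtImInfty_EisChar_slash (by norm_num)
        (norm_eq_one_of_pow hm hψm) hψ δ) m)

lemma coe_EisPow (ψ : ↥(Gamma0 N) →* ℂˣ) (hψ : TrivOnPar ψ) (m : ℕ) (hm : m ≠ 0)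
    (hψm : ∀ γ, ψ γ ^ m = 1) :
    ((EisPow ψ hψ m hm hψm : ModularForm (Gamma0 N) ((m : ℤ) * 4)) : ℍ → ℂ) =
      EisChar 4 ψ ^ m := rfl

lemma tendsto_EisPow (ψ : ↥(Gamma0 N) →* ℂˣ) (hψ : TrivOnPar ψ) (m : ℕ) (hm : m ≠ 0)
    (hψm : ∀ γ, ψ γ ^ m = 1) :
    Tendsto (EisPow ψ hψ m hm hψm : ModularForm (Gamma0 N) ((m : ℤ) * 4)) atImInfty
      (𝓝 (2 ^ m)) := by
  rw [coe_EisPow]
  exact (tendsto_EisChar (by norm_num) (by decide) (norm_eq_one_of_pow hm hψm) hψ).pow m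

lemma EisPow_ne_zero (ψ : ↥(Gamma0 N) →* ℂˣ) (hψ : TrivOnPar ψ) (m : ℕ) (hm : m ≠ 0)
    (hψm : ∀ γ, ψ γ ^ m = 1) : EisPow ψ hψ m hm hψm ≠ 0 := by
  intro h
  have h1 := tendsto_EisPow ψ hψ m hm hψm
  rw [h] at h1
  have h2 : Tendsto (fun _ : ℍ => (0 : ℂ)) atImInfty (𝓝 (2 ^ m)) := h1
  exact pow_ne_zero m two_ne_zero (tendsto_nhds_unique tendsto_const_nhds h2).symm

/-- **Existence of modular forms with a root having a prescribed finite-order character.** -/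
theorem exists_rootForm (ψ : ↥(Gamma0 N) →* ℂˣ) (hψ : TrivOnPar ψ) (m : ℕ) (hm : m ≠ 0)
    (hψm : ∀ γ, ψ γ ^ m = 1) :
    ∃ (A B : ModularForm (Gamma0 N) ((m : ℤ) * 4)) (H : ℍ → ℂ), A ≠ 0 ∧ B ≠ 0 ∧ MDiff H ∧
      (∀ z, H z ^ m = A z * B z ^ (m - 1)) ∧
      (∀ γ : ↥(Gamma0 N), H ∣[(m : ℤ) * 4] (γ : SL(2, ℤ)) = (ψ γ : ℂ) • H) ∧
      (∀ δ : SL(2, ℤ), IsBoundedAtImInfty (H ∣[(m : ℤ) * 4] δ)) ∧
      (∀ δ : SL(2, ℤ), ∀ z, (H ∣[(m : ℤ) * 4] δ) ((ModularGroup.T ^ (N : ℤ) : SL(2, ℤ)) • z) =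
        (H ∣[(m : ℤ) * 4] δ) z) ∧
      Tendsto A atImInfty (𝓝 (2 ^ m)) ∧ Tendsto B atImInfty (𝓝 (2 ^ m)) ∧
      Tendsto H atImInfty (𝓝 (2 ^ m)) := by
  have hn := norm_eq_one_of_pow hm hψm
  have h1m : ∀ γ : ↥(Gamma0 N), (1 : ↥(Gamma0 N) →* ℂˣ) γ ^ m = 1 := fun γ => by simp
  have hn1 := norm_eq_one_of_pow hm h1m
  obtain ⟨l, rfl⟩ : ∃ l, m = l + 1 := ⟨m - 1, by omega⟩
  have hslash : ∀ δ : SL(2, ℤ), (EisChar 4 ψ * EisChar 4 (1 : ↥(Gamma0 N) →* ℂˣ) ^ l)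
      ∣[((l + 1 : ℕ) : ℤ) * 4] δ = (EisChar 4 ψ ∣[(4 : ℤ)] δ) *
        (EisChar 4 (1 : ↥(Gamma0 N) →* ℂˣ) ∣[(4 : ℤ)] δ) ^ l := fun δ => by
    rw [show ((l + 1 : ℕ) : ℤ) * 4 = 4 + (l : ℤ) * 4 by push_cast; ring, mul_slash_SL2, pow_slash]
  refine ⟨EisPow ψ hψ (l + 1) hm hψm, EisPow 1 trivOnPar_one (l + 1) hm h1m,
    EisChar 4 ψ * EisChar 4 (1 : ↥(Gamma0 N) →* ℂˣ) ^ l, EisPow_ne_zero _ _ _ _ _, EisPow_ne_zero _ _ _ _ _,
    ?_, ?_, ?_, ?_, ?_, tendsto_EisPow .., tendsto_EisPow .., ?_⟩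
  · exact (mdiff_EisChar (by norm_num) hn).mul ((mdiff_EisChar (by norm_num) hn1).pow l)
  · intro z
    rw [coe_EisPow, coe_EisPow]
    simp only [Pi.mul_apply, Pi.pow_apply, Nat.add_sub_cancel]
    ring
  · intro γ
    rw [hslash, EisChar_slash 4 hψ γ, EisChar_slash 4 trivOnPar_one γ]
    simp
  · intro δ
    rw [hslash]
    exact isBoundedAtImInfty_mul
      (isBoundedAtImInfty_EisChar_slash (by norm_num) hn hψ δ)
      (isBoundedAtImInfty_pow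
        (isBoundedAtImInfty_EisChar_slash (by norm_num) hn1 trivOnPar_one δ) l)
  · intro δ z
    rw [hslash]
    simp only [Pi.mul_apply, Pi.pow_apply]
    rw [EisChar_slash_periodic 4 hψ δ z, EisChar_slash_periodic 4 trivOnPar_one δ z]
  · rw [pow_succ']
    exact (tendsto_EisChar (by norm_num) (by decide) hn hψ).mul
      ((tendsto_EisChar (by norm_num) (by decide) hn1 trivOnPar_one).pow l)

end Fermat.Agent.H02
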