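import Fermat.Agent.H02_P1
import Fermat.Agent.H02_P2
import Fermat.Agent.H02_RootForm
import Fermat.Agent.FF.T7

set_option autoImplicit false

/-!
# Every place of the complex modular function field is a point of `ℍ` or a cusp

-/

noncomputable section

open UpperHalfPlane hiding I
open ModularForm EisensteinSeries Filter Complex Topology Function CongruenceSubgroup
open ModularCurve AlgebraicCurve
open scoped MatrixGroups Manifold Real IntermediateField

namespace Fermat.Agent.H02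

local notation "𝕢" => Function.Periodic.qParam
local notation "Δ" => ModularForm.discriminant

open Fermat.Agent.H01 (NiceAt cuspOrd ordAt IsMF mfq MFRep FnOrd ordPt ordCusp EmbMF qLf
  slash_mdiff)
open Fermat.Agent.FF (FunField)

variable {N : ℕ} [NeZero N]

lemma slash_zero_eq_tr (f : ℍ → ℂ) (γ : SL(2, ℤ)) : f ∣[(0 : ℤ)] γ = tr γ f :=
  (tr_eq_slash γ f).symm

/-- The order functional of the cusp `σ∞`, in the parameter `q_N`. -/
def oCusp (N : ℕ) [NeZero N] (σ : SL(2, ℤ)) : FnOrd N :=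
  ordCusp N σ (N : ℤ) (by exact_mod_cast NeZero.pos N) (conj_T_mem_Gamma0 σ)

lemma oCusp_o (σ : SL(2, ℤ)) (k : ℤ) (f : ℍ → ℂ) :
    (oCusp N σ).o k f = cuspOrd ((N : ℤ) : ℝ) (f ∣[k] σ) := rfl

lemma niceAt_slash {k : ℤ} {f : ℍ → ℂ} (hf : IsMF N k f) (σ : SL(2, ℤ)) :
    NiceAt ((N : ℤ) : ℝ) (f ∣[k] σ) := hf.niceAt (conj_T_mem_Gamma0 σ)

lemma hNR : (0 : ℝ) < ((N : ℤ) : ℝ) := by
  have := NeZero.pos N
  exact_mod_cast this

/-- A nonconstant quotient of modular forms has a pole somewhere. -/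
theorem exists_neg {x : LaurentSeries ℂ} {k : ℤ} {f g : ℍ → ℂ} (h : MFRep N x k f g)
    (hx : ∀ c : ℂ, x ≠ algebraMap ℂ (LaurentSeries ℂ) c) :
    (∃ τ : ℍ, (ordPt N τ).val x < 0) ∨ ∃ σ : SL(2, ℤ), (oCusp N σ).val x < 0 := by
  by_contra hcon
  push Not at hcon
  obtain ⟨h1, h2⟩ := hcon
  obtain ⟨u, hu, hfu⟩ := exists_quotient_of_ord h.hf.mdiff h.hg.mdiff h.hf0 h.hg0 (fun τ => by
    have := h1 τ
    rw [(ordPt N τ).val_eq h] at this
    change 0 ≤ (ordAt τ f : ℤ) - (ordAt τ g : ℤ) at this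
    omega)
  have hslash : ∀ σ : SL(2, ℤ), f ∣[k] σ = (u ∣[(0 : ℤ)] σ) * (g ∣[k] σ) := by
    intro σ
    rw [hfu, ← mul_slash_SL2, zero_add]
  have hinv : ∀ γ : Gamma0 N, u ∣[(0 : ℤ)] (γ : SL(2, ℤ)) = u := by
    intro γ
    have e1 := hslash γ
    rw [h.hf.slash_eq γ, h.hg.slash_eq γ, hfu] at e1
    have e2 : (u - u ∣[(0 : ℤ)] (γ : SL(2, ℤ))) * g = 0 := by
      rw [sub_mul, ← e1, sub_self]
    rcases (UpperHalfPlane.mul_eq_zero_iff (hu.sub (slash_mdiff 0 hu _)) h.hg.mdiff).mp e2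
      with e3 | e3
    · exact (sub_eq_zero.mp e3).symm
    · exact absurd e3 h.hg0
  have hbdd : ∀ σ : SL(2, ℤ), IsBoundedAtImInfty (u ∣[(0 : ℤ)] σ) := by
    intro σ
    refine NiceAt.bdd_of_le (hNR (N := N)) (niceAt_slash h.hf σ) (Fermat.Agent.H01.slash_ne_zero h.hf0 σ)
      (niceAt_slash h.hg σ) (Fermat.Agent.H01.slash_ne_zero h.hg0 σ) ?_ (hslash σ)
    have := h2 σ
    rw [(oCusp N σ).val_eq h, oCusp_o, oCusp_o] at this
    omega
  let F : ModularForm (Gamma0 N) 0 := mkMF 0 u hu (fun γ hγ => hinv ⟨γ, hγ⟩) hbdd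
  obtain ⟨c, hc⟩ := ModularForm.eq_const_of_weight_zero F
  have hc' : u = Function.const ℍ c := hc
  apply hx c
  have h3 : f = c • g := by
    rw [hfu, hc']
    rfl
  have h4 := h.eq
  rw [h3, h.hg.qLf_smul] at h4
  have h5 : qLf g ≠ 0 := fun h0 => h.hg0 (h.hg.qLf_eq_zero_iff.mp h0)
  rw [mul_right_cancel₀ h5 h4]
  exact (LaurentSeries.algebraMap_apply ℂ c).symm

/-- The embedding of the function field. -/
def embFC (N : ℕ) [NeZero N] : EmbMF N ℂ (FC N) where
  σ := (FC N).val.toRingHom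
  mem := mem_mfq_of_FC
  const c := ⟨c, LaurentSeries.algebraMap_apply ℂ c⟩

@[simp] lemma embFC_σ (x : FC N) : (embFC N).σ x = (x : LaurentSeries ℂ) := rfl

section RR

variable {F : Type*} [Field F] [Algebra ℂ F] [FunField ℂ F]

open WithZero in
/-- A nonconstant function with a unique pole. -/
theorem exists_unique_pole (v : Place ℂ F) : ∃ f : F, f ∉ Set.range (algebraMap ℂ F) ∧
    ∀ w : Place ℂ F, w.ord f < 0 → w = v := by
  classical
  set g := AlgebraicCurve.genusFF ℂ F with hg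
  set D : Divisor ℂ F := Finsupp.single v ((g : ℤ) + 1) with hD
  have h1 := Fermat.Agent.FF.riemannRoch D
  have h2 : Divisor.degree D = g + 1 := by
    rw [hD, Divisor.degree_single, Fermat.Agent.FF.deg_eq_one]
    simp
  have h3 : 1 < Module.finrank ℂ (riemannRochSpace D) := by
    change 1 < Fermat.Agent.FF.ell D
    omega
  have h4 : ∃ f ∈ riemannRochSpace D, f ∉ Set.range (algebraMap ℂ F) := by
    by_contra hcon
    push Not at hcon
    have h5 : riemannRochSpace D ≤ Submodule.span ℂ {(1 : F)} := by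
      intro f hf
      obtain ⟨c, rfl⟩ := hcon f hf
      rw [Algebra.algebraMap_eq_smul_one]
      exact Submodule.smul_mem _ _ (Submodule.mem_span_singleton_self _)
    have h6 := Submodule.finrank_mono h5
    have h7 := finrank_span_le_card (R := ℂ) ({(1 : F)} : Set F)
    simp at h7
    omega
  obtain ⟨f, hf, hfc⟩ := h4
  refine ⟨f, hfc, fun w hw => ?_⟩
  by_contra hne
  have h5 := Fermat.Agent.FF.mem_L_iff.mp hf w
  rw [hD, Finsupp.single_eq_of_ne hne, WithZero.exp_zero, w.adicValuation_le_one_iff] at h5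
  rcases h5 with h5 | h5
  · exact hfc ⟨0, by rw [h5, map_zero]⟩
  · omega

end RR

/-- **Completeness**: every place comes from a point of `ℍ` or from a cusp. -/
theorem place_cases (v : Place ℂ (FC N)) :
    (∃ (τ : ℍ) (e : ℤ), 0 < e ∧ ∀ x : FC N, x ≠ 0 → (ordPt N τ).val x = e * v.ord x) ∨
    (∃ (σ : SL(2, ℤ)) (e : ℤ), 0 < e ∧ ∀ x : FC N, x ≠ 0 → (oCusp N σ).val x = e * v.ord x) := by
  obtain ⟨f, hfc, hf⟩ := exists_unique_pole v
  have hf0 : f ≠ 0 := by
    rintro rfl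
    exact hfc ⟨0, map_zero _⟩
  have hf0' : (f : LaurentSeries ℂ) ≠ 0 := fun h => hf0 (Subtype.ext h)
  obtain ⟨k, A, B, h⟩ := MFRep.exists_of_mem (mem_mfq_of_FC f) hf0'
  have hkey : ∀ O : FnOrd N, O.val (f : LaurentSeries ℂ) < 0 →
      ∃ e : ℤ, 0 < e ∧ ∀ x : FC N, x ≠ 0 → O.val x = e * v.ord x := by
    intro O hO
    rcases (O.toIntVal (embFC N)).eq_zero_or_exists_place with h0 | ⟨w, e, he, hw⟩
    · exact absurd (h0 f hf0) (ne_of_lt hO)
    · have h1 : O.val (f : LaurentSeries ℂ) = e * w.ord f := hw f hf0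
      have h2 : w.ord f < 0 := by
        by_contra hcon
        push Not at hcon
        have := mul_nonneg he.le hcon
        omega
      have h3 := hf w h2
      subst h3
      exact ⟨e, he, fun x hx => hw x hx⟩
  rcases exists_neg h (fun c hc => hfc ⟨c, Subtype.ext hc.symm⟩) with ⟨τ, hτ⟩ | ⟨σ, hσ⟩
  · obtain ⟨e, he, h1⟩ := hkey _ hτ
    exact Or.inl ⟨τ, e, he, h1⟩
  · obtain ⟨e, he, h1⟩ := hkey _ hσ
    exact Or.inr ⟨σ, e, he, h1⟩

end Fermat.Agent.H02
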