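import Fermat.Agent.H02_P3

set_option autoImplicit false

/-!
# Computing the index of a valuation by counting

-/

noncomputable section

open UpperHalfPlane hiding I
open ModularForm EisensteinSeries Filter Complex Topology Function CongruenceSubgroup
open ModularCurve AlgebraicCurve
open scoped MatrixGroups Manifold Real IntermediateField

namespace Fermat.Agent.H02

open Fermat.Agent.H01 (NiceAt cuspOrd ordAt IsMF mfq MFRep FnOrd ordPt ordCusp EmbMF qLf
  slash_mdiff)
open Fermat.Agent.FF (FunField)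

variable {N : ℕ} [NeZero N]

/-- `v` is the place attached to the order functional `O`, with index `e`. -/
def IsPlaceOf (O : FnOrd N) (v : Place ℂ (FC N)) (e : ℤ) : Prop :=
  0 < e ∧ ∀ x : FC N, x ≠ 0 → O.val x = e * v.ord x

lemma exists_isPlaceOf (O : FnOrd N) {y : FC N} (hy : y ≠ 0) (h : O.val y ≠ 0) :
    ∃ v e, IsPlaceOf O v e := by
  rcases (O.toIntVal (embFC N)).eq_zero_or_exists_place with h0 | ⟨w, e, he, hw⟩
  · exact absurd (h0 y hy) h
  · exact ⟨w, e, he, fun x hx => hw x hx⟩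

lemma exists_ord_one (v : Place ℂ (FC N)) : ∃ x : FC N, x ≠ 0 ∧ v.ord x = 1 := by
  obtain ⟨f, hf, h⟩ := Fermat.Agent.FF.exists_ord_eq {v} (fun _ => 1)
  exact ⟨f, hf, h v (Finset.mem_singleton_self v)⟩

lemma IsPlaceOf.unique {O : FnOrd N} {v v' : Place ℂ (FC N)} {e e' : ℤ} (h : IsPlaceOf O v e)
    (h' : IsPlaceOf O v' e') : v = v' ∧ e = e' := by
  have hv : v' = v := by
    obtain ⟨f, hfc, hf⟩ := exists_unique_pole v
    have hf0 : f ≠ 0 := by
      rintro rfl
      exact hfc ⟨0, map_zero _⟩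
    have h1 : v.ord f < 0 := by
      by_contra hcon
      push Not at hcon
      apply hfc
      have := Fermat.Agent.FF.mem_range_of_forall_le (K := ℂ) (f := f) (fun w => by
        rw [w.adicValuation_le_one_iff]
        right
        by_contra hw
        push Not at hw
        have := hf w hw
        subst this
        omega)
      exact this
    have h2 := h.2 f hf0
    rw [h'.2 f hf0] at h2
    apply hf
    have h3 : e' * v'.ord f < 0 := by
      rw [h2]
      exact mul_neg_of_pos_of_neg h.1 h1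
    by_contra hcon
    push Not at hcon
    have := mul_nonneg h'.1.le hcon
    omega
  subst hv
  refine ⟨rfl, ?_⟩
  obtain ⟨x, hx, hx1⟩ := exists_ord_one v'
  have h2 := h.2 x hx
  rw [h'.2 x hx, hx1] at h2
  omega

lemma IsPlaceOf.congr {O O' : FnOrd N} {v : Place ℂ (FC N)} {e : ℤ} (h : IsPlaceOf O v e)
    (hO : ∀ x ∈ mfq N, O'.val x = O.val x) : IsPlaceOf O' v e :=
  ⟨h.1, fun x hx => by rw [hO _ (mem_mfq_of_FC x), h.2 x hx]⟩

/-- The counting argument. -/
theorem index_eq (O : SL(2, ℤ) → FnOrd N) (s : SL(2, ℤ))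
    (hΓ : ∀ (g γ : SL(2, ℤ)), γ ∈ Gamma0 N → ∀ x ∈ mfq N, (O (g * γ)).val x = (O g).val x)
    (hs : ∀ g : SL(2, ℤ), ∀ x ∈ mfq N, (O (s * g)).val x = (O g).val x)
    (y : FC N) (hyt : Transcendental ℂ y) (hyd : ℂ⟮y⟯ = ℂ⟮jC N⟯) (n : ℕ) (hn : 0 < n)
    (hy : ∀ g, (O g).val y = n)
    (hcompl : ∀ v : Place ℂ (FC N), 0 < v.ord y → ∃ g e, IsPlaceOf (O g) v e)
    (t : SL(2, ℤ) → ℕ)
    (ht : ∀ g : SL(2, ℤ), minimalPeriod (fun q : SL(2, ℤ) ⧸ Gamma0 N => s • q) (g : SL(2, ℤ) ⧸ Gamma0 N) *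
      t g = n)
    (hdiv : ∀ g, ∀ x ∈ mfq N, x ≠ 0 → (t g : ℤ) ∣ (O g).val x)
    {g : SL(2, ℤ)} {v : Place ℂ (FC N)} {e : ℤ} (hv : IsPlaceOf (O g) v e) : e = t g := by
  classical
  have hfin : Finite (SL(2, ℤ) ⧸ Gamma0 N) := Subgroup.finite_quotient_of_finiteIndex
  have := Fintype.ofFinite (SL(2, ℤ) ⧸ Gamma0 N)
  have hy0 : y ≠ 0 := by
    rintro rfl
    exact hyt (isAlgebraic_zero)
  -- the functional attached to a coset
  have hcos : ∀ g : SL(2, ℤ), ∀ x ∈ mfq N,
      (O (g : SL(2, ℤ) ⧸ Gamma0 N).out).val x = (O g).val x := by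
    intro g x hx
    obtain ⟨γ, hγ⟩ := QuotientGroup.mk_out_eq_mul (Gamma0 N) g
    rw [hγ]
    exact hΓ g γ γ.2 x hx
  have hex : ∀ q : SL(2, ℤ) ⧸ Gamma0 N, ∃ v e, IsPlaceOf (O q.out) v e := fun q =>
    exists_isPlaceOf (O q.out) hy0 (by rw [hy]; exact_mod_cast hn.ne')
  choose pl ee hpl using hex
  -- the place is constant on `s`-orbits
  have hpls : ∀ q : SL(2, ℤ) ⧸ Gamma0 N, pl (s • q) = pl q := by
    intro q
    have h1 : s • q = ((s * q.out : SL(2, ℤ)) : SL(2, ℤ) ⧸ Gamma0 N) := by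
      conv_lhs => rw [← QuotientGroup.out_eq' q]
      rfl
    have h2 : IsPlaceOf (O (s • q).out) (pl q) (ee q) := by
      refine (hpl q).congr fun x hx => ?_
      rw [h1, hcos _ x hx, hs _ x hx]
    exact ((hpl (s • q)).unique h2).1
  have hpliter : ∀ (i : ℕ) (q : SL(2, ℤ) ⧸ Gamma0 N),
      pl ((fun q : SL(2, ℤ) ⧸ Gamma0 N => s • q)^[i] q) = pl q := by
    intro i
    induction i with
    | zero => intro q; rfl
    | succ i ih => intro q; rw [iterate_succ, comp_apply, ih, hpls]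
  set m : SL(2, ℤ) ⧸ Gamma0 N → ℕ := fun q =>
    minimalPeriod (fun q : SL(2, ℤ) ⧸ Gamma0 N => s • q) q with hm
  have hmt : ∀ q : SL(2, ℤ) ⧸ Gamma0 N, m q * t q.out = n := by
    intro q
    have := ht q.out
    rwa [QuotientGroup.out_eq'] at this
  have hord : ∀ q, ee q * (pl q).ord y = n := by
    intro q
    rw [← (hpl q).2 y hy0, hy]
  have hordpos : ∀ q, 0 < (pl q).ord y := by
    intro q
    by_contra hcon
    push Not at hcon
    have h1 := mul_nonpos_of_nonneg_of_nonpos (hpl q).1.le hcon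
    rw [hord q] at h1
    have : (0 : ℤ) < n := by exact_mod_cast hn
    omega
  have htdvd : ∀ q, (t q.out : ℤ) ∣ ee q := by
    intro q
    obtain ⟨x, hx, hx1⟩ := exists_ord_one (pl q)
    have h1 := hdiv q.out x (mem_mfq_of_FC x) (fun h => hx (Subtype.ext h))
    rwa [(hpl q).2 x hx, hx1, mul_one] at h1
  have hle1 : ∀ q, (pl q).ord y ≤ m q := by
    intro q
    obtain ⟨r, hr⟩ := htdvd q
    have h1 := hord q
    have h2 : (m q : ℤ) * t q.out = n := by exact_mod_cast hmt q
    have ht0 : (0 : ℤ) < t q.out := by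
      have : 0 < t q.out := by
        rcases Nat.eq_zero_or_pos (t q.out) with h0 | h0
        · have h3 := hmt q
          rw [h0, mul_zero] at h3
          omega
        · exact h0
      exact_mod_cast this
    have he := (hpl q).1
    have hr0 : 0 < r := by
      rw [hr] at he
      exact (mul_pos_iff_of_pos_left ht0).mp he
    rw [hr] at h1
    have h3 : (m q : ℤ) = r * (pl q).ord y := by
      have h4 : (t q.out : ℤ) * (m q : ℤ) = t q.out * (r * (pl q).ord y) := by
        rw [mul_comm, h2, ← h1]; ring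
      exact mul_left_cancel₀ ht0.ne' h4
    rw [h3]
    have := hordpos q
    nlinarith
  have hle2 : ∀ q, m q ≤ (Finset.univ.filter fun q' => pl q' = pl q).card := by
    intro q
    have h1 := Function.iterate_injOn_Iio_minimalPeriod
      (f := fun q : SL(2, ℤ) ⧸ Gamma0 N => s • q) (x := q)
    have h2 : ((Finset.range (m q)).image
        (fun i => (fun q : SL(2, ℤ) ⧸ Gamma0 N => s • q)^[i] q)).card = m q := by
      rw [Finset.card_image_of_injOn, Finset.card_range]
      intro i hi j hj hij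
      exact h1 (by simpa using hi) (by simpa using hj) hij
    rw [← h2]
    refine Finset.card_le_card fun q' hq' => ?_
    obtain ⟨i, -, rfl⟩ := Finset.mem_image.mp hq'
    exact Finset.mem_filter.mpr ⟨Finset.mem_univ _, hpliter i q⟩
  -- the sum over all places
  have hfd : FiniteDimensional ℂ⟮y⟯ (FC N) := by rw [hyd]; infer_instance
  obtain ⟨hS, hsum⟩ := Fermat.Agent.H18.sum_ord_pos y hyt
  have hrank : Module.finrank ℂ⟮y⟯ (FC N) = Module.finrank ℂ⟮jC N⟯ (FC N) := by rw [hyd]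
  have hcard : (Fintype.card (SL(2, ℤ) ⧸ Gamma0 N) : ℤ) ≤ ∑ w ∈ hS.toFinset, w.ord y := by
    rw [hsum, hrank]
    have := card_le_finrank N
    rw [Nat.card_eq_fintype_card] at this
    exact_mod_cast this
  have hmaps : ∀ q ∈ (Finset.univ : Finset (SL(2, ℤ) ⧸ Gamma0 N)), pl q ∈ hS.toFinset := by
    intro q _
    rw [Set.Finite.mem_toFinset]
    exact hordpos q
  have hfib := Finset.card_eq_sum_card_fiberwise hmaps
  rw [Finset.card_univ] at hfib
  have hsurj : ∀ w ∈ hS.toFinset, ∃ q, pl q = w := by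
    intro w hw
    rw [Set.Finite.mem_toFinset] at hw
    obtain ⟨g, e, hge⟩ := hcompl w hw
    refine ⟨(g : SL(2, ℤ) ⧸ Gamma0 N), ?_⟩
    have h2 : IsPlaceOf (O (g : SL(2, ℤ) ⧸ Gamma0 N).out) w e := hge.congr fun x hx => hcos g x hx
    exact ((hpl _).unique h2).1
  have hle3 : ∀ w ∈ hS.toFinset, w.ord y ≤ ((Finset.univ.filter fun q' => pl q' = w).card : ℤ) := by
    intro w hw
    obtain ⟨q, rfl⟩ := hsurj w hw
    have h1 := hle1 q
    have h2 : (m q : ℤ) ≤ ((Finset.univ.filter fun q' => pl q' = pl q).card : ℤ) := by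
      exact_mod_cast hle2 q
    exact h1.trans h2
  have heq : ∀ w ∈ hS.toFinset, w.ord y = ((Finset.univ.filter fun q' => pl q' = w).card : ℤ) := by
    have h1 : ∑ w ∈ hS.toFinset, ((Finset.univ.filter fun q' => pl q' = w).card : ℤ) =
        ∑ w ∈ hS.toFinset, w.ord y := by
      refine le_antisymm ?_ (Finset.sum_le_sum hle3)
      refine le_trans (le_of_eq ?_) hcard
      rw [hfib]
      push_cast
      rfl
    intro w hw
    exact ((Finset.sum_eq_sum_iff_of_le hle3).mp h1.symm w hw)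
  have hfinal : ∀ q, (pl q).ord y = m q := by
    intro q
    have h1 := heq (pl q) (hmaps q (Finset.mem_univ q))
    have h2 : (m q : ℤ) ≤ ((Finset.univ.filter fun q' => pl q' = pl q).card : ℤ) := by
      exact_mod_cast hle2 q
    exact le_antisymm (hle1 q) (h1 ▸ h2)
  -- conclusion
  set q : SL(2, ℤ) ⧸ Gamma0 N := (g : SL(2, ℤ) ⧸ Gamma0 N) with hq
  have h2 : IsPlaceOf (O q.out) v e := hv.congr fun x hx => hcos g x hx
  obtain ⟨hvq, heq'⟩ := (hpl q).unique h2
  have h3 := hord q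
  rw [heq', hfinal q] at h3
  have h4 : (m q : ℤ) * t g = n := by exact_mod_cast ht g
  have hm0 : (m q : ℤ) ≠ 0 := by
    intro h0
    rw [h0, zero_mul] at h4
    have : (0 : ℤ) < n := by exact_mod_cast hn
    omega
  refine mul_right_cancel₀ hm0 ?_
  rw [h3, ← h4]
  ring

end Fermat.Agent.H02
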