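import Fermat.Agent.H02_P4
import Fermat.Agent.H01.EllPar

set_option autoImplicit false

/-!
# The index of a point of `ℍ`

-/

noncomputable section

open UpperHalfPlane hiding I
open ModularForm EisensteinSeries Filter Complex Topology Function CongruenceSubgroup
open ModularCurve AlgebraicCurve
open scoped MatrixGroups Manifold Real IntermediateField

namespace Fermat.Agent.H02

local notation "𝕢" => Function.Periodic.qParam
local notation "Δ" => ModularForm.discriminant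

open Fermat.Agent.H01 (NiceAt cuspOrd ordAt IsMF mfq MFRep FnOrd ordPt ordCusp EmbMF qLf
  slash_mdiff ordAt_mul ordAt_pow mdiff_pow analyticAt_comp_ofComplex coe_smul_sub_coe_smul
  analyticOnNhd_comp_ofComplex)
open Fermat.Agent.FF (FunField)
open Fermat.Agent.H18 (jfun)

/-! ### Orders at points -/

lemma ordAt_eq_zero {f : ℍ → ℂ} (hf : MDiff f) {τ : ℍ} (h : f τ ≠ 0) : ordAt τ f = 0 := by
  rw [ordAt, analyticOrderNatAt]
  have : analyticOrderAt (f ∘ ofComplex) (τ : ℂ) = 0 := by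
    rw [(analyticAt_comp_ofComplex hf τ).analyticOrderAt_eq_zero]
    simpa using h
  rw [this]
  rfl

lemma ordAt_eq_one {f : ℍ → ℂ} (hf : MDiff f) {τ : ℍ} (h : f τ = 0)
    (h' : deriv (f ∘ ofComplex) τ ≠ 0) : ordAt τ f = 1 := by
  rw [ordAt, analyticOrderNatAt]
  have : analyticOrderAt (f ∘ ofComplex) (τ : ℂ) = 1 :=
    (analyticAt_comp_ofComplex hf τ).analyticOrderAt_eq_one_of_zero_deriv_ne_zero
      (by simpa using h) h'
  rw [this]
  rfl

lemma apply_eq_zero_of_ordAt_ne {f : ℍ → ℂ} (hf : MDiff f) {τ : ℍ} (h : ordAt τ f ≠ 0) :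
    f τ = 0 := by
  by_contra h0
  exact h (ordAt_eq_zero hf h0)

lemma mdiff_coe_sub (c : ℂ) : MDiff (fun z : ℍ => (z : ℂ) - c) :=
  UpperHalfPlane.mdifferentiable_coe.sub mdifferentiable_const

lemma ordAt_coe_sub (τ : ℍ) : ordAt τ (fun z : ℍ => (z : ℂ) - τ) = 1 := by
  refine ordAt_eq_one (mdiff_coe_sub _) (sub_self _) ?_
  have h1 : ((fun z : ℍ => (z : ℂ) - τ) ∘ ofComplex) =ᶠ[𝓝 (τ : ℂ)] fun z : ℂ => z - τ := by
    filter_upwards [isOpen_upperHalfPlaneSet.mem_nhds τ.im_pos] with z hz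
    simp [ofComplex_apply_of_im_pos hz]
  rw [h1.deriv_eq]
  simp

lemma coe_sub_ne_zero (c : ℂ) : (fun z : ℍ => (z : ℂ) - c) ≠ 0 := by
  intro h
  have h1 := congrFun h UpperHalfPlane.I
  have h2 := congrFun h UpperHalfPlane.ρ
  simp only [Pi.zero_apply] at h1 h2
  have h3 : ((UpperHalfPlane.I : ℍ) : ℂ) = UpperHalfPlane.ρ := by
    rw [sub_eq_zero.mp h1, sub_eq_zero.mp h2]
  have h4 := Fermat.Agent.ES.jfun_I
  rw [UpperHalfPlane.ext h3, Fermat.Agent.ES.jfun_rho] at h4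
  norm_num at h4

theorem ordAt_slash {f : ℍ → ℂ} (hf : MDiff f) (hf0 : f ≠ 0) (k : ℤ) (γ : SL(2, ℤ)) (τ : ℍ) :
    ordAt τ (f ∣[k] γ) = ordAt (γ • τ) f := by
  obtain ⟨g, hg, hg0, hfac⟩ := Fermat.Agent.H01.exists_factor (analyticOnNhd_comp_ofComplex hf)
    (γ • τ).im_pos (Fermat.Agent.H01.analyticOrderAt_ne_top hf hf0 (γ • τ))
  set n := ordAt (γ • τ) f with hn
  have hfac' : ∀ z : ℍ, f z = ((z : ℂ) - (γ • τ : ℍ)) ^ n * g z := by
    intro z
    have := hfac z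
    rw [comp_ofComplex] at this
    exact this
  set G : ℍ → ℂ := fun z => g z with hG
  have hGm : MDiff G := by
    rw [UpperHalfPlane.mdifferentiable_iff]
    refine DifferentiableOn.congr (f := g) (fun x hx ↦
      (hg x hx).differentiableAt.differentiableWithinAt) fun z hz ↦ ?_
    simp [hG, ofComplex_apply_of_im_pos hz]
  set R : ℍ → ℂ := fun z => (denom γ z)⁻¹ * (denom γ τ)⁻¹ with hR
  have hRm : MDiff R :=
    (UpperHalfPlane.mdifferentiable_inv_denom (γ : GL (Fin 2) ℝ)).mul mdifferentiable_const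
  have hG0 : G ≠ 0 := by
    intro h
    exact hg0 (congrFun h (γ • τ))
  have hd : ∀ z : ℍ, denom γ z ≠ 0 := fun z => denom_ne_zero γ z
  have hR0 : ∀ z, R z ≠ 0 := fun z => mul_ne_zero (inv_ne_zero (hd z)) (inv_ne_zero (hd τ))
  have hRf : R ≠ 0 := fun h => hR0 τ (congrFun h τ)
  have hGs0 : G ∣[k] γ ≠ 0 := Fermat.Agent.H01.slash_ne_zero hG0 γ
  have hQ := mdiff_coe_sub (τ : ℂ)
  have hQ0 := coe_sub_ne_zero (τ : ℂ)
  have heq : f ∣[k] γ = ((fun z : ℍ => (z : ℂ) - τ) * R) ^ n * (G ∣[k] γ) := by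
    ext z
    rw [SL_slash_apply, hfac', coe_smul_sub_coe_smul, Pi.mul_apply, Pi.pow_apply, Pi.mul_apply,
      SL_slash_apply, hR, hG]
    simp only
    rw [mul_assoc, div_eq_mul_inv, mul_inv]
  rw [heq, ordAt_mul (mdiff_pow (hQ.mul hRm) n) (slash_mdiff k hGm γ)
    (Fermat.Agent.H01.pow_ne_zero_of_mdiff (fun h => ?_) n) hGs0, ordAt_pow (hQ.mul hRm) (fun h => ?_),
    ordAt_mul hQ hRm hQ0 hRf, ordAt_coe_sub, ordAt_eq_zero hRm (hR0 τ),
    ordAt_eq_zero (slash_mdiff k hGm γ)]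
  · ring
  · rw [SL_slash_apply]
    exact mul_ne_zero hg0 (zpow_ne_zero _ (hd τ))
  all_goals
    rcases (UpperHalfPlane.mul_eq_zero_iff hQ hRm).mp h with h1 | h1
    · exact hQ0 h1
    · exact hRf h1

/-! ### Elliptic data -/

/-- The level one form `E₄³ - c Δ`. -/
def jForm (c : ℂ) : ℍ → ℂ := (E₄ : ℍ → ℂ) ^ 3 + (-c) • Δ

lemma jForm_apply (c : ℂ) (z : ℍ) : jForm c z = (jfun z - c) * Δ z := by
  have h := Fermat.Agent.H18.jfun_mul_discriminant z
  simp only [jForm, Pi.add_apply, Pi.pow_apply, Pi.smul_apply, smul_eq_mul]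
  rw [sub_mul, h]
  ring

lemma jForm_eq_zero_iff (c : ℂ) (z : ℍ) : jForm c z = 0 ↔ jfun z = c := by
  rw [jForm_apply, mul_eq_zero, or_iff_left (discriminant_ne_zero z), sub_eq_zero]

lemma isMF_jForm (N : ℕ) [NeZero N] (c : ℂ) : IsMF N 12 (jForm c) :=
  (((IsMF.of_levelOne N E₄).pow 3).cast (by norm_num)).add ((IsMF.discriminant N).smul _)

lemma mdiff_jForm (c : ℂ) : MDiff (jForm c) := (isMF_jForm 1 c).mdiff

lemma jForm_ne_zero (c : ℂ) : jForm c ≠ 0 := by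
  intro h
  have h1 := (jForm_eq_zero_iff c UpperHalfPlane.I).mp (congrFun h _)
  have h2 := (jForm_eq_zero_iff c UpperHalfPlane.ρ).mp (congrFun h _)
  rw [Fermat.Agent.ES.jfun_I] at h1
  rw [Fermat.Agent.ES.jfun_rho, ← h1] at h2
  norm_num at h2

lemma jForm_slash (c : ℂ) (γ : SL(2, ℤ)) : jForm c ∣[(12 : ℤ)] γ = jForm c := by
  have := (isMF_jForm 1 c).slash_eq ⟨γ, by rw [Gamma0_mem]; exact Subsingleton.elim _ _⟩
  exact this

lemma E4_ne_zero_fun : (E₄ : ℍ → ℂ) ≠ 0 := fun h =>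
  Fermat.Agent.H18.E4_ne_zero' (DFunLike.coe_injective h)

lemma E6_ne_zero_fun : (E₆ : ℍ → ℂ) ≠ 0 := fun h =>
  Fermat.Agent.H18.E6_ne_zero' (DFunLike.coe_injective h)

/-- Data attached to the elliptic structure of a point. -/
structure EllData (τ₀ : ℍ) (s : SL(2, ℤ)) (n : ℕ) : Prop where
  fix : s • τ₀ = τ₀
  alt : (n.Prime ∧ s ^ n = -1) ∨ (n = 1 ∧ s = 1)
  prim : IsPrimitiveRoot ((denom s τ₀) ^ 2) n
  ord : ordAt τ₀ (jForm (jfun τ₀)) = n

lemma ellData_I : EllData UpperHalfPlane.I ModularGroup.S 2 where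
  fix := Fermat.Agent.ES.S_smul_I
  alt := Or.inl ⟨Nat.prime_two, by
    ext i j
    fin_cases i <;> fin_cases j <;> simp [ModularGroup.S, pow_two]⟩
  prim := by
    have h : denom ModularGroup.S (UpperHalfPlane.I : ℍ) = Complex.I := by
      rw [ModularGroup.denom_apply]
      simp [ModularGroup.S]
    rw [h, Complex.I_sq]
    exact IsPrimitiveRoot.neg_one 0 (by norm_num)
  ord := by
    have h : jForm (jfun UpperHalfPlane.I) = (E₆ : ℍ → ℂ) ^ 2 := by
      ext z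
      rw [jForm_apply, Fermat.Agent.ES.jfun_I, Fermat.Agent.H18.jfun_sub]
      rfl
    have h6 := Fermat.Agent.ES.E6_I
    rw [h, ordAt_pow Fermat.Agent.H18.mdiff_E6 E6_ne_zero_fun,
      ordAt_eq_one Fermat.Agent.H18.mdiff_E6 h6 (Fermat.Agent.H18.deriv_E6_ne_zero _ h6)]

lemma ellData_rho : EllData UpperHalfPlane.ρ (ModularGroup.S * ModularGroup.T) 3 where
  fix := Fermat.Agent.ES.ST_smul_rho
  alt := Or.inl ⟨Nat.prime_three, by
    ext i j
    fin_cases i <;> fin_cases j <;>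
      simp [ModularGroup.S, ModularGroup.T, pow_succ, Matrix.mul_apply, Fin.sum_univ_two]⟩
  prim := by
    have hsq := Fermat.Agent.ES.rho_sq
    have h : denom (ModularGroup.S * ModularGroup.T : SL(2, ℤ)) (UpperHalfPlane.ρ : ℍ) =
        (UpperHalfPlane.ρ : ℂ) + 1 := by
      rw [ModularGroup.denom_apply]
      simp [ModularGroup.S, ModularGroup.T, Matrix.mul_apply, Fin.sum_univ_two]
    have h2 : ((UpperHalfPlane.ρ : ℂ) + 1) ^ 2 = UpperHalfPlane.ρ := by
      linear_combination hsq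
    have him : (UpperHalfPlane.ρ : ℂ).im ≠ 0 := UpperHalfPlane.ρ.im_ne_zero
    rw [h, h2]
    refine IsPrimitiveRoot.mk_of_lt _ (by norm_num) ?_ ?_
    · linear_combination ((UpperHalfPlane.ρ : ℂ) - 1) * hsq
    · intro l hl0 hl3
      interval_cases l
      · intro h1
        rw [pow_one] at h1
        rw [h1] at him
        exact him rfl
      · intro h1
        rw [hsq] at h1
        have h3 : (UpperHalfPlane.ρ : ℂ) = -2 := by linear_combination -h1
        rw [h3] at him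
        exact him (by norm_num)
  ord := by
    have h : jForm (jfun UpperHalfPlane.ρ) = (E₄ : ℍ → ℂ) ^ 3 := by
      ext z
      rw [jForm_apply, Fermat.Agent.ES.jfun_rho, sub_zero, Fermat.Agent.H18.jfun_mul_discriminant]
      rfl
    have h4 := Fermat.Agent.ES.E4_rho
    rw [h, ordAt_pow Fermat.Agent.H18.mdiff_E4 E4_ne_zero_fun,
      ordAt_eq_one Fermat.Agent.H18.mdiff_E4 h4 (Fermat.Agent.H18.deriv_E4_ne_zero _ h4)]

lemma ellData_generic {τ : ℍ} (h4 : E₄ τ ≠ 0) (h6 : E₆ τ ≠ 0) : EllData τ 1 1 where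
  fix := one_smul _ _
  alt := Or.inr ⟨rfl, rfl⟩
  prim := IsPrimitiveRoot.one_right_iff.mpr (by simp [denom]) 
  ord := by
    refine ordAt_eq_one (mdiff_jForm _) ((jForm_eq_zero_iff _ _).mpr rfl) ?_
    have h : jForm (jfun τ) = fun z : ℍ => E₄ z ^ 3 - jfun τ * Δ z := by
      ext z
      simp only [jForm, Pi.add_apply, Pi.pow_apply, Pi.smul_apply, smul_eq_mul]
      ring
    rw [h]
    exact Fermat.Agent.H18.deriv_E4_cube_sub_ne_zero τ _
      (Fermat.Agent.H18.jfun_mul_discriminant τ).symm h4 h6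

theorem exists_ellData (τ : ℍ) : ∃ (τ₀ : ℍ) (g s : SL(2, ℤ)) (n : ℕ), EllData τ₀ s n ∧
    τ = g⁻¹ • τ₀ := by
  by_cases h4 : E₄ τ = 0
  · obtain ⟨g, hg⟩ := Fermat.Agent.ES.E4_zero_orbit τ h4
    exact ⟨_, g⁻¹, _, _, ellData_rho, by rw [inv_inv]; exact hg⟩
  by_cases h6 : E₆ τ = 0
  · obtain ⟨g, hg⟩ := Fermat.Agent.ES.E6_zero_orbit τ h6
    exact ⟨_, g⁻¹, _, _, ellData_I, by rw [inv_inv]; exact hg⟩
  · exact ⟨τ, 1, 1, 1, ellData_generic h4 h6, by rw [inv_one, one_smul]⟩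

end Fermat.Agent.H02
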