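import Fermat.Agent.H02_P6

set_option autoImplicit false

/-!
# The index of a cusp

-/

noncomputable section

open UpperHalfPlane hiding I
open ModularForm EisensteinSeries Filter Complex Topology Function CongruenceSubgroup
open ModularCurve AlgebraicCurve
open scoped MatrixGroups Manifold Real IntermediateField

namespace Fermat.Agent.H02

local notation "𝕢" => Function.Periodic.qParam
local notation "Δ" => ModularForm.discriminant
local notation "TT" => ModularGroup.T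

open Fermat.Agent.H01 (NiceAt cuspOrd ordAt IsMF mfq MFRep FnOrd ordPt ordCusp EmbMF qLf
  slash_mdiff)
open Fermat.Agent.FF (FunField)
open Fermat.Agent.H18 (jfun)

variable {N : ℕ} [NeZero N]

lemma tendsto_vadd_atImInfty (x : ℝ) : Tendsto (fun z : ℍ => x +ᵥ z) atImInfty atImInfty := by
  rw [atImInfty, tendsto_comap_iff]
  have : (UpperHalfPlane.im ∘ fun z : ℍ => x +ᵥ z) = UpperHalfPlane.im := by
    funext z
    simp
  rw [this]
  exact tendsto_comap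

lemma qParam_vadd {w : ℝ} (hw : 0 < w) (x : ℝ) (z : ℍ) :
    𝕢 w ((x +ᵥ z : ℍ) : ℂ) = Complex.exp (2 * π * Complex.I * x / w) * 𝕢 w z := by
  rw [Function.Periodic.qParam, Function.Periodic.qParam, ← Complex.exp_add]
  congr 1
  have h1 : (w : ℂ) ≠ 0 := by exact_mod_cast hw.ne'
  rw [coe_vadd]
  field_simp

/-- Translation does not change the order at the cusp. -/
lemma cuspOrd_slash_T {w : ℝ} (hw : 0 < w) {F : ℍ → ℂ} (hF : NiceAt w F) (hF0 : F ≠ 0) (k n : ℤ)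
    (hF' : NiceAt w (F ∣[k] (TT ^ n))) : cuspOrd w (F ∣[k] (TT ^ n)) = cuspOrd w F := by
  obtain ⟨c, hc, h⟩ := NiceAt.exists_tendsto hw hF hF0
  have h1 := h.comp (tendsto_vadd_atImInfty (n : ℝ))
  set ζ := Complex.exp (2 * π * Complex.I * (n : ℝ) / w) with hζ
  have hζ0 : ζ ≠ 0 := Complex.exp_ne_zero _
  refine NiceAt.cuspOrd_eq hw hF' (c := c * ζ ^ cuspOrd w F)
    (mul_ne_zero hc (pow_ne_zero _ hζ0)) ?_
  refine (h1.mul_const (ζ ^ cuspOrd w F)).congr fun z => ?_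
  simp only [comp_apply]
  rw [Fermat.Agent.H01.slash_T_zpow, qParam_vadd hw, mul_pow]
  have := qParam_ne_zero' w z
  have h2 : ζ ^ cuspOrd w F ≠ 0 := pow_ne_zero _ hζ0
  rw [← hζ]
  field_simp

lemma oCusp_mul_left {γ : SL(2, ℤ)} (hγ : γ ∈ Gamma0 N) (σ : SL(2, ℤ)) {x : LaurentSeries ℂ}
    (hx : x ∈ mfq N) : (oCusp N (γ * σ)).val x = (oCusp N σ).val x := by
  refine FnOrd.val_congr (fun k f hf hf0 => ?_) hx
  rw [oCusp_o, oCusp_o, SlashAction.slash_mul, hf.slash_eq ⟨γ, hγ⟩]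

lemma oCusp_mul_T (σ : SL(2, ℤ)) (n : ℤ) {x : LaurentSeries ℂ}
    (hx : x ∈ mfq N) : (oCusp N (σ * TT ^ n)).val x = (oCusp N σ).val x := by
  refine FnOrd.val_congr (fun k f hf hf0 => ?_) hx
  rw [oCusp_o, oCusp_o, SlashAction.slash_mul, cuspOrd_slash_T (hNR (N := N)) (niceAt_slash hf σ)
    (Fermat.Agent.H01.slash_ne_zero hf0 σ)]
  rw [← SlashAction.slash_mul]
  exact niceAt_slash hf _

lemma adjoin_inv_yC : ℂ⟮(yC N 0)⁻¹⟯ = ℂ⟮jC N⟯ := by
  rw [← adjoin_yC (N := N) 0]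
  apply le_antisymm
  · rw [IntermediateField.adjoin_simple_le_iff]
    exact inv_mem (IntermediateField.mem_adjoin_simple_self ℂ _)
  · rw [IntermediateField.adjoin_simple_le_iff]
    have := inv_mem (IntermediateField.mem_adjoin_simple_self ℂ (yC N 0)⁻¹)
    rwa [inv_inv] at this

lemma transcendental_inv_yC : Transcendental ℂ (yC N 0)⁻¹ := by
  intro h
  apply transcendental_yC (N := N) 0
  have := h.inv
  rwa [inv_inv] at this

lemma rep_inv_yC : MFRep N (((yC N 0)⁻¹ : FC N) : LaurentSeries ℂ) 12 Δ (jForm 0) where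
  hf := IsMF.discriminant N
  hg := isMF_jForm N 0
  hf0 := Fermat.Agent.H01.discriminant_fun_ne_zero
  hg0 := jForm_ne_zero 0
  eq := by
    have h := (rep_yC (N := N) 0).eq
    have h0 : ((yC N 0 : FC N) : LaurentSeries ℂ) ≠ 0 := fun h => yC_ne_zero 0 (Subtype.ext h)
    rw [← h]
    show ((yC N 0 : FC N) : LaurentSeries ℂ)⁻¹ * _ = _
    rw [inv_mul_cancel_left₀ h0]

/-- the width of a cusp -/
def cw (N : ℕ) (g : SL(2, ℤ)) : ℕ :=
  minimalPeriod (fun q : SL(2, ℤ) ⧸ Gamma0 N => TT • q) (g : SL(2, ℤ) ⧸ Gamma0 N)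

lemma mk_T_pow (g : SL(2, ℤ)) (n : ℕ) : (TT ^ n) • (g : SL(2, ℤ) ⧸ Gamma0 N) =
    (g : SL(2, ℤ) ⧸ Gamma0 N) ↔ g⁻¹ * TT ^ (n : ℤ) * g ∈ Gamma0 N := by
  rw [smul_coset_eq_iff, zpow_natCast]

lemma cw_dvd (g : SL(2, ℤ)) : cw N g ∣ N := by
  refine Function.IsPeriodicPt.minimalPeriod_dvd ?_
  change (fun q : SL(2, ℤ) ⧸ Gamma0 N => TT • q)^[N] _ = _
  rw [iterate_smul_coset, mk_T_pow]
  have := conj_T_mem_Gamma0 (N := N) g⁻¹
  rwa [inv_inv] at this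

lemma cw_pos (g : SL(2, ℤ)) : 0 < cw N g :=
  Nat.pos_of_dvd_of_pos (cw_dvd g) (NeZero.pos N)

lemma conj_cw_mem (g : SL(2, ℤ)) : g⁻¹ * TT ^ (cw N g : ℤ) * g ∈ Gamma0 N := by
  rw [← mk_T_pow]
  have h := Function.isPeriodicPt_minimalPeriod (fun q : SL(2, ℤ) ⧸ Gamma0 N => TT • q)
    (g : SL(2, ℤ) ⧸ Gamma0 N)
  change (fun q : SL(2, ℤ) ⧸ Gamma0 N => TT • q)^[cw N g] _ = _ at h
  rwa [iterate_smul_coset] at h

lemma dvd_cuspOrd_of_niceAt {g : SL(2, ℤ)} {F : ℍ → ℂ} (hF : NiceAt ((cw N g : ℤ) : ℝ) F)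
    (hF0 : F ≠ 0) : N / cw N g ∣ cuspOrd ((N : ℤ) : ℝ) F := by
  have hw : (0 : ℝ) < ((cw N g : ℤ) : ℝ) := by
    have := cw_pos (N := N) g
    exact_mod_cast this
  have ht : 0 < N / cw N g := Nat.div_pos (Nat.le_of_dvd (NeZero.pos N) (cw_dvd g)) (cw_pos g)
  have h1 := NiceAt.cuspOrd_natMul hw hF hF0 ht
  have h2 : ((N / cw N g : ℕ) : ℝ) * ((cw N g : ℤ) : ℝ) = ((N : ℤ) : ℝ) := by
    have := congrArg (Nat.cast (R := ℝ)) (Nat.div_mul_cancel (cw_dvd (N := N) g))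
    rw [Nat.cast_mul] at this
    rw [Int.cast_natCast, Int.cast_natCast]
    exact this
  rw [h2] at h1
  exact ⟨_, h1⟩

/-- The index of a cusp. -/
theorem index_cusp {g : SL(2, ℤ)} {v : Place ℂ (FC N)} {e : ℤ}
    (hv : IsPlaceOf (oCusp N g⁻¹) v e) : e = ((N / cw N g : ℕ) : ℤ) := by
  have hval : ∀ g : SL(2, ℤ), (oCusp N g⁻¹).val (((yC N 0)⁻¹ : FC N) : LaurentSeries ℂ) = N := by
    intro g
    rw [(oCusp N _).val_eq rep_inv_yC, oCusp_o, oCusp_o, jForm_slash, disc_slash, cuspOrd_jForm,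
      cuspOrd_disc]
    simp
  refine Fermat.Agent.H02.index_eq (N := N) (fun g => oCusp N g⁻¹) TT ?_ ?_
    ((yC N 0)⁻¹) transcendental_inv_yC adjoin_inv_yC N (NeZero.pos N) hval ?_
    (fun g => N / cw N g) ?_ ?_ hv
  · intro g γ hγ x hx
    rw [mul_inv_rev]
    exact oCusp_mul_left (inv_mem hγ) _ hx
  · intro g x hx
    have := oCusp_mul_T g⁻¹ (-1) hx
    rw [zpow_neg_one] at this
    rw [mul_inv_rev]
    exact this
  · intro w hw
    have hw' : w.ord (yC N 0) < 0 := by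
      rw [w.ord_inv] at hw
      omega
    rcases place_cases w with ⟨τ, e', he', hτ⟩ | ⟨σ, e', he', hσ⟩
    · exfalso
      have h1 := hτ _ (yC_ne_zero 0)
      rw [val_yC] at h1
      have h2 := mul_neg_of_pos_of_neg he' hw'
      rw [← h1] at h2
      omega
    · refine ⟨σ⁻¹, e', ?_⟩
      rw [inv_inv]
      exact ⟨he', hσ⟩
  · intro g
    rw [← cw]
    exact Nat.mul_div_cancel' (cw_dvd g)
  · intro g x hx hx0
    obtain ⟨k, f₁, f₂, hr⟩ := MFRep.exists_of_mem hx hx0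
    rw [(oCusp N _).val_eq hr, oCusp_o, oCusp_o]
    have hmem : g⁻¹ * TT ^ (cw N g : ℤ) * g⁻¹⁻¹ ∈ Gamma0 N := by
      rw [inv_inv]
      exact conj_cw_mem g
    have h1 := dvd_cuspOrd_of_niceAt (hr.hf.niceAt hmem)
      (Fermat.Agent.H01.slash_ne_zero hr.hf0 _)
    have h2 := dvd_cuspOrd_of_niceAt (hr.hg.niceAt hmem)
      (Fermat.Agent.H01.slash_ne_zero hr.hg0 _)
    exact dvd_sub (Int.natCast_dvd_natCast.mpr h1) (Int.natCast_dvd_natCast.mpr h2)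

/-- **Divisibility of orders at cusps by the index.** -/
theorem IsPlaceOf.dvd_cuspOrd {σ : SL(2, ℤ)} {v : Place ℂ (FC N)} {e : ℤ}
    (hv : IsPlaceOf (oCusp N σ) v e) {F : ℍ → ℂ} (hF : MDiff F) (hF0 : F ≠ 0)
    (hb : IsBoundedAtImInfty F)
    (hT : ∀ w : ℤ, 0 < w → σ * TT ^ w * σ⁻¹ ∈ Gamma0 N → ∀ z : ℍ, F ((w : ℝ) +ᵥ z) = F z) :
    e ∣ (cuspOrd ((N : ℤ) : ℝ) F : ℤ) := by
  have hv' : IsPlaceOf (oCusp N σ⁻¹⁻¹) v e := by rwa [inv_inv]
  rw [index_cusp hv']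
  refine Int.natCast_dvd_natCast.mpr (dvd_cuspOrd_of_niceAt ?_ hF0)
  refine ⟨hF, hb, ?_⟩
  apply Fermat.Agent.H01.periodic_comp_ofComplex_of_vadd
  refine hT _ (by exact_mod_cast cw_pos _) ?_
  have := conj_cw_mem (N := N) σ⁻¹
  rwa [inv_inv] at this

end Fermat.Agent.H02
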