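import Fermat.Agent.H18_ModField

set_option autoImplicit false

/-!
# The function field of `X₀(N)` inside its Galois closure

-/

noncomputable section

open UpperHalfPlane hiding I
open ModularForm EisensteinSeries Filter Complex Topology Function CongruenceSubgroup
open scoped MatrixGroups Manifold Real Polynomial

namespace Fermat.Agent.H18

open Fermat.Agent.H02 (tr tr_apply tr_mul tr_add tr_pow tr_tr tr_one IsSlow isSlow_const jN
  jN_smul isSlow_jN tr_jN_of_mem tr_jfun Gamma0_le_of_dvd isSlow_jfun)
open Fermat.Agent.Igusa (IsExp jf isExp_jf scl lin coe_scl coe_lin twist zr)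
open ModularCurve (coeffMap qExpand jqModC coeffEmb jq laurentBaseChange modularFunctionFieldFull
  coeffEmb_mem_laurentBaseChange jqd_mem_full)
open IntermediateField

section Gen

variable {K : Type*} [Field K] [Algebra ℚ K] {N : ℕ}

theorem coeffEmb_jq' : coeffEmb K jq = jqModC K :=
  ModularCurve.map_jqModC (algebraMap ℚ K)

theorem coeffEmb_qExpand (n : ℕ) [NeZero n] (x : LaurentSeries ℚ) :
    coeffEmb K (qExpand ℚ n x) = qExpand K n (coeffEmb K x) := by
  ext k
  by_cases hk : (n : ℤ) ∣ k
  · obtain ⟨m, rfl⟩ := hk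
    rw [ModularCurve.coeffEmb_coeff, ModularCurve.qExpand_coeff_mul,
      ModularCurve.qExpand_coeff_mul, ModularCurve.coeffEmb_coeff]
  · rw [ModularCurve.coeffEmb_coeff, ModularCurve.qExpand_coeff_of_not_dvd n _ hk,
      ModularCurve.qExpand_coeff_of_not_dvd n _ hk, map_zero]

theorem qExpand_algebraMap (n : ℕ) [NeZero n] (c : K) :
    qExpand K n (algebraMap K (LaurentSeries K) c) = algebraMap K (LaurentSeries K) c := by
  rw [ModularCurve.algebraMap_laurentSeries_eq_single, ModularCurve.qExpand_single, mul_zero]

/-- `f(q) ↦ f(q^n)` as an algebra homomorphism. -/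
def qExpandK (n : ℕ) [NeZero n] : LaurentSeries K →ₐ[K] LaurentSeries K :=
  { qExpand K n with commutes' := qExpand_algebraMap n }

@[simp] theorem qExpandK_apply (n : ℕ) [NeZero n] (x : LaurentSeries K) :
    qExpandK n x = qExpand K n x := rfl

/-- A subfield of `K((q))` containing the constants and the `j(q^d)` contains the function field
of `X₀(N)`. -/
theorem laurentBaseChange_le {S : Subfield (LaurentSeries K)}
    (hc : ∀ c : K, algebraMap K (LaurentSeries K) c ∈ S)
    (hg : ∀ (d : ℕ) (_ : NeZero d), d ∣ N → qExpand K d (jqModC K) ∈ S)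
    {x : LaurentSeries K} (hx : x ∈ laurentBaseChange K (modularFunctionFieldFull N)) : x ∈ S := by
  rw [ModularCurve.mem_laurentBaseChange_iff] at hx
  refine Subfield.closure_le.mpr ?_ hx
  rintro _ (⟨c, rfl⟩ | ⟨y, hy, rfl⟩)
  · exact hc c
  · have h1 : (modularFunctionFieldFull N).toSubfield ≤ S.comap (coeffEmb K) := by
      show Subfield.closure _ ≤ _
      rw [Subfield.closure_le]
      rintro _ (⟨c, rfl⟩ | ⟨d, hd, hdN, rfl⟩)
      · show coeffEmb K (algebraMap ℚ (LaurentSeries ℚ) c) ∈ S
        have : coeffEmb K (algebraMap ℚ (LaurentSeries ℚ) c) =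
            algebraMap K (LaurentSeries K) (algebraMap ℚ K c) := by
          rw [ModularCurve.algebraMap_laurentSeries_eq_single,
            ModularCurve.algebraMap_laurentSeries_eq_single]
          exact ModularCurve.coeffMap_single _ _ _
        rw [this]
        exact hc _
      · show coeffEmb K (qExpand ℚ d jq) ∈ S
        rw [coeffEmb_qExpand, coeffEmb_jq']
        exact hg d hd hdN
    exact h1 hy

theorem jqd_mem_bar (d : ℕ) [NeZero d] (hd : d ∣ N) :
    qExpand K d (jqModC K) ∈ laurentBaseChange K (modularFunctionFieldFull N) := by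
  rw [← coeffEmb_jq', ← coeffEmb_qExpand]
  exact coeffEmb_mem_laurentBaseChange K (jqd_mem_full N hd)

variable (K N) in
/-- The function field of `X₀(N)` over `K`. -/
abbrev Fb : IntermediateField K (LaurentSeries K) :=
  laurentBaseChange K (modularFunctionFieldFull N)

/-- The generators `j(q^d)`. -/
def jd (d : ℕ) [NeZero d] (hd : d ∣ N) : Fb K N := ⟨qExpand K d (jqModC K), jqd_mem_bar d hd⟩

variable (K N) in
/-- The `j` function. -/
def jB : Fb K N := jd 1 (one_dvd N)

theorem coe_jB : (jB K N : LaurentSeries K) = jqModC K := ModularCurve.qExpand_one_apply _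

end Gen

variable {K : Type*} [Field K] [Algebra K ℂ] [IsAlgClosed K] {N : ℕ} [NeZero N]

variable (K N) in
/-- The `q^{1/N}`-expansion on the Galois closure. -/
def expM : ModField K N →ₐ[K] LaurentSeries K :=
  IsFractionRing.liftAlgHom (K := ModField K N) (g := expK K N) expK_injective

@[simp] theorem expM_algebraMap (f : funAlg K N) :
    expM K N (algebraMap (funAlg K N) (ModField K N) f) = expK K N f :=
  IsFractionRing.lift_algebraMap (K := ModField K N) (g := (expK K N).toRingHom) expK_injective f

variable (K N) in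
/-- `j(d z)` in the big field. -/
def jNM (d : ℕ) (hd : d ∣ N) : ModField K N :=
  algebraMap (funAlg K N) (ModField K N) ⟨jN d, jN_mem hd⟩

theorem expM_jNM (d : ℕ) [NeZero d] (hd : d ∣ N) :
    expM K N (jNM K N d hd) = qExpand K N (qExpand K d (jqModC K)) := by
  rw [jNM, expM_algebraMap, expK_jN hd]

variable [Algebra ℚ K]

theorem qExpand_mem_range {x : LaurentSeries K} (hx : x ∈ Fb K N) :
    qExpandK N x ∈ (expM K N).range := by
  have := laurentBaseChange_le (S := ((expM K N).fieldRange.comap (qExpandK N)).toSubfield)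
    (fun c => by
      show qExpandK N (algebraMap K _ c) ∈ (expM K N).fieldRange
      rw [AlgHom.commutes]
      exact IntermediateField.algebraMap_mem _ c)
    (fun d _ hd => by
      show qExpandK N _ ∈ (expM K N).fieldRange
      rw [qExpandK_apply, ← expM_jNM d hd]
      exact ⟨_, rfl⟩) hx
  exact this

variable (K N) in
/-- The embedding of the function field of `X₀(N)` in the Galois closure. -/
def embF : Fb K N →ₐ[K] ModField K N :=
  (AlgEquiv.ofInjectiveField (expM K N)).symm.toAlgHom.comp
    (((qExpandK N).comp (Fb K N).val).codRestrict _ fun x => qExpand_mem_range x.2)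

theorem expM_embF (x : Fb K N) : expM K N (embF K N x) = qExpand K N (x : LaurentSeries K) := by
  have h1 := (AlgEquiv.ofInjectiveField (expM K N)).apply_symm_apply
    ((((qExpandK N).comp (Fb K N).val).codRestrict _ fun x => qExpand_mem_range x.2) x)
  exact congrArg Subtype.val h1

theorem embF_jd (d : ℕ) [NeZero d] (hd : d ∣ N) : embF K N (jd d hd) = jNM K N d hd := by
  apply (expM K N).injective
  show expM K N _ = expM K N _
  rw [expM_embF, expM_jNM]
  rfl

theorem jNM_one : jNM K N 1 (one_dvd N) = jM K N := by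
  rw [jNM, jM]
  congr 1
  exact Subtype.ext jN_one

theorem embF_jB : embF K N (jB K N) = jM K N := by
  rw [jB, embF_jd, jNM_one]

theorem transcendental_jB : Transcendental K (jB K N) := by
  have := transcendental_jM (K := K) (N := N)
  rw [← embF_jB] at this
  intro h
  exact this (h.algHom (embF K N))

@[reducible] def algFb : Algebra (RatFunc K) (Fb K N) := ratFuncAlgebra (jB K N) transcendental_jB

@[reducible] def algFM : Algebra (Fb K N) (ModField K N) := (embF K N).toRingHom.toAlgebra

attribute [local instance] algFb algFM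

instance towerKRF : IsScalarTower K (RatFunc K) (Fb K N) := ratFuncAlgebra_tower _ transcendental_jB

instance towerKFM : IsScalarTower K (Fb K N) (ModField K N) :=
  IsScalarTower.of_algebraMap_eq fun c => ((embF K N).commutes c).symm

@[simp] theorem algebraMap_X_Fb : algebraMap (RatFunc K) (Fb K N) RatFunc.X = jB K N :=
  ratFuncAlgebra_X _ transcendental_jB

theorem algebraMap_Fb_apply (x : Fb K N) : algebraMap (Fb K N) (ModField K N) x = embF K N x := rfl

instance towerRFM : IsScalarTower (RatFunc K) (Fb K N) (ModField K N) := by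
  refine IsScalarTower.of_algebraMap_eq' ?_
  apply IsLocalization.ringHom_ext (nonZeroDivisors K[X])
  apply Polynomial.ringHom_ext
  · intro c
    rw [RingHom.comp_apply, RingHom.comp_apply, RingHom.comp_apply, RatFunc.algebraMap_C,
      ← RatFunc.algebraMap_eq_C, ← IsScalarTower.algebraMap_apply K (RatFunc K) (ModField K N),
      ← IsScalarTower.algebraMap_apply K (RatFunc K) (Fb K N),
      ← IsScalarTower.algebraMap_apply K (Fb K N) (ModField K N)]
  · rw [RingHom.comp_apply, RingHom.comp_apply, RingHom.comp_apply, RatFunc.algebraMap_X,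
      algebraMap_X_modField, algebraMap_X_Fb, algebraMap_Fb_apply, embF_jB]

instance finite_Fb : FiniteDimensional (RatFunc K) (Fb K N) :=
  FiniteDimensional.of_injective
    (IsScalarTower.toAlgHom (RatFunc K) (Fb K N) (ModField K N)).toLinearMap
    (IsScalarTower.toAlgHom (RatFunc K) (Fb K N) (ModField K N)).injective

/-! ### The fixing subgroup -/

/-- A subfield of the big field containing the constants and the functions `j(d z)` contains the
function field of `X₀(N)`. -/
theorem embF_mem {S : Subfield (ModField K N)} (hc : ∀ c : K, algebraMap K (ModField K N) c ∈ S)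
    (hg : ∀ (d : ℕ) (_ : NeZero d) (hd : d ∣ N), jNM K N d hd ∈ S) (x : Fb K N) :
    embF K N x ∈ S := by
  have h1 : (x : LaurentSeries K) ∈ (S.map (expM K N).toRingHom).comap (qExpand K N) := by
    refine laurentBaseChange_le (fun c => ?_) (fun d _ hd => ?_) x.2
    · exact ⟨algebraMap K _ c, hc c, by
        show expM K N (algebraMap K _ c) = _
        rw [AlgHom.commutes, qExpand_algebraMap]⟩
    · exact ⟨jNM K N d hd, hg d ‹_› hd, expM_jNM d hd⟩
  obtain ⟨y, hy, hyx⟩ := h1
  have h2 : expM K N y = expM K N (embF K N x) := by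
    rw [expM_embF]; exact hyx
  rwa [← (expM K N).injective h2]

theorem rho_jNM (γ : SL(2, ℤ)) {d : ℕ} (hd : d ∣ N) :
    rho K N γ (jNM K N d hd) = jNM K N d hd ↔ tr γ⁻¹ (jN d) = jN d := by
  rw [jNM, rho_algebraMap, (IsFractionRing.injective (funAlg K N) (ModField K N)).eq_iff]
  exact Subtype.ext_iff

theorem rho_embF_of_mem {γ : SL(2, ℤ)} (hγ : γ ∈ Gamma0 N) (x : Fb K N) :
    rho K N γ (embF K N x) = embF K N x := by
  have := embF_mem (S := (rho K N γ).toRingEquiv.toRingHom.eqLocusField
      (RingHom.id (ModField K N))) (fun c => ?_) (fun d _ hd => ?_) x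
  · exact this
  · show rho K N γ (algebraMap K (ModField K N) c) = algebraMap K (ModField K N) c
    rw [IsScalarTower.algebraMap_apply K (RatFunc K) (ModField K N), AlgEquiv.commutes]
  · show rho K N γ (jNM K N d hd) = jNM K N d hd
    rw [rho_jNM]
    exact tr_jN_of_mem (NeZero.pos d) (inv_mem (Gamma0_le_of_dvd hd hγ))

theorem mem_Gamma0_iff {γ : SL(2, ℤ)} :
    γ ∈ Gamma0 N ↔ ∀ x : Fb K N, rho K N γ (embF K N x) = embF K N x := by
  refine ⟨fun h x => rho_embF_of_mem h x, fun h => ?_⟩
  have h1 := h (jd N dvd_rfl)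
  rw [embF_jd, rho_jNM] at h1
  have := H02.mem_Gamma0_of_tr_jN (NeZero.pos N) h1
  simpa using inv_mem this

theorem ker_rho_le : (rho K N).ker ≤ Gamma0 N := fun γ hγ => by
  rw [mem_Gamma0_iff (K := K)]
  intro x
  rw [MonoidHom.mem_ker.mp hγ]
  rfl

end Fermat.Agent.H18
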