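import Fermat.Statements.S29
import Fermat.Agent.H05.Geom
import Fermat.Agent.H23.Attach

set_option autoImplicit false
open CuspForm CuspForm.IsNormalizedEigenform

namespace Fermat.Agent.S29

theorem result
    {N : ℕ} {g : CuspForm (CongruenceSubgroup.Gamma0 N) 2} (hg : g.IsNormalizedEigenform)
    {p : ℕ} (hp : p.Prime) {k : Type} [Field k] [CharP k p]
    (φ : integralClosure ℤ ℂ →+* k) :
    ∃ ρ : ResidualGaloisRep k, ρ.IsAttachedTo g φ ∧
      ∀ ℓ : ℕ, ℓ.Prime → ¬ ℓ ∣ N * p → ρ.IsUnramifiedAt ℓ := by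
  exact Fermat.Agent.H23.s29_of Fermat.Agent.H25.weakChebotarev
    (fun N p _ hp => Fermat.Agent.H05.heckeGaloisInput hp N _) hg hp φ

end Fermat.Agent.S29
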