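import Fermat.Agent.H18_FixedClasses
import Fermat.Agent.H28.ModPlace
import Fermat.Agent.H28.ModGal
import Fermat.Agent.FF.T8
import Fermat.Agent.M5.Main

set_option autoImplicit false
set_option linter.all false

/-!
# Finiteness of the Frobenius-fixed classes modulo the kernel of reduction

-/

noncomputable section

open AlgebraicCurve IsDedekindDomain IsLocalRing ModularCurve
open Fermat.Agent.H28

namespace Fermat.Agent.H18

namespace FixM

section Map

variable {K F : Type*} [Field K] [Field F] [Algebra K F]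

theorem mk_sub' (a b : Divisor.degZero (K := K) (F := F)) :
    Pic0.mk (a - b) = Pic0.mk a - Pic0.mk b := rfl

theorem degree_mapDomain {K' F' : Type*} [Field K'] [Field F'] [Algebra K' F']
    (hdeg : ∀ v : Place K F, v.deg = 1) (hdeg' : ∀ v : Place K' F', v.deg = 1)
    (r : Place K F → Place K' F') (E : Divisor K F) :
    Divisor.degree (Finsupp.mapDomain r E : Divisor K' F') = Divisor.degree E := by
  classical
  induction E using Finsupp.induction_linear with
  | zero => rw [Finsupp.mapDomain_zero, map_zero, map_zero]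
  | add x y hx hy => rw [Finsupp.mapDomain_add, map_add, map_add, hx, hy]
  | single v n => rw [Finsupp.mapDomain_single, Divisor.degree_single, Divisor.degree_single,
      hdeg, hdeg']

theorem mapDomain_smul {K' F' : Type*} [Field K'] [Field F'] [Algebra K' F']
    (r : Place K F → Place K' F') (g : SemilinearAut K F) (g' : SemilinearAut K' F')
    (h : ∀ P, r (g • P) = g' • r P) (E : Divisor K F) :
    (Finsupp.mapDomain r (g • E) : Divisor K' F') = g' • (Finsupp.mapDomain r E : Divisor K' F') := by
  classical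
  induction E using Finsupp.induction_linear with
  | zero => rw [smul_zero, Finsupp.mapDomain_zero, smul_zero]
  | add x y hx hy => rw [smul_add, Finsupp.mapDomain_add, hx, hy, Finsupp.mapDomain_add, smul_add]
  | single v n => rw [SemilinearAut.smul_single, Finsupp.mapDomain_single, h,
      Finsupp.mapDomain_single, SemilinearAut.smul_single]

end Map

section Abs

variable {L : Type*} [Field L] [IsAlgClosed L] {A : ValuationSubring L} {F Fb : Type*}
  [Field F] [Field Fb] [Algebra L F] [Algebra (ResidueField A) Fb] {D : RedData A F Fb}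
  (C : TwoCharts D)

/-- **Finiteness of the classes fixed by a Frobenius, modulo the kernel of reduction.** -/
theorem finite_quot [IsAlgClosed (ResidueField A)] [FF.FunField (ResidueField A) Fb]
    (hdeg : ∀ v : Place L F, v.deg = 1)
    {g : SemilinearAut L F} {gb : Fb ≃+* Fb} {σb : ResidueField A ≃+* ResidueField A}
    (h : C.RedAut g gb σb) (P : Place L F) (hP : g • P = P)
    (hx : Transcendental (ResidueField A) (D.ρ C.t₁)) (hgx : gb (D.ρ C.t₁) = D.ρ C.t₁)
    (hfin : ∀ n : ℕ, 0 < n → {a : ResidueField A |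
      SemilinearAut.baseAut (h.gB ^ n) a = a}.Finite) :
    Set.Finite {y : Pic0 L F ⧸ C.kernel |
      ∃ x, QuotientAddGroup.mk x = y ∧ g • x - x ∈ C.kernel} := by
  classical
  have hdeg' : ∀ v : Place (ResidueField A) Fb, v.deg = 1 := fun v => FF.deg_eq_one v
  set r := C.redPl with hr
  have hmap : ∀ E : Divisor.degZero (K := L) (F := F),
      (Finsupp.mapDomain r (E : Divisor L F) : Divisor (ResidueField A) Fb) ∈
        Divisor.degZero (K := ResidueField A) (F := Fb) := fun E => by
    rw [Divisor.mem_degZero, degree_mapDomain hdeg hdeg']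
    exact Divisor.mem_degZero.mp E.2
  -- the fixed classes on the special fibre
  have hSfin : {c : Pic0 (ResidueField A) Fb | h.gB • c = c}.Finite := by
    refine FixedClasses.finite_fixed_classes hdeg' h.gB (P₀ := r P) ?_ (x := D.ρ C.t₁) hx ?_ hfin
      (genusFF (ResidueField A) Fb) (fun c hc => hc) ?_
    · rw [← h.redPl_smul, hP]
    · exact hgx
    · intro c _
      obtain ⟨⟨D₀, hD₀⟩, rfl⟩ := QuotientAddGroup.mk_surjective c
      obtain ⟨f, hf, hfe⟩ := FF.exists_effective (K := ResidueField A) (F := Fb)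
        (D := D₀ + Finsupp.single (r P) ((genusFF (ResidueField A) Fb : ℕ) : ℤ)) (by
          rw [map_add, Divisor.degree_single, Divisor.mem_degZero.mp hD₀, hdeg']
          simp)
      refine ⟨_, hfe, ?_, ?_⟩
      · rw [Divisor.mem_degZero, map_sub, map_add, map_add, Divisor.mem_degZero.mp hD₀,
          FixedClasses.degree_principal (D := FF.div f) ⟨f, hf, fun v => FF.div_apply f v⟩]
        ring
      · change Pic0.mk _ = Pic0.mk _
        rw [FixedClasses.mk_eq_mk_iff]
        have : D₀ - (D₀ + Finsupp.single (r P) ((genusFF (ResidueField A) Fb : ℕ) : ℤ) +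
            FF.div f - Finsupp.single (r P) ((genusFF (ResidueField A) Fb : ℕ) : ℤ)) =
            - FF.div f := by abel
        change D₀ - _ ∈ _
        rw [this]
        exact neg_mem ⟨f, hf, fun v => FF.div_apply f v⟩
  -- representatives
  set S := {y : Pic0 L F ⧸ C.kernel |
      ∃ x, QuotientAddGroup.mk x = y ∧ g • x - x ∈ C.kernel} with hS
  have hrep : ∀ y ∈ S, ∃ E : Divisor.degZero (K := L) (F := F),
      QuotientAddGroup.mk (Pic0.mk E) = y ∧ g • (Pic0.mk E) - Pic0.mk E ∈ C.kernel := by
    rintro y ⟨x, hxy, hx2⟩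
    obtain ⟨E, rfl⟩ := QuotientAddGroup.mk_surjective x
    exact ⟨E, hxy, hx2⟩
  choose! E hE1 hE2 using hrep
  refine Set.Finite.of_finite_image (f := fun y => Pic0.mk ⟨_, hmap (E y)⟩) (hSfin.subset ?_) ?_
  · rintro _ ⟨y, hy, rfl⟩
    change h.gB • Pic0.mk _ = Pic0.mk _
    have h1 := hE2 y hy
    rw [SemilinearAut.pic0_smul_mk, ← mk_sub'] at h1
    rw [C.mk_mem_kernel, C.mem_KDiv_iff] at h1
    rw [SemilinearAut.pic0_smul_mk, FixedClasses.mk_eq_mk_iff]
    have h2 : (Finsupp.mapDomain r (g • (E y : Divisor L F) - (E y : Divisor L F)) :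
        Divisor (ResidueField A) Fb) = h.gB • (Finsupp.mapDomain r (E y : Divisor L F) :
          Divisor (ResidueField A) Fb) - Finsupp.mapDomain r (E y : Divisor L F) := by
      rw [sub_eq_add_neg, Finsupp.mapDomain_add, mapDomain_smul r g h.gB h.redPl_smul,
        ← neg_one_smul ℤ (E y : Divisor L F), Finsupp.mapDomain_smul, neg_one_smul,
        sub_eq_add_neg]
    have h4 : (Finsupp.mapDomain r (g • (E y : Divisor L F) - (E y : Divisor L F)) :
        Divisor (ResidueField A) Fb) ∈ Divisor.principal (K := ResidueField A) (F := Fb) := h1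
    rw [h2] at h4
    exact h4
  · intro y hy y' hy' hyy
    have h1 : (Finsupp.mapDomain r (E y : Divisor L F) : Divisor (ResidueField A) Fb) -
        Finsupp.mapDomain r (E y' : Divisor L F) ∈
          Divisor.principal (K := ResidueField A) (F := Fb) :=
      FixedClasses.mk_eq_mk_iff.mp hyy
    rw [← hE1 y hy, ← hE1 y' hy', QuotientAddGroup.eq]
    have h3 : -Pic0.mk (E y) + Pic0.mk (E y') = Pic0.mk (E y' - E y) := by
      rw [mk_sub']; abel
    rw [h3, C.mk_mem_kernel, C.mem_KDiv_iff]
    have h2 : (Finsupp.mapDomain r ((E y' - E y : Divisor.degZero (K := L) (F := F)) :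
        Divisor L F) : Divisor (ResidueField A) Fb) =
        -((Finsupp.mapDomain r (E y : Divisor L F) : Divisor (ResidueField A) Fb) -
          Finsupp.mapDomain r (E y' : Divisor L F)) := by
      change Finsupp.mapDomain r ((E y' : Divisor L F) - (E y : Divisor L F)) = _
      rw [sub_eq_add_neg, Finsupp.mapDomain_add, ← neg_one_smul ℤ (E y : Divisor L F),
        Finsupp.mapDomain_smul, neg_one_smul]
      abel
    rw [h2]
    exact neg_mem h1

end Abs

section Mod

variable {N : ℕ} [NeZero N] {A : ValuationSubring (AlgebraicClosure ℚ)}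
  {σ : AlgebraicClosure ℚ ≃ₐ[ℚ] AlgebraicClosure ℚ}

theorem finite_pow_fixed {k : Type*} [Field k] (q : ℕ) (hq : 1 < q) :
    {a : k | a ^ q = a}.Finite := by
  have hne : (Polynomial.X ^ q - Polynomial.X : Polynomial k) ≠ 0 :=
    FiniteField.X_pow_card_sub_X_ne_zero k hq
  refine (Polynomial.rootSet_finite (Polynomial.X ^ q - Polynomial.X : Polynomial k) k).subset ?_
  intro a ha
  rw [Polynomial.mem_rootSet]
  refine ⟨hne, ?_⟩
  have ha' : a ^ q = a := ha
  simp [ha']

/-- **(M7)** classes fixed by a power of Frobenius modulo the kernel of reduction -/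
theorem finite_fixed (h₁ : (modRed N A).IsChart (jZ N A)) (h₂ : (modRed N A).IsChart (jinvZ N A))
    (hσ : σ ∈ A.decompositionSubgroup ℚ) {q : ℕ} (hq : 1 < q)
    (hres : ∀ a : ResidueField A, decRes hσ a = a ^ q) :
    Set.Finite {y : JZero N ⧸ (modCharts N A h₁ h₂).kernel |
      ∃ x : JZero N, QuotientAddGroup.mk x = y ∧ σ • x - x ∈ (modCharts N A h₁ h₂).kernel} := by
  haveI : IsAlgClosed (ResidueField A) := H28.isAlgClosed_residueField A
  haveI : FF.FunField (ResidueField A) (modularFunctionFieldFullC (ResidueField A) N) :=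
    H05.funField_full (ResidueField A) N
  have h := modRedAut h₁ h₂ hσ
  have hfix : fullAut N (decRes hσ) ((modRed N A).ρ (modCharts N A h₁ h₂).t₁) =
      (modRed N A).ρ (modCharts N A h₁ h₂).t₁ := by
    apply Subtype.ext
    rw [coe_fullAut]
    change coeffMap _ ((modRed N A).ρ (jZ N A) : LaurentSeries (ResidueField A)) =
      ((modRed N A).ρ (jZ N A) : LaurentSeries (ResidueField A))
    rw [ρ_jZ, coeffMap_jqModC]
  have htr : Transcendental (ResidueField A) ((modRed N A).ρ (modCharts N A h₁ h₂).t₁) := by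
    have h1 := H05.transcendental_j (ResidueField A)
    change Transcendental (ResidueField A) ((modRed N A).ρ (jZ N A))
    rw [← transcendental_algebraMap_iff (R := ResidueField A)
      (S := modularFunctionFieldFullC (ResidueField A) N) (A := LaurentSeries (ResidueField A))
      (algebraMap (modularFunctionFieldFullC (ResidueField A) N)
        (LaurentSeries (ResidueField A))).injective]
    change Transcendental (ResidueField A) ((modRed N A).ρ (jZ N A) : LaurentSeries (ResidueField A))
    rw [ρ_jZ]
    exact h1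
  have hbase : ∀ (n : ℕ) (a : ResidueField A),
      SemilinearAut.baseAut (h.gB ^ n) a = a ^ (q ^ n) := by
    intro n
    induction n with
    | zero => intro a; simp
    | succ n ih =>
      intro a
      rw [_root_.pow_succ, SemilinearAut.baseAut_mul, RingAut.mul_apply, ih]
      have : SemilinearAut.baseAut h.gB a = a ^ q := hres a
      rw [this, ← pow_mul, ← pow_succ']
  refine (finite_quot (modCharts N A h₁ h₂) (fun v => ?_) h (M5.c₁ N) (M5.smul_c₁ σ) htr hfix
    fun n hn => ?_)
  · exact H05.deg_eq_one_bc (AlgebraicClosure ℚ) N v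
  · simp only [hbase n]
    exact finite_pow_fixed _ (Nat.one_lt_pow hn.ne' hq)

open scoped Pointwise in
/-- **(M7)** in terms of Frobenius elements -/
theorem finite_fixed_frobenius (h₁ : (modRed N A).IsChart (jZ N A))
    (h₂ : (modRed N A).IsChart (jinvZ N A)) {ℓ : ℕ} (hℓ : ℓ.Prime) (hφ : A.IsFrobeniusAt σ ℓ)
    {n : ℕ} (hn : n ≠ 0) :
    Set.Finite {y : JZero N ⧸ (modCharts N A h₁ h₂).kernel | ∃ x : JZero N,
      QuotientAddGroup.mk x = y ∧ (σ ^ n) • x - x ∈ (modCharts N A h₁ h₂).kernel} := by
  obtain ⟨hσ, hres⟩ := hφ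
  have hσn : σ ^ n ∈ A.decompositionSubgroup ℚ := pow_mem hσ n
  refine finite_fixed h₁ h₂ hσn (q := ℓ ^ n) (Nat.one_lt_pow hn hℓ.one_lt) fun a => ?_
  rw [decRes_apply]
  have h1 : (⟨σ ^ n, hσn⟩ : A.decompositionSubgroup ℚ) = ⟨σ, hσ⟩ ^ n := rfl
  rw [h1]
  clear h1 hσn hn
  induction n with
  | zero => simp
  | succ n ih => rw [_root_.pow_succ, mul_smul, hres a, smul_pow', ih, ← pow_mul, ← pow_succ]

end Mod

end FixM

end Fermat.Agent.H18
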