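import Fermat.Agent.H18_JFun
import Fermat.Agent.H02_JN
import Fermat.Agent.Igusa.JFun
import Fermat.Prelude.Def_ModularCurve_ArithmeticGalois

set_option autoImplicit false

/-!
# The algebra of conjugates of `j(d z)`, `d ∣ N`, with coefficients in a field `K ⊆ ℂ`

-/

noncomputable section

open UpperHalfPlane hiding I
open ModularForm EisensteinSeries Filter Complex Topology Function CongruenceSubgroup
open scoped MatrixGroups Manifold Real

namespace Fermat.Agent.H18

open Fermat.Agent.H02 (tr tr_apply tr_mul tr_add tr_pow tr_tr tr_one IsSlow isSlow_const jN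
  jN_smul isSlow_jN tr_jN_of_mem tr_jfun Gamma0_le_of_dvd isSlow_jfun)
open Fermat.Agent.Igusa (IsExp jf isExp_jf scl lin coe_scl coe_lin twist zr)
open Fermat.Agent.IntStr (aff coe_aff)
open ModularCurve (coeffMap qExpand jqModC coeffEmb jq)

theorem jf_eq : jf = jfun := by
  ext z
  rw [Igusa.jf, jfun, div_eq_mul_inv]
  rfl

theorem isExp_jfun : IsExp 1 jfun (jqModC ℂ) := jf_eq ▸ isExp_jf

/-- uniqueness of the function with a given expansion -/
theorem isExp_fun_unique {h : ℕ} {f g : ℍ → ℂ} {F : LaurentSeries ℂ} (hf : IsExp h f F)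
    (hg : IsExp h g F) : f = g := funext fun τ => (hf τ).unique (hg τ)

theorem isExp_of_dvd {e n : ℕ} [NeZero e] [NeZero n] {f : ℍ → ℂ} {F : LaurentSeries ℂ}
    (h : IsExp e f F) : IsExp (e * n) f (qExpand ℂ n F) := fun τ => by
  rw [Igusa.hasSum_qExpand_iff]
  convert! h τ using 3 with k
  rw [Function.Periodic.qParam, Function.Periodic.qParam, ← Complex.exp_nat_mul]
  congr 2
  have h1 : (e : ℂ) ≠ 0 := by exact_mod_cast NeZero.ne e
  have h2 : (n : ℂ) ≠ 0 := by exact_mod_cast NeZero.ne n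
  push_cast
  field_simp

section FunAlg

variable (K : Type*) [Field K] [Algebra K ℂ] (N : ℕ)

/-- The conjugates of the functions `j(d z)`, `d ∣ N`. -/
def genSet : Set (ℍ → ℂ) := {f | ∃ (d : ℕ) (γ : SL(2, ℤ)), d ∣ N ∧ f = tr γ (jN d)}

/-- The `K`-algebra generated by the conjugates of the functions `j(d z)`, `d ∣ N`. -/
def funAlg : Subalgebra K (ℍ → ℂ) := Algebra.adjoin K (genSet N)

variable {K N}

theorem tr_jN_mem {d : ℕ} (hd : d ∣ N) (γ : SL(2, ℤ)) : tr γ (jN d) ∈ funAlg K N :=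
  Algebra.subset_adjoin ⟨d, γ, hd, rfl⟩

theorem jN_mem {d : ℕ} (hd : d ∣ N) : jN d ∈ funAlg K N := by
  have := tr_jN_mem (K := K) hd 1
  rwa [tr_one] at this

theorem jN_one : jN 1 = jfun := by
  ext z
  rw [jN]
  congr 1
  ext
  rw [coe_aff one_pos one_pos]
  simp

theorem jfun_mem : jfun ∈ funAlg K N := by
  rw [← jN_one]
  exact jN_mem (one_dvd N)

variable [NeZero N]

theorem isSlow_of_mem {f : ℍ → ℂ} (hf : f ∈ funAlg K N) : IsSlow f := by
  induction hf using Algebra.adjoin_induction with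
  | mem x hx =>
    obtain ⟨d, γ, hd, rfl⟩ := hx
    exact (isSlow_jN (Nat.pos_of_dvd_of_pos hd (NeZero.pos N))).tr γ
  | algebraMap r => exact isSlow_const _
  | add x y _ _ hx hy => exact hx.add hy
  | mul x y _ _ hx hy => exact hx.mul hy

theorem mdiff_of_mem {f : ℍ → ℂ} (hf : f ∈ funAlg K N) : MDiff f := (isSlow_of_mem hf).holo

theorem tr_mem {f : ℍ → ℂ} (hf : f ∈ funAlg K N) (γ : SL(2, ℤ)) : tr γ f ∈ funAlg K N := by
  induction hf using Algebra.adjoin_induction with
  | mem x hx =>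
    obtain ⟨d, δ, hd, rfl⟩ := hx
    rw [tr_tr]
    exact tr_jN_mem hd _
  | algebraMap r => exact (funAlg K N).algebraMap_mem r
  | add x y _ _ hx hy => exact add_mem hx hy
  | mul x y _ _ hx hy => exact mul_mem hx hy

theorem tr_eq_self_of_mem {f : ℍ → ℂ} (hf : f ∈ funAlg K N) {γ : SL(2, ℤ)}
    (hγ : γ ∈ CongruenceSubgroup.Gamma N) :
    tr γ f = f := by
  induction hf using Algebra.adjoin_induction with
  | mem x hx =>
    obtain ⟨d, δ, hd, rfl⟩ := hx
    have hd0 : 0 < d := Nat.pos_of_dvd_of_pos hd (NeZero.pos N)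
    have h1 : δ * γ * δ⁻¹ ∈ CongruenceSubgroup.Gamma N := (Gamma_normal N).conj_mem γ hγ δ
    have h2 : δ * γ * δ⁻¹ ∈ Gamma0 d := Gamma0_le_of_dvd hd (by
      rw [Gamma_mem] at h1
      rw [Gamma0_mem]
      exact h1.2.2.1)
    rw [tr_tr, show δ * γ = (δ * γ * δ⁻¹) * δ by group, ← tr_tr, tr_jN_of_mem hd0 h2]
  | algebraMap r => rfl
  | add x y _ _ hx hy => rw [tr_add, hx, hy]
  | mul x y _ _ hx hy => rw [tr_mul, hx, hy]

instance : IsDomain (funAlg K N) := by
  have : Nontrivial (funAlg K N) := inferInstance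
  have : NoZeroDivisors (funAlg K N) := ⟨by
    rintro ⟨f, hf⟩ ⟨g, hg⟩ h
    have h1 : f * g = 0 := congrArg Subtype.val h
    rcases (UpperHalfPlane.mul_eq_zero_iff (mdiff_of_mem hf) (mdiff_of_mem hg)).mp h1 with h | h
    · exact Or.inl (Subtype.ext h)
    · exact Or.inr (Subtype.ext h)⟩
  exact NoZeroDivisors.to_isDomain _

/-! ### Laurent expansions in `q^{1/N}` -/

/-- the embedding of Laurent series -/
abbrev theta (K : Type*) [Field K] [Algebra K ℂ] : LaurentSeries K →+* LaurentSeries ℂ :=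
  coeffMap (algebraMap K ℂ)

theorem theta_injective : Function.Injective (theta K) := fun x y h => by
  ext k
  have := congrArg (fun z => HahnSeries.coeff z k) h
  exact (algebraMap K ℂ).injective this

theorem theta_jqModC : theta K (jqModC K) = jqModC ℂ := by
  exact ModularCurve.map_jqModC (algebraMap K ℂ)

theorem theta_qExpand (n : ℕ) [NeZero n] (x : LaurentSeries K) :
    theta K (qExpand K n x) = qExpand ℂ n (theta K x) := by
  ext k
  by_cases hk : (n : ℤ) ∣ k
  · obtain ⟨m, rfl⟩ := hk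
    rw [ModularCurve.coeffMap_coeff, ModularCurve.qExpand_coeff_mul,
      ModularCurve.qExpand_coeff_mul, ModularCurve.coeffMap_coeff]
  · rw [ModularCurve.coeffMap_coeff, ModularCurve.qExpand_coeff_of_not_dvd n _ hk,
      ModularCurve.qExpand_coeff_of_not_dvd n _ hk, map_zero]

theorem exists_unit_zr [IsAlgClosed K] (e : ℕ) [NeZero e] :
    ∃ ζ : Kˣ, algebraMap K ℂ ζ = (zr e : ℂˣ) := by
  have : CharZero K := (algebraMap K ℂ).charZero
  obtain ⟨ζ, hζ⟩ := HasEnoughRootsOfUnity.exists_primitiveRoot K e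
  have h1 : IsPrimitiveRoot (algebraMap K ℂ ζ) e := hζ.map_of_injective (algebraMap K ℂ).injective
  obtain ⟨i, hi, h2⟩ := h1.eq_pow_of_pow_eq_one (ξ := ((zr e : ℂˣ) : ℂ))
    (Igusa.zr_isPrimitiveRoot e).pow_eq_one
  refine ⟨(hζ.isUnit (NeZero.ne e)).unit ^ i, ?_⟩
  rw [← h2]
  simp

theorem exists_exp_aff [IsAlgClosed K] {a e n : ℕ} [NeZero a] [NeZero e] [NeZero n] (b : ℤ) :
    ∃ F : LaurentSeries K, IsExp (e * n) (fun z => jfun (aff a e b z)) (theta K F) ∧
      F = qExpand K n (qExpand K a (twist ((exists_unit_zr (K := K) e).choose ^ b) (jqModC K))) := by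
  refine ⟨_, ?_, rfl⟩
  have h1 : IsExp e (fun τ => jfun (lin e b τ)) (twist (zr e ^ b) (jqModC ℂ)) :=
    isExp_jfun.comp_lin e b
  have h2 := h1.comp_scl a
  have h3 := isExp_of_dvd (n := n) h2
  rw [theta_qExpand, theta_qExpand]
  have h4 : theta K (twist ((exists_unit_zr (K := K) e).choose ^ b) (jqModC K)) =
      twist (zr e ^ b) (jqModC ℂ) := by
    rw [← theta_jqModC (K := K)]
    ext k
    simp only [ModularCurve.coeffMap_coeff, Igusa.twist_coeff, map_mul]
    congr 1
    have h5 := (exists_unit_zr (K := K) e).choose_spec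
    rw [Units.val_zpow_eq_zpow_val, Units.val_zpow_eq_zpow_val, Units.val_zpow_eq_zpow_val,
      Units.val_zpow_eq_zpow_val, map_zpow₀, map_zpow₀, h5]
  rw [h4]
  refine h3.congr fun τ => ?_
  congr 1
  ext
  rw [coe_lin, coe_scl, coe_aff (NeZero.pos a) (NeZero.pos e)]

theorem exists_exp [IsAlgClosed K] {f : ℍ → ℂ} (hf : f ∈ funAlg K N) :
    ∃ F : LaurentSeries K, IsExp N f (theta K F) := by
  induction hf using Algebra.adjoin_induction with
  | mem x hx =>
    obtain ⟨d, γ, hd, rfl⟩ := hx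
    have hd0 : 0 < d := Nat.pos_of_dvd_of_pos hd (NeZero.pos N)
    obtain ⟨a, e, b, ha, he, hae, h1, -⟩ := jN_smul hd0 γ
    rw [h1]
    obtain ⟨n, hn⟩ : e ∣ N := (Dvd.intro_left a hae).trans hd
    have : NeZero a := ⟨ha.ne'⟩
    have : NeZero e := ⟨he.ne'⟩
    have : NeZero n := ⟨by rintro rfl; exact NeZero.ne N (by rw [hn]; simp)⟩
    obtain ⟨F, hF, -⟩ := exists_exp_aff (K := K) (a := a) (e := e) (n := n) b
    exact ⟨F, hn ▸ hF⟩
  | algebraMap r =>
    refine ⟨HahnSeries.C r, ?_⟩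
    have : theta K (HahnSeries.C r) = HahnSeries.C (algebraMap K ℂ r) :=
      ModularCurve.coeffMap_single _ _ _
    rw [this]
    exact IsExp.const _
  | add x y _ _ hx hy =>
    obtain ⟨F, hF⟩ := hx
    obtain ⟨G, hG⟩ := hy
    exact ⟨F + G, by rw [map_add]; exact hF.add hG⟩
  | mul x y _ _ hx hy =>
    obtain ⟨F, hF⟩ := hx
    obtain ⟨G, hG⟩ := hy
    exact ⟨F * G, by rw [map_mul]; exact hF.mul hG⟩

variable (K N)

/-- The Laurent expansion in `q^{1/N}`. -/
def expK [IsAlgClosed K] : funAlg K N →ₐ[K] LaurentSeries K where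
  toFun f := (exists_exp f.2).choose
  map_one' := theta_injective ((exists_exp (1 : funAlg K N).2).choose_spec.unique (NeZero.pos N)
    (by rw [map_one]; exact IsExp.one))
  map_mul' f g := theta_injective ((exists_exp (f * g).2).choose_spec.unique (NeZero.pos N)
    (by rw [map_mul]; exact (exists_exp f.2).choose_spec.mul (exists_exp g.2).choose_spec))
  map_zero' := theta_injective ((exists_exp (0 : funAlg K N).2).choose_spec.unique (NeZero.pos N)
    (by rw [map_zero]; exact IsExp.zero))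
  map_add' f g := theta_injective ((exists_exp (f + g).2).choose_spec.unique (NeZero.pos N)
    (by rw [map_add]; exact (exists_exp f.2).choose_spec.add (exists_exp g.2).choose_spec))
  commutes' r := theta_injective ((exists_exp
    (algebraMap K (funAlg K N) r).2).choose_spec.unique (NeZero.pos N) (by
      rw [ModularCurve.algebraMap_laurentSeries_eq_single]
      have : theta K (HahnSeries.single 0 r) = HahnSeries.C (algebraMap K ℂ r) :=
        ModularCurve.coeffMap_single _ _ _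
      rw [this]
      exact IsExp.const _))

variable {K N}

theorem isExp_expK [IsAlgClosed K] (f : funAlg K N) : IsExp N f (theta K (expK K N f)) :=
  (exists_exp f.2).choose_spec

theorem expK_eq [IsAlgClosed K] {f : funAlg K N} {F : LaurentSeries K}
    (h : IsExp N f (theta K F)) : expK K N f = F :=
  theta_injective ((isExp_expK f).unique (NeZero.pos N) h)

theorem expK_injective [IsAlgClosed K] : Function.Injective (expK K N) := fun f g h => by
  have h1 := isExp_expK f
  rw [h] at h1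
  exact Subtype.ext (isExp_fun_unique h1 (isExp_expK g))

theorem isExp_jN {d : ℕ} [NeZero d] : IsExp 1 (jN d) (qExpand ℂ d (jqModC ℂ)) := by
  refine (isExp_jfun.comp_scl d).congr fun τ => ?_
  rw [jN]
  congr 1
  ext
  rw [coe_scl, coe_aff (NeZero.pos d) one_pos]
  simp

theorem expK_jN [IsAlgClosed K] {d : ℕ} [NeZero d] (hd : d ∣ N) :
    expK K N ⟨jN d, jN_mem hd⟩ = qExpand K N (qExpand K d (jqModC K)) := by
  apply expK_eq
  rw [theta_qExpand, theta_qExpand, theta_jqModC]
  exact (Igusa.isExp_qExpand_iff N).mpr isExp_jN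

/-! ### The action of `SL₂(ℤ)` -/

instance : MulSemiringAction SL(2, ℤ) (funAlg K N) where
  smul γ f := ⟨tr γ⁻¹ f, tr_mem f.2 _⟩
  one_smul f := Subtype.ext (by show tr 1⁻¹ (f : ℍ → ℂ) = f; rw [inv_one, tr_one])
  mul_smul γ δ f := Subtype.ext (by
    show tr (γ * δ)⁻¹ (f : ℍ → ℂ) = tr γ⁻¹ (tr δ⁻¹ f)
    rw [tr_tr, mul_inv_rev])
  smul_zero γ := rfl
  smul_add γ f g := rfl
  smul_one γ := rfl
  smul_mul γ f g := rfl

theorem coe_smul (γ : SL(2, ℤ)) (f : funAlg K N) : ((γ • f : funAlg K N) : ℍ → ℂ) = tr γ⁻¹ f := rfl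

instance : SMulCommClass SL(2, ℤ) K (funAlg K N) := ⟨fun _ _ _ => rfl⟩

end FunAlg

end Fermat.Agent.H18
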