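import Fermat.Agent.H18_FunAlg
import Fermat.Agent.H18_FunField

set_option autoImplicit false

/-!
# The Galois closure of the modular function field, and its Galois group

-/

noncomputable section

open UpperHalfPlane hiding I
open ModularForm EisensteinSeries Filter Complex Topology Function CongruenceSubgroup
open scoped MatrixGroups Manifold Real Polynomial

namespace Fermat.Agent.H18

open Fermat.Agent.H02 (tr tr_apply tr_mul tr_add tr_pow tr_tr tr_one IsSlow isSlow_const jN
  jN_smul isSlow_jN tr_jN_of_mem tr_jfun Gamma0_le_of_dvd isSlow_jfun)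
open Fermat.Agent.Igusa (IsExp jf isExp_jf scl lin coe_scl coe_lin twist zr)
open ModularCurve (coeffMap qExpand jqModC coeffEmb jq)

variable {K : Type*} [Field K] [Algebra K ℂ] {N : ℕ} [NeZero N]

variable (K N) in
/-- `j` as an element of the algebra. -/
def jF : funAlg K N := ⟨jfun, jfun_mem⟩

@[simp] theorem coe_jF : (jF K N : ℍ → ℂ) = jfun := rfl

theorem smul_jF (γ : SL(2, ℤ)) : γ • jF K N = jF K N := Subtype.ext (tr_jfun _)

theorem isExp_aeval (P : ℂ[X]) :
    IsExp 1 (Polynomial.aeval jfun P) (Polynomial.aeval (jqModC ℂ) P) := by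
  induction P using Polynomial.induction_on' with
  | add p q hp hq => rw [map_add, map_add]; exact hp.add hq
  | monomial n a =>
    rw [← Polynomial.C_mul_X_pow_eq_monomial, map_mul, map_mul, Polynomial.aeval_C,
      Polynomial.aeval_C, map_pow, map_pow, Polynomial.aeval_X, Polynomial.aeval_X,
      ModularCurve.algebraMap_laurentSeries_eq_single]
    exact (IsExp.const a).mul (isExp_jfun.pow n)

theorem exists_poly [IsAlgClosed K] {f : funAlg K N} (hf : ∀ γ : SL(2, ℤ), γ • f = f) :
    ∃ P : K[X], f = Polynomial.aeval (jF K N) P := by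
  have hinv : ∀ γ : SL(2, ℤ), tr γ (f : ℍ → ℂ) = f := fun γ => by
    have := congrArg Subtype.val (hf γ⁻¹)
    rwa [coe_smul, inv_inv] at this
  have hs := isSlow_of_mem f.2
  obtain ⟨P, hP⟩ := H02.exists_poly_of_mem_top (f := f) ⟨hs, fun γ _ => hinv γ⟩
  have h1 : IsExp 1 (f : ℍ → ℂ) (Polynomial.aeval (jqModC ℂ) P) := hP ▸ isExp_aeval P
  have h2 : IsExp N (f : ℍ → ℂ) (qExpand ℂ N (Polynomial.aeval (jqModC ℂ) P)) :=
    (Igusa.isExp_qExpand_iff N).mpr h1
  have h3 := h2.unique (NeZero.pos N) (isExp_expK f)
  set A : Subring ℂ := (algebraMap K ℂ).range with hA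
  have h4 : ∀ n, (Polynomial.aeval (jqModC ℂ) P).coeff n ∈ A := by
    intro n
    rw [← ModularCurve.qExpand_coeff_mul N, h3]
    exact ⟨_, rfl⟩
  obtain ⟨M, hM⟩ : ∃ M : ℕ, ∀ n : ℤ, n ≤ -(M : ℤ) →
      (Polynomial.aeval (jqModC ℂ) P).coeff n = 0 := by
    refine ⟨((Polynomial.aeval (jqModC ℂ) P).order - 1).natAbs, fun n hn => ?_⟩
    apply HahnSeries.coeff_eq_zero_of_lt_order
    omega
  obtain ⟨P', hP', hPP⟩ := Igusa.descent A M (f : ℍ → ℂ) hs.holo
    (fun τ => congrFun (hinv _) τ) (fun τ => congrFun (hinv _) τ) _ h1 h4 hM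
  have h5 : (f : ℍ → ℂ) = Polynomial.aeval jfun P' := by
    refine isExp_fun_unique h1 ?_
    rw [hPP]
    exact isExp_aeval P'
  have h6 : P' ∈ Polynomial.lifts (algebraMap K ℂ) := by
    rw [Polynomial.lifts_iff_coeff_lifts]
    exact fun n => hP' n
  obtain ⟨Q, hQ⟩ := h6
  refine ⟨Q, Subtype.ext ?_⟩
  rw [h5, ← hQ, Polynomial.coe_mapRingHom]
  have h7 : ((Polynomial.aeval (jF K N) Q : funAlg K N) : ℍ → ℂ) = Polynomial.aeval jfun Q :=
    (Polynomial.aeval_algHom_apply (funAlg K N).val (jF K N) Q).symm
  rw [h7]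
  exact Polynomial.aeval_map_algebraMap ℂ jfun Q

theorem transcendental_jF : Transcendental K (jF K N) := by
  rw [transcendental_iff]
  intro P hP
  have h7 : Polynomial.aeval jfun P = 0 := by
    have := Polynomial.aeval_algHom_apply (funAlg K N).val (jF K N) P
    rw [hP, map_zero] at this
    exact this
  have h8 : P.map (algebraMap K ℂ) = 0 := by
    apply Polynomial.funext
    intro c
    obtain ⟨z, hz⟩ := jfun_surjective c
    have h9 := congrFun h7 z
    have h10 : Polynomial.aeval jfun P z = Polynomial.aeval (jfun z) P := by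
      have := Polynomial.aeval_algHom_apply (Pi.evalAlgHom K (fun _ : ℍ => ℂ) z) jfun P
      exact this.symm
    rw [h10, hz] at h9
    rw [Polynomial.eval_map_algebraMap, h9]
    simp
  exact (Polynomial.map_eq_zero _).mp h8

/-! ### The Galois group on the level of rings -/

variable (K N) in
/-- The image of `SL₂(ℤ)` in the automorphism group of the algebra of conjugates. -/
def Gfin : Subgroup (funAlg K N ≃ₐ[K] funAlg K N) :=
  (MulSemiringAction.toAlgAut SL(2, ℤ) K (funAlg K N)).range

theorem toAlgAut_eq_one {γ : SL(2, ℤ)} (hγ : γ ∈ CongruenceSubgroup.Gamma N) :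
    MulSemiringAction.toAlgAut SL(2, ℤ) K (funAlg K N) γ = 1 := by
  ext f : 1
  exact Subtype.ext (tr_eq_self_of_mem f.2 (inv_mem hγ))

instance : Finite (Gfin K N) := by
  have h1 : CongruenceSubgroup.Gamma N ≤
      (MulSemiringAction.toAlgAut SL(2, ℤ) K (funAlg K N)).ker := fun γ hγ =>
    toAlgAut_eq_one hγ
  have h2 : (MulSemiringAction.toAlgAut SL(2, ℤ) K (funAlg K N)).ker.FiniteIndex :=
    Subgroup.finiteIndex_of_le h1
  exact Finite.of_equiv _
    (QuotientGroup.quotientKerEquivRange (MulSemiringAction.toAlgAut SL(2, ℤ) K (funAlg K N))).toEquiv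

instance instAlgPoly : Algebra K[X] (funAlg K N) :=
  (Polynomial.aeval (jF K N)).toRingHom.toAlgebra

theorem algebraMap_poly (P : K[X]) :
    algebraMap K[X] (funAlg K N) P = Polynomial.aeval (jF K N) P := rfl

instance instIsGaloisGroup_fin [IsAlgClosed K] : IsGaloisGroup (Gfin K N) K[X] (funAlg K N) where
  faithful := inferInstance
  commutes := ⟨by
    rintro ⟨_, γ, rfl⟩ P f
    rw [Algebra.smul_def, Algebra.smul_def, smul_mul']
    congr 1
    rw [algebraMap_poly]
    show (MulSemiringAction.toAlgAut SL(2, ℤ) K (funAlg K N) γ) _ = _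
    have := Polynomial.aeval_algHom_apply
      (MulSemiringAction.toAlgAut SL(2, ℤ) K (funAlg K N) γ).toAlgHom (jF K N) P
    rw [show (MulSemiringAction.toAlgAut SL(2, ℤ) K (funAlg K N) γ).toAlgHom (jF K N) = jF K N
      from smul_jF γ] at this
    exact this.symm⟩
  isInvariant := ⟨fun f hf => by
    obtain ⟨P, hP⟩ := exists_poly (f := f) fun γ => hf ⟨_, γ, rfl⟩
    exact ⟨P, hP.symm⟩⟩

/-! ### The field -/

variable (K N) in
/-- The field generated by all conjugates of the functions `j(d z)`, `d ∣ N`. -/
def ModField : Type _ := FractionRing (funAlg K N)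

instance : Field (ModField K N) := inferInstanceAs (Field (FractionRing (funAlg K N)))
instance : Algebra (funAlg K N) (ModField K N) :=
  inferInstanceAs (Algebra (funAlg K N) (FractionRing (funAlg K N)))
instance : IsFractionRing (funAlg K N) (ModField K N) :=
  inferInstanceAs (IsFractionRing (funAlg K N) (FractionRing (funAlg K N)))
instance : Algebra K (ModField K N) :=
  inferInstanceAs (Algebra K (FractionRing (funAlg K N)))
instance : IsScalarTower K (funAlg K N) (ModField K N) :=
  inferInstanceAs (IsScalarTower K (funAlg K N) (FractionRing (funAlg K N)))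

instance : Algebra K[X] (ModField K N) :=
  ((algebraMap (funAlg K N) (ModField K N)).comp (algebraMap K[X] (funAlg K N))).toAlgebra

instance : IsScalarTower K[X] (funAlg K N) (ModField K N) :=
  IsScalarTower.of_algebraMap_eq fun _ => rfl

variable (K N) in
/-- `j` as an element of the field. -/
def jM : ModField K N := algebraMap (funAlg K N) (ModField K N) (jF K N)

theorem transcendental_jM : Transcendental K (jM K N) := by
  have := transcendental_jF (K := K) (N := N)
  rwa [jM, transcendental_algebraMap_iff (IsFractionRing.injective (funAlg K N) (ModField K N))]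

instance : Algebra (RatFunc K) (ModField K N) := ratFuncAlgebra (jM K N) transcendental_jM

instance : IsScalarTower K (RatFunc K) (ModField K N) := ratFuncAlgebra_tower _ transcendental_jM

@[simp] theorem algebraMap_X_modField : algebraMap (RatFunc K) (ModField K N) RatFunc.X = jM K N :=
  ratFuncAlgebra_X _ transcendental_jM

instance : IsScalarTower K[X] (RatFunc K) (ModField K N) := by
  refine IsScalarTower.of_algebraMap_eq fun P => ?_
  have h1 : algebraMap K[X] (ModField K N) P = Polynomial.aeval (jM K N) P := by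
    rw [IsScalarTower.algebraMap_apply K[X] (funAlg K N) (ModField K N), algebraMap_poly, jM]
    exact (Polynomial.aeval_algebraMap_apply (ModField K N) (jF K N) P).symm
  rw [h1, ← algebraMap_X_modField, Polynomial.aeval_algebraMap_apply]
  congr 1
  rw [← RatFunc.algebraMap_X, Polynomial.aeval_algebraMap_apply, Polynomial.aeval_X_left_apply]

instance : MulSemiringAction (Gfin K N) (ModField K N) :=
  IsFractionRing.mulSemiringAction (Gfin K N) (funAlg K N) (ModField K N)

instance : SMulDistribClass (Gfin K N) (funAlg K N) (ModField K N) :=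
  IsFractionRing.smulDistribClass (Gfin K N) (funAlg K N) (ModField K N)

instance [IsAlgClosed K] : IsGaloisGroup (Gfin K N) (RatFunc K) (ModField K N) :=
  IsGaloisGroup.to_isFractionRing (Gfin K N) K[X] (funAlg K N) (RatFunc K) (ModField K N)

instance [IsAlgClosed K] : FiniteDimensional (RatFunc K) (ModField K N) :=
  IsGaloisGroup.finiteDimensional (Gfin K N) (RatFunc K) (ModField K N)

instance [IsAlgClosed K] : IsGalois (RatFunc K) (ModField K N) :=
  IsGaloisGroup.isGalois (Gfin K N) (RatFunc K) (ModField K N)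

variable (K N) in
/-- The surjection from `SL₂(ℤ)` onto the finite group. -/
def toGfin : SL(2, ℤ) →* Gfin K N :=
  (MulSemiringAction.toAlgAut SL(2, ℤ) K (funAlg K N)).rangeRestrict

theorem toGfin_surjective : Function.Surjective (toGfin K N) :=
  MonoidHom.rangeRestrict_surjective _

theorem toGfin_smul (γ : SL(2, ℤ)) (f : funAlg K N) : toGfin K N γ • f = γ • f := rfl

theorem toGfin_eq_one {γ : SL(2, ℤ)} (hγ : γ ∈ CongruenceSubgroup.Gamma N) :
    toGfin K N γ = 1 := Subtype.ext (toAlgAut_eq_one hγ)

variable (K N) in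
/-- The surjection from `SL₂(ℤ)` onto the Galois group. -/
def rho [IsAlgClosed K] : SL(2, ℤ) →* (ModField K N ≃ₐ[RatFunc K] ModField K N) :=
  (IsGaloisGroup.mulEquivAlgEquiv (Gfin K N) (RatFunc K) (ModField K N)).toMonoidHom.comp
    (toGfin K N)

theorem rho_apply [IsAlgClosed K] (γ : SL(2, ℤ)) (x : ModField K N) :
    rho K N γ x = toGfin K N γ • x := rfl

theorem rho_surjective [IsAlgClosed K] : Function.Surjective (rho K N) :=
  (IsGaloisGroup.mulEquivAlgEquiv (Gfin K N) (RatFunc K) (ModField K N)).surjective.comp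
    toGfin_surjective

theorem rho_algebraMap [IsAlgClosed K] (γ : SL(2, ℤ)) (f : funAlg K N) :
    rho K N γ (algebraMap (funAlg K N) (ModField K N) f) =
      algebraMap (funAlg K N) (ModField K N) (γ • f) := by
  rw [rho_apply, ← algebraMap.coe_smul', toGfin_smul]

theorem rho_eq_one_of_mem [IsAlgClosed K] {γ : SL(2, ℤ)} (hγ : γ ∈ CongruenceSubgroup.Gamma N) :
    rho K N γ = 1 := by
  ext x
  rw [rho_apply, toGfin_eq_one hγ, one_smul]
  rfl

end Fermat.Agent.H18
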