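import Fermat.Statements.S28
import Fermat.Agent.Igusa.Fiber
import Fermat.Agent.Igusa.SchemeTools

set_option autoImplicit false
open AlgebraicGeometry CategoryTheory CategoryTheory.Limits ModularCurve ModularCurve.IgusaScheme
noncomputable section
set_option autoImplicit false
open ModularCurve ModularCurve.IgusaScheme

namespace Fermat.Agent.S28

set_option maxHeartbeats 4000000 in
set_option synthInstance.maxHeartbeats 400000 in
theorem mid_toBase (N : ℕ) [NeZero N] (ℓ : ℕ) [Fact ℓ.Prime] :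
    fFin N ℓ ≫ ιFin N ℓ ≫ igusaTo N ℓ =
      Spec.map (CommRingCat.ofHom (algebraMap ↥(GaloisRep.ratLocalizedAt ℓ) (chartAlgMid N ℓ))) := by
  rw [ιFin_igusaTo, ← Spec.map_comp, ← CommRingCat.ofHom_comp]
  congr 2

set_option maxHeartbeats 4000000 in
set_option synthInstance.maxHeartbeats 400000 in
theorem result
    (N : ℕ) [NeZero N] (ℓ : ℕ) [Fact ℓ.Prime] (hℓN : ¬ ℓ ∣ N)
    (K : Type) [Field K] [CharP K ℓ] [Algebra ↥(GaloisRep.ratLocalizedAt ℓ) K] :
    IsIntegral ↑(pullback (igusaTo N ℓ)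
      (Spec.map (CommRingCat.ofHom (algebraMap ↥(GaloisRep.ratLocalizedAt ℓ) K)))) := by
  refine Fermat.Agent.Igusa.isIntegral_pullback_of_two (igusaTo N ℓ) _ (ιFin N ℓ) (ιInf N ℓ)
    (mem_range_ιFin_or_mem_range_ιInf N ℓ) (fFin N ℓ) (fInf N ℓ) (glue_condition N ℓ) ?_ ?_ ?_
  · rw [ιFin_igusaTo]
    have h1 := Fermat.Agent.Igusa.isDomain_chart (ℓ := ℓ) K hℓN (x₀ := jFull N) (Or.inl rfl)
      (sFin_subset N)
    exact AlgebraicGeometry.IsIntegral.of_isIso
      (pullbackSpecIso ↥(GaloisRep.ratLocalizedAt ℓ) (chartAlgFin N ℓ) K).inv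
  · rw [ιInf_igusaTo]
    have h1 := Fermat.Agent.Igusa.isDomain_chart (ℓ := ℓ) K hℓN (x₀ := (jFull N)⁻¹) (Or.inr rfl)
      (sInf_subset N)
    exact AlgebraicGeometry.IsIntegral.of_isIso
      (pullbackSpecIso ↥(GaloisRep.ratLocalizedAt ℓ) (chartAlgInf N ℓ) K).inv
  · rw [mid_toBase]
    have h1 := Fermat.Agent.Igusa.nontrivial_chart (N := N) (ℓ := ℓ) K
      {jFull N, (jFull N)⁻¹} (subset_refl _)
    exact ⟨(pullbackSpecIso ↥(GaloisRep.ratLocalizedAt ℓ) (chartAlgMid N ℓ) K).inv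
      (Classical.arbitrary (PrimeSpectrum _))⟩

end Fermat.Agent.S28
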