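import Fermat.Statements.S32
import Fermat.Agent.H19.S32D
import Fermat.Agent.H02F.ModHopf2
import Fermat.Agent.H28.Final
import Fermat.Agent.H25.Density

set_option autoImplicit false
variable {p : ℕ} {N : ℕ} [NeZero N] {S : Finset ℕ}
  {𝒪 : Type} [CommRing 𝒪] [IsDomain 𝒪] [IsDiscreteValuationRing 𝒪]
  [IsAdicComplete (IsLocalRing.maximalIdeal 𝒪) 𝒪]
  {θ : CuspForm.heckeAlgebra N 2 (↑S : Set ℕ) →+* IsLocalRing.ResidueField 𝒪}
  {T : Type} [CommRing T] [IsLocalRing T] [IsNoetherianRing T]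
  [IsAdicComplete (IsLocalRing.maximalIdeal T) T] [Algebra 𝒪 T] [IsLocalHom (algebraMap 𝒪 T)]
  [Module.Finite 𝒪 T] [Module.Free 𝒪 T]
open CuspForm CuspForm.HeckeGaloisRepDatum

namespace Fermat.Agent.S32

theorem result
    [Finite (IsLocalRing.ResidueField 𝒪)] [CharZero 𝒪]
    (hp : p.Prime) (hp2 : p ≠ 2) (hp𝒪 : (p : 𝒪) ∈ IsLocalRing.maximalIdeal 𝒪) (hpN : ¬ p ∣ N)
    (hpS : p ∈ S) (hNS : ∀ q : ℕ, q.Prime → q ∣ N → q ∈ S)
    (H : CuspForm.HeckeGaloisRepDatum N (↑S : Set ℕ) 𝒪 θ T) :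
    H.ρ.IsFlatAt p := by
  refine Fermat.Agent.H19.isFlatAt_of_hasHopf Fermat.Agent.H25.weakChebotarev hp hp𝒪 hpS hNS H
    (fun m ℓ hℓ hℓN hℓp A hA φ hφ x hx => ?_) (fun m _ => ?_)
  · refine Fermat.Agent.H28.frobenius_torsion N hℓ hℓN A hA (m := p ^ m) ?_ hφ x hx
    intro h
    exact hℓp ((Nat.prime_dvd_prime_iff_eq hℓ hp).mp (hℓ.dvd_of_dvd_pow h))
  · exact Fermat.Agent.H02F.hasHopf_torsion_nat N hp hpN (m := p ^ m) (pow_pos hp.pos m)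

end Fermat.Agent.S32
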