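import Fermat.Statements.S45
import Fermat.Agent.Ell.Z8
import Fermat.Agent.ZF.ThmZ
import Fermat.Agent.TFin.Lift
import Fermat.Agent.S05
import Fermat.Agent.S43
import Fermat.Agent.S44

set_option autoImplicit false
open WeierstrassCurve WeierstrassCurve.Affine WeierstrassCurve.Affine.Point
open CuspForm ModularFormClass UpperHalfPlane
open FreyPackage

namespace Fermat.Agent.S45

theorem result (P : FreyPackage) (hmod : P.freyCurve.IsModular) (hirr : GaloisRepIsIrreducible (K := AlgebraicClosure ℚ) ℚ P.freyCurve P.p) : ∃ f : CuspForm (CongruenceSubgroup.Gamma0 2) 2, f ≠ 0 :=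
  Fermat.Agent.Ell.s45_of_LIFT Fermat.Agent.ZF.thmZ Fermat.Agent.TFin.lift
    (by exact Fermat.Agent.S05.result) (by exact Fermat.Agent.S43.result)
    (by exact Fermat.Agent.S44.result) P hmod hirr

end Fermat.Agent.S45
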