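import Fermat.Statements.S49
-- import your own Fermat.Agent.* helpers here
import Fermat.Agent.H22.Lifting

set_option autoImplicit false
open CuspForm EisensteinWeightOne CongruenceSubgroup ModularFormClass
open FLT FLT.AbstractIntegralStructure

namespace Fermat.Agent.S49

open Fermat.Agent.H22

theorem chi_cong (ℓ : ℕ) : (3 : ℤ) ∣ chiNegThree ℓ - ℓ := by
  unfold chiNegThree
  split_ifs with h1 h2 <;> omega

theorem bridge_cong (a : ℕ → ℤ) (n : ℕ) : (3 : ℤ) ∣ (bridgeProduct a).coeff n - a n := by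
  unfold bridgeProduct
  rw [PowerSeries.coeff_mul, Finset.Nat.sum_antidiagonal_eq_sum_range_succ_mk,
    Finset.sum_range_succ]
  simp only [PowerSeries.coeff_mk, tsub_self, e1Chi3In, e1Chi3, PowerSeries.coeff_map, if_true,
    map_one, mul_one, add_sub_cancel_right]
  refine Finset.dvd_sum fun i hi => ?_
  have hi' : n - i ≠ 0 := by
    have := Finset.mem_range.mp hi
    omega
  rw [if_neg hi']
  simp only [eq_intCast, Int.cast_id]
  exact Dvd.dvd.mul_left (Dvd.dvd.mul_right (by norm_num) _) _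

theorem mem_smul_of_dvd {N : ℕ} {p : ℕ} (hp : p ≠ 0) {F : CuspForm (Gamma0 N) 2} {b : ℕ → ℤ}
    (hb : ∀ n, (b n : ℂ) = qCoeff ⇑F n) (hd : ∀ n, (p : ℤ) ∣ b n) :
    ∃ g ∈ CuspForm.intLattice N 2, F = (p : ℤ) • g := by
  have hp' : (p : ℂ) ≠ 0 := by exact_mod_cast hp
  refine ⟨((p : ℂ))⁻¹ • F, ?_, ?_⟩
  · rw [mem_intLattice_iff]
    intro n
    obtain ⟨m, hm⟩ := hd n
    refine ⟨m, ?_⟩
    rw [cusp_qCoeff_smul, ← hb n, hm]
    push_cast
    field_simp
  · rw [← Int.cast_smul_eq_zsmul ℂ, smul_smul]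
    push_cast
    rw [mul_inv_cancel₀ hp', one_smul]

theorem result
    {N : ℕ} [NeZero N] (h : CuspForm.HasIntegralBasis N) {a : ℕ → ℤ}
    (heig : FormalHecke.IsEigensystem
      (fun ℓ => if ℓ ∣ N then 0 else ((chiNegThree ℓ : ℤ) : ℤ)) a)
    (hreal : CuspForm.IsLatticeRealized N a) :
    ∃ (f : CuspForm (Gamma0 N) 2) (_ : f.IsNormalizedEigenform)
      (𝔪' : Ideal (integralClosure ℤ ℂ)), 𝔪'.IsMaximal ∧
      ((3 : ℕ) : integralClosure ℤ ℂ) ∈ 𝔪' ∧
      ∀ (ℓ : ℕ) (_ : ℓ.Prime) (_ : ¬ ℓ ∣ N),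
        ∃ c : integralClosure ℤ ℂ, (c : ℂ) = ModularFormClass.qCoeff f ℓ ∧
          c - (a ℓ : integralClosure ℤ ℂ) ∈ 𝔪' := by
  have hset : ∀ f : CuspForm (Gamma0 N) 2, f ∈ qIntegralSet N → f ∈ CuspForm.intLattice N 2 := by
    intro f hf
    rw [mem_intLattice_iff]
    intro n
    obtain ⟨m, hm⟩ := Subring.mem_bot.mp (hf n)
    exact ⟨m, hm.symm⟩
  have hint : CuspForm.HasIntegralStructure N 2 := by
    unfold CuspForm.HasIntegralStructure
    rw [eq_top_iff, ← h]
    exact Submodule.span_mono hset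
  obtain ⟨f, hf, af, haf, hcong⟩ := hreal
  obtain ⟨ha1, hrel⟩ := heig
  have hfL := hset f hf
  have hmod : ∀ n, (3 : ℤ) ∣ af n - a n := fun n => by
    have := dvd_add (hcong n) (bridge_cong a n)
    simpa using this
  have hf3 : ¬ ∃ g ∈ CuspForm.intLattice N 2, f = ((3 : ℕ) : ℤ) • g := by
    rintro ⟨g, hg, hfg⟩
    obtain ⟨m, hm⟩ := (mem_intLattice_iff g).mp hg 1
    have h1 : (af 1 : ℂ) = ((3 * m : ℤ) : ℂ) := by
      rw [haf 1, hfg, cusp_qCoeff_zsmul, hm]
      push_cast
      ring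
    have h2 : af 1 = 3 * m := by exact_mod_cast h1
    have h3 := hmod 1
    rw [ha1] at h3
    omega
  obtain ⟨g, hg, 𝔪, h𝔪, h3, hℓ⟩ := deligneSerre_lifting hint Nat.prime_three hfL hf3 a
    (fun ℓ hℓ hℓN => by
      refine mem_smul_of_dvd (p := 3) (by norm_num)
        (b := fun n => af (n * ℓ) + (if ℓ ∣ n then (ℓ : ℤ) * af (n / ℓ) else 0) - a ℓ * af n) ?_ ?_
      · intro n
        rw [cusp_qCoeff_sub, cusp_qCoeff_zsmul, qCoeff_heckeTLin, ModularForm.coeffHeckeT_apply]
        split_ifs with hd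
        · push_cast
          rw [haf, haf, haf]
          norm_num
        · push_cast
          rw [haf, haf]
      · intro n
        have e1 := hrel ℓ hℓ n
        beta_reduce at e1
        rw [if_neg hℓN] at e1
        have d1 := hmod (n * ℓ)
        have d2 := (hmod n).mul_left (a ℓ)
        rw [mul_comm ℓ n] at e1
        split_ifs at e1 ⊢ with hd
        · have d3 := (hmod (n / ℓ)).mul_left (ℓ : ℤ)
          have d4 := (chi_cong ℓ).mul_right (a (n / ℓ))
          have := dvd_sub (dvd_add d1 d3) (dvd_add d2 d4)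
          have e : (af (n * ℓ) + (ℓ : ℤ) * af (n / ℓ)) - a ℓ * af n =
            (af (n * ℓ) - a (n * ℓ) + (ℓ : ℤ) * (af (n / ℓ) - a (n / ℓ))) -
              (a ℓ * (af n - a n) + (chiNegThree ℓ - ℓ) * a (n / ℓ)) := by
            linear_combination e1
          rw [e]
          exact_mod_cast this
        · have := dvd_sub d1 d2
          have e : af (n * ℓ) + 0 - a ℓ * af n =
            (af (n * ℓ) - a (n * ℓ)) - (a ℓ * (af n - a n)) := by
            linear_combination e1
          rw [e]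
          exact_mod_cast this)
    (fun ℓ hℓ hℓN => by
      refine mem_smul_of_dvd (p := 3) (by norm_num)
        (b := fun n => af (n * ℓ) - a ℓ * af n) ?_ ?_
      · intro n
        rw [cusp_qCoeff_sub, cusp_qCoeff_zsmul, qCoeff_heckeULin, ModularForm.coeffHeckeU_apply]
        push_cast
        rw [haf, haf]
      · intro n
        have e1 := hrel ℓ hℓ n
        beta_reduce at e1
        rw [if_pos hℓN] at e1
        have d1 := hmod (n * ℓ)
        have d2 := (hmod n).mul_left (a ℓ)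
        rw [mul_comm ℓ n, zero_mul, add_zero] at e1
        have := dvd_sub d1 d2
        have e : af (n * ℓ) - a ℓ * af n =
          (af (n * ℓ) - a (n * ℓ)) - (a ℓ * (af n - a n)) := by
          linear_combination e1
        rw [e]
        exact_mod_cast this)
  exact ⟨g, hg, 𝔪, h𝔪, h3, fun ℓ hp _ => hℓ ℓ hp⟩

end Fermat.Agent.S49
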