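import Fermat.Statements.S57
import Fermat.Agent.Patching.Free
import Fermat.Agent.Patching.PowerSeries

set_option autoImplicit false
open Algebra Algebra.PatchingLevel

namespace Fermat.Agent.S57

open IsLocalRing

theorem isUnit_of_algHom {𝒪 : Type} [CommRing 𝒪] [IsLocalRing 𝒪] {r : ℕ}
    (φ : MvPowerSeries (Fin r) 𝒪 →ₐ[𝒪] MvPowerSeries (Fin r) 𝒪)
    (a : MvPowerSeries (Fin r) 𝒪) (ha : a ∈ maximalIdeal (MvPowerSeries (Fin r) 𝒪)) :
    φ a ∈ maximalIdeal (MvPowerSeries (Fin r) 𝒪) := by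
  rw [mem_maximalIdeal, mem_nonunits_iff]
  intro hu
  set c : 𝒪 := MvPowerSeries.constantCoeff (φ a) with hc
  have hcu : IsUnit c := MvPowerSeries.isUnit_iff_constantCoeff.mp hu
  have h1 : IsUnit (algebraMap 𝒪 (MvPowerSeries (Fin r) 𝒪) c) := hcu.map _
  -- `a - c` is a unit
  have h2 : IsUnit (a - algebraMap 𝒪 (MvPowerSeries (Fin r) 𝒪) c) := by
    by_contra h
    have h3 : a - algebraMap 𝒪 (MvPowerSeries (Fin r) 𝒪) c ∈
      maximalIdeal (MvPowerSeries (Fin r) 𝒪) := h
    have h4 := Ideal.sub_mem _ ha h3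
    rw [sub_sub_cancel] at h4
    exact h4 h1
  have h5 := h2.map φ
  rw [map_sub, AlgHom.commutes] at h5
  have h6 := MvPowerSeries.isUnit_iff_constantCoeff.mp h5
  rw [map_sub, ← hc] at h6
  have h7 : MvPowerSeries.constantCoeff (algebraMap 𝒪 (MvPowerSeries (Fin r) 𝒪) c) = c := by
    simp [MvPowerSeries.algebraMap_apply]
  rw [h7, sub_self] at h6
  exact not_isUnit_zero h6

theorem result
    {𝒪 : Type} [CommRing 𝒪] [IsDomain 𝒪] [IsDiscreteValuationRing 𝒪]
    {r : ℕ} {R : Type} [CommRing R] [Algebra 𝒪 R]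
    {M : Type} [AddCommGroup M] [Module R M] [Nontrivial M]
    (L : Algebra.PatchingLevel 𝒪 r R M ⊥) :
    Module.Free R M ∧ Module.annihilator R M = ⊥ ∧
      RingHom.ker L.ψ = Ideal.span (Set.range fun i : Fin r => L.φ (MvPowerSeries.X i)) := by
  obtain ⟨ϖ, hϖ⟩ := IsDiscreteValuationRing.exists_irreducible 𝒪
  have hnt : Nontrivial L.N := L.π_surjective.nontrivial
  -- the additive equivalence
  let e0 : (Fin L.d → MvPowerSeries (Fin r) 𝒪) →+ L.N :=
    { toFun := fun c => ∑ i, L.φ (c i) • L.b i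
      map_zero' := by simp
      map_add' := fun c c' => by
        simp [add_smul, Finset.sum_add_distrib] }
  have he0 : Function.Bijective e0 := by
    constructor
    · rw [injective_iff_map_eq_zero]
      intro c hc
      funext i
      exact (L.b_rel c).mp hc i
    · intro x
      obtain ⟨c, hc⟩ := L.b_span x
      exact ⟨c, hc.symm⟩
  obtain ⟨hfin, hfree⟩ := Fermat.Agent.H03.main_free (L.φ : MvPowerSeries (Fin r) 𝒪 →+* _)
    (isUnit_of_algHom L.φ) (Fermat.Agent.H03.xs ϖ r)
    (Fermat.Agent.H03.isWeaklyRegular_xs hϖ.ne_zero r) (Fermat.Agent.H03.ofList_xs hϖ r)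
    (Fermat.Agent.H03.xs ϖ r)
    (Fermat.Agent.H03.isWeaklyRegular_xs hϖ.ne_zero r) (Fermat.Agent.H03.ofList_xs hϖ r)
    le_rfl (AddEquiv.ofBijective e0 he0) (by
      intro a c
      change ∑ i, L.φ ((a • c) i) • L.b i = L.φ a • ∑ i, L.φ (c i) • L.b i
      rw [Finset.smul_sum]
      refine Finset.sum_congr rfl fun i _ => ?_
      rw [Pi.smul_apply, smul_eq_mul, map_mul, mul_smul])
  set I : Ideal (MvPowerSeries (Fin r) 𝒪) :=
    Ideal.span (Set.range fun i : Fin r => L.φ (MvPowerSeries.X i)) with hI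
  let β := Module.Free.chooseBasis (MvPowerSeries (Fin r) 𝒪) L.N
  -- elements of `I • ⊤` have coordinates in `I`
  have hcoord : ∀ (x : L.N), x ∈ I • (⊤ : Submodule (MvPowerSeries (Fin r) 𝒪) L.N) →
      ∀ i, β.repr x i ∈ I := by
    intro x hx i
    have h1 : (β.coord i) x ∈ (I • (⊤ : Submodule (MvPowerSeries (Fin r) 𝒪) L.N)).map (β.coord i) :=
      Submodule.mem_map_of_mem hx
    rw [Submodule.map_smul''] at h1
    have h2 : I • Submodule.map (β.coord i) ⊤ ≤ I := by
      refine (Submodule.smul_mono le_rfl le_top).trans ?_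
      simp
    exact h2 h1
  have hne : Nonempty (Module.Free.ChooseBasisIndex (MvPowerSeries (Fin r) 𝒪) L.N) :=
    β.index_nonempty
  have hker : RingHom.ker L.ψ = I := by
    apply le_antisymm
    · intro f hf
      obtain ⟨i⟩ := hne
      have h1 : L.π (f • β i) = 0 := by
        rw [L.π_smul, (RingHom.mem_ker).mp hf, zero_smul]
      have h2 := hcoord _ ((L.ker_π _).mp h1) i
      simpa using h2
    · rw [hI, Ideal.span_le]
      rintro _ ⟨i, rfl⟩
      exact (RingHom.mem_ker).mpr (L.ψ_φ_X i)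
  -- basis of `M`
  let v := fun i => L.π (β i)
  have hπsum : ∀ c : Module.Free.ChooseBasisIndex (MvPowerSeries (Fin r) 𝒪) L.N →
      MvPowerSeries (Fin r) 𝒪, L.π (∑ i, c i • β i) = ∑ i, L.ψ (c i) • v i := by
    intro c
    rw [map_sum]
    exact Finset.sum_congr rfl fun i _ => L.π_smul _ _
  have hli : LinearIndependent R v := by
    rw [Fintype.linearIndependent_iff]
    intro g hg i
    choose c hc using fun i => L.ψ_surjective (g i)
    have h1 : L.π (∑ i, c i • β i) = 0 := by
      rw [hπsum, ← hg]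
      exact Finset.sum_congr rfl fun i _ => by rw [hc]
    have h2 := hcoord _ ((L.ker_π _).mp h1) i
    rw [β.repr_sum_self] at h2
    rw [← hker] at h2
    rw [← hc]
    exact (RingHom.mem_ker).mp h2
  have hsp : ⊤ ≤ Submodule.span R (Set.range v) := by
    intro m _
    obtain ⟨x, rfl⟩ := L.π_surjective m
    rw [← β.sum_repr x, hπsum]
    exact Submodule.sum_mem _ fun i _ => Submodule.smul_mem _ _ (Submodule.subset_span ⟨i, rfl⟩)
  have hfreeM : Module.Free R M := Module.Free.of_basis (Module.Basis.mk hli hsp)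
  refine ⟨hfreeM, ?_, hker⟩
  rw [eq_bot_iff]
  intro a ha
  obtain ⟨i⟩ := hne
  rw [Module.mem_annihilator] at ha
  have h1 := ha (v i)
  rw [Fintype.linearIndependent_iff] at hli
  have h2 := hli (fun j => if j = i then a else 0) (by simp [h1]) i
  simpa using h2

end Fermat.Agent.S57
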