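import Fermat.Statements.S59
import Fermat.Agent.H01.P2.Full2
import Fermat.Agent.H28N.Sel3M
import Fermat.Agent.H09.M2G
import Fermat.Agent.Ell.Sel3G
import Fermat.Agent.ZK.SwitchFin

set_option autoImplicit false
set_option autoImplicit false
open scoped WeierstrassCurve.Affine
open WeierstrassCurve

namespace Fermat.Agent.S59

theorem result (p : ℕ) (hp : p = 3 ∨ p = 5)
    (W : WeierstrassCurve ℤ) (hΔ : W.Δ ≠ 0) (hW : W.IsSemistableModel) (hirr : W.ModRepIsIrreducible p)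
    (M₀ : ℕ) [NeZero M₀] (hres₀ : W.IsResiduallyModularOfLevel p M₀)
    (hM₀ : ¬ p ^ 2 ∣ M₀)
    (hM₀3 : ∀ q : ℕ, q.Prime → q ≠ p → ¬ q ^ 3 ∣ M₀) :
    Mlc1IsModularModelOfExactConductorLevel W :=
  Fermat.Agent.P2.s59_of_mz2 Fermat.Agent.H09.M2.mz2All_three Fermat.Agent.H09.M2.mz2All_five
    Fermat.Agent.H28N.sel3Mult Fermat.Agent.Ell.sel3Good Fermat.Agent.ZK.switch5Two p hp W hΔ hW
    hirr M₀ hres₀ hM₀ hM₀3

end Fermat.Agent.S59
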